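import Mathlib
import Fermat.Agent.S18.Defs
import Fermat.Agent.S34.Defs_helper4

/-!
# Item 84 (S35), block FW, slice FW-GEN (helper1): the generic `K₁`-level statements, INTERFACE

Generic setting of `H7S18` (as in `H4S34.GenStatement`, `H19KD.KDStatement`): `R` a DVR with
uniformizer `ϖ`, `K = Frac R` of characteristic `0`, `F / K(t)` finite, `K` algebraically closed
in `F`.  Extra data ("two components", valuation language as in `H10FW.h10fw_reg`):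

* `V₁ V₂ : ValuationSubring F`, `TwoComp R ϖ t V₁ V₂`:
  `O = V₁ ∩ V₂`, `𝔪₁ ∩ 𝔪₂ ⊆ ϖ O` (= the two clauses of `H8PB.PairGaussStatement`),
  comaximality, and the archimedean property of `ϖ` at `V₁`, `V₂`;
* `One V x` : `x ≡ 1` at `V`;
* `γ : F ≃+* F` (a power of Frobenius), `FrobLike R t V₁ V₂ γ`: `γ t = t`, `γ R = R`,
  `γ 𝔪(V_i) = 𝔪(V_i)`;  `Q : ℕ`;  `FrobAt R t 𝔫 γ Q` (= FW-RAT): `γ b ≡ b ^ Q mod 𝔫 B_𝔫` on `B_𝔫`;
* `u` toric with unit roots: `V_i.valuation ψ_i = 1`, `u ≡ ψ_iⁿ` at `V_i`;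
* `H` a correction: `H ≡ γ ψ_i / ψ_i ^ Q` at `V_i`;  `v' = γ u / (u ^ Q Hⁿ)`.

`FWLocAt` is the local hypothesis consumed at a closed point `𝔫` of a chart:
`∃ h ≡ 1` at `V₁` and `V₂` with `v · hⁿ ∈ B_𝔫`.
It is the conclusion of `H10FW.h10fw_node` (nodes) and `H10FW.h10fw_reg` (regular points).

Slices:
* `FWGenStatement`     (helper1)  : local hypotheses at all closed points of both charts
                                    `⇒ γ u = c · gⁿ · u ^ Q`, `c ∈ K`;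
* `FWLocNodeStatement` (FW-LOC-NODE): `NodeAt` + `FrobAt` + toric + `n ∣ div u` `⇒ FWLocAt`;
* `FWLocRegStatement`  (FW-LOC-REG) : `RegAt` + `v ≡ 1` + `n ∣ div v` `⇒ FWLocAt`.
-/

set_option autoImplicit false
set_option synthInstance.maxHeartbeats 400000

noncomputable section

open Polynomial IntermediateField AlgebraicCurve H7S18 H4S34

namespace H1FW

/-- `x ≡ 1` at the valuation ring `V`. -/
def One {F : Type} [Field F] (V : ValuationSubring F) (x : F) : Prop :=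
  V.valuation (x - 1) < 1

/-- **two components**: `O = V₁ ∩ V₂`, `𝔪₁ ∩ 𝔪₂ ⊆ ϖ O`, `𝔪₁ + 𝔪₂ = O`, and `ϖ` is archimedean
at `V₁` and at `V₂`. -/
def TwoComp (R : Type) [CommRing R] {F : Type} [Field F] [Algebra R F] (ϖ : R) (t : F)
    (V₁ V₂ : ValuationSubring F) : Prop :=
  (∀ x : F, GInt R ϖ t x ↔ x ∈ V₁ ∧ x ∈ V₂) ∧
  (∀ x : F, V₁.valuation x < 1 → V₂.valuation x < 1 → ModPi R ϖ t x 0) ∧
  (∃ e : F, V₁.valuation e < 1 ∧ V₂.valuation (e - 1) < 1) ∧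
  (∀ y : F, ∃ m : ℕ, V₁.valuation (algebraMap R F ϖ ^ m * y) < 1) ∧
  (∀ y : F, ∃ m : ℕ, V₂.valuation (algebraMap R F ϖ ^ m * y) < 1)

/-- `γ` fixes `t`, preserves `R` and the maximal ideals of `V₁`, `V₂`. -/
def FrobLike (R : Type) [CommRing R] {F : Type} [Field F] [Algebra R F] (t : F)
    (V₁ V₂ : ValuationSubring F) (γ : F ≃+* F) : Prop :=
  γ t = t ∧
  (∀ r : R, ∃ r' : R, γ (algebraMap R F r) = algebraMap R F r') ∧
  (∀ r : R, ∃ r' : R, γ.symm (algebraMap R F r) = algebraMap R F r') ∧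
  (∀ x : F, V₁.valuation x < 1 ↔ V₁.valuation (γ x) < 1) ∧
  (∀ x : F, V₂.valuation x < 1 ↔ V₂.valuation (γ x) < 1)

/-- **(FW-RAT)** at the closed point `𝔫`: `γ` maps `B_𝔫` into itself and is `b ↦ b ^ Q` modulo
`𝔫 B_𝔫`. -/
def FrobAt (R : Type) [CommRing R] {F : Type} [Field F] [Algebra R F] (t : F)
    (𝔫 : Ideal (Chart R t)) (γ : F ≃+* F) (Q : ℕ) : Prop :=
  ∀ b : F, InLoc R t 𝔫 b →
    ∃ a s : Chart R t, s ∉ 𝔫 ∧ a ∈ 𝔫 ∧ (s : F) * (γ b - b ^ Q) = (a : F)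

/-- the local hypothesis of FW-GEN at the point `𝔫` of the chart `c`: there is `h ≡ 1` at `V₁`
and at `V₂` with `v · h ^ n ∈ B_𝔫`. -/
def FWLocAt (R : Type) [CommRing R] {F : Type} [Field F] [Algebra R F]
    (V₁ V₂ : ValuationSubring F) (c : F) (𝔫 : Ideal (Chart R c)) (n : ℕ) (v : F) : Prop :=
  ∃ h : F, One V₁ h ∧ One V₂ h ∧ InLoc R c 𝔫 (v * h ^ n)

/-- `FWLocAt` at every closed point of the chart `c`. -/
def FWLoc (R : Type) [CommRing R] {F : Type} [Field F] [Algebra R F] (ϖ : R)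
    (V₁ V₂ : ValuationSubring F) (c : F) (n : ℕ) (v : F) : Prop :=
  ∀ 𝔫 : Ideal (Chart R c), IsClosedPt R ϖ c 𝔫 → FWLocAt R V₁ V₂ c 𝔫 n v

/-- **(FW-GEN)**: the generic theorem for Frobenius weights.  `u` toric with unit roots
(`u ≡ ψ_iⁿ` at `V_i`), `γ` preserving the two components; if for every correction `H`
(`H ≡ γ ψ_i / ψ_i^Q` at `V_i`) the function `v' = γ u / (u^Q Hⁿ)` satisfies the local hypothesis
at every closed point of both charts, then `γ u ∈ Kˣ · Fˣⁿ · u^Q`. -/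
def FWGenStatement : Prop :=
  ∀ (R : Type) [CommRing R] [IsDomain R] [IsDiscreteValuationRing R]
    (K : Type) [Field K] [CharZero K] [Algebra R K] [IsFractionRing R K]
    (F : Type) [Field F] [Algebra K F] [Algebra R F] [IsScalarTower R K F]
    (ϖ : R) (_ : Irreducible ϖ) (t : F) (_ : Transcendental K t)
    (_ : FiniteDimensional K⟮t⟯ F)
    (_ : ∀ x : F, IsAlgebraic K x → x ∈ (algebraMap K F).range)
    (n : ℕ) (_ : 0 < n) (_ : IsUnit (n : R)) (_ : ∃ ζ : R, IsPrimitiveRoot ζ n)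
    (V₁ V₂ : ValuationSubring F) (_ : TwoComp R ϖ t V₁ V₂)
    (γ : F ≃+* F) (_ : FrobLike R t V₁ V₂ γ) (Q : ℕ)
    (u ψ₁ ψ₂ : F) (_ : V₁.valuation ψ₁ = 1) (_ : V₂.valuation ψ₂ = 1)
    (_ : One V₁ (u * (ψ₁ ^ n)⁻¹)) (_ : One V₂ (u * (ψ₂ ^ n)⁻¹))
    (_ : ∀ H : F, One V₁ (H * ψ₁ ^ Q * (γ ψ₁)⁻¹) → One V₂ (H * ψ₂ ^ Q * (γ ψ₂)⁻¹) →
      FWLoc R ϖ V₁ V₂ t n (γ u * (u ^ Q * H ^ n)⁻¹) ∧
        FWLoc R ϖ V₁ V₂ t⁻¹ n (γ u * (u ^ Q * H ^ n)⁻¹)),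
    ∃ (c : K) (g : F), c ≠ 0 ∧ γ u = algebraMap K F c * g ^ n * u ^ Q

/-- **(FW-LOC-NODE)**: the local hypothesis at a node of the chart `t`.
(Proof: `H10FW.h10fw_node` with `a = Q`, `e = 0`, `c_i = 1`, `g` a CRT-glue of `ψ₁, ψ₂`;
`B_𝔫 ⊆ O`, `P_i = 𝔪(V_i) ∩ B_𝔫`; LNC (c): `u = ε zⁿ`, `ε ∈ B_𝔫ˣ`, `z ∈ Oˣ`.) -/
def FWLocNodeStatement : Prop :=
  ∀ (R : Type) [CommRing R] [IsDomain R] [IsDiscreteValuationRing R]
    (K : Type) [Field K] [CharZero K] [Algebra R K] [IsFractionRing R K]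
    (F : Type) [Field F] [Algebra K F] [Algebra R F] [IsScalarTower R K F]
    (ϖ : R) (_ : Irreducible ϖ) (t : F) (_ : Transcendental K t)
    (_ : FiniteDimensional K⟮t⟯ F)
    (n : ℕ) (_ : 0 < n) (_ : IsUnit (n : R))
    (V₁ V₂ : ValuationSubring F) (_ : TwoComp R ϖ t V₁ V₂)
    (γ : F ≃+* F) (_ : FrobLike R t V₁ V₂ γ) (Q : ℕ)
    (u ψ₁ ψ₂ H : F) (_ : V₁.valuation ψ₁ = 1) (_ : V₂.valuation ψ₂ = 1)
    (_ : One V₁ (u * (ψ₁ ^ n)⁻¹)) (_ : One V₂ (u * (ψ₂ ^ n)⁻¹))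
    (_ : One V₁ (H * ψ₁ ^ Q * (γ ψ₁)⁻¹)) (_ : One V₂ (H * ψ₂ ^ Q * (γ ψ₂)⁻¹))
    (_ : ∀ V : Place K F, (n : ℤ) ∣ V.ord u)
    (_ : ∀ V : Place K F, V.ord u ≠ 0 → ∀ x : F, 0 ≤ V.ord x →
      ∃ c : K, x = algebraMap K F c ∨ 0 < V.ord (x - algebraMap K F c))
    (𝔫 : Ideal (Chart R t)) (_ : IsClosedPt R ϖ t 𝔫) (_ : NodeAt R ϖ t 𝔫)
    (_ : FrobAt R t 𝔫 γ Q),
    FWLocAt R V₁ V₂ t 𝔫 n (γ u * (u ^ Q * H ^ n)⁻¹)

/-- **(FW-LOC-REG)**: the local hypothesis at a regular point of the chart `c = t` or `c = t⁻¹`.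
(Proof: `H4S34.LocRegStatement` gives `v = ε zⁿ` with `ε` a vertical unit; `v` is a unit at the
component `V_i` through `𝔫`, so `ε ∈ B_𝔫ˣ` after moving a power of `ϖ` into `z`;
then `H10FW.h10fw_reg` with (RC) `H10FW.h10fw_rc`, (AP) `H10FW.h10fw_ap`.) -/
def FWLocRegStatement : Prop :=
  ∀ (R : Type) [CommRing R] [IsDomain R] [IsDiscreteValuationRing R]
    (K : Type) [Field K] [CharZero K] [Algebra R K] [IsFractionRing R K]
    (F : Type) [Field F] [Algebra K F] [Algebra R F] [IsScalarTower R K F]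
    (ϖ : R) (_ : Irreducible ϖ) (t : F) (_ : Transcendental K t)
    (_ : FiniteDimensional K⟮t⟯ F)
    (n : ℕ) (_ : 0 < n) (_ : IsUnit (n : R))
    (V₁ V₂ : ValuationSubring F) (_ : TwoComp R ϖ t V₁ V₂)
    (v : F) (_ : One V₁ v) (_ : One V₂ v)
    (_ : ∀ V : Place K F, (n : ℤ) ∣ V.ord v)
    (c : F) (_ : c = t ∨ c = t⁻¹)
    (𝔫 : Ideal (Chart R c)) (_ : IsClosedPt R ϖ c 𝔫) (_ : RegAt R ϖ c 𝔫),
    FWLocAt R V₁ V₂ c 𝔫 n v

end H1FW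

end
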