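import Mathlib
import Fermat.Agent.S34.NodeAt_helper9
import Fermat.Agent.S35.FWGenDefs_helper1

/-!
# Item 84 (S35), block FW, slice FW-LOC-NODE (helper13 + helper20): interface

`H1FW.FWLocNodeStatement` is split into

* `NodeBridgeStatement` (helper13): at a node `𝔫` the two branches `P₁, P₂` of `H4S34.NodeAt`
  are the centres of the two valuation rings `V₁, V₂` of `H1FW.TwoComp` on the chart ring
  (`y ∈ P_i ↔ V_i.valuation y < 1`), `B_𝔫 ⊆ V₁ ∩ V₂`, and `V_i` is the localisation of the chart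
  ring at `P_i`;
* `LNCcStatement` (helper13): LNC (c): a function `u` with `n ∣ div u`, rational support, and
  toric on the branch `V₁` (`u ≡ ψ₁ⁿ` at `V₁`, `ψ₁` a unit at `V₁`) is `ε · zⁿ` with `ε ∈ B_𝔫ˣ`
  (the class of the horizontal divisor in the local class group `ℤ / k` of the node vanishes
  because of the toric hypothesis);
* the wiring `NodeBridgeStatement → LNCcStatement → H1FW.FWLocNodeStatement` through
  `H10FW.h10fw_node` (helper20).
-/

set_option autoImplicit false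
set_option synthInstance.maxHeartbeats 400000

noncomputable section

open Polynomial IntermediateField AlgebraicCurve H7S18 H4S34

namespace H13LN

/-- **(BR)** the bridge at a node: the branches of the node are the centres of `V₁`, `V₂`. -/
def NodeBridgeStatement : Prop :=
  ∀ (R : Type) [CommRing R] [IsDomain R] [IsDiscreteValuationRing R]
    (K : Type) [Field K] [CharZero K] [Algebra R K] [IsFractionRing R K]
    (F : Type) [Field F] [Algebra K F] [Algebra R F] [IsScalarTower R K F]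
    (ϖ : R) (_ : Irreducible ϖ) (t : F) (_ : Transcendental K t)
    (_ : FiniteDimensional K⟮t⟯ F)
    (V₁ V₂ : ValuationSubring F) (_ : H1FW.TwoComp R ϖ t V₁ V₂)
    (𝔫 : Ideal (Chart R t)) (_ : IsClosedPt R ϖ t 𝔫) (_ : NodeAt R ϖ t 𝔫),
    ∃ (ϖM : Chart R t) (P₁ P₂ : Ideal (Chart R t)), (ϖM : F) = algebraMap R F ϖ ∧
      H9LNC.NodeData 𝔫 ϖM P₁ P₂ ∧
      (∀ y : Chart R t, y ∈ P₁ ↔ V₁.valuation (y : F) < 1) ∧
      (∀ y : Chart R t, y ∈ P₂ ↔ V₂.valuation (y : F) < 1) ∧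
      (∀ x : F, InLoc R t 𝔫 x → x ∈ V₁ ∧ x ∈ V₂) ∧
      (∀ r : F, r ∈ V₁ → ∃ a s : Chart R t, s ∉ P₁ ∧ (s : F) * r = (a : F)) ∧
      (∀ r : F, r ∈ V₂ → ∃ a s : Chart R t, s ∉ P₂ ∧ (s : F) * r = (a : F))

/-- **LNC (c)**: `u = ε zⁿ` with `ε` a unit of `B_𝔫`, for `u` toric on the branch `V₁`. -/
def LNCcStatement : Prop :=
  ∀ (R : Type) [CommRing R] [IsDomain R] [IsDiscreteValuationRing R]
    (K : Type) [Field K] [CharZero K] [Algebra R K] [IsFractionRing R K]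
    (F : Type) [Field F] [Algebra K F] [Algebra R F] [IsScalarTower R K F]
    (ϖ : R) (_ : Irreducible ϖ) (t : F) (_ : Transcendental K t)
    (_ : FiniteDimensional K⟮t⟯ F)
    (n : ℕ) (_ : 0 < n)
    (V₁ V₂ : ValuationSubring F) (_ : H1FW.TwoComp R ϖ t V₁ V₂)
    (u ψ₁ : F) (_ : V₁.valuation ψ₁ = 1) (_ : H1FW.One V₁ (u * (ψ₁ ^ n)⁻¹))
    (_ : ∀ V : Place K F, (n : ℤ) ∣ V.ord u)
    (_ : ∀ V : Place K F, V.ord u ≠ 0 → ∀ x : F, 0 ≤ V.ord x →
      ∃ c : K, x = algebraMap K F c ∨ 0 < V.ord (x - algebraMap K F c))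
    (𝔫 : Ideal (Chart R t)) (_ : IsClosedPt R ϖ t 𝔫) (_ : NodeAt R ϖ t 𝔫),
    ∃ ε z : F, InLoc R t 𝔫 ε ∧ InLoc R t 𝔫 ε⁻¹ ∧ u = ε * z ^ n

end H13LN

end
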