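import Mathlib

/-!
# Item 82b (S35), slice FW-NODE (helper10): abstract node gluing for Frobenius weights

Mathlib only.  Abstract setting ("O-language"):

* `O` a commutative ring (in the application: the semilocal ring `V₁ ∩ V₂` of the two Gauss
  valuations, `= {x | GInt x}`), with two ideals `𝔭₁, 𝔭₂` (`𝔭₁ ⊓ 𝔭₂ = ϖ O`);
* `B` a local ring with a ring homomorphism `φ : B →+* O` (the local ring `B_𝔫` of the normal
  model at a NODE `𝔫`), `P_i = φ⁻¹ 𝔭_i`, transversality `𝔪_B ≤ P₁ ⊔ P₂`;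
* `γ : O →+* O` (a power of Frobenius: `γ = σ²`) with `γ 𝔭_i ⊆ 𝔭_i`, `γ B ⊆ B` and
  `γ ≡ (x ↦ x ^ Q)` on the residue field of `B` (the node is rational and fixed);
* `f = u zⁿ` with `u ∈ Bˣ` (LNC (c)), and `f ≡ c_i gⁿ mod 𝔭_i` with `c_i ∈ Bˣ` ("`[f]` lies in the
  toric part"); `Q = a + n e`.

Results:
* `h10fw_crt`       : (H0) weak approximation: `∃ H, H ≡ x_i mod 𝔭_i` (comaximal ideals);
* `h10fw_exists_H`  : (H0) `∃ H`, `H g^a ≡ c_i^e γ(g) mod 𝔭_i`;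
* `h10fw_vone`      : `γ f ≡ f^a Hⁿ mod 𝔭` (so `v' = γ f / (f^a Hⁿ) ≡ 1`);
* `h10fw_branch`    : one branch: `∃ b ∈ Bˣ`, `b ≡ u^e mod 𝔪_B`, `φ b ≡ H γ(z⁻¹) z^a mod 𝔭`;
* `h10fw_node`      : **node gluing**: `∃ h ≡ 1 mod 𝔭₁ ⊓ 𝔭₂`, `γ f · hⁿ = φ w · (f^a Hⁿ)`, `w ∈ Bˣ`
  (i.e. `v' hⁿ ∈ Bˣ`: the local hypothesis of the generic Kummer descent at the node);
* `h10fw_root_closed` : the root-closedness hypothesis from "`B / P` integrally closed with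
  fraction field `O / 𝔭`".
-/

set_option autoImplicit false

namespace H10FW

open IsLocalRing

section CRT

variable {O : Type*} [CommRing O]

/-- **(H0)** weak approximation for two comaximal ideals. -/
theorem h10fw_crt (𝔭₁ 𝔭₂ : Ideal O) (hcop : 𝔭₁ ⊔ 𝔭₂ = ⊤) (x₁ x₂ : O) :
    ∃ H : O, H - x₁ ∈ 𝔭₁ ∧ H - x₂ ∈ 𝔭₂ := by
  have h1 : (1 : O) ∈ 𝔭₁ ⊔ 𝔭₂ := by rw [hcop]; exact Submodule.mem_top
  obtain ⟨e₁, he₁, e₂, he₂, he⟩ := Submodule.mem_sup.mp h1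
  refine ⟨x₁ * e₂ + x₂ * e₁, ?_, ?_⟩
  · have : x₁ * e₂ + x₂ * e₁ - x₁ = (x₂ - x₁) * e₁ := by
      have h2 : e₂ = 1 - e₁ := by rw [← he]; ring
      rw [h2]; ring
    rw [this]
    exact 𝔭₁.mul_mem_left _ he₁
  · have : x₁ * e₂ + x₂ * e₁ - x₂ = (x₁ - x₂) * e₂ := by
      have h2 : e₁ = 1 - e₂ := by rw [← he]; ring
      rw [h2]; ring
    rw [this]
    exact 𝔭₂.mul_mem_left _ he₂

end CRT

section Core

variable {O B : Type*} [CommRing O] [CommRing B]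

/-- **(H0)**: existence of the global correction `H`, `H g^a ≡ c_i^e γ(g) mod 𝔭_i`. -/
theorem h10fw_exists_H (φ : B →+* O) (𝔭₁ 𝔭₂ : Ideal O) (hcop : 𝔭₁ ⊔ 𝔭₂ = ⊤) (γ : O →+* O)
    (a e : ℕ) (g : O) (hg : IsUnit g) (c₁ c₂ : B) :
    ∃ H : O, H * g ^ a - φ c₁ ^ e * γ g ∈ 𝔭₁ ∧ H * g ^ a - φ c₂ ^ e * γ g ∈ 𝔭₂ := by
  obtain ⟨gu, rfl⟩ := hg
  obtain ⟨H, h1, h2⟩ := h10fw_crt 𝔭₁ 𝔭₂ hcop
    (φ c₁ ^ e * γ gu * ((gu⁻¹ : Oˣ) : O) ^ a) (φ c₂ ^ e * γ gu * ((gu⁻¹ : Oˣ) : O) ^ a)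
  have key : ∀ x : O, H * (gu : O) ^ a - x =
      (H - x * ((gu⁻¹ : Oˣ) : O) ^ a) * (gu : O) ^ a := by
    intro x
    have : ((gu⁻¹ : Oˣ) : O) ^ a * (gu : O) ^ a = 1 := by
      rw [← mul_pow, Units.inv_mul, one_pow]
    calc H * (gu : O) ^ a - x = H * (gu : O) ^ a - x * (((gu⁻¹ : Oˣ) : O) ^ a * (gu : O) ^ a) := by
          rw [this, mul_one]
      _ = _ := by ring
  refine ⟨H, ?_, ?_⟩
  · rw [key]; exact 𝔭₁.mul_mem_right _ h1
  · rw [key]; exact 𝔭₂.mul_mem_right _ h2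

/-- `v' ≡ 1` on one branch: `γ f ≡ f^a Hⁿ mod 𝔭`. -/
theorem h10fw_vone (φ : B →+* O) (𝔭 : Ideal O) (γ : O →+* O)
    (n Q a e : ℕ) (hQ : Q = a + n * e)
    (hγ : ∀ x ∈ 𝔭, γ x ∈ 𝔭)
    (f g H : O) (c : B)
    (hγc : γ (φ c) - φ c ^ Q ∈ 𝔭)
    (hfg : f - φ c * g ^ n ∈ 𝔭)
    (hH : H * g ^ a - φ c ^ e * γ g ∈ 𝔭) :
    γ f - f ^ a * H ^ n ∈ 𝔭 := by
  have h1 : Ideal.Quotient.mk 𝔭 (γ f) = Ideal.Quotient.mk 𝔭 (γ (φ c * g ^ n)) := by
    rw [Ideal.Quotient.eq, ← map_sub]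
    exact hγ _ hfg
  have h2 := Ideal.Quotient.eq.mpr hγc
  have h3 := Ideal.Quotient.eq.mpr hfg
  have h4 := Ideal.Quotient.eq.mpr hH
  rw [← Ideal.Quotient.eq, h1]
  simp only [map_mul, map_pow] at h2 h3 h4 ⊢
  rw [h2, h3]
  calc Ideal.Quotient.mk 𝔭 (φ c) ^ Q * Ideal.Quotient.mk 𝔭 (γ g) ^ n
      = Ideal.Quotient.mk 𝔭 (φ c) ^ a *
          (Ideal.Quotient.mk 𝔭 (φ c) ^ e * Ideal.Quotient.mk 𝔭 (γ g)) ^ n := by
        rw [hQ]; ring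
    _ = Ideal.Quotient.mk 𝔭 (φ c) ^ a *
          (Ideal.Quotient.mk 𝔭 H * Ideal.Quotient.mk 𝔭 g ^ a) ^ n := by rw [h4]
    _ = _ := by ring

variable [IsLocalRing B]

/-- **one branch** of the node: a unit `b` of `B` with `b ≡ u^e mod 𝔪_B` and
`φ b ≡ H γ(z⁻¹) z^a mod 𝔭`. -/
theorem h10fw_branch (φ : B →+* O) (𝔭 : Ideal O) (γ : O →+* O)
    (n Q a e : ℕ) (hn : 0 < n) (hQ : Q = a + n * e)
    (hP : 𝔭.comap φ ≤ maximalIdeal B)
    (hroot : ∀ (r : O) (b : B), IsUnit b → r ^ n - φ b ∈ 𝔭 → ∃ ρ : B, r - φ ρ ∈ 𝔭)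
    (hγ : ∀ x ∈ 𝔭, γ x ∈ 𝔭)
    (hγB : ∀ b : B, ∃ b' : B, γ (φ b) = φ b' ∧ b' - b ^ Q ∈ maximalIdeal B)
    (f g H z zi : O) (hg : IsUnit g) (hzi : z * zi = 1)
    (u c : B) (hu : IsUnit u) (hc : IsUnit c)
    (hfz : f = φ u * z ^ n)
    (hfg : f - φ c * g ^ n ∈ 𝔭)
    (hH : H * g ^ a - φ c ^ e * γ g ∈ 𝔭) :
    ∃ b : B, IsUnit b ∧ b - u ^ e ∈ maximalIdeal B ∧ φ b - H * γ zi * z ^ a ∈ 𝔭 := by
  obtain ⟨cu, rfl⟩ := hc
  obtain ⟨gu, rfl⟩ := hg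
  set ci : B := ((cu⁻¹ : Bˣ) : B) with hci
  set gi : O := ((gu⁻¹ : Oˣ) : O) with hgi
  have hcci : (cu : B) * ci = 1 := Units.mul_inv cu
  have hggi : (gu : O) * gi = 1 := Units.mul_inv gu
  -- the quotient maps
  set π := Ideal.Quotient.mk 𝔭 with hπ
  have hπz : π z * π zi = 1 := by rw [← map_mul, hzi, map_one]
  have hπg : π (gu : O) * π gi = 1 := by rw [← map_mul, hggi, map_one]
  have hπc : π (φ cu) * π (φ ci) = 1 := by rw [← map_mul, ← map_mul, hcci, map_one, map_one]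
  have hπfg : π f = π (φ cu) * π (gu : O) ^ n := by
    have := Ideal.Quotient.eq.mpr hfg
    simpa only [map_mul, map_pow] using this
  have hπfz : π f = π (φ u) * π z ^ n := by rw [hfz, map_mul, map_pow]
  have hπH : π H * π (gu : O) ^ a = π (φ cu) ^ e * π (γ gu) := by
    have := Ideal.Quotient.eq.mpr hH
    simpa only [map_mul, map_pow] using this
  -- the `n`-th root
  have hr : ((gu : O) * zi) ^ n - φ (u * ci) ∈ 𝔭 := by
    rw [← Ideal.Quotient.eq]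
    simp only [map_mul, map_pow]
    change (π (gu : O) * π zi) ^ n = π (φ u) * π (φ ci)
    have e1 : π (φ u) = π (φ cu) * π (gu : O) ^ n * π zi ^ n := by
      calc π (φ u) = π (φ u) * (π z * π zi) ^ n := by rw [hπz, one_pow, mul_one]
        _ = (π (φ u) * π z ^ n) * π zi ^ n := by ring
        _ = _ := by rw [← hπfz, hπfg]
    rw [e1]
    calc (π (gu : O) * π zi) ^ n = (π (φ cu) * π (φ ci)) * (π (gu : O) * π zi) ^ n := by
          rw [hπc, one_mul]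
      _ = _ := by ring
  obtain ⟨ρ, hρ⟩ := hroot _ _ (hu.mul (Units.isUnit _)) hr
  have hπρ : π (φ ρ) = π (gu : O) * π zi := by
    have := Ideal.Quotient.eq.mpr hρ
    rw [← this, map_mul]
  obtain ⟨ρ', hρ', hρ'Q⟩ := hγB ρ
  have hπρ' : π (φ ρ') = π (γ gu) * π (γ zi) := by
    rw [← hρ', ← map_mul, ← map_mul γ, Ideal.Quotient.eq, ← map_sub]
    have : φ ρ - (gu : O) * zi ∈ 𝔭 := by
      have := 𝔭.neg_mem hρ
      rwa [neg_sub] at this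
    exact hγ _ this
  -- `c ρⁿ ≡ u mod 𝔪_B`
  have hcρ : (cu : B) * ρ ^ n - u ∈ maximalIdeal B := by
    apply hP
    rw [Ideal.mem_comap, map_sub, ← Ideal.Quotient.eq]
    simp only [map_mul, map_pow]
    change π (φ cu) * π (φ ρ) ^ n = π (φ u)
    rw [hπρ]
    have e1 : π (φ u) = π (φ cu) * π (gu : O) ^ n * π zi ^ n := by
      calc π (φ u) = π (φ u) * (π z * π zi) ^ n := by rw [hπz, one_pow, mul_one]
        _ = (π (φ u) * π z ^ n) * π zi ^ n := by ring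
        _ = _ := by rw [← hπfz, hπfg]
    rw [e1]; ring
  -- units
  have hunit_of : ∀ x y : B, IsUnit y → x - y ∈ maximalIdeal B → IsUnit x := by
    intro x y hy hxy
    by_contra hx
    have hx' : x ∈ maximalIdeal B := (mem_maximalIdeal x).mpr hx
    have : y ∈ maximalIdeal B := by
      have := (maximalIdeal B).sub_mem hx' hxy
      rwa [sub_sub_cancel] at this
    exact ((mem_maximalIdeal y).mp this) hy
  have hρn : IsUnit ((cu : B) * ρ ^ n) := hunit_of _ _ hu hcρ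
  have hρu : IsUnit ρ := by
    have h1 : IsUnit (ρ ^ n) := isUnit_of_mul_isUnit_right hρn
    exact (isUnit_pow_iff hn.ne').mp h1
  have hρ'u : IsUnit ρ' := hunit_of _ _ (hρu.pow Q) hρ'Q
  obtain ⟨ρu, rfl⟩ := hρu
  set ρi : B := ((ρu⁻¹ : Bˣ) : B) with hρi
  have hρρi : (ρu : B) * ρi = 1 := Units.mul_inv ρu
  refine ⟨(cu : B) ^ e * ρ' * ρi ^ a, ?_, ?_, ?_⟩
  · exact (((Units.isUnit cu).pow e).mul hρ'u).mul ((Units.isUnit _).pow a)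
  · -- modulo `𝔪_B`
    rw [← Ideal.Quotient.eq]
    set κ := Ideal.Quotient.mk (maximalIdeal B) with hκ
    have k1 : κ ρ' = κ (ρu : B) ^ Q := by
      have := Ideal.Quotient.eq.mpr hρ'Q
      rw [this, map_pow]
    have k2 : κ (cu : B) * κ (ρu : B) ^ n = κ u := by
      have := Ideal.Quotient.eq.mpr hcρ
      rw [← this, map_mul, map_pow]
    have k3 : κ (ρu : B) * κ ρi = 1 := by rw [← map_mul, hρρi, map_one]
    simp only [map_mul, map_pow]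
    rw [k1, ← k2, hQ]
    calc κ (cu : B) ^ e * κ (ρu : B) ^ (a + n * e) * κ ρi ^ a
        = (κ (cu : B) * κ (ρu : B) ^ n) ^ e * (κ (ρu : B) * κ ρi) ^ a := by ring
      _ = _ := by rw [k3, one_pow, mul_one]
  · -- modulo `𝔭`
    rw [← Ideal.Quotient.eq]
    simp only [map_mul, map_pow]
    change π (φ cu) ^ e * π (φ ρ') * π (φ ρi) ^ a = π H * π (γ zi) * π z ^ a
    have k3 : π (φ ρu) * π (φ ρi) = 1 := by
      rw [← map_mul, ← map_mul, hρρi, map_one, map_one]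
    have k4 : π (φ ρi) = π gi * π z := by
      calc π (φ ρi) = (π (gu : O) * π gi) * (π z * π zi) * π (φ ρi) := by
            rw [hπg, hπz, one_mul, one_mul]
        _ = (π gi * π z) * ((π (gu : O) * π zi) * π (φ ρi)) := by ring
        _ = _ := by rw [← hπρ, k3, mul_one]
    rw [hπρ', k4]
    calc π (φ cu) ^ e * (π (γ gu) * π (γ zi)) * (π gi * π z) ^ a
        = (π (φ cu) ^ e * π (γ gu)) * π gi ^ a * π (γ zi) * π z ^ a := by ring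
      _ = π H * (π (gu : O) * π gi) ^ a * π (γ zi) * π z ^ a := by rw [← hπH]; ring
      _ = _ := by rw [hπg, one_pow, mul_one]

/-- **FW-NODE, node gluing**: the local hypothesis of the generic Kummer descent at a node, for
`v' = γ f / (f^a Hⁿ)`: there is `h ≡ 1 mod 𝔭₁ ⊓ 𝔭₂` with `v' hⁿ ∈ φ (Bˣ)`. -/
theorem h10fw_node (φ : B →+* O) (𝔭₁ 𝔭₂ : Ideal O) (γ : O →+* O)
    (n Q a e : ℕ) (hn : 0 < n) (hQ : Q = a + n * e)
    (hP₁ : 𝔭₁.comap φ ≤ maximalIdeal B) (hP₂ : 𝔭₂.comap φ ≤ maximalIdeal B)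
    (htr : maximalIdeal B ≤ 𝔭₁.comap φ ⊔ 𝔭₂.comap φ)
    (hroot₁ : ∀ (r : O) (b : B), IsUnit b → r ^ n - φ b ∈ 𝔭₁ → ∃ ρ : B, r - φ ρ ∈ 𝔭₁)
    (hroot₂ : ∀ (r : O) (b : B), IsUnit b → r ^ n - φ b ∈ 𝔭₂ → ∃ ρ : B, r - φ ρ ∈ 𝔭₂)
    (hγ₁ : ∀ x ∈ 𝔭₁, γ x ∈ 𝔭₁) (hγ₂ : ∀ x ∈ 𝔭₂, γ x ∈ 𝔭₂)
    (hγB : ∀ b : B, ∃ b' : B, γ (φ b) = φ b' ∧ b' - b ^ Q ∈ maximalIdeal B)
    (f g H z : O) (hg : IsUnit g) (hz : IsUnit z)
    (u c₁ c₂ : B) (hu : IsUnit u) (hc₁ : IsUnit c₁) (hc₂ : IsUnit c₂)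
    (hfz : f = φ u * z ^ n)
    (hfg₁ : f - φ c₁ * g ^ n ∈ 𝔭₁) (hfg₂ : f - φ c₂ * g ^ n ∈ 𝔭₂)
    (hH₁ : H * g ^ a - φ c₁ ^ e * γ g ∈ 𝔭₁) (hH₂ : H * g ^ a - φ c₂ ^ e * γ g ∈ 𝔭₂) :
    ∃ (h : O) (w : B), IsUnit w ∧ h - 1 ∈ 𝔭₁ ⊓ 𝔭₂ ∧ γ f * h ^ n = φ w * (f ^ a * H ^ n) := by
  obtain ⟨zu, rfl⟩ := hz
  set zi : O := ((zu⁻¹ : Oˣ) : O) with hzi
  have hzzi : (zu : O) * zi = 1 := Units.mul_inv zu
  obtain ⟨b₁, hb₁u, hb₁m, hb₁⟩ := h10fw_branch φ 𝔭₁ γ n Q a e hn hQ hP₁ hroot₁ hγ₁ hγB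
    f g H zu zi hg hzzi u c₁ hu hc₁ hfz hfg₁ hH₁
  obtain ⟨b₂, hb₂u, hb₂m, hb₂⟩ := h10fw_branch φ 𝔭₂ γ n Q a e hn hQ hP₂ hroot₂ hγ₂ hγB
    f g H zu zi hg hzzi u c₂ hu hc₂ hfz hfg₂ hH₂
  -- gluing
  have hdiff : b₁ - b₂ ∈ maximalIdeal B := by
    have := (maximalIdeal B).sub_mem hb₁m hb₂m
    rwa [sub_sub_sub_cancel_right] at this
  obtain ⟨p₁, hp₁, p₂, hp₂, hp⟩ := Submodule.mem_sup.mp (htr hdiff)
  set y : B := b₁ - p₁ with hy
  have hy₁ : y - b₁ ∈ 𝔭₁.comap φ := by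
    have : y - b₁ = -p₁ := by rw [hy]; ring
    rw [this]; exact (𝔭₁.comap φ).neg_mem hp₁
  have hy₂ : y - b₂ ∈ 𝔭₂.comap φ := by
    have : y - b₂ = p₂ := by
      rw [hy]
      have : b₁ - p₁ - b₂ = (b₁ - b₂) - p₁ := by ring
      rw [this, ← hp]; ring
    rw [this]; exact hp₂
  have hyu : IsUnit y := by
    by_contra hx
    have hx' : y ∈ maximalIdeal B := (mem_maximalIdeal y).mpr hx
    have : b₁ ∈ maximalIdeal B := by
      have := (maximalIdeal B).add_mem hx' (hP₁ hp₁)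
      rwa [hy, sub_add_cancel] at this
    exact ((mem_maximalIdeal b₁).mp this) hb₁u
  obtain ⟨yu, hyu'⟩ := hyu
  set yi : B := ((yu⁻¹ : Bˣ) : B) with hyi
  have hyyi : y * yi = 1 := by rw [← hyu']; exact Units.mul_inv yu
  obtain ⟨uu, rfl⟩ := hu
  set ui : B := ((uu⁻¹ : Bˣ) : B) with hui
  have huui : (uu : B) * ui = 1 := Units.mul_inv uu
  obtain ⟨u', hu', hu'Q⟩ := hγB uu
  have hu'u : IsUnit u' := by
    by_contra hx
    have hx' : u' ∈ maximalIdeal B := (mem_maximalIdeal u').mpr hx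
    have : (uu : B) ^ Q ∈ maximalIdeal B := by
      have := (maximalIdeal B).sub_mem hx' hu'Q
      rwa [sub_sub_cancel] at this
    exact ((mem_maximalIdeal _).mp this) ((Units.isUnit uu).pow Q)
  refine ⟨H * γ zi * (zu : O) ^ a * φ yi, u' * yi ^ n * ui ^ a, ?_, ?_, ?_⟩
  · exact (hu'u.mul ((Units.isUnit _).pow n)).mul ((Units.isUnit _).pow a)
  · have hone : ∀ (𝔭 : Ideal O) (b : B), y - b ∈ 𝔭.comap φ →
        φ b - H * γ zi * (zu : O) ^ a ∈ 𝔭 → H * γ zi * (zu : O) ^ a * φ yi - 1 ∈ 𝔭 := by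
      intro 𝔭 b hyb hb
      have h1 : φ y - φ b ∈ 𝔭 := by
        have := Ideal.mem_comap.mp hyb
        rwa [map_sub] at this
      have h2 := Ideal.Quotient.eq.mpr h1
      have h3 := Ideal.Quotient.eq.mpr hb
      have h4 : Ideal.Quotient.mk 𝔭 (φ y) * Ideal.Quotient.mk 𝔭 (φ yi) = 1 := by
        rw [← map_mul, ← map_mul, hyyi, map_one, map_one]
      rw [← Ideal.Quotient.eq, map_mul, ← h3, ← h2, h4, map_one]
    exact ⟨hone 𝔭₁ b₁ hy₁ hb₁, hone 𝔭₂ b₂ hy₂ hb₂⟩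
  · have hγz : γ (zu : O) * γ zi = 1 := by rw [← map_mul, hzzi, map_one]
    have hφu : φ ui * φ uu = 1 := by rw [← map_mul, mul_comm, huui, map_one]
    rw [hfz, map_mul, map_pow, hu']
    simp only [map_mul, map_pow]
    calc φ u' * γ (zu : O) ^ n * (H * γ zi * (zu : O) ^ a * φ yi) ^ n
        = φ u' * (γ (zu : O) * γ zi) ^ n * H ^ n * ((zu : O) ^ a) ^ n * φ yi ^ n := by ring
      _ = φ u' * H ^ n * ((zu : O) ^ a) ^ n * φ yi ^ n * (φ ui * φ uu) ^ a := by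
          rw [hγz, hφu, one_pow, one_pow, mul_one, mul_one]
      _ = _ := by ring

end Core

section RootClosed

variable {O B : Type*} [CommRing O] [CommRing B]

/-- root-closedness, element form, from: `B ⧸ P` integrally closed (`P = φ⁻¹ 𝔭`) and every
element of `O ⧸ 𝔭` is a fraction of elements of `B ⧸ P`. -/
theorem h10fw_root_closed (φ : B →+* O) (𝔭 : Ideal O) [h𝔭 : 𝔭.IsPrime]
    [IsIntegrallyClosed (B ⧸ 𝔭.comap φ)]
    (hfrac : ∀ r : O, ∃ a s : B, φ s ∉ 𝔭 ∧ φ s * r - φ a ∈ 𝔭)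
    (n : ℕ) (hn : 0 < n) (r : O) (b : B) (hr : r ^ n - φ b ∈ 𝔭) :
    ∃ ρ : B, r - φ ρ ∈ 𝔭 := by
  classical
  set P : Ideal B := 𝔭.comap φ with hP
  have hPp : P.IsPrime := Ideal.comap_isPrime φ 𝔭
  obtain ⟨a, s, hs, has⟩ := hfrac r
  set A := B ⧸ P
  set K := FractionRing A
  have hsP : s ∉ P := fun h => hs (Ideal.mem_comap.mp h)
  have hs0 : (Ideal.Quotient.mk P s) ≠ 0 := by
    rwa [Ne, Ideal.Quotient.eq_zero_iff_mem]
  -- `s^n b = a^n` in `A`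
  have hkey : s ^ n * b - a ^ n ∈ P := by
    rw [hP, Ideal.mem_comap, map_sub, ← Ideal.Quotient.eq]
    simp only [map_mul, map_pow]
    have h1 := Ideal.Quotient.eq.mpr hr
    have h2 := Ideal.Quotient.eq.mpr has
    simp only [map_mul, map_pow] at h1 h2
    rw [← h1, ← h2]; ring
  have hkey' : (Ideal.Quotient.mk P s) ^ n * Ideal.Quotient.mk P b = (Ideal.Quotient.mk P a) ^ n := by
    have := Ideal.Quotient.eq.mpr hkey
    simpa only [map_mul, map_pow] using this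
  set x : K := algebraMap A K (Ideal.Quotient.mk P a) / algebraMap A K (Ideal.Quotient.mk P s)
    with hx
  have hsK : algebraMap A K (Ideal.Quotient.mk P s) ≠ 0 := by
    rw [Ne, IsFractionRing.to_map_eq_zero_iff]; exact hs0
  have hxn : x ^ n = algebraMap A K (Ideal.Quotient.mk P b) := by
    rw [hx, div_pow, div_eq_iff (pow_ne_zero n hsK)]
    have := congrArg (algebraMap A K) hkey'
    simp only [map_mul, map_pow] at this
    rw [← this]; ring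
  have hint : IsIntegral A x := by
    refine ⟨Polynomial.X ^ n - Polynomial.C (Ideal.Quotient.mk P b),
      Polynomial.monic_X_pow_sub_C _ hn.ne', ?_⟩
    simp [hxn]
  obtain ⟨y, hy⟩ := IsIntegrallyClosed.algebraMap_eq_of_integral hint
  obtain ⟨ρ, rfl⟩ := Ideal.Quotient.mk_surjective y
  refine ⟨ρ, ?_⟩
  -- `ρ s = a` in `A`
  have h1 : Ideal.Quotient.mk P ρ * Ideal.Quotient.mk P s = Ideal.Quotient.mk P a := by
    apply IsFractionRing.injective A K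
    rw [map_mul, hy, hx, div_mul_cancel₀ _ hsK]
  have h2 : ρ * s - a ∈ P := by
    rw [← Ideal.Quotient.eq, map_mul]; exact h1
  have h3 : φ ρ * φ s - φ a ∈ 𝔭 := by
    have := Ideal.mem_comap.mp h2
    rwa [map_sub, map_mul] at this
  have h4 : φ s * (r - φ ρ) ∈ 𝔭 := by
    have : φ s * (r - φ ρ) = (φ s * r - φ a) - (φ ρ * φ s - φ a) := by ring
    rw [this]; exact 𝔭.sub_mem has h3
  exact (h𝔭.mem_or_mem h4).resolve_left hs

end RootClosed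

end H10FW
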