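import Mathlib
import Fermat.Agent.S35.FWNode_helper10

/-!
# Item 82b (S35), slice FW-NODE, part (REG) (helper10): regular points of the special fibre

Mathlib only, valuation language.  `F` a field, `V₁ V₂ : ValuationSubring F` the two Gauss
valuation rings (`O = V₁ ⊓ V₂`, `ϖ O = 𝔪_{V₁} ∩ 𝔪_{V₂}`), `B : Subring F` the local ring of the
normal model at a closed point lying on the component `1` only (`B ⊆ V₁`, `B ⊄ V₂`).
Units of `B` are written `b ∈ B ∧ b⁻¹ ∈ B`; `x ≡ 1` at `w_i` is `V_i.valuation (x - 1) < 1`.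

* `h10fw_reg`  : **(REG)** if `v ≡ 1` at `w₁` and `v = u zⁿ` with `u ∈ Bˣ` (output of (LOC) at a
  regular point), then there is `h ≡ 1` at `w₁` AND at `w₂` with `v hⁿ ∈ Bˣ`
  (the local hypothesis of the generic Kummer descent).  Hypotheses:
  (RC) `Bˣ ∋ b`, `b xⁿ ≡ 1` at `w₁` `⇒` `ρ x ≡ 1` at `w₁` for some `ρ ∈ Bˣ`;
  (AP) every `x ≠ 0` is `≡ b⁻¹` at `w₂` for some `b ∈ Bˣ`, `b ≡ 1` at `w₁`.
* `h10fw_ap`   : (AP) from: `B ⊆ V₁` local, `F = Frac B`, `c ∈ B ∩ 𝔪_{V₁}` nonzero (e.g. `ϖ`),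
  `s₀ ∈ Bˣ ∩ 𝔪_{V₂}` (a function vanishing on the other component, not at the point) and
  the archimedean property of `w₂`.
* `h10fw_arch` : the archimedean property for a discrete valuation ring.
* `h10fw_rc`   : (RC) from: `B ⧸ (𝔪_{V₁} ∩ B)` integrally closed with fraction field the residue
  field of `V₁`.
-/

set_option autoImplicit false

namespace H10FW

section Val

variable {F : Type*} [Field F]

theorem h10fw_val_one_of_lt (V : ValuationSubring F) {x : F} (hx : V.valuation (x - 1) < 1) :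
    V.valuation x = 1 := by
  have h := Valuation.map_add_eq_of_lt_left V.valuation (x := (1 : F)) (y := x - 1)
    (by rw [Valuation.map_one]; exact hx)
  rw [Valuation.map_one] at h
  rwa [show (1 : F) + (x - 1) = x by ring] at h

theorem h10fw_ne_zero_of_lt (V : ValuationSubring F) {x : F} (hx : V.valuation (x - 1) < 1) :
    x ≠ 0 := by
  intro h
  have := h10fw_val_one_of_lt V hx
  rw [h, Valuation.map_zero] at this
  exact zero_ne_one this

theorem h10fw_inv_lt (V : ValuationSubring F) {x : F} (hx : V.valuation (x - 1) < 1) :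
    V.valuation (x⁻¹ - 1) < 1 := by
  have hx0 := h10fw_ne_zero_of_lt V hx
  have h1 := h10fw_val_one_of_lt V hx
  have : x⁻¹ - 1 = -(x - 1) * x⁻¹ := by field_simp; ring
  rw [this, Valuation.map_mul, Valuation.map_neg, map_inv₀, h1, inv_one, mul_one]
  exact hx

theorem h10fw_mul_lt (V : ValuationSubring F) {x y : F} (hx : V.valuation (x - 1) < 1)
    (hy : V.valuation (y - 1) < 1) : V.valuation (x * y - 1) < 1 := by
  have h1 := h10fw_val_one_of_lt V hy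
  have : x * y - 1 = (x - 1) * y + (y - 1) := by ring
  rw [this]
  refine lt_of_le_of_lt (Valuation.map_add _ _ _) (max_lt ?_ hy)
  rw [Valuation.map_mul, h1, mul_one]
  exact hx

/-- **(REG)**: the local hypothesis of the generic Kummer descent at a regular point. -/
theorem h10fw_reg (V₁ V₂ : ValuationSubring F) (B : Subring F) (n : ℕ)
    (hRC : ∀ x b : F, b ∈ B → b⁻¹ ∈ B → V₁.valuation (b * x ^ n - 1) < 1 →
      ∃ ρ : F, ρ ∈ B ∧ ρ⁻¹ ∈ B ∧ V₁.valuation (ρ * x - 1) < 1)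
    (hAP : ∀ x : F, x ≠ 0 → ∃ b : F, b ∈ B ∧ b⁻¹ ∈ B ∧ V₁.valuation (b - 1) < 1 ∧
      V₂.valuation (b * x - 1) < 1)
    (v u z : F) (hv1 : V₁.valuation (v - 1) < 1) (hu : u ∈ B) (hu' : u⁻¹ ∈ B)
    (hvz : v = u * z ^ n) :
    ∃ h : F, V₁.valuation (h - 1) < 1 ∧ V₂.valuation (h - 1) < 1 ∧
      v * h ^ n ∈ B ∧ (v * h ^ n)⁻¹ ∈ B := by
  obtain ⟨ρ, hρ, hρ', hρ1⟩ := hRC z u hu hu' (by rw [← hvz]; exact hv1)
  have hx0 : ρ * z ≠ 0 := h10fw_ne_zero_of_lt V₁ hρ1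
  have hρ0 : ρ ≠ 0 := left_ne_zero_of_mul hx0
  have hz0 : z ≠ 0 := right_ne_zero_of_mul hx0
  obtain ⟨b, hb, hb', hb1, hb2⟩ := hAP (ρ * z)⁻¹ (inv_ne_zero hx0)
  have hb0 : b ≠ 0 := h10fw_ne_zero_of_lt V₁ hb1
  refine ⟨b * (ρ * z)⁻¹, h10fw_mul_lt V₁ hb1 (h10fw_inv_lt V₁ hρ1), hb2, ?_, ?_⟩
  · have hzz : z ^ n * z⁻¹ ^ n = 1 := by rw [← mul_pow, mul_inv_cancel₀ hz0, one_pow]
    have : v * (b * (ρ * z)⁻¹) ^ n = u * b ^ n * ρ⁻¹ ^ n := by
      rw [hvz, mul_inv, mul_pow, mul_pow]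
      linear_combination (u * b ^ n * ρ⁻¹ ^ n) * hzz
    rw [this]
    exact B.mul_mem (B.mul_mem hu (B.pow_mem hb n)) (B.pow_mem hρ' n)
  · have hzz : z ^ n * z⁻¹ ^ n = 1 := by rw [← mul_pow, mul_inv_cancel₀ hz0, one_pow]
    have : (v * (b * (ρ * z)⁻¹) ^ n)⁻¹ = u⁻¹ * b⁻¹ ^ n * ρ ^ n := by
      have e1 : v * (b * (ρ * z)⁻¹) ^ n = u * b ^ n * ρ⁻¹ ^ n := by
        rw [hvz, mul_inv, mul_pow, mul_pow]
        linear_combination (u * b ^ n * ρ⁻¹ ^ n) * hzz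
      rw [e1, mul_inv, mul_inv, inv_pow, inv_pow, inv_inv]
    rw [this]
    exact B.mul_mem (B.mul_mem hu' (B.pow_mem hb' n)) (B.pow_mem hρ n)

/-- the archimedean property of a discrete valuation ring. -/
theorem h10fw_arch (V : ValuationSubring F) [IsDiscreteValuationRing V] (s₀ : F)
    (hs : V.valuation s₀ < 1) (y : F) : ∃ m : ℕ, V.valuation (s₀ ^ m * y) < 1 := by
  classical
  by_cases hy : y ∈ V
  · refine ⟨1, ?_⟩
    rw [pow_one, Valuation.map_mul]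
    have : V.valuation y ≤ 1 := (V.valuation_le_one_iff y).mpr hy
    calc V.valuation s₀ * V.valuation y ≤ V.valuation s₀ * 1 := by gcongr
      _ < 1 := by rw [mul_one]; exact hs
  · -- `y⁻¹ ∈ V`, `y⁻¹ = u ϖ^k`
    have hy0 : y ≠ 0 := fun h => hy (h ▸ V.zero_mem)
    have hyi : y⁻¹ ∈ V := (V.mem_or_inv_mem y).resolve_left hy
    obtain ⟨ϖ, hϖ⟩ := IsDiscreteValuationRing.exists_irreducible V
    have hne : (⟨y⁻¹, hyi⟩ : V) ≠ 0 := by
      intro h
      have := congrArg Subtype.val h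
      exact inv_ne_zero hy0 this
    obtain ⟨k, u, hk⟩ := IsDiscreteValuationRing.eq_unit_mul_pow_irreducible hne hϖ
    have hs' : s₀ ∈ V := (V.valuation_le_one_iff s₀).mp hs.le
    have hsnu : ¬ IsUnit (⟨s₀, hs'⟩ : V) := by
      intro h
      have := (V.valuation_eq_one_iff ⟨s₀, hs'⟩).mp h
      exact (ne_of_lt hs) this
    have hsm : (⟨s₀, hs'⟩ : V) ∈ IsLocalRing.maximalIdeal V :=
      (IsLocalRing.mem_maximalIdeal _).mpr hsnu
    rw [hϖ.maximalIdeal_eq, Ideal.mem_span_singleton] at hsm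
    obtain ⟨s₁, hs₁⟩ := hsm
    have hs₁' : s₀ = (ϖ : F) * (s₁ : F) := by
      have := congrArg Subtype.val hs₁
      simpa using this
    have hk' : y⁻¹ = ((u : V) : F) * (ϖ : F) ^ k := by
      have := congrArg Subtype.val hk
      simpa using this
    have hϖ0 : V.valuation (ϖ : F) ≠ 0 := by
      rw [Ne, Valuation.zero_iff]
      intro h
      exact hϖ.ne_zero (Subtype.ext h)
    have hϖ1 : V.valuation (ϖ : F) < 1 := by
      have h2 : V.valuation (ϖ : F) ≤ 1 := V.valuation_le_one ϖ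
      rcases lt_or_eq_of_le h2 with h | h
      · exact h
      · exact absurd ((V.valuation_eq_one_iff ϖ).mpr h) hϖ.not_isUnit
    have hu1 : V.valuation ((u : V) : F) = 1 := (V.valuation_eq_one_iff (u : V)).mp u.isUnit
    have hvy : V.valuation y = (V.valuation (ϖ : F) ^ k)⁻¹ := by
      have h1 : V.valuation y⁻¹ = V.valuation (ϖ : F) ^ k := by
        rw [hk', Valuation.map_mul, hu1, one_mul, Valuation.map_pow]
      rw [map_inv₀] at h1
      rw [← h1, inv_inv]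
    have hs₀le : V.valuation s₀ ≤ V.valuation (ϖ : F) := by
      rw [hs₁', Valuation.map_mul]
      calc V.valuation (ϖ : F) * V.valuation (s₁ : F) ≤ V.valuation (ϖ : F) * 1 := by
            gcongr
            exact V.valuation_le_one s₁
        _ = _ := mul_one _
    refine ⟨k + 1, ?_⟩
    rw [Valuation.map_mul, Valuation.map_pow, hvy]
    calc V.valuation s₀ ^ (k + 1) * (V.valuation (ϖ : F) ^ k)⁻¹
        ≤ V.valuation (ϖ : F) ^ (k + 1) * (V.valuation (ϖ : F) ^ k)⁻¹ := by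
          gcongr
      _ = V.valuation (ϖ : F) := by
          rw [pow_succ, mul_comm (V.valuation (ϖ : F) ^ k), mul_assoc,
            mul_inv_cancel₀ (pow_ne_zero k hϖ0), mul_one]
      _ < 1 := hϖ1

/-- **(AP)** the approximation property at a point lying on the component `1` only. -/
theorem h10fw_ap (V₁ V₂ : ValuationSubring F) (B : Subring F)
    (hBV : ∀ b ∈ B, b ∈ V₁)
    (hloc : ∀ y b : F, y ∈ B → V₁.valuation y < 1 → b ∈ B → b⁻¹ ∈ B → b ≠ 0 → (y + b)⁻¹ ∈ B)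
    (hfrac : ∀ x : F, ∃ a s : F, a ∈ B ∧ s ∈ B ∧ s ≠ 0 ∧ x * s = a)
    (c s₀ : F) (hc : c ∈ B) (hc0 : c ≠ 0) (hc1 : V₁.valuation c < 1)
    (hs₀ : s₀ ∈ B) (hs₀' : s₀⁻¹ ∈ B) (hs₀0 : s₀ ≠ 0) (hs₀2 : V₂.valuation s₀ < 1)
    (hArch : ∀ y : F, ∃ m : ℕ, V₂.valuation (s₀ ^ m * y) < 1)
    (x : F) (hx : x ≠ 0) :
    ∃ b : F, b ∈ B ∧ b⁻¹ ∈ B ∧ V₁.valuation (b - 1) < 1 ∧ V₂.valuation (b * x - 1) < 1 := by
  obtain ⟨a, s, ha, hs, hs0, hxs⟩ := hfrac x⁻¹
  have ha0 : a ≠ 0 := by rw [← hxs]; exact mul_ne_zero (inv_ne_zero hx) hs0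
  have hxa : x = s * a⁻¹ := by
    rw [← hxs]; field_simp
  have hsc0 : s * c ≠ 0 := mul_ne_zero hs0 hc0
  set y₁ : F := (s * c)⁻¹ with hy₁
  set y₂ : F := (s - a) * (a * s * c)⁻¹ with hy₂
  obtain ⟨m₁, hm₁⟩ := hArch y₁
  obtain ⟨m₂, hm₂⟩ := hArch y₂
  have hmono : ∀ (y : F) (m k : ℕ), V₂.valuation (s₀ ^ m * y) < 1 →
      V₂.valuation (s₀ ^ (m + k) * y) < 1 := by
    intro y m k h
    have h1 : V₂.valuation (s₀ ^ k) ≤ 1 := by
      rw [Valuation.map_pow]; exact pow_le_one₀ zero_le hs₀2.le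
    have : s₀ ^ (m + k) * y = s₀ ^ k * (s₀ ^ m * y) := by rw [pow_add]; ring
    rw [this, Valuation.map_mul]
    calc V₂.valuation (s₀ ^ k) * V₂.valuation (s₀ ^ m * y)
        ≤ 1 * V₂.valuation (s₀ ^ m * y) := by gcongr
      _ < 1 := by rw [one_mul]; exact h
  set m := m₁ + m₂ with hm
  have hε : V₂.valuation (s₀ ^ m * y₁) < 1 := hmono y₁ m₁ m₂ hm₁
  have hδ : V₂.valuation (s₀ ^ m * y₂) < 1 := by
    have := hmono y₂ m₂ m₁ hm₂
    rwa [add_comm] at this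
  have hsm : s₀ ^ m ∈ B := B.pow_mem hs₀ m
  have hsm' : (s₀ ^ m)⁻¹ ∈ B := by rw [← inv_pow]; exact B.pow_mem hs₀' m
  have hsm0 : s₀ ^ m ≠ 0 := pow_ne_zero m hs₀0
  have hvc : ∀ w : F, w ∈ B → V₁.valuation (w * c) < 1 := by
    intro w hw
    rw [Valuation.map_mul]
    have : V₁.valuation w ≤ 1 := (V₁.valuation_le_one_iff w).mpr (hBV w hw)
    calc V₁.valuation w * V₁.valuation c ≤ 1 * V₁.valuation c := by gcongr
      _ < 1 := by rw [one_mul]; exact hc1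
  set N : F := a * c + s₀ ^ m with hN
  set D : F := s * c + s₀ ^ m with hD
  have hNB : N ∈ B := B.add_mem (B.mul_mem ha hc) hsm
  have hDB : D ∈ B := B.add_mem (B.mul_mem hs hc) hsm
  have hNi : N⁻¹ ∈ B := hloc _ _ (B.mul_mem ha hc) (hvc a ha) hsm hsm' hsm0
  have hDi : D⁻¹ ∈ B := hloc _ _ (B.mul_mem hs hc) (hvc s hs) hsm hsm' hsm0
  -- `D = s c (1 + ε)`
  have h1ε : V₂.valuation (1 + s₀ ^ m * y₁) = 1 :=
    h10fw_val_one_of_lt V₂ (by rw [add_sub_cancel_left]; exact hε)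
  have h1ε0 : 1 + s₀ ^ m * y₁ ≠ 0 := by
    intro h
    rw [h, Valuation.map_zero] at h1ε
    exact zero_ne_one h1ε
  have hDeq : D = s * c * (1 + s₀ ^ m * y₁) := by
    rw [hD, hy₁, mul_add, mul_one, mul_comm (s₀ ^ m), ← mul_assoc, mul_inv_cancel₀ hsc0,
      one_mul]
  have hD0 : D ≠ 0 := by rw [hDeq]; exact mul_ne_zero hsc0 h1ε0
  refine ⟨N * D⁻¹, B.mul_mem hNB hDi, ?_, ?_, ?_⟩
  · rw [mul_inv, inv_inv]; exact B.mul_mem hNi hDB
  · have : N * D⁻¹ - 1 = ((a - s) * c) * D⁻¹ := by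
      have : N - D = (a - s) * c := by rw [hN, hD]; ring
      rw [← this]; field_simp
    rw [this, Valuation.map_mul]
    have h2 : V₁.valuation D⁻¹ ≤ 1 := (V₁.valuation_le_one_iff _).mpr (hBV _ hDi)
    calc V₁.valuation ((a - s) * c) * V₁.valuation D⁻¹
        ≤ V₁.valuation ((a - s) * c) * 1 := by gcongr
      _ < 1 := by rw [mul_one]; exact hvc _ (B.sub_mem ha hs)
  · have : N * D⁻¹ * x - 1 = (s₀ ^ m * y₂) * (1 + s₀ ^ m * y₁)⁻¹ := by
      have e1 : N * s - D * a = s₀ ^ m * (s - a) := by rw [hN, hD]; ring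
      have e2 : N * D⁻¹ * x - 1 = (N * s - D * a) * (D * a)⁻¹ := by
        rw [hxa]; field_simp
      rw [e2, e1, hDeq, hy₂]
      field_simp
    rw [this, Valuation.map_mul, map_inv₀, h1ε, inv_one, mul_one]
    exact hδ

/-- the local-ring property in subring form, for the image of a local ring. -/
theorem h10fw_loc {B : Type*} [CommRing B] [IsLocalRing B] (φ : B →+* F)
    (hφ : Function.Injective φ) (V₁ : ValuationSubring F) (hBV : ∀ b : B, φ b ∈ V₁)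
    (y b : F) (hy : y ∈ φ.range) (hy1 : V₁.valuation y < 1) (hb : b ∈ φ.range)
    (hb' : b⁻¹ ∈ φ.range) (hb0 : b ≠ 0) : (y + b)⁻¹ ∈ φ.range := by
  obtain ⟨y', rfl⟩ := hy
  obtain ⟨b', rfl⟩ := hb
  obtain ⟨b'', hb''⟩ := hb'
  have hbu : IsUnit b' := by
    refine IsUnit.of_mul_eq_one b'' (hφ ?_)
    rw [map_mul, hb'', map_one, mul_inv_cancel₀ hb0]
  have hyn : ¬ IsUnit y' := by
    intro h
    obtain ⟨u, rfl⟩ := h
    have h1 : φ (u : B) * φ ((u⁻¹ : Bˣ) : B) = 1 := by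
      rw [← map_mul, Units.mul_inv, map_one]
    have h2 : V₁.valuation (φ ((u⁻¹ : Bˣ) : B)) ≤ 1 := (V₁.valuation_le_one_iff _).mpr (hBV _)
    have h3 := congrArg V₁.valuation h1
    rw [Valuation.map_mul, Valuation.map_one] at h3
    have : V₁.valuation (φ (u : B)) * V₁.valuation (φ ((u⁻¹ : Bˣ) : B)) < 1 := by
      calc V₁.valuation (φ (u : B)) * V₁.valuation (φ ((u⁻¹ : Bˣ) : B))
          ≤ V₁.valuation (φ (u : B)) * 1 := by gcongr
        _ < 1 := by rw [mul_one]; exact hy1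
    rw [h3] at this
    exact lt_irrefl _ this
  have hsum : IsUnit (y' + b') := by
    by_contra h
    have h1 : y' + b' ∈ IsLocalRing.maximalIdeal B := (IsLocalRing.mem_maximalIdeal _).mpr h
    have h2 : y' ∈ IsLocalRing.maximalIdeal B := (IsLocalRing.mem_maximalIdeal _).mpr hyn
    have h3 : b' ∈ IsLocalRing.maximalIdeal B := by
      have := (IsLocalRing.maximalIdeal B).sub_mem h1 h2
      rwa [add_sub_cancel_left] at this
    exact ((IsLocalRing.mem_maximalIdeal _).mp h3) hbu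
  obtain ⟨w, hw⟩ := hsum
  refine ⟨((w⁻¹ : Bˣ) : B), ?_⟩
  have h1 : φ (y' + b') * φ ((w⁻¹ : Bˣ) : B) = 1 := by
    rw [← hw, ← map_mul, Units.mul_inv, map_one]
  rw [← map_add]
  exact eq_inv_of_mul_eq_one_right h1

/-- **(RC)** from: `B ⧸ P` integrally closed (`P = B ∩ 𝔪_{V₁}`) and the residue field of `V₁`
is its fraction field. -/
theorem h10fw_rc {B : Type*} [CommRing B] [IsLocalRing B] (φ : B →+* F)
    (hφ : Function.Injective φ) (V₁ : ValuationSubring F) (hBV : ∀ b : B, φ b ∈ V₁)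
    (P : Ideal B) (hP : ∀ b : B, b ∈ P ↔ V₁.valuation (φ b) < 1)
    [hic : IsIntegrallyClosed (B ⧸ P)]
    (hfrac : ∀ r : F, r ∈ V₁ → ∃ a s : B, s ∉ P ∧ V₁.valuation (φ s * r - φ a) < 1)
    (n : ℕ) (hn : 0 < n)
    (x b : F) (hb : b ∈ φ.range) (hb' : b⁻¹ ∈ φ.range)
    (hbx : V₁.valuation (b * x ^ n - 1) < 1) :
    ∃ ρ : F, ρ ∈ φ.range ∧ ρ⁻¹ ∈ φ.range ∧ V₁.valuation (ρ * x - 1) < 1 := by
  classical
  -- the ring hom `B → V₁`
  set ψ : B →+* V₁ := φ.codRestrict V₁.toSubring hBV with hψ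
  have hψv : ∀ b : B, ((ψ b : V₁) : F) = φ b := fun b => rfl
  have hmem : ∀ r : V₁, r ∈ IsLocalRing.maximalIdeal V₁ ↔ V₁.valuation (r : F) < 1 := by
    intro r
    rw [IsLocalRing.mem_maximalIdeal, mem_nonunits_iff, V₁.valuation_eq_one_iff]
    constructor
    · intro h
      exact lt_of_le_of_ne (V₁.valuation_le_one r) h
    · intro h; exact ne_of_lt h
  have hPeq : P = (IsLocalRing.maximalIdeal V₁).comap ψ := by
    ext b
    rw [Ideal.mem_comap, hmem, hP]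
    rfl
  subst hPeq
  obtain ⟨b₀, rfl⟩ := hb
  have hbx0 : φ b₀ * x ^ n ≠ 0 := h10fw_ne_zero_of_lt V₁ hbx
  have hb0 : φ b₀ ≠ 0 := left_ne_zero_of_mul hbx0
  have hxn0 : x ^ n ≠ 0 := right_ne_zero_of_mul hbx0
  have hx0 : x ≠ 0 := fun h => hxn0 (by rw [h, zero_pow hn.ne'])
  have hvb : V₁.valuation (φ b₀) = 1 := by
    obtain ⟨b₁, hb₁⟩ := hb'
    have h1 : V₁.valuation (φ b₀) ≤ 1 := (V₁.valuation_le_one_iff _).mpr (hBV _)
    have h2 : V₁.valuation (φ b₀)⁻¹ ≤ 1 := by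
      rw [← hb₁]; exact (V₁.valuation_le_one_iff _).mpr (hBV _)
    rw [map_inv₀] at h2
    have h3 : V₁.valuation (φ b₀) ≠ 0 := by rwa [Ne, Valuation.zero_iff]
    have h4 : 1 ≤ V₁.valuation (φ b₀) := by
      have := (inv_le_one₀ (zero_lt_iff.mpr h3)).mp h2
      exact this
    exact le_antisymm h1 h4
  have hvxn : V₁.valuation (x ^ n) = 1 := by
    have := h10fw_val_one_of_lt V₁ hbx
    rwa [Valuation.map_mul, hvb, one_mul] at this
  have hvx : V₁.valuation x = 1 := by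
    rw [Valuation.map_pow] at hvxn
    exact (pow_eq_one_iff_of_nonneg zero_le hn.ne').mp hvxn
  have hxi : x⁻¹ ∈ V₁ := by
    rw [← V₁.valuation_le_one_iff, map_inv₀, hvx, inv_one]
  -- `(x⁻¹)^n ≡ b`
  have hr : (⟨x⁻¹, hxi⟩ : V₁) ^ n - ψ b₀ ∈ IsLocalRing.maximalIdeal V₁ := by
    rw [hmem]
    have : (((⟨x⁻¹, hxi⟩ : V₁) ^ n - ψ b₀ : V₁) : F) = -(φ b₀ * x ^ n - 1) * (x ^ n)⁻¹ := by
      push_cast
      rw [hψv]
      have hxx : x ^ n * (x ^ n)⁻¹ = 1 := mul_inv_cancel₀ hxn0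
      rw [inv_pow]
      linear_combination (φ b₀) * hxx
    rw [this, Valuation.map_mul, Valuation.map_neg, map_inv₀, hvxn, inv_one, mul_one]
    exact hbx
  have hfrac' : ∀ r : V₁, ∃ a s : B, ψ s ∉ IsLocalRing.maximalIdeal V₁ ∧
      ψ s * r - ψ a ∈ IsLocalRing.maximalIdeal V₁ := by
    intro r
    obtain ⟨a, s, hs, has⟩ := hfrac r r.2
    refine ⟨a, s, fun h => hs (Ideal.mem_comap.mpr h), ?_⟩
    rw [hmem]
    exact has
  have hprime : (IsLocalRing.maximalIdeal V₁).IsPrime :=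
    (IsLocalRing.maximalIdeal.isMaximal V₁).isPrime
  obtain ⟨ρ, hρ⟩ := h10fw_root_closed ψ (IsLocalRing.maximalIdeal V₁) hfrac' n hn
    ⟨x⁻¹, hxi⟩ b₀ hr
  have hρ' : V₁.valuation (x⁻¹ - φ ρ) < 1 := (hmem _).mp hρ
  have hρx : V₁.valuation (φ ρ * x - 1) < 1 := by
    have : φ ρ * x - 1 = -(x⁻¹ - φ ρ) * x := by field_simp; ring
    rw [this, Valuation.map_mul, Valuation.map_neg, hvx, mul_one]
    exact hρ'
  -- `ρ` is a unit of `B`: `ρ^n ≡ b₀` modulo `P ⊆ 𝔪_B`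
  have hPle : (IsLocalRing.maximalIdeal V₁).comap ψ ≤ IsLocalRing.maximalIdeal B := by
    apply IsLocalRing.le_maximalIdeal
    intro htop
    have : (1 : B) ∈ (IsLocalRing.maximalIdeal V₁).comap ψ := by rw [htop]; trivial
    rw [Ideal.mem_comap, map_one] at this
    exact (IsLocalRing.maximalIdeal.isMaximal V₁).ne_top
      ((Ideal.eq_top_iff_one _).mpr this)
  have h2 : ρ ^ n - b₀ ∈ (IsLocalRing.maximalIdeal V₁).comap ψ := by
    rw [Ideal.mem_comap, map_sub, map_pow, ← Ideal.Quotient.eq, map_pow]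
    have e1 := Ideal.Quotient.eq.mpr hρ
    have e2 := Ideal.Quotient.eq.mpr hr
    rw [map_pow] at e2
    rw [← e1, e2]
  have hb₀u : IsUnit b₀ := by
    obtain ⟨b₁, hb₁⟩ := hb'
    refine IsUnit.of_mul_eq_one b₁ (hφ ?_)
    rw [map_mul, hb₁, map_one, mul_inv_cancel₀ hb0]
  have hρn : IsUnit (ρ ^ n) := by
    by_contra h
    have h1 : ρ ^ n ∈ IsLocalRing.maximalIdeal B := (IsLocalRing.mem_maximalIdeal _).mpr h
    have h3 : b₀ ∈ IsLocalRing.maximalIdeal B := by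
      have := (IsLocalRing.maximalIdeal B).sub_mem h1 (hPle h2)
      rwa [sub_sub_cancel] at this
    exact ((IsLocalRing.mem_maximalIdeal _).mp h3) hb₀u
  have hρu : IsUnit ρ := (isUnit_pow_iff hn.ne').mp hρn
  obtain ⟨ρu, rfl⟩ := hρu
  refine ⟨φ ρu, ⟨_, rfl⟩, ⟨((ρu⁻¹ : Bˣ) : B), ?_⟩, hρx⟩
  have h1 : φ (ρu : B) * φ ((ρu⁻¹ : Bˣ) : B) = 1 := by
    rw [← map_mul, Units.mul_inv, map_one]
  exact eq_inv_of_mul_eq_one_right h1

end Val

end H10FW
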