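import Mathlib
import Fermat.Agent.S18.TBase_helper19
import Fermat.Agent.S34.LocNodeAsm_helper9
import Fermat.Agent.S35.FWLocNodeDefs_helper13
import Fermat.Agent.S35.FWReg_helper10

/-!
# Item 84 (S35), block FW, slice FW-LOC-NODE (helper1): proof of `H13LN.NodeBridgeStatement`

At a node `𝔫` of the chart `t` the two branches `P₁, P₂` of `H4S34.NodeAt` are the centres
`𝔮_i = {y ∈ M₀ | V_i.valuation y < 1}` of the two valuation rings of `H1FW.TwoComp`:

* `𝔮₁ ∩ 𝔮₂ = ϖ M₀` (`hm` + saturation `h19_lemmaU`), so every prime containing `ϖ` contains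
  `𝔮₁` or `𝔮₂`;
* `P₁ ∩ P₂ ⊆ ϖ B_𝔫 ∩ M₀ ⊆ 𝔮_i` whenever `𝔮_i ⊆ 𝔫`, so `P₁ ⊆ 𝔮_i` or `P₂ ⊆ 𝔮_i`;
* `P₁`, `P₂` are incomparable (transversality + uniformizers);
* `V_i = (M₀)_{𝔮_i}`: every `r ∈ V_i` is `a / s`, `s ∉ 𝔮_i` (comaximality + Gauss units).
-/

set_option autoImplicit false
set_option linter.unusedSectionVars false
set_option linter.unusedVariables false
set_option linter.style.haveILetI false
set_option synthInstance.maxHeartbeats 400000

noncomputable section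

open Polynomial IntermediateField AlgebraicCurve H7S18 H4S34 H19S18

namespace H1FW

/-- `NodeData` is symmetric in the two branches. -/
theorem nodeData_symm {M : Type*} [CommRing M] {𝔫 : Ideal M} {ϖ : M} {P₁ P₂ : Ideal M}
    (h : H9LNC.NodeData 𝔫 ϖ P₁ P₂) : H9LNC.NodeData 𝔫 ϖ P₂ P₁ := by
  obtain ⟨a, a', s, s', j, hj, hs, hs', ha, ha', haa⟩ := h.vert
  refine ⟨h.prime2, h.prime1, h.le2, h.le1, h.pi2, h.pi1, fun y h2 h1 => h.inter y h1 h2, ?_,
    h.unif2, h.unif1, ⟨a', a, s', s, j, hj, hs', hs, ha', ha, ?_⟩⟩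
  · intro y hy
    obtain ⟨s₀, hs₀, h₀⟩ := h.sup y hy
    exact ⟨s₀, hs₀, by rwa [sup_comm]⟩
  · rw [mul_comm a' a, haa, mul_comm s s']

section Val

variable {F : Type} [Field F]

theorem val_eq_one_of_not_lt (V : ValuationSubring F) {x : F} (hx : x ∈ V)
    (h : ¬ V.valuation x < 1) : V.valuation x = 1 :=
  le_antisymm ((V.valuation_le_one_iff x).mpr hx) (not_lt.mp h)

end Val

section Bridge

variable (R : Type) [CommRing R] [IsDomain R] [IsDiscreteValuationRing R]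
  (K : Type) [Field K] [CharZero K] [Algebra R K] [IsFractionRing R K]
  {F : Type} [Field F] [Algebra K F] [Algebra R F] [IsScalarTower R K F]

/-- a Gauss unit is a unit of every valuation ring containing `O`. -/
theorem gaussUnit_val {ϖ : R} (hϖ : Irreducible ϖ) {t : F} (htR : Transcendental R t)
    (V : ValuationSubring F) (hO : ∀ x : F, GInt R ϖ t x → x ∈ V) {g : F}
    (hg : IsGaussUnit R ϖ t g) : V.valuation g = 1 := by
  have hg0 : g ≠ 0 := by
    intro h0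
    apply hg.2 0 (Subalgebra.zero_mem _)
    rw [h0, mul_zero]
  have h1 : GInt R ϖ t g := h19_gint_of_isInt R htR hϖ (h19_mem_T_isInt R t hg.1)
  have h2 : GInt R ϖ t g⁻¹ := by
    refine ⟨g, hg, ?_⟩
    rw [mul_inv_cancel₀ hg0]
    have := h19_isInt_algebraMap R t (1 : R)
    rwa [map_one] at this
  have h3 : V.valuation g ≤ 1 := (V.valuation_le_one_iff _).mpr (hO _ h1)
  have h4 : V.valuation g⁻¹ ≤ 1 := (V.valuation_le_one_iff _).mpr (hO _ h2)
  rw [map_inv₀] at h4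
  have h5 : V.valuation g ≠ 0 := by rwa [Ne, Valuation.zero_iff]
  exact le_antisymm h3 ((inv_le_one₀ (zero_lt_iff.mpr h5)).mp h4)

/-- `V = (M₀)_𝔮`: every element of `V` is a fraction of elements of the chart ring with
denominator a unit of `V`. -/
theorem frac_of_cop {ϖ : R} (hϖ : Irreducible ϖ) {t : F} (htR : Transcendental R t)
    (V V' : ValuationSubring F) (hO : ∀ x : F, GInt R ϖ t x ↔ x ∈ V ∧ x ∈ V')
    {e : F} (he : V.valuation e < 1) (he' : V'.valuation (e - 1) < 1)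
    (r : F) (hr : r ∈ V) :
    ∃ a s : Chart R t, ¬ V.valuation (s : F) < 1 ∧ (s : F) * r = (a : F) := by
  -- first in `O`
  obtain ⟨a', s', ha', hs', hs'1, e1⟩ : ∃ a' s' : F, GInt R ϖ t a' ∧ GInt R ϖ t s' ∧
      V.valuation s' = 1 ∧ s' * r = a' := by
    by_cases hr' : r ∈ V'
    · refine ⟨r, 1, (hO r).mpr ⟨hr, hr'⟩, (hO 1).mpr ⟨V.one_mem, V'.one_mem⟩, ?_, one_mul r⟩
      exact Valuation.map_one _
    · have hr1 : V.valuation r ≤ 1 := (V.valuation_le_one_iff _).mpr hr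
      have hr2 : 1 < V'.valuation r := by
        rw [← not_le]; intro h; exact hr' ((V'.valuation_le_one_iff _).mp h)
      have hve' : V'.valuation e = 1 := H10FW.h10fw_val_one_of_lt V' he'
      have her1 : V.valuation (e * r) < 1 := by
        rw [Valuation.map_mul]
        calc V.valuation e * V.valuation r ≤ V.valuation e * 1 := by gcongr
          _ < 1 := by rw [mul_one]; exact he
      have h1 : V.valuation (1 + e * r) = 1 := by
        have := Valuation.map_add_eq_of_lt_left V.valuation (x := (1 : F)) (y := e * r)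
          (by rw [Valuation.map_one]; exact her1)
        rwa [Valuation.map_one] at this
      have her2 : V'.valuation (e * r) = V'.valuation r := by
        rw [Valuation.map_mul, hve', one_mul]
      have h2 : V'.valuation (1 + e * r) = V'.valuation r := by
        have := Valuation.map_add_eq_of_lt_right V'.valuation (x := (1 : F)) (y := e * r)
          (by rw [Valuation.map_one, her2]; exact hr2)
        rw [this, her2]
      have hr0 : V'.valuation r ≠ 0 := by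
        intro h0; rw [h0] at hr2; exact not_lt.mpr zero_le_one hr2
      refine ⟨(1 + e * r)⁻¹ * r, (1 + e * r)⁻¹, (hO _).mpr ⟨?_, ?_⟩, (hO _).mpr ⟨?_, ?_⟩, ?_, rfl⟩
      · rw [← V.valuation_le_one_iff, Valuation.map_mul, map_inv₀, h1, inv_one, one_mul]
        exact hr1
      · rw [← V'.valuation_le_one_iff, Valuation.map_mul, map_inv₀, h2, inv_mul_cancel₀ hr0]
      · rw [← V.valuation_le_one_iff, map_inv₀, h1, inv_one]
      · rw [← V'.valuation_le_one_iff, map_inv₀, h2]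
        exact (inv_le_one₀ (zero_lt_iff.mpr hr0)).mpr hr2.le
      · rw [map_inv₀, h1, inv_one]
  -- then in the chart ring
  obtain ⟨g₁, hg₁, hi₁⟩ := hs'
  obtain ⟨g₂, hg₂, hi₂⟩ := ha'
  have hOV : ∀ x : F, GInt R ϖ t x → x ∈ V := fun x hx => ((hO x).mp hx).1
  have hv₁ := gaussUnit_val R hϖ htR V hOV hg₁
  have hv₂ := gaussUnit_val R hϖ htR V hOV hg₂
  have hg₂i : IsInt R t g₂ := h19_mem_T_isInt R t hg₂.1
  have hg₁i : IsInt R t g₁ := h19_mem_T_isInt R t hg₁.1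
  refine ⟨⟨g₁ * (g₂ * a'), h19_isInt_mul R t hg₁i hi₂⟩, ⟨g₂ * (g₁ * s'), h19_isInt_mul R t hg₂i hi₁⟩,
    ?_, ?_⟩
  · change ¬ V.valuation (g₂ * (g₁ * s')) < 1
    rw [Valuation.map_mul, Valuation.map_mul, hv₁, hv₂, hs'1, one_mul, one_mul]
    exact lt_irrefl _
  · change g₂ * (g₁ * s') * r = g₁ * (g₂ * a')
    rw [← e1]; ring

/-- the matching of one branch. -/
theorem match_aux {ϖ : R} (hϖ : Irreducible ϖ) {t : F} (htR : Transcendental R t)
    (V V' : ValuationSubring F)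
    (hMV : ∀ y : Chart R t, (y : F) ∈ V) (hMV' : ∀ y : Chart R t, (y : F) ∈ V')
    (hϖV : V.valuation (algebraMap R F ϖ) < 1) (hϖV' : V'.valuation (algebraMap R F ϖ) < 1)
    {𝔫 : Ideal (Chart R t)} {ϖM : Chart R t} (hϖM : (ϖM : F) = algebraMap R F ϖ)
    {P₁ P₂ : Ideal (Chart R t)} (hN : H9LNC.NodeData 𝔫 ϖM P₁ P₂)
    (hinter : ∀ y : Chart R t, V.valuation (y : F) < 1 → V'.valuation (y : F) < 1 →
      ∃ z : Chart R t, y = ϖM * z)
    (hQ : ∀ y : Chart R t, V.valuation (y : F) < 1 → y ∈ P₁) :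
    (∀ y : Chart R t, y ∈ P₁ ↔ V.valuation (y : F) < 1) ∧
      (∀ y : Chart R t, y ∈ P₂ ↔ V'.valuation (y : F) < 1) := by
  haveI := hN.prime1
  haveI := hN.prime2
  have hle : ∀ (W : ValuationSubring F) (hW : ∀ y : Chart R t, (y : F) ∈ W) (y : Chart R t),
      W.valuation (y : F) ≤ 1 := fun W hW y => (W.valuation_le_one_iff _).mpr (hW y)
  -- incomparability
  have hinc : ∀ {Q₁ Q₂ : Ideal (Chart R t)}, H9LNC.NodeData 𝔫 ϖM Q₁ Q₂ → ¬ Q₂ ≤ Q₁ := by
    intro Q₁ Q₂ hD h21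
    haveI := hD.prime1
    obtain ⟨x, hx𝔫, hxQ, -⟩ := hD.unif1
    obtain ⟨s, hs, hsx⟩ := hD.sup x hx𝔫
    rw [sup_eq_left.mpr h21] at hsx
    rcases hD.prime1.mem_or_mem hsx with h | h
    · exact hs (hD.le1 h)
    · exact hxQ h
  have h12 : ¬ P₂ ≤ P₁ := hinc hN
  have h21 : ¬ P₁ ≤ P₂ := hinc (nodeData_symm hN)
  -- `P₁ ∩ P₂ ⊆ 𝔮_W` if `𝔮_W ⊆ 𝔫`
  have hcap : ∀ (W : ValuationSubring F) (hW : ∀ y : Chart R t, (y : F) ∈ W)
      (hϖW : W.valuation (algebraMap R F ϖ) < 1)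
      (hW𝔫 : ∀ y : Chart R t, W.valuation (y : F) < 1 → y ∈ 𝔫) (y : Chart R t),
      y ∈ P₁ → y ∈ P₂ → W.valuation (y : F) < 1 := by
    intro W hW hϖW hW𝔫 y h1 h2
    obtain ⟨a, s, hs, hsa⟩ := hN.inter y h1 h2
    have hs1 : W.valuation (s : F) = 1 :=
      val_eq_one_of_not_lt W (hW s) (fun h => hs (hW𝔫 s h))
    have e : (s : F) * (y : F) = (a : F) * algebraMap R F ϖ := by
      have := congrArg (fun z : Chart R t => (z : F)) hsa
      simpa [hϖM] using this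
    have : W.valuation ((s : F) * (y : F)) < 1 := by
      rw [e, Valuation.map_mul]
      calc W.valuation (a : F) * W.valuation (algebraMap R F ϖ)
          ≤ 1 * W.valuation (algebraMap R F ϖ) := by
            gcongr
            exact hle W hW a
        _ < 1 := by rw [one_mul]; exact hϖW
    rwa [Valuation.map_mul, hs1, one_mul] at this
  -- `P₁ ⊆ 𝔮_W` or `P₂ ⊆ 𝔮_W`
  have hor : ∀ (W : ValuationSubring F) (hW : ∀ y : Chart R t, (y : F) ∈ W)
      (hϖW : W.valuation (algebraMap R F ϖ) < 1)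
      (hW𝔫 : ∀ y : Chart R t, W.valuation (y : F) < 1 → y ∈ 𝔫),
      (∀ y ∈ P₁, W.valuation ((y : Chart R t) : F) < 1) ∨
        (∀ y ∈ P₂, W.valuation ((y : Chart R t) : F) < 1) := by
    intro W hW hϖW hW𝔫
    by_contra hcon
    rw [not_or] at hcon
    obtain ⟨hc1, hc2⟩ := hcon
    push_neg at hc1 hc2
    obtain ⟨a, ha, ha1⟩ := hc1
    obtain ⟨b, hb, hb1⟩ := hc2
    have hab := hcap W hW hϖW hW𝔫 (a * b) (P₁.mul_mem_right _ ha) (P₂.mul_mem_left _ hb)
    have ha1' : W.valuation (a : F) = 1 := le_antisymm (hle W hW a) ha1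
    have hb1' : W.valuation (b : F) = 1 := le_antisymm (hle W hW b) hb1
    rw [Subalgebra.coe_mul, Valuation.map_mul, ha1', hb1', one_mul] at hab
    exact lt_irrefl _ hab
  -- every prime containing `ϖ` contains `𝔮_V` or `𝔮_V'`
  have hQor : ∀ (P : Ideal (Chart R t)), P.IsPrime → ϖM ∈ P →
      (∀ y : Chart R t, V.valuation (y : F) < 1 → y ∈ P) ∨
        (∀ y : Chart R t, V'.valuation (y : F) < 1 → y ∈ P) := by
    intro P hP hϖP
    by_contra hcon
    rw [not_or] at hcon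
    obtain ⟨hc1, hc2⟩ := hcon
    push_neg at hc1 hc2
    obtain ⟨a, ha, haP⟩ := hc1
    obtain ⟨b, hb, hbP⟩ := hc2
    have h1 : V.valuation ((a * b : Chart R t) : F) < 1 := by
      rw [Subalgebra.coe_mul, Valuation.map_mul]
      calc V.valuation (a : F) * V.valuation (b : F) ≤ V.valuation (a : F) * 1 := by
            gcongr
            exact hle V hMV b
        _ < 1 := by rw [mul_one]; exact ha
    have h2 : V'.valuation ((a * b : Chart R t) : F) < 1 := by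
      rw [Subalgebra.coe_mul, Valuation.map_mul]
      calc V'.valuation (a : F) * V'.valuation (b : F) ≤ 1 * V'.valuation (b : F) := by
            gcongr
            exact hle V' hMV' a
        _ < 1 := by rw [one_mul]; exact hb
    obtain ⟨z, hz⟩ := hinter (a * b) h1 h2
    have : a * b ∈ P := by rw [hz]; exact P.mul_mem_right _ hϖP
    rcases hP.mem_or_mem this with h | h
    · exact haP h
    · exact hbP h
  -- `P₁ = 𝔮_V`
  have hQ𝔫 : ∀ y : Chart R t, V.valuation (y : F) < 1 → y ∈ 𝔫 := fun y hy => hN.le1 (hQ y hy)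
  have hP1 : ∀ y ∈ P₁, V.valuation ((y : Chart R t) : F) < 1 := by
    rcases hor V hMV hϖV hQ𝔫 with h | h
    · exact h
    · exfalso
      exact h12 (fun y hy => hQ y (h y hy))
  -- `𝔮_V' ⊆ P₂`
  have hQ' : ∀ y : Chart R t, V'.valuation (y : F) < 1 → y ∈ P₂ := by
    rcases hQor P₂ hN.prime2 hN.pi2 with h | h
    · exfalso
      exact h21 (fun y hy => h y (hP1 y hy))
    · exact h
  have hQ'𝔫 : ∀ y : Chart R t, V'.valuation (y : F) < 1 → y ∈ 𝔫 := fun y hy => hN.le2 (hQ' y hy)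
  have hP2 : ∀ y ∈ P₂, V'.valuation ((y : Chart R t) : F) < 1 := by
    rcases hor V' hMV' hϖV' hQ'𝔫 with h | h
    · exfalso
      exact h21 (fun y hy => hQ' y (h y hy))
    · exact h
  exact ⟨fun y => ⟨hP1 y, hQ y⟩, fun y => ⟨hP2 y, hQ' y⟩⟩

end Bridge

/-- **(BR)** the bridge at a node. -/
theorem nodeBridgeStatement : H13LN.NodeBridgeStatement := by
  intro R _ _ _ K _ _ _ _ F _ _ _ _ ϖ hϖ t ht hfin V₁ V₂ hTC 𝔫 h𝔫 hNode
  obtain ⟨hO, hm, ⟨e, he1, he2⟩, harch₁, harch₂⟩ := hTC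
  have htR : Transcendental R t := h19_transc R K ht
  have hinjR : Function.Injective (algebraMap R F) := h19_algebraMap_injective R K
  have hϖF : algebraMap R F ϖ ≠ 0 := fun h0 => hϖ.ne_zero (hinjR (by rw [h0, map_zero]))
  have hGM : ∀ y : Chart R t, GInt R ϖ t (y : F) := fun y => h19_gint_of_isInt R htR hϖ y.2
  have hMV₁ : ∀ y : Chart R t, (y : F) ∈ V₁ := fun y => ((hO _).mp (hGM y)).1
  have hMV₂ : ∀ y : Chart R t, (y : F) ∈ V₂ := fun y => ((hO _).mp (hGM y)).2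
  let ϖM : Chart R t := ⟨algebraMap R F ϖ, h19_isInt_algebraMap R t ϖ⟩
  have hϖM : (ϖM : F) = algebraMap R F ϖ := rfl
  -- `ϖ ∈ 𝔪(V_i)`
  have hπ : ∀ (W : ValuationSubring F), (algebraMap R F ϖ) ∈ W →
      (∃ m : ℕ, W.valuation (algebraMap R F ϖ ^ m * 1) < 1) →
      W.valuation (algebraMap R F ϖ) < 1 := by
    intro W hW ⟨m, hm'⟩
    rw [mul_one, Valuation.map_pow] at hm'
    by_contra hcon
    have h1 : W.valuation (algebraMap R F ϖ) = 1 := val_eq_one_of_not_lt W hW hcon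
    rw [h1, one_pow] at hm'
    exact lt_irrefl _ hm'
  have hϖ₁ : V₁.valuation (algebraMap R F ϖ) < 1 := hπ V₁ (hMV₁ ϖM) (harch₁ 1)
  have hϖ₂ : V₂.valuation (algebraMap R F ϖ) < 1 := hπ V₂ (hMV₂ ϖM) (harch₂ 1)
  -- `𝔮₁ ∩ 𝔮₂ ⊆ ϖ M₀`
  have hinter : ∀ y : Chart R t, V₁.valuation (y : F) < 1 → V₂.valuation (y : F) < 1 →
      ∃ z : Chart R t, y = ϖM * z := by
    intro y h1 h2
    obtain ⟨z, hz, hyz⟩ := hm _ h1 h2
    rw [sub_zero] at hyz
    have hzi : IsInt R t z := h19_lemmaU R htR hϖ hz (by rw [← hyz]; exact y.2)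
    exact ⟨⟨z, hzi⟩, Subtype.ext hyz⟩
  obtain ⟨P₁, P₂, hND⟩ := H9LNC.nodeData_of_nodeAt R ϖ hϖF t 𝔫 ϖM hϖM hNode
  haveI := hND.prime1
  -- which branch is `V₁`?
  have hcase : (∀ y : Chart R t, V₁.valuation (y : F) < 1 → y ∈ P₁) ∨
      (∀ y : Chart R t, V₂.valuation (y : F) < 1 → y ∈ P₁) := by
    by_contra hcon
    rw [not_or] at hcon
    obtain ⟨hc1, hc2⟩ := hcon
    push_neg at hc1 hc2
    obtain ⟨a, ha, haP⟩ := hc1
    obtain ⟨b, hb, hbP⟩ := hc2
    have h1 : V₁.valuation ((a * b : Chart R t) : F) < 1 := by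
      rw [Subalgebra.coe_mul, Valuation.map_mul]
      calc V₁.valuation (a : F) * V₁.valuation (b : F) ≤ V₁.valuation (a : F) * 1 := by
            gcongr
            exact (V₁.valuation_le_one_iff _).mpr (hMV₁ b)
        _ < 1 := by rw [mul_one]; exact ha
    have h2 : V₂.valuation ((a * b : Chart R t) : F) < 1 := by
      rw [Subalgebra.coe_mul, Valuation.map_mul]
      calc V₂.valuation (a : F) * V₂.valuation (b : F) ≤ 1 * V₂.valuation (b : F) := by
            gcongr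
            exact (V₂.valuation_le_one_iff _).mpr (hMV₂ a)
        _ < 1 := by rw [one_mul]; exact hb
    obtain ⟨z, hz⟩ := hinter (a * b) h1 h2
    have : a * b ∈ P₁ := by rw [hz]; exact P₁.mul_mem_right _ hND.pi1
    rcases hND.prime1.mem_or_mem this with h | h
    · exact haP h
    · exact hbP h
  -- the common part
  have hfin' : ∀ (Q₁ Q₂ : Ideal (Chart R t)), H9LNC.NodeData 𝔫 ϖM Q₁ Q₂ →
      (∀ y : Chart R t, y ∈ Q₁ ↔ V₁.valuation (y : F) < 1) →
      (∀ y : Chart R t, y ∈ Q₂ ↔ V₂.valuation (y : F) < 1) →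
      ∃ (ϖM : Chart R t) (P₁ P₂ : Ideal (Chart R t)), (ϖM : F) = algebraMap R F ϖ ∧
        H9LNC.NodeData 𝔫 ϖM P₁ P₂ ∧
        (∀ y : Chart R t, y ∈ P₁ ↔ V₁.valuation (y : F) < 1) ∧
        (∀ y : Chart R t, y ∈ P₂ ↔ V₂.valuation (y : F) < 1) ∧
        (∀ x : F, InLoc R t 𝔫 x → x ∈ V₁ ∧ x ∈ V₂) ∧
        (∀ r : F, r ∈ V₁ → ∃ a s : Chart R t, s ∉ P₁ ∧ (s : F) * r = (a : F)) ∧
        (∀ r : F, r ∈ V₂ → ∃ a s : Chart R t, s ∉ P₂ ∧ (s : F) * r = (a : F)) := by
    intro Q₁ Q₂ hD h1 h2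
    refine ⟨ϖM, Q₁, Q₂, hϖM, hD, h1, h2, ?_, ?_, ?_⟩
    · rintro x ⟨a, s, hs, hsa⟩
      have hs1 : V₁.valuation (s : F) = 1 :=
        val_eq_one_of_not_lt V₁ (hMV₁ s) (fun h => hs (hD.le1 ((h1 s).mpr h)))
      have hs2 : V₂.valuation (s : F) = 1 :=
        val_eq_one_of_not_lt V₂ (hMV₂ s) (fun h => hs (hD.le2 ((h2 s).mpr h)))
      constructor
      · rw [← V₁.valuation_le_one_iff]
        have : V₁.valuation ((s : F) * x) ≤ 1 := by
          rw [hsa]; exact (V₁.valuation_le_one_iff _).mpr (hMV₁ a)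
        rwa [Valuation.map_mul, hs1, one_mul] at this
      · rw [← V₂.valuation_le_one_iff]
        have : V₂.valuation ((s : F) * x) ≤ 1 := by
          rw [hsa]; exact (V₂.valuation_le_one_iff _).mpr (hMV₂ a)
        rwa [Valuation.map_mul, hs2, one_mul] at this
    · intro r hr
      obtain ⟨a, s, hs, hsa⟩ := frac_of_cop R hϖ htR V₁ V₂ hO he1 he2 r hr
      exact ⟨a, s, fun h => hs ((h1 s).mp h), hsa⟩
    · intro r hr
      have he1' : V₂.valuation (1 - e) < 1 := by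
        rw [← Valuation.map_neg, neg_sub]; exact he2
      have he2' : V₁.valuation ((1 - e) - 1) < 1 := by
        have : (1 - e) - 1 = -e := by ring
        rw [this, Valuation.map_neg]; exact he1
      obtain ⟨a, s, hs, hsa⟩ := frac_of_cop R hϖ htR V₂ V₁
        (fun x => (hO x).trans and_comm) he1' he2' r hr
      exact ⟨a, s, fun h => hs ((h2 s).mp h), hsa⟩
  rcases hcase with hc | hc
  · obtain ⟨h1, h2⟩ := match_aux R hϖ htR V₁ V₂ hMV₁ hMV₂ hϖ₁ hϖ₂ hϖM hND hinter hc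
    exact hfin' P₁ P₂ hND h1 h2
  · obtain ⟨h1, h2⟩ := match_aux R hϖ htR V₂ V₁ hMV₂ hMV₁ hϖ₂ hϖ₁ hϖM hND
      (fun y h2 h1 => hinter y h1 h2) hc
    exact hfin' P₂ P₁ (nodeData_symm hND) h2 h1

end H1FW

end
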