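import Mathlib
import Fermat.Agent.S34.LocNodeFinal_helper9
import Fermat.Agent.S34.LNCAsm_helper22
import Fermat.Agent.S35.NodeBridge_helper1

/-!
# Item 84 (S35), block FW, slice FW-LOC-NODE, part LNC (c) (helper13)

`H13LN.lnccStatement : H13LN.LNCcStatement`: at a node `𝔫` (local equation `x y = ϖ^k`), a
function `u` with `n ∣ div u`, rational support, and toric on one branch (`u ≡ ψ₁ⁿ` at `V₁`,
`ψ₁` a unit at `V₁`) is `ε zⁿ` with `ε ∈ B_𝔫ˣ`.

The local class group of the node is `ℤ / k`; the toric hypothesis says that the reduction of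
`u / ψ₁ⁿ` on the branch `P₁` has order `0` at the node, which kills the class of the horizontal
divisor `(1/n) div u` (helper22's `H22LNC.h22lnc_core`).  The horizontal hypotheses of the core
come from helper9's sections (`H9LNC.IsNode.section_unif`) and helper25's places of horizontal
primes (`H25KR.placeOf`), the bridge `P₁ = centre of V₁` from helper1's
`H1FW.nodeBridgeStatement`.
-/

set_option autoImplicit false
set_option linter.style.haveILetI false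
set_option linter.unusedSectionVars false
set_option linter.unusedVariables false
set_option synthInstance.maxHeartbeats 400000

open IsLocalRing AlgebraicCurve H4S34

namespace H13LN

section generic

variable {R : Type*} [CommRing R] [IsDomain R] [IsDiscreteValuationRing R]
  {K : Type*} [Field K] [Algebra R K] [IsFractionRing R K]
  {F : Type*} [Field F] [Algebra K F] [Algebra R F] [IsScalarTower R K F]
  {B : Type*} [CommRing B] [IsDomain B] [IsNoetherianRing B]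
  [Algebra B F] [IsFractionRing B F] [Algebra R B] [IsScalarTower R B F]
  [IsLocalRing B] [IsIntegrallyClosed B]

/-- **LNC (c) for an abstract local ring `B`**: a transversal node with a vertical pair, `n ∣ div f`,
rational support, and a reduction on the branch `P1` of order divisible by `n`. -/
theorem lncc_generic {ϖ : R} (hϖ : Irreducible ϖ) {P1 P2 : Ideal B}
    [hP1 : P1.IsPrime] [hP2 : P2.IsPrime] [IsDiscreteValuationRing (B ⧸ P1)]
    (h : H9LNC.IsNode (algebraMap R B ϖ) P1 P2)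
    {g g' : B} {j : ℕ} (hj : 1 ≤ j) (hgg : g * g' = (algebraMap R B ϖ) ^ j)
    (hg : g ∉ P1) (hg' : g' ∉ P2) (n : ℕ) (f : F) (hf : f ≠ 0)
    (hdiv : ∀ V : Place K F, (n : ℤ) ∣ V.ord f)
    (hrat : ∀ V : Place K F, V.ord f ≠ 0 → ∀ x : F, 0 ≤ V.ord x →
      ∃ c : K, x = algebraMap K F c ∨ 0 < V.ord (x - algebraMap K F c))
    (hred : ∃ (w : F) (e : ℤ), w ≠ 0 ∧ H22LNC.OrdAt F P1 (f / w ^ n) e ∧ (n : ℤ) ∣ e) :
    ∃ (z : F) (v : Bˣ), f = z ^ n * algebraMap B F v := by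
  have hπm : algebraMap R B ϖ ∈ maximalIdeal B := h.left_le h.pi_mem_left
  have hπ0 : algebraMap R B ϖ ≠ 0 := h.pi_ne_zero hj hgg hg hg'
  obtain ⟨k, x, y, u, hk1, hkj, hxP, hyP, hu, hxy, hx, hy⟩ := h.structure hj hgg hg hg'
  refine H22LNC.h22lnc_core h.span_eq hπ0 h.symm.not_le h.not_le hu hxy hx hf hred ?_
  intro Q hQ hht hπQ hnu
  haveI := hQ
  obtain ⟨a, u', ha0, hlp⟩ := H9LNC.isLocPrincipal_of_height_one Q hht
  have hK : ∀ k : K, algebraMap K F k ∈ H25KR.valSub F Q hlp :=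
    H9LNC.algebraMap_mem_valSub_of_horizontal hϖ hlp hπQ
  obtain ⟨z, c, s, hz0, hc, hs, hfs⟩ :=
    H25KR.exists_unit_mul_pow_of_dvd_ord hlp ha0 hK hf (hdiv (H25KR.placeOf hlp K ha0 hK))
  have hord : (H25KR.placeOf hlp K ha0 hK).ord f ≠ 0 := by
    intro h0
    have hdvd : ((0 : ℕ) : ℤ) ∣ (H25KR.placeOf hlp K ha0 hK).ord f := by
      rw [h0]; exact dvd_zero _
    obtain ⟨z, c, s, hz0, hc, hs, hfs⟩ :=
      H25KR.exists_unit_mul_pow_of_dvd_ord hlp ha0 hK hf hdvd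
    rw [pow_zero, mul_one] at hfs
    exact hnu ⟨c, s, hc, hs, hfs⟩
  have hsec : Q ⊔ Ideal.span {algebraMap R B ϖ} = maximalIdeal B :=
    H9LNC.section_of_rational hϖ hπm hlp ha0 hK (hrat _ hord)
  obtain ⟨z', hz'Q, hgen, huniq, hz1, hzP2, hzP1, -⟩ :=
    h.section_unif hk1 hxP hyP hu hxy hx hy Q hπQ hsec
  have hz'0 : z' ≠ 0 := fun h0 => hzP1 (h0 ▸ P1.zero_mem)
  refine ⟨⟨z, hz0, c, s, hc, hs, ?_⟩, z', ⟨hz'Q, hz'0, hgen⟩, huniq, hz1⟩
  have hzn : z ^ n ≠ 0 := pow_ne_zero n hz0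
  rw [div_mul_eq_mul_div, hfs]
  field_simp

end generic

end H13LN

namespace H13LN

/-- **LNC (c), modulo the bridge**: for any model `B` of `(M₀)_𝔫` with the bridge instances;
the toric hypothesis in the form `u / wⁿ = a₀ / s₀`, `s₀ ∉ P₁`, `a₀ ≡ s₀ mod P₁`. -/
theorem lncc_of_bridge
    (R : Type) [CommRing R] [IsDomain R] [IsDiscreteValuationRing R]
    (K : Type) [Field K] [Algebra R K] [IsFractionRing R K]
    (F : Type) [Field F] [Algebra K F] [Algebra R F] [IsScalarTower R K F]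
    (ϖ : R) (hϖ : Irreducible ϖ) (t : F)
    (n : ℕ) (u : F) (hu0 : u ≠ 0)
    (hdiv : ∀ V : Place K F, (n : ℤ) ∣ V.ord u)
    (hrat : ∀ V : Place K F, V.ord u ≠ 0 → ∀ x : F, 0 ≤ V.ord x →
      ∃ c : K, x = algebraMap K F c ∨ 0 < V.ord (x - algebraMap K F c))
    (𝔫 : Ideal (Chart R t)) [h𝔫 : 𝔫.IsPrime]
    (P₁ P₂ : Ideal (Chart R t)) (hND : H9LNC.NodeData 𝔫 (algebraMap R (Chart R t) ϖ) P₁ P₂)
    (w : F) (hw : w ≠ 0) (a₀ s₀ : Chart R t) (hs₀ : s₀ ∉ P₁) (hdiff : a₀ - s₀ ∈ P₁)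
    (hsa : (s₀ : F) * (u / w ^ n) = (a₀ : F))
    (B : Type) [CommRing B] [IsDomain B] [IsLocalRing B] [IsNoetherianRing B]
    [IsIntegrallyClosed B] [Algebra (Chart R t) B] [IsLocalization.AtPrime B 𝔫]
    [Algebra B F] [IsFractionRing B F] [IsScalarTower (Chart R t) B F]
    (hIn : ∀ x : F, x ∈ (algebraMap B F).range → InLoc R t 𝔫 x) :
    ∃ ε z : F, InLoc R t 𝔫 ε ∧ InLoc R t 𝔫 ε⁻¹ ∧ u = ε * z ^ n := by
  obtain ⟨hp1, hp2, hnode, g, g', j, hj, hgg, hg, hg'⟩ := H9LNC.isNode_of_nodeData 𝔫 B hND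
  letI : Algebra R B := ((algebraMap (Chart R t) B).comp (algebraMap R (Chart R t))).toAlgebra
  have hRB : ∀ r : R, algebraMap R B r = algebraMap (Chart R t) B (algebraMap R (Chart R t) r) :=
    fun _ => rfl
  haveI : IsScalarTower R B F := IsScalarTower.of_algebraMap_eq (fun r => by
    rw [hRB, ← IsScalarTower.algebraMap_apply (Chart R t) B F,
      ← IsScalarTower.algebraMap_apply R (Chart R t) F])
  haveI := hp1
  haveI := hp2
  haveI := hnode.dvr1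
  have hnode' : H9LNC.IsNode (algebraMap R B ϖ) (P₁.map (algebraMap (Chart R t) B))
      (P₂.map (algebraMap (Chart R t) B)) := hnode
  have hgg' : g * g' = (algebraMap R B ϖ) ^ j := hgg
  have hred : ∃ (w : F) (e : ℤ), w ≠ 0 ∧
      H22LNC.OrdAt F (P₁.map (algebraMap (Chart R t) B)) (u / w ^ n) e ∧ (n : ℤ) ∣ e := by
    have hsB : algebraMap (Chart R t) B s₀ ∉ P₁.map (algebraMap (Chart R t) B) := fun hmem =>
      hs₀ (H9LNC.mem_of_map_mem 𝔫 B hND.prime1 hND.le1 hmem)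
    obtain ⟨i, hi⟩ := H22LNC.exists_addVal hsB
    have hmk : Ideal.Quotient.mk (P₁.map (algebraMap (Chart R t) B))
          (algebraMap (Chart R t) B a₀)
        = Ideal.Quotient.mk (P₁.map (algebraMap (Chart R t) B))
          (algebraMap (Chart R t) B s₀) := by
      rw [Ideal.Quotient.eq, ← map_sub]
      exact Ideal.mem_map_of_mem _ hdiff
    refine ⟨w, 0, hw, ⟨algebraMap (Chart R t) B a₀, algebraMap (Chart R t) B s₀, i, i, ?_,
      by rw [hmk]; exact hi, hi, by simp⟩, dvd_zero _⟩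
    rw [← IsScalarTower.algebraMap_apply (Chart R t) B F,
      ← IsScalarTower.algebraMap_apply (Chart R t) B F]
    change u / w ^ n * (s₀ : F) = (a₀ : F)
    rw [← hsa]; ring
  obtain ⟨z, v, huv⟩ :=
    lncc_generic (K := K) hϖ hnode' hj hgg' hg hg' n u hu0 hdiv hrat hred
  refine ⟨algebraMap B F v, z, hIn _ ⟨v, rfl⟩, hIn _ ⟨((v⁻¹ : Bˣ) : B), ?_⟩,
    by rw [huv, mul_comm]⟩
  rw [← map_units_inv]

/-- **LNC (c)** (`H13LN.LNCcStatement`). -/
theorem lnccStatement : LNCcStatement := by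
  intro R _ _ _ K _ _ _ _ F _ _ _ _ ϖ hϖ t ht hfin n hn V₁ V₂ hTC u ψ₁ hψ₁ hone hdiv hrat 𝔫 h𝔫 hN
  haveI : 𝔫.IsPrime := h𝔫.1.isPrime
  haveI := hfin
  obtain ⟨ϖM, P₁, P₂, hϖM, hND, hP₁, hP₂, hBO, hfr₁, hfr₂⟩ :=
    H1FW.nodeBridgeStatement R K F ϖ hϖ t ht hfin V₁ V₂ hTC 𝔫 h𝔫 hN
  have htR : Transcendental R t := H19S18.h19_transc R K ht
  have hMV₁ : ∀ y : Chart R t, (y : F) ∈ V₁ := fun y =>
    ((hTC.1 _).mp (H19S18.h19_gint_of_isInt R htR hϖ y.2)).1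
  have hϖM' : ϖM = algebraMap R (Chart R t) ϖ := Subtype.ext hϖM
  subst hϖM'
  -- the toric hypothesis
  have hval1 : V₁.valuation (u * (ψ₁ ^ n)⁻¹) = 1 := H10FW.h10fw_val_one_of_lt V₁ hone
  have ht0 : u * (ψ₁ ^ n)⁻¹ ≠ 0 := H10FW.h10fw_ne_zero_of_lt V₁ hone
  have hu0 : u ≠ 0 := left_ne_zero_of_mul ht0
  have hψ0 : ψ₁ ≠ 0 := by
    rintro rfl
    rw [Valuation.map_zero] at hψ₁
    exact zero_ne_one hψ₁
  obtain ⟨a₀, s₀, hs₀, hsa⟩ := hfr₁ _ ((V₁.valuation_le_one_iff _).mp hval1.le)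
  have hdiff : a₀ - s₀ ∈ P₁ := by
    rw [hP₁]
    have e1 : ((a₀ - s₀ : Chart R t) : F) = (s₀ : F) * (u * (ψ₁ ^ n)⁻¹ - 1) := by
      push_cast
      rw [← hsa]; ring
    rw [e1, Valuation.map_mul]
    exact mul_lt_one_of_nonneg_of_lt_one_right ((V₁.valuation_le_one_iff _).mpr (hMV₁ s₀))
      zero_le hone
  have hsa' : (s₀ : F) * (u / ψ₁ ^ n) = (a₀ : F) := by rw [div_eq_mul_inv]; exact hsa
  -- the model of the local ring
  haveI := H22BR.bsub_atPrime R K t 𝔫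
  haveI := H22BR.bsub_tower R K t 𝔫
  haveI := H22BR.loc_isDomain R t 𝔫 (H22BR.Bsub R K t 𝔫)
  haveI := H22BR.loc_isLocalRing R t 𝔫 (H22BR.Bsub R K t 𝔫)
  haveI := H22BR.loc_noeth R K ht 𝔫 (H22BR.Bsub R K t 𝔫)
  haveI := H22BR.loc_intClosed R K t 𝔫 (H22BR.Bsub R K t 𝔫)
  haveI := H22BR.loc_isFractionRing R K t 𝔫 (H22BR.Bsub R K t 𝔫)
  exact lncc_of_bridge R K F ϖ hϖ t n u hu0 hdiv hrat 𝔫 P₁ P₂ hND ψ₁ hψ0 a₀ s₀ hs₀ hdiff hsa'
    (H22BR.Bsub R K t 𝔫)
    (fun x hx => (H22BR.inLoc_iff R t 𝔫 (H22BR.Bsub R K t 𝔫) x).2 hx)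

end H13LN
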