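import Mathlib
import Fermat.Agent.S35.FWGenDefs_helper1
import Fermat.Agent.S35.FWReg_helper10
import Fermat.Agent.S34.KD_helper19

/-!
# Item 84 (S35), block FW, slice FW-GEN (helper1): proof of `H1FW.FWGenStatement`

* valuation calculus for `One V x` (`x ≡ 1` at `V`);
* `wa_add` : additive weak approximation for two comaximal valuation rings;
* `exists_corr` : existence of the correction `H ≡ γ ψ_i / ψ_i ^ Q` at `V_i`;
* `one_vprime` : `v' = γ u / (u ^ Q Hⁿ) ≡ 1` at `V_i`;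
* `fwGenStatement : FWGenStatement`, on helper19's Kummer descent `H19KD.h19_KD`.
-/

set_option autoImplicit false
set_option linter.unusedSectionVars false
set_option linter.unusedVariables false
set_option linter.style.haveILetI false

noncomputable section

open Polynomial IntermediateField AlgebraicCurve H7S18 H4S34 H19KD

namespace H1FW

section Val

variable {F : Type} [Field F]

theorem one_mul' (V : ValuationSubring F) {x y : F} (hx : One V x) (hy : One V y) :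
    One V (x * y) := H10FW.h10fw_mul_lt V hx hy

theorem one_inv (V : ValuationSubring F) {x : F} (hx : One V x) : One V x⁻¹ :=
  H10FW.h10fw_inv_lt V hx

theorem one_one (V : ValuationSubring F) : One V (1 : F) := by
  unfold One
  rw [sub_self, Valuation.map_zero]
  exact zero_lt_one

theorem onePow (V : ValuationSubring F) {x : F} (hx : One V x) (k : ℕ) : One V (x ^ k) := by
  induction k with
  | zero => rw [pow_zero]; exact one_one V
  | succ k ih => rw [pow_succ]; exact one_mul' V ih hx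

theorem one_ne_zero (V : ValuationSubring F) {x : F} (hx : One V x) : x ≠ 0 :=
  H10FW.h10fw_ne_zero_of_lt V hx

theorem one_val (V : ValuationSubring F) {x : F} (hx : One V x) : V.valuation x = 1 :=
  H10FW.h10fw_val_one_of_lt V hx

/-- `x ≡ y` at `V` with `y` a unit gives `x / y ≡ 1`. -/
theorem one_of_sub (V : ValuationSubring F) {x y : F} (hy : V.valuation y = 1)
    (h : V.valuation (x - y) < 1) : One V (x * y⁻¹) := by
  have hy0 : y ≠ 0 := by
    intro h0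
    rw [h0, Valuation.map_zero] at hy
    exact zero_ne_one hy
  unfold One
  have e : x * y⁻¹ - 1 = (x - y) * y⁻¹ := by field_simp
  rw [e, Valuation.map_mul, map_inv₀, hy, inv_one, mul_one]
  exact h

/-- a ring automorphism preserving `𝔪(V)` preserves `≡ 1`. -/
theorem one_map (V : ValuationSubring F) (γ : F ≃+* F)
    (hγ : ∀ x : F, V.valuation x < 1 ↔ V.valuation (γ x) < 1) {x : F} (hx : One V x) :
    One V (γ x) := by
  unfold One at hx ⊢
  have := (hγ (x - 1)).mp hx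
  rwa [map_sub, map_one] at this

/-- a ring automorphism preserving `𝔪(V)` preserves the units of `V`. -/
theorem unit_map (V : ValuationSubring F) (γ : F ≃+* F)
    (hγ : ∀ x : F, V.valuation x < 1 ↔ V.valuation (γ x) < 1) {x : F}
    (hx : V.valuation x = 1) : V.valuation (γ x) = 1 := by
  have hx0 : x ≠ 0 := by
    intro h0
    rw [h0, Valuation.map_zero] at hx
    exact zero_ne_one hx
  rcases lt_trichotomy (V.valuation (γ x)) 1 with h | h | h
  · exfalso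
    have := (hγ x).mpr h
    rw [hx] at this
    exact lt_irrefl _ this
  · exact h
  · exfalso
    have h1 : V.valuation (γ x⁻¹) < 1 := by
      rw [map_inv₀, map_inv₀]
      exact inv_lt_one_of_one_lt₀ h
    have := (hγ x⁻¹).mpr h1
    rw [map_inv₀, hx, inv_one] at this
    exact lt_irrefl _ this

/-- one step of weak approximation: an element of `V₁` is congruent mod `𝔪₁` to an element of
`V₁ ∩ V₂`. -/
theorem wa_step (V₁ V₂ : ValuationSubring F) {e : F} (he1 : V₁.valuation e < 1)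
    (he2 : V₂.valuation (e - 1) < 1) {y : F} (hy : V₁.valuation y ≤ 1) :
    ∃ a : F, V₁.valuation a ≤ 1 ∧ V₂.valuation a ≤ 1 ∧ V₁.valuation (a - y) < 1 := by
  by_cases hy2 : V₂.valuation y ≤ 1
  · exact ⟨y, hy, hy2, by rw [sub_self, Valuation.map_zero]; exact zero_lt_one⟩
  · have hy2' : 1 < V₂.valuation y := not_le.mp hy2
    have hy0 : y ≠ 0 := by
      intro h0
      rw [h0, Valuation.map_zero] at hy2'
      exact not_lt.mpr zero_le_one hy2'
    have hve2 : V₂.valuation e = 1 := H10FW.h10fw_val_one_of_lt V₂ he2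
    have hey1 : V₁.valuation (e * y) < 1 := by
      rw [Valuation.map_mul]
      calc V₁.valuation e * V₁.valuation y ≤ V₁.valuation e * 1 := by gcongr
        _ < 1 := by rw [mul_one]; exact he1
    have h1 : V₁.valuation (1 + e * y) = 1 := by
      have := Valuation.map_add_eq_of_lt_left V₁.valuation (x := (1 : F)) (y := e * y)
        (by rw [Valuation.map_one]; exact hey1)
      rwa [Valuation.map_one] at this
    have hey2 : V₂.valuation (e * y) = V₂.valuation y := by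
      rw [Valuation.map_mul, hve2, one_mul]
    have h2 : V₂.valuation (1 + e * y) = V₂.valuation y := by
      have := Valuation.map_add_eq_of_lt_right V₂.valuation (x := (1 : F)) (y := e * y)
        (by rw [Valuation.map_one, hey2]; exact hy2')
      rw [this, hey2]
    have hne : 1 + e * y ≠ 0 := by
      intro h0
      rw [h0, Valuation.map_zero] at h1
      exact zero_ne_one h1
    refine ⟨y * (1 + e * y)⁻¹, ?_, ?_, ?_⟩
    · rw [Valuation.map_mul, map_inv₀, h1, inv_one, mul_one]; exact hy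
    · rw [Valuation.map_mul, map_inv₀, h2, mul_inv_cancel₀]
      intro h0
      rw [h0] at hy2'
      exact not_lt.mpr zero_le_one hy2'
    · have hD : (1 + e * y) * (1 + e * y)⁻¹ = 1 := mul_inv_cancel₀ hne
      have e1 : y * (1 + e * y)⁻¹ - y = -(e * y) * y * (1 + e * y)⁻¹ := by
        linear_combination y * hD
      rw [e1, Valuation.map_mul, Valuation.map_mul, Valuation.map_neg, map_inv₀, h1, inv_one,
        mul_one]
      calc V₁.valuation (e * y) * V₁.valuation y ≤ V₁.valuation (e * y) * 1 := by gcongr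
        _ < 1 := by rw [mul_one]; exact hey1

/-- **additive weak approximation** for two comaximal valuation rings. -/
theorem wa_add (V₁ V₂ : ValuationSubring F) {e : F} (he1 : V₁.valuation e < 1)
    (he2 : V₂.valuation (e - 1) < 1) {y₁ y₂ : F} (hy₁ : V₁.valuation y₁ ≤ 1)
    (hy₂ : V₂.valuation y₂ ≤ 1) :
    ∃ H : F, V₁.valuation (H - y₁) < 1 ∧ V₂.valuation (H - y₂) < 1 := by
  obtain ⟨a₁, ha11, ha12, ha1⟩ := wa_step V₁ V₂ he1 he2 hy₁
  have he1' : V₂.valuation (1 - e) < 1 := by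
    rw [← Valuation.map_neg, neg_sub]; exact he2
  have he2' : V₁.valuation ((1 - e) - 1) < 1 := by
    have : (1 - e) - 1 = -e := by ring
    rw [this, Valuation.map_neg]; exact he1
  obtain ⟨a₂, ha22, ha21, ha2⟩ := wa_step V₂ V₁ he1' he2' hy₂
  refine ⟨a₁ * (1 - e) + a₂ * e, ?_, ?_⟩
  · have e1 : a₁ * (1 - e) + a₂ * e - y₁ = (a₁ - y₁) + (a₂ - a₁) * e := by ring
    rw [e1]
    refine lt_of_le_of_lt (Valuation.map_add _ _ _) (max_lt ha1 ?_)
    rw [Valuation.map_mul]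
    have : V₁.valuation (a₂ - a₁) ≤ 1 :=
      le_trans (Valuation.map_sub _ _ _) (max_le ha21 ha11)
    calc V₁.valuation (a₂ - a₁) * V₁.valuation e ≤ 1 * V₁.valuation e := by gcongr
      _ < 1 := by rw [one_mul]; exact he1
  · have e1 : a₁ * (1 - e) + a₂ * e - y₂ = (a₂ - y₂) + (a₁ - a₂) * (1 - e) := by ring
    rw [e1]
    refine lt_of_le_of_lt (Valuation.map_add _ _ _) (max_lt ha2 ?_)
    rw [Valuation.map_mul]
    have : V₂.valuation (a₁ - a₂) ≤ 1 :=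
      le_trans (Valuation.map_sub _ _ _) (max_le ha12 ha22)
    calc V₂.valuation (a₁ - a₂) * V₂.valuation (1 - e) ≤ 1 * V₂.valuation (1 - e) := by gcongr
      _ < 1 := by rw [one_mul]; exact he1'

/-- **existence of the correction** `H ≡ γ ψ_i / ψ_i ^ Q` at `V_i`. -/
theorem exists_corr (V₁ V₂ : ValuationSubring F) {e : F} (he1 : V₁.valuation e < 1)
    (he2 : V₂.valuation (e - 1) < 1) (γ : F ≃+* F)
    (hγ₁ : ∀ x : F, V₁.valuation x < 1 ↔ V₁.valuation (γ x) < 1)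
    (hγ₂ : ∀ x : F, V₂.valuation x < 1 ↔ V₂.valuation (γ x) < 1)
    (Q : ℕ) {ψ₁ ψ₂ : F} (h₁ : V₁.valuation ψ₁ = 1) (h₂ : V₂.valuation ψ₂ = 1) :
    ∃ H : F, One V₁ (H * ψ₁ ^ Q * (γ ψ₁)⁻¹) ∧ One V₂ (H * ψ₂ ^ Q * (γ ψ₂)⁻¹) := by
  have key : ∀ (V : ValuationSubring F) (hγ : ∀ x : F, V.valuation x < 1 ↔ V.valuation (γ x) < 1)
      (ψ : F) (hψ : V.valuation ψ = 1) (H : F),
      V.valuation (H - γ ψ * (ψ ^ Q)⁻¹) < 1 → One V (H * ψ ^ Q * (γ ψ)⁻¹) := by
    intro V hγ ψ hψ H hH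
    have hγψ : V.valuation (γ ψ) = 1 := unit_map V γ hγ hψ
    have hx : V.valuation (γ ψ * (ψ ^ Q)⁻¹) = 1 := by
      rw [Valuation.map_mul, map_inv₀, Valuation.map_pow, hψ, hγψ, one_pow, inv_one, mul_one]
    have := one_of_sub V hx hH
    have hψ0 : ψ ≠ 0 := by
      intro h0
      rw [h0, Valuation.map_zero] at hψ
      exact zero_ne_one hψ
    have e1 : H * (γ ψ * (ψ ^ Q)⁻¹)⁻¹ = H * ψ ^ Q * (γ ψ)⁻¹ := by
      rw [mul_inv, inv_inv]; ring
    rwa [e1] at this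
  have hv : ∀ (V : ValuationSubring F) (hγ : ∀ x : F, V.valuation x < 1 ↔ V.valuation (γ x) < 1)
      (ψ : F) (hψ : V.valuation ψ = 1), V.valuation (γ ψ * (ψ ^ Q)⁻¹) ≤ 1 := by
    intro V hγ ψ hψ
    rw [Valuation.map_mul, map_inv₀, Valuation.map_pow, hψ, unit_map V γ hγ hψ, one_pow, inv_one,
      mul_one]
  obtain ⟨H, hH1, hH2⟩ := wa_add V₁ V₂ he1 he2 (hv V₁ hγ₁ ψ₁ h₁) (hv V₂ hγ₂ ψ₂ h₂)
  exact ⟨H, key V₁ hγ₁ ψ₁ h₁ H hH1, key V₂ hγ₂ ψ₂ h₂ H hH2⟩

/-- `v' = γ u / (u ^ Q Hⁿ) ≡ 1` at `V`. -/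
theorem one_vprime (V : ValuationSubring F) (γ : F ≃+* F)
    (hγ : ∀ x : F, V.valuation x < 1 ↔ V.valuation (γ x) < 1)
    (n Q : ℕ) {u ψ H : F} (hψ : V.valuation ψ = 1)
    (hu : One V (u * (ψ ^ n)⁻¹)) (hH : One V (H * ψ ^ Q * (γ ψ)⁻¹)) :
    One V (γ u * (u ^ Q * H ^ n)⁻¹) := by
  have hψ0 : ψ ≠ 0 := by
    intro h0
    rw [h0, Valuation.map_zero] at hψ
    exact zero_ne_one hψ
  have hγψ0 : γ ψ ≠ 0 := by
    intro h0
    exact hψ0 ((map_eq_zero_iff γ γ.injective).mp h0)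
  have hu0 : u ≠ 0 := left_ne_zero_of_mul (one_ne_zero V hu)
  have hH0 : H ≠ 0 := left_ne_zero_of_mul (left_ne_zero_of_mul (one_ne_zero V hH))
  have h1 : One V (γ (u * (ψ ^ n)⁻¹)) := one_map V γ hγ hu
  have h2 : One V ((u * (ψ ^ n)⁻¹) ^ Q)⁻¹ := one_inv V (onePow V hu Q)
  have h3 : One V ((H * ψ ^ Q * (γ ψ)⁻¹) ^ n)⁻¹ := one_inv V (onePow V hH n)
  have h4 := one_mul' V (one_mul' V h1 h2) h3
  have e : γ (u * (ψ ^ n)⁻¹) * ((u * (ψ ^ n)⁻¹) ^ Q)⁻¹ * ((H * ψ ^ Q * (γ ψ)⁻¹) ^ n)⁻¹ =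
      γ u * (u ^ Q * H ^ n)⁻¹ := by
    rw [map_mul, map_inv₀, map_pow, mul_pow, mul_pow, mul_pow, inv_pow, inv_pow,
      ← pow_mul, ← pow_mul, mul_comm Q n]
    have hn : γ ψ ^ n ≠ 0 := pow_ne_zero _ hγψ0
    have hnQ : ψ ^ (n * Q) ≠ 0 := pow_ne_zero _ hψ0
    have huQ : u ^ Q ≠ 0 := pow_ne_zero _ hu0
    have hHn : H ^ n ≠ 0 := pow_ne_zero _ hH0
    field_simp
  rwa [e] at h4

end Val

section Main

variable (R : Type) [CommRing R] {F : Type} [Field F] [Algebra R F]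

/-- `≡ 1` at `V₁` and `V₂` gives `≡ 1 mod ϖ O`. -/
theorem modPi_of_one {ϖ : R} {t : F} {V₁ V₂ : ValuationSubring F}
    (hm : ∀ x : F, V₁.valuation x < 1 → V₂.valuation x < 1 → ModPi R ϖ t x 0) {h : F}
    (h1 : One V₁ h) (h2 : One V₂ h) : ModPi R ϖ t h 1 := by
  obtain ⟨z, hz, e⟩ := hm (h - 1) h1 h2
  rw [sub_zero] at e
  exact ⟨z, hz, e⟩

/-- `H4S34.InLoc` gives `H19KD.InLocAt`. -/
theorem inLocAt_of_inLoc {c : F} {𝔫 : Ideal (Chart R c)} {x : F} (h : InLoc R c 𝔫 x) :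
    InLocAt R c 𝔫 x := by
  obtain ⟨a, s, hs, e⟩ := h
  refine ⟨s, hs, ?_⟩
  unfold IsInt
  rw [e]
  exact a.2

/-- `FWLoc` gives the local hypothesis `LocPowAt` of the Kummer descent. -/
theorem locPowAt_of_fwLoc {ϖ : R} {t : F} {V₁ V₂ : ValuationSubring F}
    (hm : ∀ x : F, V₁.valuation x < 1 → V₂.valuation x < 1 → ModPi R ϖ t x 0)
    (c : F) (n : ℕ) (v : F) (h : FWLoc R ϖ V₁ V₂ c n v) : LocPowAt R ϖ t c n v := by
  intro 𝔫 hmax hϖ
  obtain ⟨h', h1, h2, hloc⟩ := h 𝔫 ⟨hmax, hϖ⟩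
  exact ⟨h', modPi_of_one R hm h1 h2, inLocAt_of_inLoc R hloc⟩

end Main

/-- **(FW-GEN)**. -/
theorem fwGenStatement : FWGenStatement := by
  intro R _ _ _ K _ _ _ _ F _ _ _ _ ϖ hϖ t ht hfin hK n hn hnu hζ V₁ V₂ hTC γ hγ Q u ψ₁ ψ₂
    hψ₁ hψ₂ hu₁ hu₂ hloc
  obtain ⟨hO, hm, ⟨e, he1, he2⟩, harch₁, harch₂⟩ := hTC
  obtain ⟨hγt, hγR, hγR', hγ₁, hγ₂⟩ := hγ
  obtain ⟨ζ, hζ⟩ := hζ
  obtain ⟨H, hH₁, hH₂⟩ := exists_corr V₁ V₂ he1 he2 γ hγ₁ hγ₂ Q hψ₁ hψ₂
  obtain ⟨hl0, hlinf⟩ := hloc H hH₁ hH₂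
  have hv₁ := one_vprime V₁ γ hγ₁ n Q hψ₁ hu₁ hH₁
  have hv₂ := one_vprime V₂ γ hγ₂ n Q hψ₂ hu₂ hH₂
  obtain ⟨c, g, hcg⟩ := h19_KD R K F ϖ hϖ t ht hfin hK n hnu ζ hζ _
    (modPi_of_one R hm hv₁ hv₂)
    (locPowAt_of_fwLoc R hm t n _ hl0) (locPowAt_of_fwLoc R hm t⁻¹ n _ hlinf)
  have hu0 : u ≠ 0 := left_ne_zero_of_mul (one_ne_zero V₁ hu₁)
  have hH0 : H ≠ 0 := left_ne_zero_of_mul (left_ne_zero_of_mul (one_ne_zero V₁ hH₁))
  have hγu0 : γ u ≠ 0 := by
    intro h0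
    exact hu0 ((map_eq_zero_iff γ γ.injective).mp h0)
  have hden : u ^ Q * H ^ n ≠ 0 := mul_ne_zero (pow_ne_zero _ hu0) (pow_ne_zero _ hH0)
  have hγu : γ u = algebraMap K F c * (g * H) ^ n * u ^ Q := by
    have h1 : γ u * (u ^ Q * H ^ n)⁻¹ * (u ^ Q * H ^ n) =
        algebraMap K F c * g ^ n * (u ^ Q * H ^ n) := by rw [hcg]
    rw [mul_assoc, inv_mul_cancel₀ hden, mul_one] at h1
    rw [h1]; ring
  refine ⟨c, g * H, ?_, hγu⟩
  intro hc0
  rw [hc0, map_zero, zero_mul, zero_mul] at hγu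
  exact hγu0 hγu

end H1FW

end
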