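import Mathlib
import Fermat.Agent.S35.FWLocNodeDefs_helper13
import Fermat.Agent.S35.FWGen_helper1
import Fermat.Agent.S34.LocBridge_helper22

/-!
# Item 84 (S35), block FW, slice FW-LOC-NODE, WIRING (helper20)

`H20FW.fwLocNode_of : H13LN.NodeBridgeStatement → H13LN.LNCcStatement → H1FW.FWLocNodeStatement`.

The abstract node gluing `H10FW.h10fw_node` is applied with `O = V₁ ∩ V₂`, `𝔭_i = 𝔪(V_i) ∩ O`
(`centre`), `B` = the local ring of the chart at the node (any model, `fwLocNode_core`),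
`a = Q`, `e = 0`, `c_i = 1`, `g` = the weak-approximation glue of `ψ₁, ψ₂` (`H1FW.wa_add`),
`f = u = ε zⁿ` (LNC (c)).  The bridge (BR) gives `𝔭_i ∩ B = P_i B` (so transversality and the
DVR property of `B / P_i B` from `H9LNC.isNode_of_nodeData`) and `Frac (B / P_i B) = O / 𝔭_i`;
`FrobAt` gives `γ B ⊆ B` and `γ ≡ (x ↦ x^Q)` modulo `𝔪_B`.
-/

set_option autoImplicit false
set_option synthInstance.maxHeartbeats 400000
set_option linter.unusedSectionVars false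
set_option linter.style.haveILetI false

open Polynomial IntermediateField AlgebraicCurve H7S18 H4S34

namespace H20FW

section Val

variable {F : Type} [Field F]

/-- the centre of the valuation ring `V` on a subring `O ⊆ V` -/
def centre (V : ValuationSubring F) (O : Subring F) (hO : ∀ x ∈ O, x ∈ V) : Ideal O where
  carrier := {x | V.valuation (x : F) < 1}
  add_mem' := fun {a b} ha hb => by
    show V.valuation ((a + b : O) : F) < 1
    push_cast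
    exact lt_of_le_of_lt (V.valuation.map_add _ _) (max_lt ha hb)
  zero_mem' := by
    show V.valuation ((0 : O) : F) < 1
    push_cast
    rw [Valuation.map_zero]
    exact zero_lt_one
  smul_mem' := fun c x hx => by
    show V.valuation ((c * x : O) : F) < 1
    push_cast
    rw [Valuation.map_mul]
    have hc : V.valuation (c : F) ≤ 1 := (V.valuation_le_one_iff _).mpr (hO c c.2)
    have hx' : V.valuation (x : F) < 1 := hx
    calc V.valuation (c : F) * V.valuation (x : F) ≤ 1 * V.valuation (x : F) := by gcongr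
      _ < 1 := by rw [one_mul]; exact hx'

theorem mem_centre (V : ValuationSubring F) (O : Subring F) (hO : ∀ x ∈ O, x ∈ V) (x : O) :
    x ∈ centre V O hO ↔ V.valuation (x : F) < 1 := Iff.rfl

theorem centre_isPrime (V : ValuationSubring F) (O : Subring F) (hO : ∀ x ∈ O, x ∈ V) :
    (centre V O hO).IsPrime := by
  rw [Ideal.isPrime_iff]
  refine ⟨?_, ?_⟩
  · rw [Ideal.ne_top_iff_one, mem_centre]
    push_cast
    rw [Valuation.map_one]
    exact lt_irrefl _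
  · intro x y hxy
    rw [mem_centre] at hxy
    push_cast at hxy
    rw [Valuation.map_mul] at hxy
    by_contra hcon
    rw [not_or] at hcon
    have hx : V.valuation (x : F) = 1 :=
      le_antisymm ((V.valuation_le_one_iff _).mpr (hO x x.2)) (not_lt.mp hcon.1)
    have hy : V.valuation (y : F) = 1 :=
      le_antisymm ((V.valuation_le_one_iff _).mpr (hO y y.2)) (not_lt.mp hcon.2)
    rw [hx, hy, one_mul] at hxy
    exact lt_irrefl _ hxy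

/-- an automorphism preserving `𝔪(V)` preserves `V` -/
theorem mem_of_frobLike (V : ValuationSubring F) (γ : F ≃+* F)
    (hγ : ∀ x : F, V.valuation x < 1 ↔ V.valuation (γ x) < 1) {x : F} (hx : x ∈ V) :
    γ x ∈ V := by
  rw [← ValuationSubring.valuation_le_one_iff] at hx ⊢
  by_contra hcon
  have h1 : 1 < V.valuation (γ x) := not_le.mp hcon
  have hx00 : x ≠ 0 := by
    rintro rfl
    rw [map_zero, Valuation.map_zero] at h1
    exact not_lt.mpr zero_le_one h1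
  have h2 : V.valuation (γ x⁻¹) < 1 := by
    rw [map_inv₀, map_inv₀]
    exact inv_lt_one_of_one_lt₀ h1
  have h3 := (hγ x⁻¹).mpr h2
  rw [map_inv₀] at h3
  have hx0 : V.valuation x ≠ 0 := (Valuation.ne_zero_iff _).mpr hx00
  have : 1 ≤ (V.valuation x)⁻¹ := (one_le_inv₀ (zero_lt_iff.mpr hx0)).mpr hx
  exact not_lt.mpr this h3

theorem val_eq_one_of_pow (V : ValuationSubring F) {z : F} {n : ℕ} (hn : 0 < n)
    (h : V.valuation (z ^ n) = 1) : V.valuation z = 1 := by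
  rw [Valuation.map_pow] at h
  exact (pow_eq_one_iff_of_nonneg zero_le hn.ne').mp h

end Val


section Val2

variable {F : Type} [Field F]

theorem val_ne_zero_of_one {V : ValuationSubring F} {x : F} (h : V.valuation x = 1) : x ≠ 0 := by
  rintro rfl
  rw [Valuation.map_zero] at h
  exact zero_ne_one h

/-- `One V (x / y)` with `y` a unit gives `x ≡ y`. -/
theorem sub_lt_of_one (V : ValuationSubring F) {x y : F} (hy : V.valuation y = 1)
    (h : H1FW.One V (x * y⁻¹)) : V.valuation (x - y) < 1 := by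
  have hy0 : y ≠ 0 := val_ne_zero_of_one hy
  have e : x - y = (x * y⁻¹ - 1) * y := by field_simp
  rw [e, Valuation.map_mul, hy, mul_one]
  exact h

/-- units from `One`. -/
theorem val_u (V : ValuationSubring F) {u ψ : F} {n : ℕ} (hψ : V.valuation ψ = 1)
    (hu : H1FW.One V (u * (ψ ^ n)⁻¹)) : V.valuation u = 1 := by
  have h1 := H1FW.one_val V hu
  rw [Valuation.map_mul, map_inv₀, Valuation.map_pow, hψ, one_pow, inv_one, mul_one] at h1
  exact h1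

theorem val_H (V : ValuationSubring F) (γ : F ≃+* F)
    (hγ : ∀ x : F, V.valuation x < 1 ↔ V.valuation (γ x) < 1) {H ψ : F} {Q : ℕ}
    (hψ : V.valuation ψ = 1) (hH : H1FW.One V (H * ψ ^ Q * (γ ψ)⁻¹)) : V.valuation H = 1 := by
  have h1 := H1FW.one_val V hH
  rw [Valuation.map_mul, Valuation.map_mul, map_inv₀, Valuation.map_pow, hψ,
    H1FW.unit_map V γ hγ hψ, one_pow, inv_one, mul_one, mul_one] at h1
  exact h1

theorem val_g (V : ValuationSubring F) {g ψ : F} (hψ : V.valuation ψ = 1)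
    (hg : V.valuation (g - ψ) < 1) : V.valuation g = 1 := by
  have e : g = ψ + (g - ψ) := by ring
  rw [e]
  have := Valuation.map_add_eq_of_lt_left V.valuation (x := ψ) (y := g - ψ) (by rw [hψ]; exact hg)
  rw [this, hψ]

theorem one_g (V : ValuationSubring F) {g ψ : F} (hψ : V.valuation ψ = 1)
    (hg : V.valuation (g - ψ) < 1) : H1FW.One V (g * ψ⁻¹) :=
  H1FW.one_of_sub V hψ hg

/-- `u ≡ gⁿ` at `V`. -/
theorem congr_u (V : ValuationSubring F) {u g ψ : F} {n : ℕ} (hψ : V.valuation ψ = 1)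
    (hu : H1FW.One V (u * (ψ ^ n)⁻¹)) (hg : V.valuation (g - ψ) < 1) :
    V.valuation (u - g ^ n) < 1 := by
  have hg1 : V.valuation g = 1 := val_g V hψ hg
  have hgn : V.valuation (g ^ n) = 1 := by rw [Valuation.map_pow, hg1, one_pow]
  apply sub_lt_of_one V hgn
  have h1 : H1FW.One V ((g * ψ⁻¹) ^ n)⁻¹ := H1FW.one_inv V (H1FW.onePow V (one_g V hψ hg) n)
  have h2 := H1FW.one_mul' V hu h1
  have hψ0 : ψ ≠ 0 := val_ne_zero_of_one hψ
  have hg0 : g ≠ 0 := val_ne_zero_of_one hg1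
  have hψn : ψ ^ n ≠ 0 := pow_ne_zero _ hψ0
  have hgn0 : g ^ n ≠ 0 := pow_ne_zero _ hg0
  have e : u * (ψ ^ n)⁻¹ * ((g * ψ⁻¹) ^ n)⁻¹ = u * (g ^ n)⁻¹ := by
    rw [mul_pow, inv_pow]
    field_simp
  rwa [e] at h2

/-- `H g^Q ≡ γ g` at `V`. -/
theorem congr_H (V : ValuationSubring F) (γ : F ≃+* F)
    (hγ : ∀ x : F, V.valuation x < 1 ↔ V.valuation (γ x) < 1) {H g ψ : F} {Q : ℕ}
    (hψ : V.valuation ψ = 1) (hH : H1FW.One V (H * ψ ^ Q * (γ ψ)⁻¹))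
    (hg : V.valuation (g - ψ) < 1) :
    V.valuation (H * g ^ Q - γ g) < 1 := by
  have hg1 : V.valuation g = 1 := val_g V hψ hg
  have hγg : V.valuation (γ g) = 1 := H1FW.unit_map V γ hγ hg1
  apply sub_lt_of_one V hγg
  have h1 : H1FW.One V ((g * ψ⁻¹) ^ Q) := H1FW.onePow V (one_g V hψ hg) Q
  have h2 : H1FW.One V (γ (g * ψ⁻¹))⁻¹ := H1FW.one_inv V (H1FW.one_map V γ hγ (one_g V hψ hg))
  have h3 := H1FW.one_mul' V (H1FW.one_mul' V hH h1) h2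
  have hψ0 : ψ ≠ 0 := val_ne_zero_of_one hψ
  have hg0 : g ≠ 0 := val_ne_zero_of_one hg1
  have hγψ0 : γ ψ ≠ 0 := fun h0 => hψ0 ((map_eq_zero_iff γ γ.injective).mp h0)
  have hγg0 : γ g ≠ 0 := val_ne_zero_of_one hγg
  have hψQ : ψ ^ Q ≠ 0 := pow_ne_zero _ hψ0
  have hgQ : g ^ Q ≠ 0 := pow_ne_zero _ hg0
  have e : H * ψ ^ Q * (γ ψ)⁻¹ * (g * ψ⁻¹) ^ Q * (γ (g * ψ⁻¹))⁻¹ = H * g ^ Q * (γ g)⁻¹ := by
    rw [map_mul, map_inv₀, mul_pow, inv_pow]
    field_simp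
  rwa [e] at h3

end Val2


section Main

open IsLocalRing

/-- **FW-LOC-NODE, wiring, for a model `B` of the local ring**. -/
theorem fwLocNode_core
    (R : Type) [CommRing R] [IsDomain R] [IsDiscreteValuationRing R]
    (K : Type) [Field K] [CharZero K] [Algebra R K] [IsFractionRing R K]
    (F : Type) [Field F] [Algebra K F] [Algebra R F] [IsScalarTower R K F]
    (t : F) (n : ℕ) (hn : 0 < n)
    (V₁ V₂ : ValuationSubring F) (e : F) (he₁ : V₁.valuation e < 1)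
    (he₂ : V₂.valuation (e - 1) < 1)
    (γ : F ≃+* F)
    (hγ₁ : ∀ x : F, V₁.valuation x < 1 ↔ V₁.valuation (γ x) < 1)
    (hγ₂ : ∀ x : F, V₂.valuation x < 1 ↔ V₂.valuation (γ x) < 1) (Q : ℕ)
    (u ψ₁ ψ₂ H : F) (hψ₁ : V₁.valuation ψ₁ = 1) (hψ₂ : V₂.valuation ψ₂ = 1)
    (hu₁ : H1FW.One V₁ (u * (ψ₁ ^ n)⁻¹)) (hu₂ : H1FW.One V₂ (u * (ψ₂ ^ n)⁻¹))
    (hH₁ : H1FW.One V₁ (H * ψ₁ ^ Q * (γ ψ₁)⁻¹)) (hH₂ : H1FW.One V₂ (H * ψ₂ ^ Q * (γ ψ₂)⁻¹))
    (𝔫 : Ideal (Chart R t)) [h𝔫 : 𝔫.IsPrime] (hFrob : H1FW.FrobAt R t 𝔫 γ Q)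
    (ϖM : Chart R t) (P₁ P₂ : Ideal (Chart R t)) (hND : H9LNC.NodeData 𝔫 ϖM P₁ P₂)
    (hP₁ : ∀ y : Chart R t, y ∈ P₁ ↔ V₁.valuation (y : F) < 1)
    (hP₂ : ∀ y : Chart R t, y ∈ P₂ ↔ V₂.valuation (y : F) < 1)
    (hBO : ∀ x : F, InLoc R t 𝔫 x → x ∈ V₁ ∧ x ∈ V₂)
    (hfr₁ : ∀ r : F, r ∈ V₁ → ∃ a s : Chart R t, s ∉ P₁ ∧ (s : F) * r = (a : F))
    (hfr₂ : ∀ r : F, r ∈ V₂ → ∃ a s : Chart R t, s ∉ P₂ ∧ (s : F) * r = (a : F))
    (ε z : F) (hε : InLoc R t 𝔫 ε) (hεi : InLoc R t 𝔫 ε⁻¹) (huz : u = ε * z ^ n)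
    (B : Type) [CommRing B] [IsDomain B] [IsLocalRing B] [IsNoetherianRing B]
    [Algebra (Chart R t) B] [IsLocalization.AtPrime B 𝔫]
    [Algebra B F] [IsScalarTower (Chart R t) B F]
    (hmemB : ∀ x : F, InLoc R t 𝔫 x ↔ x ∈ (algebraMap B F).range) :
    H1FW.FWLocAt R V₁ V₂ t 𝔫 n (γ u * (u ^ Q * H ^ n)⁻¹) := by
  obtain ⟨hp1, hp2, hnode, -⟩ := H9LNC.isNode_of_nodeData 𝔫 B hND
  have hinj : Function.Injective (algebraMap B F) := by
    have h1 : Function.Injective (algebraMap (Chart R t) F) := Subtype.val_injective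
    intro b b' hbb
    obtain ⟨⟨a, s⟩, ea⟩ := IsLocalization.surj 𝔫.primeCompl b
    obtain ⟨⟨a', s'⟩, ea'⟩ := IsLocalization.surj 𝔫.primeCompl b'
    have hsu : IsUnit (algebraMap (Chart R t) B s.1) := IsLocalization.map_units B s
    have hsu' : IsUnit (algebraMap (Chart R t) B s'.1) := IsLocalization.map_units B s'
    have h2 : a * s'.1 = a' * s.1 := by
      apply h1
      rw [map_mul, map_mul, IsScalarTower.algebraMap_apply (Chart R t) B F,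
        IsScalarTower.algebraMap_apply (Chart R t) B F (s' : Chart R t),
        IsScalarTower.algebraMap_apply (Chart R t) B F a',
        IsScalarTower.algebraMap_apply (Chart R t) B F (s : Chart R t), ← ea, ← ea']
      simp only [map_mul]
      rw [hbb]
      ring
    have h3 := congrArg (algebraMap (Chart R t) B) h2
    rw [map_mul, map_mul, ← ea, ← ea'] at h3
    have h4 : (b - b') * (algebraMap (Chart R t) B s.1 * algebraMap (Chart R t) B s'.1) = 0 := by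
      linear_combination h3
    have h5 := (hsu.mul hsu').mul_left_eq_zero.mp h4
    exact sub_eq_zero.mp h5
  have hcoe : ∀ y : Chart R t, algebraMap B F (algebraMap (Chart R t) B y) = (y : F) := fun y =>
    (IsScalarTower.algebraMap_apply (Chart R t) B F y).symm
  -- elements of the chart ring
  have hsv₁ : ∀ s : Chart R t, s ∉ 𝔫 → V₁.valuation (s : F) = 1 := fun s hs =>
    le_antisymm ((V₁.valuation_le_one_iff _).mpr (hBO _ ⟨s, 1, h𝔫.one_notMem,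
      by rw [OneMemClass.coe_one, one_mul]⟩).1)
      (not_lt.mp fun h => hs (hND.le1 ((hP₁ s).mpr h)))
  have hsv₂ : ∀ s : Chart R t, s ∉ 𝔫 → V₂.valuation (s : F) = 1 := fun s hs =>
    le_antisymm ((V₂.valuation_le_one_iff _).mpr (hBO _ ⟨s, 1, h𝔫.one_notMem,
      by rw [OneMemClass.coe_one, one_mul]⟩).2)
      (not_lt.mp fun h => hs (hND.le2 ((hP₂ s).mpr h)))
  -- the semilocal ring `O`
  have hO₁ : ∀ x ∈ V₁.toSubring ⊓ V₂.toSubring, x ∈ V₁ := fun x hx => hx.1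
  have hO₂ : ∀ x ∈ V₁.toSubring ⊓ V₂.toSubring, x ∈ V₂ := fun x hx => hx.2
  have hBO' : ∀ b : B, algebraMap B F b ∈ V₁.toSubring ⊓ V₂.toSubring := fun b =>
    ⟨(hBO _ ((hmemB _).mpr ⟨b, rfl⟩)).1, (hBO _ ((hmemB _).mpr ⟨b, rfl⟩)).2⟩
  have hγO : ∀ x ∈ V₁.toSubring ⊓ V₂.toSubring, (γ : F →+* F) x ∈
      V₁.toSubring ⊓ V₂.toSubring := fun x hx =>
    ⟨mem_of_frobLike V₁ γ hγ₁ hx.1, mem_of_frobLike V₂ γ hγ₂ hx.2⟩
  let φ : B →+* (V₁.toSubring ⊓ V₂.toSubring : Subring F) :=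
    (algebraMap B F).codRestrict _ hBO'
  let 𝔭₁ : Ideal (V₁.toSubring ⊓ V₂.toSubring : Subring F) := centre V₁ _ hO₁
  let 𝔭₂ : Ideal (V₁.toSubring ⊓ V₂.toSubring : Subring F) := centre V₂ _ hO₂
  let γO : (V₁.toSubring ⊓ V₂.toSubring : Subring F) →+* (V₁.toSubring ⊓ V₂.toSubring : Subring F) :=
    (γ : F →+* F).restrict _ _ hγO
  have hφ : ∀ b : B, ((φ b : (V₁.toSubring ⊓ V₂.toSubring : Subring F)) : F)
      = algebraMap B F b := fun b => rfl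
  have hγOc : ∀ x : (V₁.toSubring ⊓ V₂.toSubring : Subring F),
      ((γO x : (V₁.toSubring ⊓ V₂.toSubring : Subring F)) : F) = γ (x : F) := fun x => rfl
  have hm₁ : ∀ x : (V₁.toSubring ⊓ V₂.toSubring : Subring F),
      x ∈ 𝔭₁ ↔ V₁.valuation (x : F) < 1 := fun x => Iff.rfl
  have hm₂ : ∀ x : (V₁.toSubring ⊓ V₂.toSubring : Subring F),
      x ∈ 𝔭₂ ↔ V₂.valuation (x : F) < 1 := fun x => Iff.rfl
  -- the branches
  have hcomap : ∀ (V : ValuationSubring F) (hO : ∀ x ∈ V₁.toSubring ⊓ V₂.toSubring, x ∈ V)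
      (P : Ideal (Chart R t)) (hPle : P ≤ 𝔫) (hPV : ∀ y : Chart R t, y ∈ P ↔ V.valuation (y : F) < 1),
      Ideal.comap φ (centre V _ hO) = P.map (algebraMap (Chart R t) B) := by
    intro V hO P hPle hPV
    have hsv : ∀ s : Chart R t, s ∉ 𝔫 → V.valuation (s : F) = 1 := fun s hs =>
      le_antisymm ((V.valuation_le_one_iff _).mpr (by
        have := hO _ (hBO' (algebraMap _ _ s))
        rwa [hcoe] at this))
        (not_lt.mp fun h => hs (hPle ((hPV s).mpr h)))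
    ext b
    rw [Ideal.mem_comap, mem_centre, hφ, H9LNC.mem_map_iff 𝔫 B P b]
    constructor
    · intro hb
      obtain ⟨a, s, hs, e⟩ := (hmemB _).mpr ⟨b, rfl⟩
      refine ⟨a, s, (hPV a).mpr ?_, hs, hinj ?_⟩
      · rw [← e, Valuation.map_mul, hsv s hs, one_mul]
        exact hb
      · rw [map_mul, hcoe, hcoe, ← e, mul_comm]
    · rintro ⟨p, s, hp, hs, e⟩
      have e' : algebraMap B F b * (s : F) = (p : F) := by
        have := congrArg (algebraMap B F) e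
        rwa [map_mul, hcoe, hcoe] at this
      have h1 : V.valuation (algebraMap B F b * (s : F)) < 1 := by
        rw [e']
        exact (hPV p).mp hp
      rwa [Valuation.map_mul, hsv s hs, mul_one] at h1
  have hc₁ : Ideal.comap φ 𝔭₁ = P₁.map (algebraMap (Chart R t) B) :=
    hcomap V₁ hO₁ P₁ hND.le1 hP₁
  have hc₂ : Ideal.comap φ 𝔭₂ = P₂.map (algebraMap (Chart R t) B) :=
    hcomap V₂ hO₂ P₂ hND.le2 hP₂
  -- `hP`, `htr`
  have hle₁ : Ideal.comap φ 𝔭₁ ≤ maximalIdeal B := by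
    rw [hc₁]; exact hnode.left_le
  have hle₂ : Ideal.comap φ 𝔭₂ ≤ maximalIdeal B := by
    rw [hc₂]; exact hnode.right_le
  have htr : maximalIdeal B ≤ Ideal.comap φ 𝔭₁ ⊔ Ideal.comap φ 𝔭₂ := by
    rw [hc₁, hc₂, hnode.sup_eq]
  -- root-closedness
  haveI h𝔭₁ : 𝔭₁.IsPrime := centre_isPrime V₁ _ hO₁
  haveI h𝔭₂ : 𝔭₂.IsPrime := centre_isPrime V₂ _ hO₂
  haveI hic₁ : IsIntegrallyClosed (B ⧸ Ideal.comap φ 𝔭₁) := by
    rw [hc₁]
    haveI := hnode.dvr1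
    infer_instance
  haveI hic₂ : IsIntegrallyClosed (B ⧸ Ideal.comap φ 𝔭₂) := by
    rw [hc₂]
    haveI := hnode.dvr2
    infer_instance
  have hfrac : ∀ (V : ValuationSubring F) (hO : ∀ x ∈ V₁.toSubring ⊓ V₂.toSubring, x ∈ V)
      (P : Ideal (Chart R t)) (hPV : ∀ y : Chart R t, y ∈ P ↔ V.valuation (y : F) < 1)
      (hfr : ∀ r : F, r ∈ V → ∃ a s : Chart R t, s ∉ P ∧ (s : F) * r = (a : F))
      (r : (V₁.toSubring ⊓ V₂.toSubring : Subring F)),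
      ∃ a s : B, φ s ∉ centre V _ hO ∧ φ s * r - φ a ∈ centre V _ hO := by
    intro V hO P hPV hfr r
    obtain ⟨a, s, hs, e⟩ := hfr (r : F) (hO _ r.2)
    refine ⟨algebraMap _ _ a, algebraMap _ _ s, ?_, ?_⟩
    · rw [mem_centre, hφ, hcoe]
      exact fun h => hs ((hPV s).mpr h)
    · have : φ (algebraMap _ _ s) * r - φ (algebraMap _ _ a) = 0 := by
        apply Subtype.ext
        show algebraMap B F (algebraMap _ _ s) * (r : F) - algebraMap B F (algebraMap _ _ a) = 0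
        rw [hcoe, hcoe, e, sub_self]
      rw [this]
      exact Ideal.zero_mem _
  have hroot₁ : ∀ (r : (V₁.toSubring ⊓ V₂.toSubring : Subring F)) (b : B),
      IsUnit b → r ^ n - φ b ∈ 𝔭₁ → ∃ ρ : B, r - φ ρ ∈ 𝔭₁ := fun r b _ hr =>
    H10FW.h10fw_root_closed φ 𝔭₁ (hfrac V₁ hO₁ P₁ hP₁ hfr₁) n hn r b hr
  have hroot₂ : ∀ (r : (V₁.toSubring ⊓ V₂.toSubring : Subring F)) (b : B),
      IsUnit b → r ^ n - φ b ∈ 𝔭₂ → ∃ ρ : B, r - φ ρ ∈ 𝔭₂ := fun r b _ hr =>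
    H10FW.h10fw_root_closed φ 𝔭₂ (hfrac V₂ hO₂ P₂ hP₂ hfr₂) n hn r b hr
  -- `γ`
  have hγ𝔭₁ : ∀ x ∈ 𝔭₁, γO x ∈ 𝔭₁ := fun x hx => (hγ₁ _).mp hx
  have hγ𝔭₂ : ∀ x ∈ 𝔭₂, γO x ∈ 𝔭₂ := fun x hx => (hγ₂ _).mp hx
  have hγB : ∀ b : B, ∃ b' : B,
      γO (φ b) = φ b' ∧ b' - b ^ Q ∈ maximalIdeal B := by
    intro b
    obtain ⟨a, s, hs, ha, e⟩ := hFrob (algebraMap B F b) ((hmemB _).mpr ⟨b, rfl⟩)
    obtain ⟨d, hd⟩ := (hmemB _).mp ⟨a, s, hs, e⟩
    refine ⟨d + b ^ Q, Subtype.ext ?_, ?_⟩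
    · show γ (algebraMap B F b) = algebraMap B F (d + b ^ Q)
      rw [map_add, map_pow, hd]
      ring
    · rw [add_sub_cancel_right, H9LNC.maximalIdeal_eq_map 𝔫 B, H9LNC.mem_map_iff 𝔫 B 𝔫]
      refine ⟨a, s, ha, hs, hinj ?_⟩
      rw [map_mul, hcoe, hcoe, hd, ← e, mul_comm]
  -- the data
  have hvu₁ : V₁.valuation u = 1 := val_u V₁ hψ₁ hu₁
  have hvu₂ : V₂.valuation u = 1 := val_u V₂ hψ₂ hu₂
  have hvH₁ : V₁.valuation H = 1 := val_H V₁ γ hγ₁ hψ₁ hH₁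
  have hvH₂ : V₂.valuation H = 1 := val_H V₂ γ hγ₂ hψ₂ hH₂
  obtain ⟨g, hg₁, hg₂⟩ := H1FW.wa_add V₁ V₂ he₁ he₂ hψ₁.le hψ₂.le
  have hvg₁ : V₁.valuation g = 1 := val_g V₁ hψ₁ hg₁
  have hvg₂ : V₂.valuation g = 1 := val_g V₂ hψ₂ hg₂
  obtain ⟨εB, hεB⟩ := (hmemB _).mp hε
  obtain ⟨εB', hεB'⟩ := (hmemB _).mp hεi
  have hu0 : u ≠ 0 := val_ne_zero_of_one hvu₁
  have hH0 : H ≠ 0 := val_ne_zero_of_one hvH₁
  have hε0 : ε ≠ 0 := by
    rintro rfl
    rw [zero_mul] at huz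
    exact hu0 huz
  have hεu : IsUnit εB := by
    refine IsUnit.of_mul_eq_one εB' (hinj ?_)
    rw [map_mul, map_one, hεB, hεB', mul_inv_cancel₀ hε0]
  have hvε : ∀ (V : ValuationSubring F), (∀ x ∈ V₁.toSubring ⊓ V₂.toSubring, x ∈ V) →
      V.valuation ε = 1 := by
    intro V hO
    have h1 : V.valuation ε ≤ 1 := (V.valuation_le_one_iff _).mpr (by
      have := hO _ (hBO' εB)
      rwa [hεB] at this)
    have h2 : V.valuation ε⁻¹ ≤ 1 := (V.valuation_le_one_iff _).mpr (by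
      have := hO _ (hBO' εB')
      rwa [hεB'] at this)
    rw [map_inv₀] at h2
    have h3 : V.valuation ε ≠ 0 := (Valuation.ne_zero_iff _).mpr hε0
    exact le_antisymm h1 ((inv_le_one₀ (zero_lt_iff.mpr h3)).mp h2)
  have hvz : ∀ (V : ValuationSubring F), (∀ x ∈ V₁.toSubring ⊓ V₂.toSubring, x ∈ V) →
      V.valuation u = 1 → V.valuation z = 1 := by
    intro V hO hu
    apply val_eq_one_of_pow V hn
    have h1 := hu
    rw [huz, Valuation.map_mul, hvε V hO, one_mul] at h1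
    exact h1
  have hvz₁ : V₁.valuation z = 1 := hvz V₁ hO₁ hvu₁
  have hvz₂ : V₂.valuation z = 1 := hvz V₂ hO₂ hvu₂
  have hmemO : ∀ x : F, V₁.valuation x = 1 → V₂.valuation x = 1 →
      x ∈ V₁.toSubring ⊓ V₂.toSubring := fun x h1 h2 =>
    ⟨(V₁.valuation_le_one_iff _).mp h1.le, (V₂.valuation_le_one_iff _).mp h2.le⟩
  have hunitO : ∀ (x : F) (h1 : V₁.valuation x = 1) (h2 : V₂.valuation x = 1),
      IsUnit (⟨x, hmemO x h1 h2⟩ : (V₁.toSubring ⊓ V₂.toSubring : Subring F)) := by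
    intro x h1 h2
    have h1' : V₁.valuation x⁻¹ = 1 := by rw [map_inv₀, h1, inv_one]
    have h2' : V₂.valuation x⁻¹ = 1 := by rw [map_inv₀, h2, inv_one]
    refine IsUnit.of_mul_eq_one ⟨x⁻¹, hmemO _ h1' h2'⟩ (Subtype.ext ?_)
    show x * x⁻¹ = 1
    exact mul_inv_cancel₀ (val_ne_zero_of_one h1)
  obtain ⟨h, w, hw, hh, hrel⟩ := H10FW.h10fw_node φ 𝔭₁ 𝔭₂ γO n Q Q 0 hn (by ring)
    hle₁ hle₂ htr hroot₁ hroot₂ hγ𝔭₁ hγ𝔭₂ hγB
    ⟨u, hmemO u hvu₁ hvu₂⟩ ⟨g, hmemO g hvg₁ hvg₂⟩ ⟨H, hmemO H hvH₁ hvH₂⟩ ⟨z, hmemO z hvz₁ hvz₂⟩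
    (hunitO g hvg₁ hvg₂) (hunitO z hvz₁ hvz₂) εB 1 1 hεu isUnit_one isUnit_one
    (Subtype.ext (by
      show u = algebraMap B F εB * z ^ n
      rw [hεB]; exact huz))
    ((hm₁ _).mpr (by
      show V₁.valuation (u - algebraMap B F 1 * g ^ n) < 1
      rw [map_one, one_mul]
      exact congr_u V₁ hψ₁ hu₁ hg₁))
    ((hm₂ _).mpr (by
      show V₂.valuation (u - algebraMap B F 1 * g ^ n) < 1
      rw [map_one, one_mul]
      exact congr_u V₂ hψ₂ hu₂ hg₂))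
    ((hm₁ _).mpr (by
      show V₁.valuation (H * g ^ Q - algebraMap B F 1 ^ 0 * γ g) < 1
      rw [pow_zero, one_mul]
      exact congr_H V₁ γ hγ₁ hψ₁ hH₁ hg₁))
    ((hm₂ _).mpr (by
      show V₂.valuation (H * g ^ Q - algebraMap B F 1 ^ 0 * γ g) < 1
      rw [pow_zero, one_mul]
      exact congr_H V₂ γ hγ₂ hψ₂ hH₂ hg₂))
  have hrel' : γ u * (h : F) ^ n = algebraMap B F w * (u ^ Q * H ^ n) :=
    congrArg Subtype.val hrel
  refine ⟨(h : F), (hm₁ _).mp hh.1, (hm₂ _).mp hh.2, (hmemB _).mpr ⟨w, ?_⟩⟩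
  have hne : u ^ Q * H ^ n ≠ 0 := mul_ne_zero (pow_ne_zero _ hu0) (pow_ne_zero _ hH0)
  rw [mul_assoc, mul_comm _ ((h : F) ^ n), ← mul_assoc, hrel', mul_assoc, mul_inv_cancel₀ hne,
    mul_one]

/-- **FW-LOC-NODE, wiring**: the bridge (BR) and LNC (c) give the local hypothesis of FW-GEN at a
node, through the abstract node gluing `H10FW.h10fw_node` (`a = Q`, `e = 0`, `c_i = 1`). -/
theorem fwLocNode_of (hBR : H13LN.NodeBridgeStatement) (hLNC : H13LN.LNCcStatement) :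
    H1FW.FWLocNodeStatement := by
  intro R _ _ _ K _ _ _ _ F _ _ _ _ ϖ hϖ t ht hfin n hn hnu V₁ V₂ hTC γ hγ Q u ψ₁ ψ₂ H hψ₁ hψ₂
    hu₁ hu₂ hH₁ hH₂ hdiv hrat 𝔫 h𝔫 hN hFrob
  obtain ⟨ϖM, P₁, P₂, hϖM, hND, hP₁, hP₂, hBO, hfr₁, hfr₂⟩ :=
    hBR R K F ϖ hϖ t ht hfin V₁ V₂ hTC 𝔫 h𝔫 hN
  obtain ⟨ε, z, hε, hεi, huz⟩ :=
    hLNC R K F ϖ hϖ t ht hfin n hn V₁ V₂ hTC u ψ₁ hψ₁ hu₁ hdiv hrat 𝔫 h𝔫 hN
  obtain ⟨hγt, hγR, hγR', hγ₁, hγ₂⟩ := hγ
  obtain ⟨-, -, ⟨e, he₁, he₂⟩, -, -⟩ := hTC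
  haveI : 𝔫.IsPrime := h𝔫.1.isPrime
  haveI := hfin
  haveI := H22BR.bsub_atPrime R K t 𝔫
  haveI := H22BR.bsub_tower R K t 𝔫
  haveI := H22BR.loc_isDomain R t 𝔫 (H22BR.Bsub R K t 𝔫)
  haveI := H22BR.loc_isLocalRing R t 𝔫 (H22BR.Bsub R K t 𝔫)
  haveI := H22BR.loc_noeth R K ht 𝔫 (H22BR.Bsub R K t 𝔫)
  exact fwLocNode_core R K F t n hn V₁ V₂ e he₁ he₂ γ hγ₁ hγ₂ Q u ψ₁ ψ₂ H hψ₁ hψ₂ hu₁ hu₂ hH₁ hH₂
    𝔫 hFrob ϖM P₁ P₂ hND hP₁ hP₂ hBO hfr₁ hfr₂ ε z hε hεi huz (H22BR.Bsub R K t 𝔫)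
    (fun x => H22BR.inLoc_iff R t 𝔫 (H22BR.Bsub R K t 𝔫) x)

end Main

end H20FW
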