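import Mathlib
import Fermat.Agent.W3G.DefsGeom
import Fermat.Prelude.Def_CuspForm_Newforms
import Fermat.Prelude.Def_GaloisRep_LocalConditions

/-!
# Item 82b (S35): the `λ`-adic representation of a newform at `q ‖ M` — INTERFACE (helper11)

Route (helper11, notes `NOTES/W4B-S35-helper11.md`): `S35` = `S30` (existence of `ρ`, clause (1)) +
clause (2) `charpoly ρ(σ) = X² ∓ (q+1) X + q` for a Frobenius `σ` at `q ‖ M`, `q ≠ λ`, from

* **(BF)** `BadFrobStatement`: `(σ² - 1)(σ² - q²) ∘ P(T) = 0` on (Tate-divisible) `p`-power torsion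
  of `J₀(N' q)` for every word `P` in the good Hecke operators that kills `S₂(Γ₀(N'))`;
* **(NEWOP)** `NewOpStatement`: a newform `g` of level `N' q` admits such a `P` with `P(a(g)) ≠ 0`;
* **(TP⁺)** the transfer principle to the eigenlattice (abstract, `TPPlus_*.lean`);
* algebra: `A² - tA + q = 0`, `(A² - 1)(A² - q²) = 0`, `A` invertible `⇒ t = ±(q+1)`.

This file contains ONLY definitions and exact `Prop`s.  Prove
`theorem xyz : H11S35.<Name>Statement` in your own file `Fermat/Agent/S35/<Slice>_<seat>.lean`,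
own namespace.
-/

set_option autoImplicit false

noncomputable section

namespace H11S35

open H11W3G ModularCurve CongruenceSubgroup AlgebraicCurve

/-! ## Words in the good Hecke operators -/

/-- the index set of good Hecke operators: primes `ℓ ∤ M`, `ℓ ∉ S` -/
abbrev Idx (M : ℕ) (S : Finset ℕ) : Type := {ℓ : ℕ // ℓ.Prime ∧ ¬ ℓ ∣ M ∧ ℓ ∉ (↑S : Set ℕ)}

/-- noncommutative polynomials ("words") in the good Hecke operators -/
abbrev Wd (M : ℕ) (S : Finset ℕ) : Type := FreeAlgebra ℤ (Idx M S)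

/-- evaluation of a word on `J₀(M)(ℚ̄)` -/
def evalJ (M : ℕ) [NeZero M] (S : Finset ℕ) : Wd M S →ₐ[ℤ] Module.End ℤ (JZero M) :=
  FreeAlgebra.lift ℤ fun t : Idx M S => heckeOperatorBar M ⟨t.1, t.2.1⟩

/-- evaluation of a word on `S₂(Γ₀(N'))`, `N' ∣ M` -/
def evalCusp (M : ℕ) (S : Finset ℕ) (N' : ℕ) (h : N' ∣ M) :
    Wd M S →ₐ[ℤ] Module.End ℂ (CuspForm (Gamma0 N') 2) :=
  FreeAlgebra.lift ℤ fun t : Idx M S =>
    CuspForm.heckeTLin 2 t.2.1 (fun hd => t.2.2.1 (hd.trans h))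

/-- evaluation of a word at a system of eigenvalues in a commutative ring -/
def evalC {R : Type*} [CommRing R] (M : ℕ) (S : Finset ℕ) (a : ℕ → R) : Wd M S →ₐ[ℤ] R :=
  FreeAlgebra.lift ℤ fun t : Idx M S => a t.1

/-- evaluation of a word in the Hecke algebra of the prelude -/
def evalHecke (M : ℕ) [NeZero M] (S : Finset ℕ) :
    Wd M S →ₐ[ℤ] CuspForm.heckeAlgebra M 2 (↑S : Set ℕ) :=
  FreeAlgebra.lift ℤ fun t : Idx M S => CuspForm.heckeAlgebra.T t.2.1 t.2.2.1 t.2.2.2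

/-- evaluation of a word on `Hom_par(Γ₀(N'), ℤ)` for a family of operators -/
def evalL (M : ℕ) (S : Finset ℕ) (N' : ℕ) (T : Idx M S → (Lpar N' →ₗ[ℤ] Lpar N')) :
    Wd M S →ₐ[ℤ] Module.End ℤ (Lpar N') :=
  FreeAlgebra.lift ℤ T

/-! ## Degeneracy maps on `J₀` -/

/-- pushforward of divisor classes of degree `0` along an embedding of function fields
(`0` if the embedding is not finite with norm formula) -/
def pic0Push {K F F' : Type*} [Field K] [Field F] [Field F'] [Algebra K F] [Algebra K F']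
    (φ : F →ₐ[K] F') : Pic0 K F' →+ Pic0 K F := by
  classical
  exact
    if h : ∃ (_ : φ.toRingHom.IsIntegral) (hfin : FiniteAlong K φ), NormFormulaAlong K φ hfin then
      QuotientAddGroup.map _ _
        (((Divisor.pushforwardAlong φ h.1).domRestrict
          (Divisor.degZero (K := K) (F := F'))).codRestrict (Divisor.degZero (K := K) (F := F))
          (fun D => Divisor.pushforwardAlong_mem_degZero φ h.1 D.2)) (by
        rintro ⟨D, hD0⟩ hD
        simp only [AddSubgroup.mem_addSubgroupOf] at hD ⊢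
        obtain ⟨hfin, hN⟩ := h.2
        exact Divisor.isPrincipal_pushforwardAlong φ h.1 hfin hN hD)
    else 0

/-- `α_* : J₀(N' q) → J₀(N')` (forget the level structure at `q`) -/
def pushAlpha (N' q : ℕ) [NeZero N'] [NeZero q] : JZero (N' * q) →+ JZero N' :=
  pic0Push (heckeAlphaBar (AlgebraicClosure ℚ) N' q)

/-- `β_* : J₀(N' q) → J₀(N')` (divide by the subgroup of order `q`) -/
def pushBeta (N' q : ℕ) [NeZero N'] [NeZero q] : JZero (N' * q) →+ JZero N' :=
  pic0Push (heckeBetaBar (AlgebraicClosure ℚ) N' q)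

/-! ## The slices -/

/-- `x ∈ J[p^k]` is *Tate-divisible*: `x = p^(j-k) x_j` with `x_j ∈ J[p^j]` for all `j ≥ k`
(true for `x = lam (p^k) φ`, by the compatibility of the comparison maps). -/
def IsTateDiv {J : Type*} [AddCommGroup J] (p k : ℕ) (x : J) : Prop :=
  ∀ j : ℕ, k ≤ j → ∃ y : J, p ^ j • y = 0 ∧ p ^ (j - k) • y = x

/-- **(d) SMO** strong multiplicity one, in the form needed: a normalised eigenform `g'` of level
`N' ∣ M` whose eigenvalues agree with those of the normalised eigenform `g` of level `M` at all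
primes `ℓ ∤ M` outside a finite set `S` has the same eigenvalues at ALL primes `ℓ ∤ M`. -/
def SMOStatement : Prop :=
  ∀ (M N' : ℕ) [NeZero M] [NeZero N'], N' ∣ M → ∀ (S : Finset ℕ)
    (g : CuspForm (Gamma0 M) 2) (g' : CuspForm (Gamma0 N') 2),
    g.IsNormalizedEigenform → g'.IsNormalizedEigenform →
    (∀ ℓ : ℕ, ℓ.Prime → ¬ ℓ ∣ M → ℓ ∉ S →
      ModularFormClass.qCoeff g' ℓ = ModularFormClass.qCoeff g ℓ) →
    ∀ ℓ : ℕ, ℓ.Prime → ¬ ℓ ∣ M → ModularFormClass.qCoeff g' ℓ = ModularFormClass.qCoeff g ℓ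

/-- **(NEWOP)** the newness operator: for a newform `g` of level `M` and a proper divisor
`N'` of `M` there is a word `P` in the `T_ℓ` (`ℓ ∤ M`, `ℓ ∉ S`) which kills `S₂(Γ₀(N'))` and
does not kill `g`: `P(a_ℓ(g)) ≠ 0`.
[if not, `T_ℓ ↦ a_ℓ(g)` factors through the Hecke algebra of level `N'` away from `S`, hence
occurs as an eigencharacter in `S₂(Γ₀(N'))`; (e) `H16S35.h16_normalized_of_anemic` + (d) SMO give
`GoodEigensystemOccursAt g N'`, contradicting `IsNewform`.] -/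
def NewOpStatement : Prop :=
  ∀ (M : ℕ) [NeZero M] (g : CuspForm (Gamma0 M) 2), g.IsNewform →
    ∀ (S : Finset ℕ), (∀ q : ℕ, q.Prime → q ∣ M → q ∈ S) →
    ∀ (N' : ℕ) (h : N' ∣ M), N' ≠ M →
      ∃ P : Wd M S, evalCusp M S N' h P = 0 ∧
        evalC M S (fun ℓ => ModularFormClass.qCoeff g ℓ) P ≠ 0

/-- **(BF-H)** hard direction of faithfulness: a word that kills `S₂(Γ₀(N'))` kills
`Hom_par(Γ₀(N'), ℤ)` (Eichler–Shimura `S21`: `Hom_par(Γ, ℂ) = periods of S₂ ⊕ conj(S₂)`,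
and the period map is Hecke-equivariant, `S16/A_H1`). -/
def HardFaithStatement : Prop :=
  ∀ (M : ℕ) (S : Finset ℕ) (N' : ℕ) [NeZero N'] (h : N' ∣ M)
    (T : Idx M S → (Lpar N' →ₗ[ℤ] Lpar N')),
    (∀ t : Idx M S, haveI : Fact t.1.Prime := ⟨t.2.1⟩;
      IsHeckeL (N := N') (ℓ := t.1) (fun hd => t.2.2.1 (hd.trans h)) (T t)) →
    ∀ P : Wd M S, evalCusp M S N' h P = 0 → evalL M S N' T P = 0

/-- **(BF-K)** a word that kills `S₂(Γ₀(N'))` kills the Tate-divisible `p`-power torsion of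
`J₀(N')` (BF-H + `KumGal` + `LIFT`: Tate-divisible torsion lies in the image of `lam`). -/
def KillStatement : Prop :=
  ∀ (M : ℕ) (S : Finset ℕ) (N' : ℕ) [NeZero N'] (h : N' ∣ M) (P : Wd M S),
    evalCusp M S N' h P = 0 →
    ∀ (p k : ℕ), p.Prime → ∀ y : JZero N', IsTateDiv p k y →
      FreeAlgebra.lift ℤ (fun t : Idx M S =>
        heckeOperatorBar N' ⟨t.1, t.2.1⟩) P y = 0

/-- **(BF-D)** the degeneracy maps `α_*, β_* : J₀(N' q) → J₀(N')` commute with the Galois action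
and with the Hecke operators `T_ℓ`, `ℓ ∤ N' q`. -/
def DegStatement : Prop :=
  ∀ (N' q : ℕ) [NeZero N'] [NeZero q] [NeZero (N' * q)], q.Prime →
    (∀ (σ : GQ) (x : JZero (N' * q)), pushAlpha N' q (σ • x) = σ • pushAlpha N' q x) ∧
    (∀ (σ : GQ) (x : JZero (N' * q)), pushBeta N' q (σ • x) = σ • pushBeta N' q x) ∧
    (∀ (ℓ : ℕ) (hℓ : ℓ.Prime), ¬ ℓ ∣ N' * q → ∀ x : JZero (N' * q),
      pushAlpha N' q (heckeOperatorBar (N' * q) ⟨ℓ, hℓ⟩ x) =
        heckeOperatorBar N' ⟨ℓ, hℓ⟩ (pushAlpha N' q x)) ∧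
    (∀ (ℓ : ℕ) (hℓ : ℓ.Prime), ¬ ℓ ∣ N' * q → ∀ x : JZero (N' * q),
      pushBeta N' q (heckeOperatorBar (N' * q) ⟨ℓ, hℓ⟩ x) =
        heckeOperatorBar N' ⟨ℓ, hℓ⟩ (pushBeta N' q x))

/-- `σ` as an endomorphism of the abelian group `J` -/
def sigEnd {G : Type*} [Group G] {J : Type*} [AddCommGroup J] [DistribMulAction G J] (σ : G) :
    Module.End ℤ J :=
  (DistribSMul.toAddMonoidHom J σ).toIntLinearMap

@[simp]
theorem sigEnd_apply {G : Type*} [Group G] {J : Type*} [AddCommGroup J] [DistribMulAction G J]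
    (σ : G) (x : J) : sigEnd σ x = σ • x := rfl

/-- the polynomial `((X² - 1)(X² - q²))²` -/
def frobPoly (q : ℕ) : Polynomial ℤ :=
  ((Polynomial.X ^ 2 - 1) * (Polynomial.X ^ 2 - Polynomial.C ((q : ℤ) ^ 2))) ^ 2

/-- **(FW)** Frobenius weights on the `q`-new part: for `q ∤ N'`, `n` prime to `q`, `σ` a Frobenius
element at `q` and `x ∈ J₀(N' q)[n]` with `α_* x = 0 = β_* x`:
`((σ² - 1)(σ² - q²))² x = 0`.
(What the geometry gives is `(σ² - q²)(σ² - 1)(σ - 1) x = 0` — helper13's caveat: the factor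
`σ - 1` kills the component group —, which divides `frobPoly q`.) -/
def FWStatement : Prop :=
  ∀ (N' q : ℕ) [NeZero N'] [NeZero q] [NeZero (N' * q)], q.Prime → ¬ q ∣ N' →
    ∀ n : ℕ, ¬ q ∣ n →
    ∀ A : ValuationSubring (AlgebraicClosure ℚ), A.LiesOverPrime q →
      ∀ σ : GQ, A.IsFrobeniusAt σ q →
        ∀ x : JZero (N' * q), n • x = 0 → pushAlpha N' q x = 0 → pushBeta N' q x = 0 →
          Polynomial.aeval (sigEnd σ : Module.End ℤ (JZero (N' * q))) (frobPoly q) x = 0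

/-- **(BF)** = (BF-K) + (BF-D) + (FW): for a word `P` that kills `S₂(Γ₀(N'))`,
`((σ² - 1)(σ² - q²))² P(T) x = 0` for Tate-divisible `x ∈ J₀(N' q)[p^k]`, `σ` a Frobenius at
`q ≠ p`. -/
def BadFrobStatement : Prop :=
  ∀ (N' q : ℕ) [NeZero N'] [NeZero (N' * q)], q.Prime → ¬ q ∣ N' →
    ∀ (S : Finset ℕ) (P : Wd (N' * q) S), evalCusp (N' * q) S N' (dvd_mul_right N' q) P = 0 →
    ∀ (p k : ℕ), p.Prime → q ≠ p →
    ∀ A : ValuationSubring (AlgebraicClosure ℚ), A.LiesOverPrime q →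
      ∀ σ : GQ, A.IsFrobeniusAt σ q →
        ∀ x : JZero (N' * q), IsTateDiv p k x →
          Polynomial.aeval (sigEnd σ : Module.End ℤ (JZero (N' * q))) (frobPoly q)
            (evalJ (N' * q) S P x) = 0

end H11S35

end
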