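import Mathlib
import Fermat.Agent.S35.Defs_helper11
import Fermat.Agent.S34.ALq_helper12
import Fermat.Agent.S18.GVBase_helper28
import Fermat.Agent.S18.DefsD

/-!
# Item 82b (S35), block FW (Frobenius weights on the `q`-new part): INTERFACE (helper17)

Sub-architect file for `H11S35.FWStatement`.  Notation: `N = N' q`, `q ∤ N'`, `F̄ = F̄_N`,
`A ⊆ ℚ̄` a valuation subring over `q`, `σ` a Frobenius element of `A`,
`w₁` = the Gauss valuation of `F̄ ⊆ ℚ̄((q))` attached to `A` (ring `gvO A π`, reduction `gvRed`),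
`w₂ = w₁ ∘ W`, `W = H12AL.wqBar` the Atkin–Lehner involution.

Chain (each arrow is one slice, see `NOTES/W4B-S35-FW-helper17.md`):

* `FWStatement`  ⇐  (BOOK) + `UnitStatement` + `AbelStatement` + `ToricBarStatement`;
* `ToricBarStatement`  ⇐  (LC) + `ToricTameStatement`;
* `ToricTameStatement` ⇐  (DESC) + the `K₁`-level statement (generic theorem on top of
  `H19KD.KDStatement` + local data; second interface file).

Mathematics: for `x = [D]`, `n D = div f`, `α_* x = 0 = β_* x`: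
`z := σ f / f` is a unit at `w₁, w₂` with `N_α z`, `N_β z` `n`-th powers;
(ABEL) `u := σ² z / z` is *toric*: `u ≡ ψ_iⁿ mod w_i`; (TORIC) `σ² u / u^{q²}` is an `n`-th power.
Hence `(σ² - q²)(σ² - 1)(σ - 1) x = 0`, which divides `frobPoly q`.
-/

set_option autoImplicit false

noncomputable section

open ModularCurve AlgebraicCurve H11W3G H28GV H7S18

namespace H17FW

/-- the reduction map of `A` -/
abbrev resA (A : ValuationSubring (AlgebraicClosure ℚ)) :
    ↥A →+* IsLocalRing.ResidueField ↥A := IsLocalRing.residue ↥A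

/-- `x ≡ 1` at `w₁`: the `q`-expansion of `x` lies in the Gauss ring and reduces to `1`. -/
def One1 (A : ValuationSubring (AlgebraicClosure ℚ)) {N : ℕ} [NeZero N]
    (x : modularFunctionFieldBar N) : Prop :=
  ∃ h : (x : LaurentSeries (AlgebraicClosure ℚ)) ∈ gvO A (resA A),
    gvRed A (resA A) ⟨_, h⟩ = 1

/-- `x` is a unit at `w₁`. -/
def Unit1 (A : ValuationSubring (AlgebraicClosure ℚ)) {N : ℕ} [NeZero N]
    (x : modularFunctionFieldBar N) : Prop :=
  (x : LaurentSeries (AlgebraicClosure ℚ)) ∈ gvO A (resA A) ∧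
    ((x⁻¹ : modularFunctionFieldBar N) : LaurentSeries (AlgebraicClosure ℚ)) ∈ gvO A (resA A)

/-- the action of `σ ∈ G_ℚ` on `F̄_N` (coefficientwise) -/
abbrev act (N : ℕ) [NeZero N] (σ : GQ) (x : modularFunctionFieldBar N) :
    modularFunctionFieldBar N :=
  arithmeticGalois (modularFunctionFieldFull N) σ • x

/-- the norm `N_α : F̄_{N' q} → F̄_{N'}` along `α = heckeAlphaBar` -/
def normA (N' q : ℕ) [NeZero N'] [NeZero q] (f : modularFunctionFieldBar (N' * q)) :
    modularFunctionFieldBar N' :=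
  letI := algebraAlong (heckeAlphaBar (AlgebraicClosure ℚ) N' q);
  Algebra.norm (modularFunctionFieldBar N') f

/-- the norm `N_β : F̄_{N' q} → F̄_{N'}` along `β = heckeBetaBar` -/
def normB (N' q : ℕ) [NeZero N'] [NeZero q] (f : modularFunctionFieldBar (N' * q)) :
    modularFunctionFieldBar N' :=
  letI := algebraAlong (heckeBetaBar (AlgebraicClosure ℚ) N' q);
  Algebra.norm (modularFunctionFieldBar N') f

/-- **toric** functions: `u ≡ ψ₁ⁿ` at `w₁` and `u ≡ ψ₂ⁿ` at `w₂ = w₁ ∘ W`. -/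
def IsToric (N' q : ℕ) [NeZero N'] [NeZero q] [NeZero (N' * q)] (hq : q.Prime) (hqN : ¬ q ∣ N')
    (A : ValuationSubring (AlgebraicClosure ℚ)) (n : ℕ)
    (u : modularFunctionFieldBar (N' * q)) : Prop :=
  ∃ ψ₁ ψ₂ : modularFunctionFieldBar (N' * q), ψ₁ ≠ 0 ∧ ψ₂ ≠ 0 ∧
    One1 A (u * (ψ₁ ^ n)⁻¹) ∧ One1 A (H12AL.wqBar N' q hq hqN (u * (ψ₂ ^ n)⁻¹))

/-- **(UNIT)**: for `σ` in the decomposition group of `A`, `σ f / f` is a unit at `w₁` and at
`w₂`  (`w_i ∘ σ = w_i`, value group of `w_i` = value group of `A`). -/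
def UnitStatement : Prop :=
  ∀ (N' q : ℕ) [NeZero N'] [NeZero q] [NeZero (N' * q)] (hq : q.Prime) (hqN : ¬ q ∣ N')
    (A : ValuationSubring (AlgebraicClosure ℚ)), A.LiesOverPrime q →
    ∀ σ : GQ, σ ∈ A.decompositionSubgroup ℚ →
    ∀ f : modularFunctionFieldBar (N' * q), f ≠ 0 →
      Unit1 A (act (N' * q) σ f * f⁻¹) ∧
        Unit1 A (H12AL.wqBar N' q hq hqN (act (N' * q) σ f * f⁻¹))

/-- **(NORM-GAL)**: the norms along `α` and `β` commute with the Galois action. -/
def NormGalStatement : Prop :=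
  ∀ (N' q : ℕ) [NeZero N'] [NeZero q] [NeZero (N' * q)], q.Prime →
    ∀ (σ : GQ) (f : modularFunctionFieldBar (N' * q)),
      normA N' q (act (N' * q) σ f) = act N' σ (normA N' q f) ∧
      normB N' q (act (N' * q) σ f) = act N' σ (normB N' q f)

/-- **(ABEL)** (helper13): norm compatibility of the reductions.  If `z` is a unit at `w₁` and
`w₂` and `N_α z`, `N_β z` are `n`-th powers, then `σ² z / z` is toric, for every Frobenius
element `σ` of `A`. -/
def AbelStatement : Prop :=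
  ∀ (N' q : ℕ) [NeZero N'] [NeZero q] [NeZero (N' * q)] (hq : q.Prime) (hqN : ¬ q ∣ N')
    (n : ℕ), 0 < n →
    ∀ A : ValuationSubring (AlgebraicClosure ℚ), A.LiesOverPrime q →
    ∀ σ : GQ, A.IsFrobeniusAt σ q →
    ∀ z : modularFunctionFieldBar (N' * q), z ≠ 0 →
      Unit1 A z → Unit1 A (H12AL.wqBar N' q hq hqN z) →
      (∃ h : modularFunctionFieldBar N', normA N' q z = h ^ n) →
      (∃ h : modularFunctionFieldBar N', normB N' q z = h ^ n) →
      IsToric N' q hq hqN A n (act (N' * q) σ (act (N' * q) σ z) * z⁻¹)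

/-- **(TORIC)** = "(H2)": Frobenius acts on the toric classes through the cyclotomic character.
For `u` toric with `n ∣ div u`: `σ² u / u^{q²}` is an `n`-th power. -/
def ToricBarStatement : Prop :=
  ∀ (N' q : ℕ) [NeZero N'] [NeZero q] [NeZero (N' * q)] (hq : q.Prime) (hqN : ¬ q ∣ N')
    (n : ℕ), 0 < n → ¬ q ∣ n →
    ∀ A : ValuationSubring (AlgebraicClosure ℚ), A.LiesOverPrime q →
    ∀ σ : GQ, A.IsFrobeniusAt σ q →
    ∀ u : modularFunctionFieldBar (N' * q), u ≠ 0 →
      (∀ P : Place (AlgebraicClosure ℚ) (modularFunctionFieldBar (N' * q)), (n : ℤ) ∣ P.ord u) →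
      IsToric N' q hq hqN A n u →
      ∃ ψ : modularFunctionFieldBar (N' * q),
        act (N' * q) σ (act (N' * q) σ u) = ψ ^ n * u ^ (q ^ 2)

/-- (TORIC) at tame levels: the same statement under `TameLevel q N'`. -/
def ToricTameStatement : Prop :=
  ∀ (N' q : ℕ) [NeZero N'] [NeZero q] [NeZero (N' * q)] (hq : q.Prime) (hqN : ¬ q ∣ N'),
    TameLevel q N' →
    ∀ (n : ℕ), 0 < n → ¬ q ∣ n →
    ∀ A : ValuationSubring (AlgebraicClosure ℚ), A.LiesOverPrime q →
    ∀ σ : GQ, A.IsFrobeniusAt σ q →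
    ∀ u : modularFunctionFieldBar (N' * q), u ≠ 0 →
      (∀ P : Place (AlgebraicClosure ℚ) (modularFunctionFieldBar (N' * q)), (n : ℤ) ∣ P.ord u) →
      IsToric N' q hq hqN A n u →
      ∃ ψ : modularFunctionFieldBar (N' * q),
        act (N' * q) σ (act (N' * q) σ u) = ψ ^ n * u ^ (q ^ 2)

end H17FW

end
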