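import Mathlib
import Fermat.Agent.S35.FWDefs_helper17
import Fermat.Agent.S34.Defs_helper4
import Fermat.Agent.S34.PairDefs_helper8

/-!
# Item 82b (S35), block FW: the CONCRETE `K₁`-level interface (helper17)

Second interface file of the FW block (the first one is `S35/FWDefs_helper17.lean`).
The GENERIC `K₁`-level statements (valuation language `V₁ V₂ : ValuationSubring F`, `One`,
`FWLoc`, the generic theorem FW-GEN on top of `H19KD.KDWStatement`) are owned by helper1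
(`S35/FWGenDefs_helper1.lean`, ns `H1FW`).  Here: the concrete inputs at level `N = N' q`
over a number field `K₁ ⊆ ℚ̄`, `R = descVal A K₁ = A ∩ K₁`, `F₁ = FK K₁ (N' q)`,
`w = H12AL.wqKHom K₁ N' q` (Atkin–Lehner), Gauss ring `H8PB.InG R`, its maximal ideal
`H8PB.InGm R`.

* `IsCoeffAct`          : `γ₁ : F₁ ≃+* F₁` is the coefficientwise action of `σ ∈ G_ℚ`;
* `FixAt`               : FW-RAT at a closed point `𝔫` of the chart `t`, chart form:
                          `γ y ≡ y ^ Q mod 𝔫` for every `y` of the chart ring;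
* `BranchStatement`     : (FW-COMP) the two Gauss valuation rings `V₁`, `V₂ = V₁ ∘ w` of `F₁`;
* `SigStatement`        : (FW-SIG) the coefficientwise Frobenius `σ₁` on `F₁`;
* `RatStatement`        : (FW-RAT) `σ₁²` fixes every node and is `x ↦ x ^ (q²)` on its residue
                          field;
* `ToricDescStatement`  : (FW-TD) `x ≡ 1` at `w₁` over `ℚ̄` descends to `K₁`.
-/

set_option autoImplicit false
set_option synthInstance.maxHeartbeats 400000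

noncomputable section

open Polynomial IntermediateField AlgebraicCurve ModularCurve H7S18 H11W3G

namespace H17FW

/-- `γ₁` is the coefficientwise action on `F₁ = FK K₁ N` of `σ ∈ G_ℚ`. -/
def IsCoeffAct (K₁ : IntermediateField ℚ (AlgebraicClosure ℚ)) (N : ℕ) [NeZero N] (σ : GQ)
    (γ₁ : FK K₁ N ≃+* FK K₁ N) : Prop :=
  ∃ σ₁ : K₁ →+* K₁,
    (∀ c : K₁, ((σ₁ c : K₁) : AlgebraicClosure ℚ) = σ (c : AlgebraicClosure ℚ)) ∧
    ∀ x : FK K₁ N, ((γ₁ x : FK K₁ N) : LaurentSeries K₁) = coeffMap σ₁ (x : LaurentSeries K₁)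

section Generic

variable (R : Type) [CommRing R] {E : Type} [Field E] [Algebra R E]

/-- **FW-RAT, chart form**: `γ` maps the chart ring into itself and `γ y ≡ y ^ Q mod 𝔫`
(so `γ 𝔫 = 𝔫`, `γ B_𝔫 = B_𝔫` and `γ` is `x ↦ x ^ Q` on the residue field of `𝔫`). -/
def FixAt (t : E) (γ : E ≃+* E) (Q : ℕ) (𝔫 : Ideal (H4S34.Chart R t)) : Prop :=
  ∀ y : H4S34.Chart R t, ∃ y' : H4S34.Chart R t, (y' : E) = γ (y : E) ∧ y' - y ^ Q ∈ 𝔫

end Generic

/-- **(FW-COMP)**: the two Gauss valuation rings of `F₁ = FK K₁ (N' q)`. -/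
def BranchStatement : Prop :=
  ∀ (N' : ℕ) [NeZero N'] (q : ℕ) [NeZero q] (hq : q.Prime) (hqN : ¬ q ∣ N')
    (_ : TameLevel q N')
    (A : ValuationSubring (AlgebraicClosure ℚ)) (_ : A.LiesOverPrime q),
    ∃ K₀ : IntermediateField ℚ (AlgebraicClosure ℚ), FiniteDimensional ℚ K₀ ∧
    ∀ (K₁ : IntermediateField ℚ (AlgebraicClosure ℚ)) (_ : K₀ ≤ K₁) (_ : FiniteDimensional ℚ K₁)
      (_ : Normal ℚ K₁)
      [Algebra ↥(descVal A K₁) (FK K₁ (N' * q))]
      [IsScalarTower ↥(descVal A K₁) K₁ (FK K₁ (N' * q))]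
      (ϖ : ↥(descVal A K₁)) (_ : Irreducible ϖ)
      (t₀ : LaurentSeries ℚ) (_ : IsBase (baseKind q) t₀)
      (t : FK K₁ (N' * q)) (_ : (t : LaurentSeries K₁) = coeffEmb K₁ t₀),
      ∃ V₁ V₂ : ValuationSubring (FK K₁ (N' * q)),
        (∀ x : FK K₁ (N' * q), x ∈ V₁ ↔ H8PB.InG (descVal A K₁) (x : LaurentSeries K₁)) ∧
        (∀ x : FK K₁ (N' * q), x ∈ V₂ ↔ H8PB.InG (descVal A K₁)
          ((H12AL.wqKHom K₁ N' q hq hqN x : FK K₁ (N' * q)) : LaurentSeries K₁)) ∧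
        (∀ x : FK K₁ (N' * q), V₁.valuation x < 1 ↔
          H8PB.InGm (descVal A K₁) (x : LaurentSeries K₁)) ∧
        (∀ x : FK K₁ (N' * q), V₂.valuation x < 1 ↔ H8PB.InGm (descVal A K₁)
          ((H12AL.wqKHom K₁ N' q hq hqN x : FK K₁ (N' * q)) : LaurentSeries K₁)) ∧
        (∀ x : FK K₁ (N' * q), GInt ↥(descVal A K₁) ϖ t x ↔ x ∈ V₁ ∧ x ∈ V₂) ∧
        (∀ x : FK K₁ (N' * q), V₁.valuation x < 1 → V₂.valuation x < 1 →
          ModPi ↥(descVal A K₁) ϖ t x 0) ∧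
        (∃ e : FK K₁ (N' * q), e ∈ V₁ ∧ e ∈ V₂ ∧ V₁.valuation e < 1 ∧
          V₂.valuation (1 - e) < 1) ∧
        (∀ x : FK K₁ (N' * q), V₁.valuation x < 1 →
          x * (algebraMap ↥(descVal A K₁) (FK K₁ (N' * q)) ϖ)⁻¹ ∈ V₁) ∧
        (∀ x : FK K₁ (N' * q), V₂.valuation x < 1 →
          x * (algebraMap ↥(descVal A K₁) (FK K₁ (N' * q)) ϖ)⁻¹ ∈ V₂)

/-- **(FW-SIG)**: for `K₁` normal over `ℚ` and large, a Frobenius element `σ` of `A` acts on
`F₁ = FK K₁ (N' q)` through the coefficients (`σ₁`), compatibly with `arithmeticGalois` on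
`F_ℚ̄`; `σ₁` fixes `t`, preserves `R = A ∩ K₁` and the Gauss valuations `w₁`, `w₂ = w₁ ∘ w`. -/
def SigStatement : Prop :=
  ∀ (N' : ℕ) [NeZero N'] (q : ℕ) [NeZero q] (hq : q.Prime) (hqN : ¬ q ∣ N')
    (_ : TameLevel q N')
    (A : ValuationSubring (AlgebraicClosure ℚ)) (_ : A.LiesOverPrime q),
    ∃ K₀ : IntermediateField ℚ (AlgebraicClosure ℚ), FiniteDimensional ℚ K₀ ∧
    ∀ (K₁ : IntermediateField ℚ (AlgebraicClosure ℚ)) (_ : K₀ ≤ K₁) (_ : FiniteDimensional ℚ K₁)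
      (_ : Normal ℚ K₁)
      [Algebra ↥(descVal A K₁) (FK K₁ (N' * q))]
      [IsScalarTower ↥(descVal A K₁) K₁ (FK K₁ (N' * q))]
      (ϖ : ↥(descVal A K₁)) (_ : Irreducible ϖ)
      (t₀ : LaurentSeries ℚ) (_ : IsBase (baseKind q) t₀)
      (t : FK K₁ (N' * q)) (_ : (t : LaurentSeries K₁) = coeffEmb K₁ t₀)
      (σ : GQ) (_ : A.IsFrobeniusAt σ q),
      ∃ σ₁ : FK K₁ (N' * q) ≃+* FK K₁ (N' * q),
        IsCoeffAct K₁ (N' * q) σ σ₁ ∧
        (∀ (x : FK K₁ (N' * q)) (y : modularFunctionFieldBar (N' * q)),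
          (y : LaurentSeries (AlgebraicClosure ℚ)) =
              coeffMap (algebraMap K₁ (AlgebraicClosure ℚ)) (x : LaurentSeries K₁) →
          ((act (N' * q) σ y : modularFunctionFieldBar (N' * q)) :
              LaurentSeries (AlgebraicClosure ℚ)) =
            coeffMap (algebraMap K₁ (AlgebraicClosure ℚ)) (σ₁ x : LaurentSeries K₁)) ∧
        σ₁ t = t ∧
        (∀ r : ↥(descVal A K₁), ∃ r' : ↥(descVal A K₁),
          σ₁ (algebraMap ↥(descVal A K₁) (FK K₁ (N' * q)) r) =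
            algebraMap ↥(descVal A K₁) (FK K₁ (N' * q)) r') ∧
        (∀ r : ↥(descVal A K₁), ∃ r' : ↥(descVal A K₁),
          σ₁.symm (algebraMap ↥(descVal A K₁) (FK K₁ (N' * q)) r) =
            algebraMap ↥(descVal A K₁) (FK K₁ (N' * q)) r') ∧
        (∀ x : FK K₁ (N' * q), H8PB.InG (descVal A K₁) (x : LaurentSeries K₁) ↔
          H8PB.InG (descVal A K₁) ((σ₁ x : FK K₁ (N' * q)) : LaurentSeries K₁)) ∧
        (∀ x : FK K₁ (N' * q), H8PB.InGm (descVal A K₁) (x : LaurentSeries K₁) ↔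
          H8PB.InGm (descVal A K₁) ((σ₁ x : FK K₁ (N' * q)) : LaurentSeries K₁)) ∧
        (∀ x : FK K₁ (N' * q),
          H12AL.wqKHom K₁ N' q hq hqN (σ₁ x) = σ₁ (H12AL.wqKHom K₁ N' q hq hqN x))

/-- **(FW-RAT)**: for `K₁` large, `γ = σ₁²` (`σ` a Frobenius element of `A`) satisfies
`γ y ≡ y ^ (q²) mod 𝔫` on the chart ring, at every NODE `𝔫` of the chart `t`
(the supersingular points are `𝔽_{q²}`-rational). -/
def RatStatement : Prop :=
  ∀ (N' : ℕ) [NeZero N'] (q : ℕ) [NeZero q] (_ : q.Prime) (_ : ¬ q ∣ N')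
    (_ : TameLevel q N')
    (A : ValuationSubring (AlgebraicClosure ℚ)) (_ : A.LiesOverPrime q),
    ∃ K₀ : IntermediateField ℚ (AlgebraicClosure ℚ), FiniteDimensional ℚ K₀ ∧
    ∀ (K₁ : IntermediateField ℚ (AlgebraicClosure ℚ)) (_ : K₀ ≤ K₁) (_ : FiniteDimensional ℚ K₁)
      (_ : Normal ℚ K₁)
      [Algebra ↥(descVal A K₁) (FK K₁ (N' * q))]
      [IsScalarTower ↥(descVal A K₁) K₁ (FK K₁ (N' * q))]
      (ϖ : ↥(descVal A K₁)) (_ : Irreducible ϖ)
      (t₀ : LaurentSeries ℚ) (_ : IsBase (baseKind q) t₀)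
      (t : FK K₁ (N' * q)) (_ : (t : LaurentSeries K₁) = coeffEmb K₁ t₀)
      (σ : GQ) (_ : A.IsFrobeniusAt σ q)
      (σ₁ : FK K₁ (N' * q) ≃+* FK K₁ (N' * q)) (_ : IsCoeffAct K₁ (N' * q) σ σ₁)
      (𝔫 : Ideal (H4S34.Chart ↥(descVal A K₁) t))
      (_ : H4S34.IsClosedPt ↥(descVal A K₁) ϖ t 𝔫) (_ : H4S34.NodeAt ↥(descVal A K₁) ϖ t 𝔫),
      FixAt ↥(descVal A K₁) t (σ₁.trans σ₁) (q ^ 2) 𝔫

/-- **(FW-TD)** toric descent: if `x₁ ∈ FK K₁ N` and its base change `y ∈ F̄_N` is `≡ 1` at the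
Gauss valuation of `A`, then `x₁ - 1` lies in the maximal ideal of the Gauss ring of
`R = A ∩ K₁`.  (Any level `N`; for `w₂` apply it to `w x₁`, `H12AL.phiK_wqKHom`.) -/
def ToricDescStatement : Prop :=
  ∀ (N : ℕ) [NeZero N] (q : ℕ) [Fact q.Prime]
    (A : ValuationSubring (AlgebraicClosure ℚ)) (_ : A.LiesOverPrime q)
    (K₁ : IntermediateField ℚ (AlgebraicClosure ℚ)) (_ : FiniteDimensional ℚ K₁)
    (x₁ : FK K₁ N) (y : modularFunctionFieldBar N),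
    (y : LaurentSeries (AlgebraicClosure ℚ)) =
        coeffMap (algebraMap K₁ (AlgebraicClosure ℚ)) (x₁ : LaurentSeries K₁) →
    One1 A y →
    H8PB.InGm (descVal A K₁) (((x₁ - 1 : FK K₁ N)) : LaurentSeries K₁)

end H17FW

end
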