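import Mathlib
import Fermat.Agent.S35.FWDefsK_helper17
import Fermat.Agent.S34.TauBdd_helper3
import Fermat.Agent.S18.C6b_helper4

/-!
# Item 82b (S35), block FW, slice **FW-TD** (toric descent) (helper29)

`toricDescStatement : H17FW.ToricDescStatement`:
if `x₁ ∈ FK K₁ N` and its base change `y ∈ F̄_N` is `≡ 1` at the Gauss valuation of `A`, then
`x₁ - 1` lies in the maximal ideal of the Gauss ring of `R = A ∩ K₁`.

Proof: normal form `(x₁ - 1) · ε Y₂ = c · ε Y₁` over the DVR `R` (`H3TAU.h3b_nf`), with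
`c ∈ K₁ˣ`, `Y₁`, `Y₂` primitive.  Over `ℚ̄`: `(y - 1) · ε g = ε (f - g)` with `ρ g ≠ 0`,
`ρ (f - g) = 0`.  Comparing, `c · ε (Y₁ g) = ε ((f - g) Y₂)`; at a unit coefficient of `Y₁ g`
we get `c ∈ 𝔪_A`, hence `c ∈ 𝔪_R`.
-/

set_option autoImplicit false
set_option synthInstance.maxHeartbeats 400000
set_option linter.unusedSectionVars false
set_option linter.unusedVariables false
set_option linter.style.haveILetI false

noncomputable section

open ModularCurve HahnSeries H28GV H7S18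

namespace H29TD

/-- the zero series lies in the maximal ideal of the Gauss ring -/
theorem inGm_zero {K : Type} [Field K] (R : ValuationSubring K) :
    H8PB.InGm R (0 : LaurentSeries K) := by
  refine ⟨0, 1, ⟨0, ?_⟩, ?_, ?_⟩
  · have : (1 : LaurentSeries R).coeff 0 = 1 := by
      simp
    rw [this]
    exact isUnit_one
  · intro n
    simp
  · simp

/-- `c · ε Y₁ / ε Y₂` with `c ∈ 𝔪_R` lies in the maximal ideal of the Gauss ring. -/
theorem inGm_of_nf {K : Type} [Field K] (R : ValuationSubring K) (x : LaurentSeries K)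
    (c : R) (hc : ¬ IsUnit c) (Y₁ Y₂ : LaurentSeries R) (hY₂ : H3TAU.rhoR R Y₂ ≠ 0)
    (h : x * gvEps R Y₂ = HahnSeries.C (c : K) * gvEps R Y₁) :
    H8PB.InGm R x := by
  refine ⟨HahnSeries.C c * Y₁, Y₂, ?_, ?_, ?_⟩
  · by_contra hcon
    push_neg at hcon
    exact hY₂ ((H3TAU.h3b_rho_eq_zero_iff R Y₂).2 hcon)
  · rw [← H3TAU.h3b_rho_eq_zero_iff]
    rw [map_mul]
    have : H3TAU.rhoR R (HahnSeries.C c) = 0 := by
      show gvRho R (IsLocalRing.residue R) (HahnSeries.C c) = 0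
      rw [gvRho_C]
      have h0 : IsLocalRing.residue R c = 0 := by
        rw [IsLocalRing.residue_eq_zero_iff]
        exact (IsLocalRing.mem_maximalIdeal _).2 hc
      rw [h0, map_zero]
    rw [this, zero_mul]
  · rw [← gvEps_def, ← gvEps_def, map_mul, gvEps_C]
    exact h

/-- base change of integral series: `φ (ε_R Y) = ε_A (Y')`, `Y' = coeffMap descIncl Y` -/
theorem coeffMap_gvEps (A : ValuationSubring (AlgebraicClosure ℚ))
    (K₁ : IntermediateField ℚ (AlgebraicClosure ℚ)) (Y : LaurentSeries ↥(descVal A K₁)) :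
    coeffMap (algebraMap K₁ (AlgebraicClosure ℚ)) (gvEps (descVal A K₁) Y) =
      gvEps A (coeffMap (descIncl A K₁) Y) := by
  ext n
  rfl

/-- a primitive series over `R = A ∩ K₁` stays primitive over `A` -/
theorem rho_descIncl_ne_zero (A : ValuationSubring (AlgebraicClosure ℚ))
    (K₁ : IntermediateField ℚ (AlgebraicClosure ℚ)) (Y : LaurentSeries ↥(descVal A K₁))
    (hY : H3TAU.rhoR (descVal A K₁) Y ≠ 0) :
    H3TAU.rhoR A (coeffMap (descIncl A K₁) Y) ≠ 0 := by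
  intro h0
  apply hY
  rw [H3TAU.h3b_rho_eq_zero_iff] at h0 ⊢
  intro n hn
  apply h0 n
  rw [coeffMap_coeff]
  exact hn.map (descIncl A K₁)

/-- **the key estimate**: if `z · ε g = ε e` over `A` with `ρ g ≠ 0`, `ρ e = 0`, and
`z · ε Y₂ = c · ε Y₁` with `ρ Y₁ ≠ 0`, then `c ∈ 𝔪_A`. -/
theorem const_mem_maximal {L : Type} [Field L] (A : ValuationSubring L) (z : LaurentSeries L)
    (e g Y₁ Y₂ : LaurentSeries A) (c : L)
    (hg : H3TAU.rhoR A g ≠ 0) (he : H3TAU.rhoR A e = 0) (hY₁ : H3TAU.rhoR A Y₁ ≠ 0)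
    (h1 : z * gvEps A g = gvEps A e) (h2 : z * gvEps A Y₂ = HahnSeries.C c * gvEps A Y₁) :
    ∃ hc : c ∈ A, ¬ IsUnit (⟨c, hc⟩ : A) := by
  have h3 : HahnSeries.C c * gvEps A (Y₁ * g) = gvEps A (e * Y₂) := by
    rw [map_mul, map_mul, ← mul_assoc, ← h2, ← h1]
    ring
  have hne : H3TAU.rhoR A (Y₁ * g) ≠ 0 := by
    rw [map_mul]
    exact mul_ne_zero hY₁ hg
  have hz : H3TAU.rhoR A (e * Y₂) = 0 := by
    rw [map_mul, he, zero_mul]
  obtain ⟨n, hn⟩ : ∃ n, IsUnit ((Y₁ * g).coeff n) := by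
    by_contra hcon
    push_neg at hcon
    exact hne ((H3TAU.h3b_rho_eq_zero_iff A _).2 hcon)
  have hm : ¬ IsUnit ((e * Y₂).coeff n) := (H3TAU.h3b_rho_eq_zero_iff A _).1 hz n
  have h4 := congrArg (fun s : LaurentSeries L => s.coeff n) h3
  simp only [gvEps_coeff] at h4
  rw [HahnSeries.C_mul_eq_smul, HahnSeries.coeff_smul, gvEps_coeff, smul_eq_mul] at h4
  obtain ⟨u, hu⟩ := hn
  have hu' : (((Y₁ * g).coeff n : A) : L) = ((u : A) : L) := by rw [hu]
  have hu0 : ((u : A) : L) ≠ 0 := by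
    intro h0
    exact u.ne_zero (Subtype.ext h0)
  have hc : c = (((e * Y₂).coeff n * ((u⁻¹ : Aˣ) : A) : A) : L) := by
    rw [hu'] at h4
    have hinv : (((u⁻¹ : Aˣ) : A) : L) = ((u : A) : L)⁻¹ := by
      have h5 : ((u : A) : L) * (((u⁻¹ : Aˣ) : A) : L) = 1 := by
        have h6 : ((u : A) * ((u⁻¹ : Aˣ) : A) : A) = 1 := u.mul_inv
        have h7 := congrArg (fun a : A => (a : L)) h6
        exact h7
      exact eq_inv_of_mul_eq_one_right h5
    push_cast
    rw [hinv, ← h4]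
    field_simp
  have hcA : c ∈ A := by
    rw [hc]
    exact Subtype.mem _
  refine ⟨hcA, ?_⟩
  intro hunit
  apply hm
  have e1 : (e * Y₂).coeff n = (⟨c, hcA⟩ : A) * (u : A) := by
    apply Subtype.ext
    push_cast
    show (((e * Y₂).coeff n : A) : L) = c * ((u : A) : L)
    rw [← hu', h4]
  rw [e1]
  exact hunit.mul u.isUnit

/-- **FW-TD, core form** (any DVR `R = A ∩ K₁`): `x₁` in `F_{K₁}(N)`, its base change `≡ 1`
at the Gauss valuation of `A` ⇒ `x₁ - 1 ∈ 𝔪` of the Gauss ring of `R`. -/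
theorem toricDesc_core (N : ℕ) [NeZero N]
    (A : ValuationSubring (AlgebraicClosure ℚ))
    (K₁ : IntermediateField ℚ (AlgebraicClosure ℚ))
    [IsDiscreteValuationRing ↥(descVal A K₁)]
    (x₁ : LaurentSeries K₁) (hx₁ : x₁ ∈ laurentBaseChange K₁ (modularFunctionFieldFull N))
    (h : coeffMap (algebraMap K₁ (AlgebraicClosure ℚ)) x₁ ∈ gvO A (H17FW.resA A))
    (hred : gvRed A (H17FW.resA A) ⟨_, h⟩ = 1) :
    H8PB.InGm (descVal A K₁) (x₁ - 1) := by
  by_cases hx0 : x₁ - 1 = 0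
  · rw [hx0]
    exact inGm_zero _
  have hmem : x₁ - 1 ∈ modularFunctionFieldFullC K₁ N := by
    rw [← gv_bar_eq]
    exact sub_mem hx₁ (one_mem _)
  obtain ⟨c, Y₁, Y₂, hc, hY₁, hY₂, hrel⟩ := H3TAU.h3b_nf (descVal A K₁) N (x₁ - 1) hmem hx0
  obtain ⟨f, g, hg, hfg⟩ := (mem_gvO_iff A (H17FW.resA A) _).1 h
  have hred' := gvRed_eq A (H17FW.resA A) ⟨_, h⟩ f g hg hfg
  rw [hred] at hred'
  have hfg' : gvRho A (H17FW.resA A) f = gvRho A (H17FW.resA A) g := by
    have := hred'.symm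
    rwa [div_eq_one_iff_eq hg] at this
  -- over `ℚ̄`
  have h1 : (coeffMap (algebraMap K₁ (AlgebraicClosure ℚ)) (x₁ - 1)) * gvEps A g =
      gvEps A (f - g) := by
    rw [map_sub, map_one, map_sub, sub_mul, one_mul, hfg]
  have h2 : (coeffMap (algebraMap K₁ (AlgebraicClosure ℚ)) (x₁ - 1)) *
      gvEps A (coeffMap (descIncl A K₁) Y₂) =
      HahnSeries.C (algebraMap K₁ (AlgebraicClosure ℚ) c) *
        gvEps A (coeffMap (descIncl A K₁) Y₁) := by
    rw [← coeffMap_gvEps, ← coeffMap_gvEps, ← map_mul, hrel, map_mul]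
    congr 1
    show coeffMap _ (HahnSeries.single 0 c) = HahnSeries.single 0 _
    rw [coeffMap_single]
  obtain ⟨hcA, hcu⟩ := const_mem_maximal A _ (f - g) g (coeffMap (descIncl A K₁) Y₁)
    (coeffMap (descIncl A K₁) Y₂) (algebraMap K₁ (AlgebraicClosure ℚ) c) hg
    (by show gvRho A (H17FW.resA A) (f - g) = 0
        rw [map_sub, hfg', sub_self])
    (rho_descIncl_ne_zero A K₁ Y₁ hY₁) h1 h2
  have hcR : c ∈ descVal A K₁ := hcA
  refine inGm_of_nf (descVal A K₁) (x₁ - 1) ⟨c, hcR⟩ ?_ Y₁ Y₂ hY₂ hrel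
  intro hu
  exact hcu (hu.map (descIncl A K₁))

/-- **(FW-TD)** toric descent. -/
theorem toricDescStatement : H17FW.ToricDescStatement := by
  intro N _ q _ A hA K₁ hfin x₁ y hy hone
  obtain ⟨hdvr, -, -⟩ := H4DVR.dvrStatement q A hA K₁ hfin
  haveI := hdvr
  obtain ⟨h, hred⟩ := hone
  have h' : coeffMap (algebraMap K₁ (AlgebraicClosure ℚ)) (x₁ : LaurentSeries K₁) ∈
      gvO A (H17FW.resA A) := by
    rw [← hy]
    exact h
  have hred' : gvRed A (H17FW.resA A) ⟨_, h'⟩ = 1 := by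
    rw [← hred]
    congr 1
    exact Subtype.ext hy.symm
  exact toricDesc_core N A K₁ (x₁ : LaurentSeries K₁) x₁.2 h' hred'

end H29TD

end
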