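import Mathlib
import Fermat.Agent.S35.FWToricDesc_helper29
import Fermat.Agent.S35.FWGenDefs_helper1
import Fermat.Agent.S34.Descent_helper29
import Fermat.Agent.S34.AsmGlue_helper29

/-!
# Item 82b (S35), block FW, slice **FW-B2** (helper29): descent of the toric data to `K₁`

`H29B2.fwB2`: a toric function `u ∈ F̄_{N'q}` with `n ∣ div u` (roots `ψ₁`, `ψ₂`) descends to a
number field `K₁ ⊇ K₀`, normal over `ℚ`, containing the `n`-th roots of unity: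
`u = φ u₁`, `ψ_i = φ ψ_{i,1}`, with
* `n ∣ div u₁` over `K₁`, `K₁`-rational support (`H29DS.descent_finset`);
* `u₁ / ψ₁₁ⁿ - 1 ∈ 𝔪(w₁)` and `w (u₁ / ψ₂₁ⁿ - 1) ∈ 𝔪(w₁)` for the Gauss valuation `w₁` of
  `R = A ∩ K₁` (`H29TD.toricDescStatement`).

`H29B2.one_of_branch`: in the valuation language of `H1FW` / `H17FW.BranchStatement`:
`One V₁ (u₁ / ψ₁₁ⁿ)`, `One V₂ (u₁ / ψ₂₁ⁿ)`.
-/

set_option autoImplicit false
set_option synthInstance.maxHeartbeats 400000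
set_option maxHeartbeats 1000000
set_option linter.unusedSectionVars false
set_option linter.unusedVariables false
set_option linter.style.haveILetI false

noncomputable section

open H11W3G ModularCurve AlgebraicCurve H7S18 H28GV H29R2M

namespace H29B2

local notation "Qb" => AlgebraicClosure ℚ

/-- `φ` and `phiK` agree -/
theorem phi_eq_of_coe (N : ℕ) [NeZero N] (K₁ : IntermediateField ℚ Qb)
    (x₁ : FK K₁ N) (y : modularFunctionFieldBar N)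
    (h : (y : LaurentSeries Qb) = coeffMap (algebraMap K₁ Qb) (x₁ : LaurentSeries K₁)) :
    phi N K₁ x₁ = y :=
  Subtype.ext (by rw [phi_coe]; exact h.symm)

/-- **(FW-B2)**: descent of toric data. -/
theorem fwB2 (N' q : ℕ) [NeZero N'] [NeZero q] [NeZero (N' * q)] (hq : q.Prime)
    (hqN : ¬ q ∣ N') (n : ℕ) (hn : 0 < n)
    (A : ValuationSubring Qb) (hA : A.LiesOverPrime q)
    (u : modularFunctionFieldBar (N' * q)) (hu : u ≠ 0)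
    (hdiv : ∀ P : Place Qb (modularFunctionFieldBar (N' * q)), (n : ℤ) ∣ P.ord u)
    (htor : H17FW.IsToric N' q hq hqN A n u)
    (K₀ : IntermediateField ℚ Qb) (hK₀ : FiniteDimensional ℚ K₀) :
    ∃ (K₁ : IntermediateField ℚ Qb) (_ : FiniteDimensional ℚ K₁)
      (u₁ ψ₁ ψ₂ : FK K₁ (N' * q)),
      K₀ ≤ K₁ ∧ Normal ℚ K₁ ∧ (∃ ζ : K₁, IsPrimitiveRoot ζ n) ∧
      (u : LaurentSeries Qb) = coeffMap (algebraMap K₁ Qb) (u₁ : LaurentSeries K₁) ∧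
      u₁ ≠ 0 ∧ ψ₁ ≠ 0 ∧ ψ₂ ≠ 0 ∧
      (∀ V : Place K₁ (FK K₁ (N' * q)), (n : ℤ) ∣ V.ord u₁) ∧
      (∀ V : Place K₁ (FK K₁ (N' * q)), V.ord u₁ ≠ 0 → ∀ x : FK K₁ (N' * q), 0 ≤ V.ord x →
        ∃ c : K₁, x = algebraMap K₁ (FK K₁ (N' * q)) c ∨
          0 < V.ord (x - algebraMap K₁ (FK K₁ (N' * q)) c)) ∧
      H8PB.InGm (descVal A K₁)
        (((u₁ * (ψ₁ ^ n)⁻¹ - 1 : FK K₁ (N' * q))) : LaurentSeries K₁) ∧
      H8PB.InGm (descVal A K₁)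
        (((H12AL.wqKHom K₁ N' q hq hqN (u₁ * (ψ₂ ^ n)⁻¹ - 1) : FK K₁ (N' * q))) :
          LaurentSeries K₁) := by
  classical
  haveI : Fact q.Prime := ⟨hq⟩
  obtain ⟨ψ₁b, ψ₂b, hψ₁, hψ₂, h1, h2⟩ := htor
  obtain ⟨K₁, hK₁, u₁, hK₀K₁, hnor, hζ, hu₁, hdiv₁, hrat, hT⟩ :=
    H29DS.descent_finset (N' * q) n hn u hu hdiv K₀ hK₀ {ψ₁b, ψ₂b}
  obtain ⟨ψ₁, hφψ₁⟩ := hT ψ₁b (by simp)
  obtain ⟨ψ₂, hφψ₂⟩ := hT ψ₂b (by simp)
  have hφu : phi (N' * q) K₁ u₁ = u := phi_eq_of_coe (N' * q) K₁ u₁ u hu₁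
  have hu₁0 : u₁ ≠ 0 := by
    rintro rfl
    exact hu (by rw [← hφu, map_zero])
  have hψ₁0 : ψ₁ ≠ 0 := by
    rintro rfl
    exact hψ₁ (by rw [← hφψ₁, map_zero])
  have hψ₂0 : ψ₂ ≠ 0 := by
    rintro rfl
    exact hψ₂ (by rw [← hφψ₂, map_zero])
  refine ⟨K₁, hK₁, u₁, ψ₁, ψ₂, hK₀K₁, hnor, hζ, hu₁, hu₁0, hψ₁0, hψ₂0, hdiv₁, hrat, ?_, ?_⟩
  · refine H29TD.toricDescStatement (N' * q) q A hA K₁ hK₁ (u₁ * (ψ₁ ^ n)⁻¹)
      (u * (ψ₁b ^ n)⁻¹) ?_ h1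
    rw [← phi_coe, map_mul, map_inv₀, map_pow, hφu, hφψ₁]
  · rw [map_sub, map_one]
    refine H29TD.toricDescStatement (N' * q) q A hA K₁ hK₁
      (H12AL.wqKHom K₁ N' q hq hqN (u₁ * (ψ₂ ^ n)⁻¹))
      (H12AL.wqBar N' q hq hqN (u * (ψ₂b ^ n)⁻¹)) ?_ h2
    rw [H12AL.wqBar_apply, H12AL.coeffMap_wqKHom]
    congr 2
    apply Subtype.ext
    rw [H12AL.coe_phiK, ← phi_coe, map_mul, map_inv₀, map_pow, hφu, hφψ₂]

/-- the toric conditions in the valuation language of `H1FW` (`V₁`, `V₂` as in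
`H17FW.BranchStatement`, clauses 3 and 4). -/
theorem one_of_branch (N' q : ℕ) [NeZero N'] [NeZero q] [NeZero (N' * q)] (hq : q.Prime)
    (hqN : ¬ q ∣ N') (A : ValuationSubring Qb) (K₁ : IntermediateField ℚ Qb)
    (V₁ V₂ : ValuationSubring (FK K₁ (N' * q)))
    (hV₁ : ∀ x : FK K₁ (N' * q), V₁.valuation x < 1 ↔
      H8PB.InGm (descVal A K₁) (x : LaurentSeries K₁))
    (hV₂ : ∀ x : FK K₁ (N' * q), V₂.valuation x < 1 ↔ H8PB.InGm (descVal A K₁)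
      ((H12AL.wqKHom K₁ N' q hq hqN x : FK K₁ (N' * q)) : LaurentSeries K₁))
    (n : ℕ) (u₁ ψ₁ ψ₂ : FK K₁ (N' * q))
    (h1 : H8PB.InGm (descVal A K₁)
      (((u₁ * (ψ₁ ^ n)⁻¹ - 1 : FK K₁ (N' * q))) : LaurentSeries K₁))
    (h2 : H8PB.InGm (descVal A K₁)
      (((H12AL.wqKHom K₁ N' q hq hqN (u₁ * (ψ₂ ^ n)⁻¹ - 1) : FK K₁ (N' * q))) :
        LaurentSeries K₁)) :
    H1FW.One V₁ (u₁ * (ψ₁ ^ n)⁻¹) ∧ H1FW.One V₂ (u₁ * (ψ₂ ^ n)⁻¹) :=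
  ⟨(hV₁ _).2 h1, (hV₂ _).2 h2⟩

/-- **ascent**: a `K₁`-level identity `σ₁² u₁ = c · gⁿ · u₁^Q` gives the `ℚ̄`-level conclusion
of `H17FW.ToricTameStatement`. -/
theorem toric_ascent (N : ℕ) [NeZero N] (K₁ : IntermediateField ℚ Qb) (σ : GQ)
    (σ₁ : FK K₁ N ≃+* FK K₁ N)
    (hσ : ∀ (x : FK K₁ N) (y : modularFunctionFieldBar N),
      (y : LaurentSeries Qb) = coeffMap (algebraMap K₁ Qb) (x : LaurentSeries K₁) →
      ((H17FW.act N σ y : modularFunctionFieldBar N) : LaurentSeries Qb) =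
        coeffMap (algebraMap K₁ Qb) (σ₁ x : LaurentSeries K₁))
    (n : ℕ) (hn : 0 < n) (Q : ℕ)
    (u : modularFunctionFieldBar N) (u₁ : FK K₁ N)
    (hu : (u : LaurentSeries Qb) = coeffMap (algebraMap K₁ Qb) (u₁ : LaurentSeries K₁))
    (c : K₁) (g : FK K₁ N)
    (h : (σ₁.trans σ₁) u₁ = algebraMap K₁ (FK K₁ N) c * g ^ n * u₁ ^ Q) :
    ∃ ψ : modularFunctionFieldBar N,
      H17FW.act N σ (H17FW.act N σ u) = ψ ^ n * u ^ Q := by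
  have hφu : phi N K₁ u₁ = u := phi_eq_of_coe N K₁ u₁ u hu
  have h1 : H17FW.act N σ u = phi N K₁ (σ₁ u₁) :=
    Subtype.ext (by rw [hσ u₁ u hu, phi_coe])
  have h2 : H17FW.act N σ (H17FW.act N σ u) = phi N K₁ (σ₁ (σ₁ u₁)) :=
    Subtype.ext (by rw [hσ (σ₁ u₁) (H17FW.act N σ u) (by rw [h1, phi_coe]), phi_coe])
  have h3 : σ₁ (σ₁ u₁) = algebraMap K₁ (FK K₁ N) c * g ^ n * u₁ ^ Q := h
  obtain ⟨d, hd⟩ := IsAlgClosed.exists_pow_nat_eq (algebraMap K₁ Qb c) hn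
  refine ⟨algebraMap Qb (modularFunctionFieldBar N) d * phi N K₁ g, ?_⟩
  rw [h2, h3, map_mul, map_mul, map_pow, map_pow, hφu, mul_pow, H29AG.phi_algebraMap,
    ← map_pow (algebraMap Qb (modularFunctionFieldBar N)) d n, hd]

end H29B2

end
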