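import Mathlib
import Fermat.Agent.S35.FWGenDefs_helper1

/-!
# Item 84 (S35), block FW, sub-slice UNIT-ROOT NORMALISATION (helper5)

Generic, in the language of `H1FW` (`TwoComp R ϖ t V₁ V₂`, `One V x`).

* `h5ur_unif₁`, `h5ur_unif₂` : from `TwoComp` alone, the comaximality witness `e` satisfies
  `val₁ e ≤ val₁ ϖ`, `val₂ (1 - e) ≤ val₂ ϖ`;
* `h5ur_values`  : **weak approximation of values**: for `ψ₁ ψ₂ ≠ 0` there is `z ≠ 0` with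
  `val₁ z = val₁ ψ₁`, `val₂ z = val₂ ψ₂`  (`z = ψ₁ (1-e)^m₂ + ψ₂ e^m₁`);
* `h5ur_norm`    : **unit-root normalisation** (helper11's shape): `u` toric with roots
  `ψ₁, ψ₂ ≠ 0` ⟹ `∃ z ψ₁' ψ₂'`, `z ≠ 0`, `val_i ψ_i' = 1`, `u / zⁿ ≡ ψ_i'ⁿ` at `V_i`
  (with `ψ_i' = ψ_i / z`, and `u (zⁿ)⁻¹ (ψ_i'ⁿ)⁻¹ = u (ψ_iⁿ)⁻¹`);
* `h5ur_corr`    : the corrections `H` of `u' = u / zⁿ` and of `u` correspond:
  `H' ψ_i'^Q / γ ψ_i' = (H' γ z / z^Q) ψ_i^Q / γ ψ_i`;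
* `h5ur_vprime`  : `γ u' / (u'^Q H'ⁿ) = γ u / (u^Q (H' γ z / z^Q)ⁿ)`;
* `h5ur_back`    : `γ u' = c gⁿ u'^Q ⟹ γ u = c (g γ z / z^Q)ⁿ u^Q`;
* `h5ur_dvd_ord` : `n ∣ div u ⟹ n ∣ div (u / zⁿ)`.

CAVEAT: the *rational support* clause (`V.ord u ≠ 0 → V` rational) is NOT preserved by
`u ↦ u / zⁿ`; normalise before the descent (B2) which produces rational support.
-/

set_option autoImplicit false

noncomputable section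

namespace H5UR

open H7S18 H1FW AlgebraicCurve

section Values

variable {R : Type} [CommRing R] {F : Type} [Field F] [Algebra R F]
  {ϖ : R} {t : F} {V₁ V₂ : ValuationSubring F}

/-- `𝔪₁ ∩ 𝔪₂ ⊆ ϖ O`, valuation form at `V₁`. -/
theorem h5ur_le₁ (h : TwoComp R ϖ t V₁ V₂) {x : F} (h1 : V₁.valuation x < 1)
    (h2 : V₂.valuation x < 1) : V₁.valuation x ≤ V₁.valuation (algebraMap R F ϖ) := by
  obtain ⟨z, hz, hxz⟩ := h.2.1 x h1 h2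
  rw [sub_zero] at hxz
  have hz1 : V₁.valuation z ≤ 1 := (V₁.valuation_le_one_iff z).mpr ((h.1 z).mp hz).1
  rw [hxz, map_mul]
  exact mul_le_of_le_one_right' hz1

/-- `𝔪₁ ∩ 𝔪₂ ⊆ ϖ O`, valuation form at `V₂`. -/
theorem h5ur_le₂ (h : TwoComp R ϖ t V₁ V₂) {x : F} (h1 : V₁.valuation x < 1)
    (h2 : V₂.valuation x < 1) : V₂.valuation x ≤ V₂.valuation (algebraMap R F ϖ) := by
  obtain ⟨z, hz, hxz⟩ := h.2.1 x h1 h2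
  rw [sub_zero] at hxz
  have hz1 : V₂.valuation z ≤ 1 := (V₂.valuation_le_one_iff z).mpr ((h.1 z).mp hz).2
  rw [hxz, map_mul]
  exact mul_le_of_le_one_right' hz1

/-- the comaximality witness, with all its values: `val₁ e ≤ val₁ ϖ`, `val₁ (1 - e) = 1`,
`val₂ e = 1`, `val₂ (1 - e) ≤ val₂ ϖ`. -/
theorem h5ur_witness (h : TwoComp R ϖ t V₁ V₂) :
    ∃ e : F, V₁.valuation e ≤ V₁.valuation (algebraMap R F ϖ) ∧ V₁.valuation (1 - e) = 1 ∧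
      V₂.valuation e = 1 ∧ V₂.valuation (1 - e) ≤ V₂.valuation (algebraMap R F ϖ) := by
  obtain ⟨e, he1, he2⟩ := h.2.2.1
  have h11 : V₁.valuation (1 - e) = 1 := Valuation.map_one_sub_of_lt V₁.valuation he1
  have h22' : V₂.valuation (1 - e) < 1 := by rwa [Valuation.map_sub_swap]
  have h21 : V₂.valuation e = 1 := by
    have := Valuation.map_one_sub_of_lt V₂.valuation h22'
    rwa [sub_sub_cancel] at this
  have hp1 : V₁.valuation (e * (1 - e)) < 1 := by rw [map_mul, h11, mul_one]; exact he1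
  have hp2 : V₂.valuation (e * (1 - e)) < 1 := by rw [map_mul, h21, one_mul]; exact h22'
  refine ⟨e, ?_, h11, h21, ?_⟩
  · have := h5ur_le₁ h hp1 hp2
    rwa [map_mul, h11, mul_one] at this
  · have := h5ur_le₂ h hp1 hp2
    rwa [map_mul, h21, one_mul] at this

/-- **weak approximation of values**. -/
theorem h5ur_values (h : TwoComp R ϖ t V₁ V₂) (ψ₁ ψ₂ : F) (hψ₁ : ψ₁ ≠ 0) (hψ₂ : ψ₂ ≠ 0) :
    ∃ z : F, z ≠ 0 ∧ V₁.valuation z = V₁.valuation ψ₁ ∧ V₂.valuation z = V₂.valuation ψ₂ := by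
  obtain ⟨e, he1, h11, h21, he2⟩ := h5ur_witness h
  obtain ⟨m₁, hm₁⟩ := h.2.2.2.1 (ψ₂ * ψ₁⁻¹)
  obtain ⟨m₂, hm₂⟩ := h.2.2.2.2 (ψ₁ * ψ₂⁻¹)
  have hpos₁ : 0 < V₁.valuation ψ₁ := (Valuation.pos_iff V₁.valuation).mpr hψ₁
  have hpos₂ : 0 < V₂.valuation ψ₂ := (Valuation.pos_iff V₂.valuation).mpr hψ₂
  -- the cross terms are small
  have hc₁ : V₁.valuation (ψ₂ * e ^ m₁) < V₁.valuation ψ₁ := by
    have h1 : V₁.valuation (algebraMap R F ϖ ^ m₁ * (ψ₂ * ψ₁⁻¹)) * V₁.valuation ψ₁ <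
        1 * V₁.valuation ψ₁ := MulPosStrictMono.mul_lt_mul_of_pos_right hpos₁ hm₁
    rw [one_mul, ← map_mul] at h1
    have e1 : algebraMap R F ϖ ^ m₁ * (ψ₂ * ψ₁⁻¹) * ψ₁ = algebraMap R F ϖ ^ m₁ * ψ₂ := by
      field_simp
    rw [e1] at h1
    refine lt_of_le_of_lt ?_ h1
    rw [map_mul, map_mul, map_pow, map_pow, mul_comm (V₁.valuation ψ₂),
      mul_comm _ (V₁.valuation ψ₂), mul_comm (V₁.valuation ψ₂)]
    exact mul_le_mul_left (pow_le_pow_left' he1 m₁) _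
  have hc₂ : V₂.valuation (ψ₁ * (1 - e) ^ m₂) < V₂.valuation ψ₂ := by
    have h1 : V₂.valuation (algebraMap R F ϖ ^ m₂ * (ψ₁ * ψ₂⁻¹)) * V₂.valuation ψ₂ <
        1 * V₂.valuation ψ₂ := MulPosStrictMono.mul_lt_mul_of_pos_right hpos₂ hm₂
    rw [one_mul, ← map_mul] at h1
    have e1 : algebraMap R F ϖ ^ m₂ * (ψ₁ * ψ₂⁻¹) * ψ₂ = algebraMap R F ϖ ^ m₂ * ψ₁ := by
      field_simp
    rw [e1] at h1
    refine lt_of_le_of_lt ?_ h1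
    rw [map_mul, map_mul, map_pow, map_pow, mul_comm (V₂.valuation ψ₁),
      mul_comm _ (V₂.valuation ψ₁), mul_comm (V₂.valuation ψ₁)]
    exact mul_le_mul_left (pow_le_pow_left' he2 m₂) _
  have hm₁' : V₁.valuation (ψ₁ * (1 - e) ^ m₂) = V₁.valuation ψ₁ := by
    rw [map_mul, map_pow, h11, one_pow, mul_one]
  have hm₂' : V₂.valuation (ψ₂ * e ^ m₁) = V₂.valuation ψ₂ := by
    rw [map_mul, map_pow, h21, one_pow, mul_one]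
  have hz₁ : V₁.valuation (ψ₁ * (1 - e) ^ m₂ + ψ₂ * e ^ m₁) = V₁.valuation ψ₁ := by
    rw [Valuation.map_add_eq_of_lt_left V₁.valuation (by rw [hm₁']; exact hc₁), hm₁']
  have hz₂ : V₂.valuation (ψ₁ * (1 - e) ^ m₂ + ψ₂ * e ^ m₁) = V₂.valuation ψ₂ := by
    rw [Valuation.map_add_eq_of_lt_right V₂.valuation (by rw [hm₂']; exact hc₂), hm₂']
  refine ⟨ψ₁ * (1 - e) ^ m₂ + ψ₂ * e ^ m₁, ?_, hz₁, hz₂⟩
  intro h0
  rw [h0, map_zero] at hz₁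
  exact hpos₁.ne hz₁

/-- **UNIT-ROOT NORMALISATION**: a toric `u` (roots `ψ₁, ψ₂ ≠ 0`) becomes, after division by
an `n`-th power `zⁿ`, toric with roots of valuation `1`. -/
theorem h5ur_norm (h : TwoComp R ϖ t V₁ V₂) (n : ℕ) (u ψ₁ ψ₂ : F) (hψ₁ : ψ₁ ≠ 0) (hψ₂ : ψ₂ ≠ 0)
    (h1 : One V₁ (u * (ψ₁ ^ n)⁻¹)) (h2 : One V₂ (u * (ψ₂ ^ n)⁻¹)) :
    ∃ z ψ₁' ψ₂' : F, z ≠ 0 ∧ ψ₁' = ψ₁ * z⁻¹ ∧ ψ₂' = ψ₂ * z⁻¹ ∧
      V₁.valuation ψ₁' = 1 ∧ V₂.valuation ψ₂' = 1 ∧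
      One V₁ (u * (z ^ n)⁻¹ * (ψ₁' ^ n)⁻¹) ∧ One V₂ (u * (z ^ n)⁻¹ * (ψ₂' ^ n)⁻¹) := by
  obtain ⟨z, hz, hz₁, hz₂⟩ := h5ur_values h ψ₁ ψ₂ hψ₁ hψ₂
  have hv₁ : V₁.valuation z ≠ 0 := (Valuation.ne_zero_iff V₁.valuation).mpr hz
  have hv₂ : V₂.valuation z ≠ 0 := (Valuation.ne_zero_iff V₂.valuation).mpr hz
  refine ⟨z, ψ₁ * z⁻¹, ψ₂ * z⁻¹, hz, rfl, rfl, ?_, ?_, ?_, ?_⟩
  · rw [map_mul, map_inv₀, ← hz₁, mul_inv_cancel₀ hv₁]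
  · rw [map_mul, map_inv₀, ← hz₂, mul_inv_cancel₀ hv₂]
  · have hzn : z ^ n ≠ 0 := pow_ne_zero n hz
    have e : u * (z ^ n)⁻¹ * ((ψ₁ * z⁻¹) ^ n)⁻¹ = u * (ψ₁ ^ n)⁻¹ := by
      rw [mul_pow, inv_pow, mul_inv, inv_inv]
      field_simp
    rw [e]; exact h1
  · have hzn : z ^ n ≠ 0 := pow_ne_zero n hz
    have e : u * (z ^ n)⁻¹ * ((ψ₂ * z⁻¹) ^ n)⁻¹ = u * (ψ₂ ^ n)⁻¹ := by
      rw [mul_pow, inv_pow, mul_inv, inv_inv]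
      field_simp
    rw [e]; exact h2

end Values

section Transfer

variable {F : Type} [Field F]

/-- the corrections correspond: `H' ψ'^Q (γ ψ')⁻¹ = (H' γ z (z^Q)⁻¹) ψ^Q (γ ψ)⁻¹` for
`ψ' = ψ z⁻¹`. -/
theorem h5ur_corr (γ : F ≃+* F) (Q : ℕ) (z ψ H' : F) (hz : z ≠ 0) :
    H' * (ψ * z⁻¹) ^ Q * (γ (ψ * z⁻¹))⁻¹ = (H' * γ z * (z ^ Q)⁻¹) * ψ ^ Q * (γ ψ)⁻¹ := by
  have hγz : γ z ≠ 0 := (map_ne_zero_iff γ γ.injective).mpr hz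
  rw [map_mul, map_inv₀]
  by_cases hψ : ψ = 0
  · subst hψ
    simp
  have hγψ : γ ψ ≠ 0 := (map_ne_zero_iff γ γ.injective).mpr hψ
  rw [mul_pow, inv_pow]
  field_simp

/-- `v'` is unchanged: `γ u' (u'^Q H'ⁿ)⁻¹ = γ u (u^Q (H' γ z (z^Q)⁻¹)ⁿ)⁻¹` for `u' = u (zⁿ)⁻¹`. -/
theorem h5ur_vprime (γ : F ≃+* F) (Q n : ℕ) (z u H' : F) (hz : z ≠ 0) :
    γ (u * (z ^ n)⁻¹) * ((u * (z ^ n)⁻¹) ^ Q * H' ^ n)⁻¹ =
      γ u * (u ^ Q * (H' * γ z * (z ^ Q)⁻¹) ^ n)⁻¹ := by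
  have hγz : γ z ≠ 0 := (map_ne_zero_iff γ γ.injective).mpr hz
  rw [map_mul, map_inv₀, map_pow]
  by_cases hu : u = 0
  · subst hu
    simp
  by_cases hH : H' = 0
  · subst hH
    rcases Nat.eq_zero_or_pos n with hn | hn
    · subst hn
      simp
    · simp [zero_pow hn.ne']
  field_simp
  ring

/-- **transfer back**: `γ u' = c gⁿ u'^Q ⟹ γ u = c (g γ z (z^Q)⁻¹)ⁿ u^Q`. -/
theorem h5ur_back (γ : F ≃+* F) (Q n : ℕ) (z u c g : F) (hz : z ≠ 0)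
    (h : γ (u * (z ^ n)⁻¹) = c * g ^ n * (u * (z ^ n)⁻¹) ^ Q) :
    γ u = c * (g * γ z * (z ^ Q)⁻¹) ^ n * u ^ Q := by
  have hγz : γ z ≠ 0 := (map_ne_zero_iff γ γ.injective).mpr hz
  rw [map_mul, map_inv₀, map_pow] at h
  have h' : γ u = c * g ^ n * (u * (z ^ n)⁻¹) ^ Q * γ z ^ n := by
    rw [← h]
    field_simp
  rw [h']
  field_simp
  ring

end Transfer

section Ord

variable {K : Type} [Field K] {F : Type} [Field F] [Algebra K F]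

/-- `n ∣ div u ⟹ n ∣ div (u (zⁿ)⁻¹)`. -/
theorem h5ur_dvd_ord (n : ℕ) (u z : F) (hu : u ≠ 0) (hz : z ≠ 0)
    (h : ∀ V : Place K F, (n : ℤ) ∣ V.ord u) (V : Place K F) :
    (n : ℤ) ∣ V.ord (u * (z ^ n)⁻¹) := by
  have hzn : (z ^ n)⁻¹ ≠ 0 := inv_ne_zero (pow_ne_zero n hz)
  rw [Place.ord_mul V hu hzn, Place.ord_inv]
  have e : V.ord (z ^ n) = (n : ℤ) * V.ord z := by
    have := Place.ord_zpow V z (n : ℤ)
    rwa [zpow_natCast] at this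
  rw [e]
  exact dvd_add (h V) (Dvd.dvd.neg_right (dvd_mul_right _ _))

end Ord

end H5UR

end
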