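import Mathlib
import Fermat.Agent.S35.FWNorm_helper5
import Fermat.Agent.S35.FWB2_helper29
import Fermat.Agent.S35.FWDefsK_helper17

/-!
# Item 84 (S35), block FW: descent of toric data WITH UNIT ROOTS, statement (helper5)

`H29B2.fwB2` (helper29) descends a toric `u ∈ F̄_{N'q}` with `n ∣ div u` to a number field `K₁`
with `K₁`-rational support, but the roots `ψ₁, ψ₂` need not be units at the Gauss valuations
`w₁, w₂`, as required by `H1FW.FWGenStatement`.  Normalising *after* the descent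
(`u ↦ u / zⁿ`, `H5UR.h5ur_norm`) would destroy the rational support.  Here:

* `toricBack`      : the conclusion of `H17FW.ToricTameStatement` for `u / zⁿ` gives it for `u`;
* `isToric_div`    : `u` toric ⟹ `u / zⁿ` toric;
* `FwB2UStatement` : there is `z ≠ 0` in `F̄` such that `u' = u / zⁿ` descends to `K₁ ⊇ K₀` as in
  `H29B2.fwB2`, with rational support, with `u₁` a unit at `w₁` and at `w₂`, and with roots
  `ψ₁, ψ₂` which are UNITS at `w₁` resp. `w₂`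
  (`InG ψ₁`, `InG ψ₁⁻¹`, `InG (w ψ₂)`, `InG (w ψ₂⁻¹)`).
  (Proved in `FWB2U_helper5.lean` from `H17FW.BranchStatement`.)
-/

set_option autoImplicit false
set_option synthInstance.maxHeartbeats 400000
set_option maxHeartbeats 1000000
set_option linter.unusedSectionVars false
set_option linter.unusedVariables false
set_option linter.style.haveILetI false
set_option linter.style.longLine false

noncomputable section

open H11W3G ModularCurve AlgebraicCurve H7S18 H28GV H29R2M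

namespace H5UR

local notation "Qb" => AlgebraicClosure ℚ

section Bar

variable (N : ℕ) [NeZero N]

/-- `σ²` on `F̄_N` as a ring automorphism. -/
def gamBar (σ : GQ) : modularFunctionFieldBar N ≃+* modularFunctionFieldBar N :=
  (arithmeticRingAut (modularFunctionFieldFull N) σ).trans
    (arithmeticRingAut (modularFunctionFieldFull N) σ)

theorem gamBar_apply (σ : GQ) (x : modularFunctionFieldBar N) :
    gamBar N σ x = H17FW.act N σ (H17FW.act N σ x) := rfl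

/-- **transfer back**: the conclusion of (TORIC) for `u / zⁿ` gives the conclusion for `u`. -/
theorem toricBack (σ : GQ) (n Q : ℕ) (u z : modularFunctionFieldBar N) (hz : z ≠ 0)
    (h : ∃ ψ : modularFunctionFieldBar N,
      H17FW.act N σ (H17FW.act N σ (u * (z ^ n)⁻¹)) = ψ ^ n * (u * (z ^ n)⁻¹) ^ Q) :
    ∃ ψ : modularFunctionFieldBar N, H17FW.act N σ (H17FW.act N σ u) = ψ ^ n * u ^ Q := by
  obtain ⟨ψ, hψ⟩ := h
  have h1 : gamBar N σ (u * (z ^ n)⁻¹) = 1 * ψ ^ n * (u * (z ^ n)⁻¹) ^ Q := by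
    rw [gamBar_apply, hψ, one_mul]
  have h2 := h5ur_back (gamBar N σ) Q n z u 1 ψ hz h1
  refine ⟨ψ * gamBar N σ z * (z ^ Q)⁻¹, ?_⟩
  rw [← gamBar_apply, h2, one_mul]

end Bar

section Toric

variable (N' q : ℕ) [NeZero N'] [NeZero q] [NeZero (N' * q)] (hq : q.Prime) (hqN : ¬ q ∣ N')

/-- `u` toric ⟹ `u / zⁿ` toric (roots `ψ_i / z`). -/
theorem isToric_div (A : ValuationSubring Qb) (n : ℕ)
    (u z : modularFunctionFieldBar (N' * q)) (hz : z ≠ 0)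
    (h : H17FW.IsToric N' q hq hqN A n u) :
    H17FW.IsToric N' q hq hqN A n (u * (z ^ n)⁻¹) := by
  obtain ⟨ψ₁, ψ₂, hψ₁, hψ₂, h1, h2⟩ := h
  have hzi : z⁻¹ ≠ 0 := inv_ne_zero hz
  have hzn : z ^ n ≠ 0 := pow_ne_zero n hz
  have e : ∀ ψ : modularFunctionFieldBar (N' * q),
      u * (z ^ n)⁻¹ * ((ψ * z⁻¹) ^ n)⁻¹ = u * (ψ ^ n)⁻¹ := by
    intro ψ
    rw [mul_pow, inv_pow, mul_inv, inv_inv]
    field_simp
  refine ⟨ψ₁ * z⁻¹, ψ₂ * z⁻¹, mul_ne_zero hψ₁ hzi, mul_ne_zero hψ₂ hzi, ?_, ?_⟩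
  · rw [e]; exact h1
  · rw [e]; exact h2

end Toric

/-- **(FW-B2U)**: descent of toric data with unit roots.  For `u` toric over `ℚ̄` with
`n ∣ div u` there is `z ≠ 0` such that `u / zⁿ` descends to `u₁` over a number field `K₁ ⊇ K₀`
(normal, containing `ζ_n`), with `n ∣ div u₁`, `K₁`-rational support, roots `ψ₁, ψ₂` over `K₁`
(`u₁ ≡ ψ₁ⁿ` at `w₁`, `u₁ ≡ ψ₂ⁿ` at `w₂ = w₁ ∘ w`), and `u₁`, `ψ₁` units at `w₁`,
`u₁`, `ψ₂` units at `w₂`. -/
def FwB2UStatement : Prop :=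
  ∀ (N' q : ℕ) [NeZero N'] [NeZero q] [NeZero (N' * q)] (hq : q.Prime) (hqN : ¬ q ∣ N'),
    TameLevel q N' →
    ∀ (n : ℕ), 0 < n →
    ∀ A : ValuationSubring Qb, A.LiesOverPrime q →
    ∀ u : modularFunctionFieldBar (N' * q), u ≠ 0 →
      (∀ P : Place Qb (modularFunctionFieldBar (N' * q)), (n : ℤ) ∣ P.ord u) →
      H17FW.IsToric N' q hq hqN A n u →
    ∀ (K₀ : IntermediateField ℚ Qb), FiniteDimensional ℚ K₀ →
    ∃ (z : modularFunctionFieldBar (N' * q)) (K₁ : IntermediateField ℚ Qb)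
      (_ : FiniteDimensional ℚ K₁) (u₁ ψ₁ ψ₂ : FK K₁ (N' * q)),
      z ≠ 0 ∧ K₀ ≤ K₁ ∧ Normal ℚ K₁ ∧ (∃ ζ : K₁, IsPrimitiveRoot ζ n) ∧
      ((u * (z ^ n)⁻¹ : modularFunctionFieldBar (N' * q)) : LaurentSeries Qb) =
        coeffMap (algebraMap K₁ Qb) (u₁ : LaurentSeries K₁) ∧
      u₁ ≠ 0 ∧ ψ₁ ≠ 0 ∧ ψ₂ ≠ 0 ∧
      (∀ V : Place K₁ (FK K₁ (N' * q)), (n : ℤ) ∣ V.ord u₁) ∧
      (∀ V : Place K₁ (FK K₁ (N' * q)), V.ord u₁ ≠ 0 → ∀ x : FK K₁ (N' * q), 0 ≤ V.ord x →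
        ∃ c : K₁, x = algebraMap K₁ (FK K₁ (N' * q)) c ∨
          0 < V.ord (x - algebraMap K₁ (FK K₁ (N' * q)) c)) ∧
      H8PB.InGm (descVal A K₁)
        (((u₁ * (ψ₁ ^ n)⁻¹ - 1 : FK K₁ (N' * q))) : LaurentSeries K₁) ∧
      H8PB.InGm (descVal A K₁)
        (((H12AL.wqKHom K₁ N' q hq hqN (u₁ * (ψ₂ ^ n)⁻¹ - 1) : FK K₁ (N' * q))) :
          LaurentSeries K₁) ∧
      -- `u₁` is a unit at `w₁` and at `w₂`
      H8PB.InG (descVal A K₁) (u₁ : LaurentSeries K₁) ∧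
      H8PB.InG (descVal A K₁) ((u₁⁻¹ : FK K₁ (N' * q)) : LaurentSeries K₁) ∧
      H8PB.InG (descVal A K₁)
        ((H12AL.wqKHom K₁ N' q hq hqN u₁ : FK K₁ (N' * q)) : LaurentSeries K₁) ∧
      H8PB.InG (descVal A K₁)
        ((H12AL.wqKHom K₁ N' q hq hqN u₁⁻¹ : FK K₁ (N' * q)) : LaurentSeries K₁) ∧
      -- `ψ₁` is a unit at `w₁`, `ψ₂` is a unit at `w₂`
      H8PB.InG (descVal A K₁) (ψ₁ : LaurentSeries K₁) ∧
      H8PB.InG (descVal A K₁) ((ψ₁⁻¹ : FK K₁ (N' * q)) : LaurentSeries K₁) ∧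
      H8PB.InG (descVal A K₁)
        ((H12AL.wqKHom K₁ N' q hq hqN ψ₂ : FK K₁ (N' * q)) : LaurentSeries K₁) ∧
      H8PB.InG (descVal A K₁)
        ((H12AL.wqKHom K₁ N' q hq hqN ψ₂⁻¹ : FK K₁ (N' * q)) : LaurentSeries K₁)

end H5UR

end
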