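import Mathlib
import Fermat.Agent.S35.FWToricDesc_helper29

/-!
# Item 84 (S35), block FW: the Gauss ring of `R = A ∩ K₁` versus the Gauss ring of `A` (helper29)

For `x₁ ∈ F_{K₁}(N) ⊆ K₁((q))` with base change `y = φ x₁ ∈ ℚ̄((q))`, `R = A ∩ K₁` a DVR:

* `inG_iff_bar`  : `H8PB.InG R x₁  ↔ y ∈ gvO A res`;
* `inGm_iff_bar` : `H8PB.InGm R x₁ ↔ ∃ h : y ∈ gvO A res, gvRed ⟨y, h⟩ = 0`;
* `unit_desc`    : `Unit1`-type data descend: `y, y⁻¹ ∈ gvO A` ⇒ `InG R x₁ ∧ InG R x₁⁻¹`.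

So the Gauss valuation of `F_{K₁}(N)` is the restriction of the Gauss valuation of `F̄_N`, and
all statements of the form "`x ∈ V_i`", "`V_i.valuation x < 1`", "`V_i.valuation x = 1`" transfer
between two number fields `K₁⁰ ⊆ K₁` through `ℚ̄`.
-/

set_option autoImplicit false
set_option synthInstance.maxHeartbeats 400000
set_option linter.unusedSectionVars false
set_option linter.unusedVariables false
set_option linter.style.haveILetI false

noncomputable section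

open ModularCurve HahnSeries H28GV H7S18

namespace H29GD

local notation "Qb" => AlgebraicClosure ℚ

/-- `c · ε Y₁ / ε Y₂` with `c ∈ R` lies in the Gauss ring. -/
theorem inG_of_nf {K : Type} [Field K] (R : ValuationSubring K) (x : LaurentSeries K)
    (c : R) (Y₁ Y₂ : LaurentSeries R) (hY₂ : H3TAU.rhoR R Y₂ ≠ 0)
    (h : x * gvEps R Y₂ = HahnSeries.C (c : K) * gvEps R Y₁) :
    H8PB.InG R x := by
  refine ⟨HahnSeries.C c * Y₁, Y₂, ?_, ?_⟩
  · by_contra hcon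
    push_neg at hcon
    exact hY₂ ((H3TAU.h3b_rho_eq_zero_iff R Y₂).2 hcon)
  · rw [← gvEps_def, ← gvEps_def, map_mul, gvEps_C]
    exact h

/-- **the estimate for the Gauss ring**: if `z · ε g = ε e` over `A` with `ρ g ≠ 0` and
`z · ε Y₂ = c · ε Y₁` with `ρ Y₁ ≠ 0`, then `c ∈ A`. -/
theorem const_mem {L : Type} [Field L] (A : ValuationSubring L) (z : LaurentSeries L)
    (e g Y₁ Y₂ : LaurentSeries A) (c : L)
    (hg : H3TAU.rhoR A g ≠ 0) (hY₁ : H3TAU.rhoR A Y₁ ≠ 0)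
    (h1 : z * gvEps A g = gvEps A e) (h2 : z * gvEps A Y₂ = HahnSeries.C c * gvEps A Y₁) :
    c ∈ A := by
  have h3 : HahnSeries.C c * gvEps A (Y₁ * g) = gvEps A (e * Y₂) := by
    rw [map_mul, map_mul, ← mul_assoc, ← h2, ← h1]
    ring
  have hne : H3TAU.rhoR A (Y₁ * g) ≠ 0 := by
    rw [map_mul]
    exact mul_ne_zero hY₁ hg
  obtain ⟨n, hn⟩ : ∃ n, IsUnit ((Y₁ * g).coeff n) := by
    by_contra hcon
    push_neg at hcon
    exact hne ((H3TAU.h3b_rho_eq_zero_iff A _).2 hcon)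
  have h4 := congrArg (fun s : LaurentSeries L => s.coeff n) h3
  simp only [gvEps_coeff] at h4
  rw [HahnSeries.C_mul_eq_smul, HahnSeries.coeff_smul, gvEps_coeff, smul_eq_mul] at h4
  obtain ⟨u, hu⟩ := hn
  have hu' : (((Y₁ * g).coeff n : A) : L) = ((u : A) : L) := by rw [hu]
  have hu0 : ((u : A) : L) ≠ 0 := by
    intro h0
    exact u.ne_zero (Subtype.ext h0)
  have hc : c = (((e * Y₂).coeff n * ((u⁻¹ : Aˣ) : A) : A) : L) := by
    rw [hu'] at h4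
    have hinv : (((u⁻¹ : Aˣ) : A) : L) = ((u : A) : L)⁻¹ := by
      have h5 : ((u : A) : L) * (((u⁻¹ : Aˣ) : A) : L) = 1 := by
        have h6 : ((u : A) * ((u⁻¹ : Aˣ) : A) : A) = 1 := u.mul_inv
        have h7 := congrArg (fun a : A => (a : L)) h6
        exact h7
      exact eq_inv_of_mul_eq_one_right h5
    push_cast
    rw [hinv, ← h4]
    field_simp
  rw [hc]
  exact Subtype.mem _

section Level

variable (N : ℕ) [NeZero N] (A : ValuationSubring Qb) (K₁ : IntermediateField ℚ Qb)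

/-- ascent of `InG` -/
theorem bar_of_inG (x₁ : LaurentSeries K₁) (h : H8PB.InG (descVal A K₁) x₁) :
    coeffMap (algebraMap K₁ Qb) x₁ ∈ gvO A (H17FW.resA A) := by
  obtain ⟨f, g, hg, hfg⟩ := h
  refine ⟨coeffMap (descIncl A K₁) f, coeffMap (descIncl A K₁) g, ?_, ?_⟩
  · refine H29TD.rho_descIncl_ne_zero A K₁ g ?_
    intro h0
    obtain ⟨n, hn⟩ := hg
    exact (H3TAU.h3b_rho_eq_zero_iff _ g).1 h0 n hn
  · rw [← H29TD.coeffMap_gvEps, ← H29TD.coeffMap_gvEps, ← map_mul, gvEps_def, gvEps_def, hfg]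

/-- ascent of `InGm` -/
theorem bar_of_inGm (x₁ : LaurentSeries K₁) (h : H8PB.InGm (descVal A K₁) x₁) :
    ∃ h' : coeffMap (algebraMap K₁ Qb) x₁ ∈ gvO A (H17FW.resA A),
      gvRed A (H17FW.resA A) ⟨_, h'⟩ = 0 := by
  obtain ⟨f, g, hg, hf, hfg⟩ := h
  have hg' : gvRho A (H17FW.resA A) (coeffMap (descIncl A K₁) g) ≠ 0 := by
    refine H29TD.rho_descIncl_ne_zero A K₁ g ?_
    intro h0
    obtain ⟨n, hn⟩ := hg
    exact (H3TAU.h3b_rho_eq_zero_iff _ g).1 h0 n hn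
  have hrel : coeffMap (algebraMap K₁ Qb) x₁ * gvEps A (coeffMap (descIncl A K₁) g) =
      gvEps A (coeffMap (descIncl A K₁) f) := by
    rw [← H29TD.coeffMap_gvEps, ← H29TD.coeffMap_gvEps, ← map_mul, gvEps_def, gvEps_def, hfg]
  have hmem : coeffMap (algebraMap K₁ Qb) x₁ ∈ gvO A (H17FW.resA A) :=
    ⟨coeffMap (descIncl A K₁) f, coeffMap (descIncl A K₁) g, hg', hrel⟩
  refine ⟨hmem, ?_⟩
  rw [gvRed_eq A (H17FW.resA A) ⟨_, hmem⟩ _ _ hg' hrel]
  have hf0 : gvRho A (H17FW.resA A) (coeffMap (descIncl A K₁) f) = 0 := by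
    show H3TAU.rhoR A _ = 0
    rw [H3TAU.h3b_rho_eq_zero_iff]
    intro n hn
    rw [coeffMap_coeff] at hn
    apply hf n
    -- a unit of `A` lying in `R` is a unit of `R`
    obtain ⟨v, hv⟩ := hn
    have hinvA : (((f.coeff n : ↥(descVal A K₁)) : K₁) : Qb)⁻¹ ∈ A := by
      have h1 : ((v⁻¹ : Aˣ) : A) * descIncl A K₁ (f.coeff n) = 1 := by
        rw [← hv]
        exact v.inv_mul
      have h2 := congrArg (fun a : A => (a : Qb)) h1
      have h3 : (((v⁻¹ : Aˣ) : A) : Qb) * (((f.coeff n : ↥(descVal A K₁)) : K₁) : Qb) = 1 := h2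
      rw [← eq_inv_of_mul_eq_one_left h3]
      exact Subtype.mem _
    have hinvR : ((f.coeff n : ↥(descVal A K₁)) : K₁)⁻¹ ∈ descVal A K₁ := by
      show algebraMap K₁ Qb (((f.coeff n : ↥(descVal A K₁)) : K₁)⁻¹) ∈ A
      rw [map_inv₀]
      exact hinvA
    have hne : ((f.coeff n : ↥(descVal A K₁)) : K₁) ≠ 0 := by
      intro h0
      have h1 : descIncl A K₁ (f.coeff n) = 0 := by
        apply Subtype.ext
        show algebraMap K₁ Qb ((f.coeff n : ↥(descVal A K₁)) : K₁) = 0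
        rw [h0, map_zero]
      rw [h1] at hv
      exact v.ne_zero hv
    refine ⟨⟨f.coeff n, ⟨_, hinvR⟩, ?_, ?_⟩, rfl⟩
    · apply Subtype.ext
      show ((f.coeff n : ↥(descVal A K₁)) : K₁) * ((f.coeff n : ↥(descVal A K₁)) : K₁)⁻¹ = 1
      exact mul_inv_cancel₀ hne
    · apply Subtype.ext
      show ((f.coeff n : ↥(descVal A K₁)) : K₁)⁻¹ * ((f.coeff n : ↥(descVal A K₁)) : K₁) = 1
      exact inv_mul_cancel₀ hne
  rw [hf0, zero_div]

variable [IsDiscreteValuationRing ↥(descVal A K₁)]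

/-- descent of `InG` -/
theorem inG_of_bar (x₁ : LaurentSeries K₁)
    (hx₁ : x₁ ∈ laurentBaseChange K₁ (modularFunctionFieldFull N))
    (h : coeffMap (algebraMap K₁ Qb) x₁ ∈ gvO A (H17FW.resA A)) :
    H8PB.InG (descVal A K₁) x₁ := by
  by_cases hx0 : x₁ = 0
  · rw [hx0]
    obtain ⟨f, g, hg, hf, hfg⟩ := H29TD.inGm_zero (descVal A K₁)
    exact ⟨f, g, hg, hfg⟩
  have hmem : x₁ ∈ modularFunctionFieldFullC K₁ N := by
    rw [← gv_bar_eq]
    exact hx₁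
  obtain ⟨c, Y₁, Y₂, hc, hY₁, hY₂, hrel⟩ := H3TAU.h3b_nf (descVal A K₁) N x₁ hmem hx0
  obtain ⟨f, g, hg, hfg⟩ := (mem_gvO_iff A (H17FW.resA A) _).1 h
  have h2 : (coeffMap (algebraMap K₁ Qb) x₁) * gvEps A (coeffMap (descIncl A K₁) Y₂) =
      HahnSeries.C (algebraMap K₁ Qb c) * gvEps A (coeffMap (descIncl A K₁) Y₁) := by
    rw [← H29TD.coeffMap_gvEps, ← H29TD.coeffMap_gvEps, ← map_mul, hrel, map_mul]
    congr 1
    show coeffMap _ (HahnSeries.single 0 c) = HahnSeries.single 0 _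
    rw [coeffMap_single]
  have hcA := const_mem A _ f g (coeffMap (descIncl A K₁) Y₁)
    (coeffMap (descIncl A K₁) Y₂) (algebraMap K₁ Qb c) hg
    (H29TD.rho_descIncl_ne_zero A K₁ Y₁ hY₁) hfg h2
  have hcR : c ∈ descVal A K₁ := hcA
  exact inG_of_nf (descVal A K₁) x₁ ⟨c, hcR⟩ Y₁ Y₂ hY₂ hrel

/-- descent of `InGm` -/
theorem inGm_of_bar (x₁ : LaurentSeries K₁)
    (hx₁ : x₁ ∈ laurentBaseChange K₁ (modularFunctionFieldFull N))
    (h : coeffMap (algebraMap K₁ Qb) x₁ ∈ gvO A (H17FW.resA A))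
    (hred : gvRed A (H17FW.resA A) ⟨_, h⟩ = 0) :
    H8PB.InGm (descVal A K₁) x₁ := by
  have h1 : coeffMap (algebraMap K₁ Qb) (x₁ + 1) ∈ gvO A (H17FW.resA A) := by
    rw [map_add, map_one]
    exact add_mem h (one_mem _)
  have h2 : gvRed A (H17FW.resA A) ⟨_, h1⟩ = 1 := by
    have e : (⟨_, h1⟩ : gvO A (H17FW.resA A)) = ⟨_, h⟩ + 1 := by
      apply Subtype.ext
      show coeffMap (algebraMap K₁ Qb) (x₁ + 1) = coeffMap (algebraMap K₁ Qb) x₁ + 1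
      rw [map_add, map_one]
    rw [e, map_add, map_one, hred, zero_add]
  have h3 := H29TD.toricDesc_core N A K₁ (x₁ + 1) (add_mem hx₁ (one_mem _)) h1 h2
  rwa [add_sub_cancel_right] at h3

theorem inG_iff_bar (x₁ : LaurentSeries K₁)
    (hx₁ : x₁ ∈ laurentBaseChange K₁ (modularFunctionFieldFull N)) :
    H8PB.InG (descVal A K₁) x₁ ↔ coeffMap (algebraMap K₁ Qb) x₁ ∈ gvO A (H17FW.resA A) :=
  ⟨bar_of_inG A K₁ x₁, inG_of_bar N A K₁ x₁ hx₁⟩

theorem inGm_iff_bar (x₁ : LaurentSeries K₁)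
    (hx₁ : x₁ ∈ laurentBaseChange K₁ (modularFunctionFieldFull N)) :
    H8PB.InGm (descVal A K₁) x₁ ↔
      ∃ h : coeffMap (algebraMap K₁ Qb) x₁ ∈ gvO A (H17FW.resA A),
        gvRed A (H17FW.resA A) ⟨_, h⟩ = 0 :=
  ⟨bar_of_inGm A K₁ x₁, fun ⟨h, hred⟩ => inGm_of_bar N A K₁ x₁ hx₁ h hred⟩

/-- descent of Gauss units: `Unit1 A y` ⇒ `x₁` and `x₁⁻¹` lie in the Gauss ring of `R`. -/
theorem unit_desc (x₁ : FK K₁ N) (y : modularFunctionFieldBar N)
    (hy : (y : LaurentSeries Qb) = coeffMap (algebraMap K₁ Qb) (x₁ : LaurentSeries K₁))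
    (hU : H17FW.Unit1 A y) :
    H8PB.InG (descVal A K₁) (x₁ : LaurentSeries K₁) ∧
      H8PB.InG (descVal A K₁) ((x₁⁻¹ : FK K₁ N) : LaurentSeries K₁) := by
  refine ⟨inG_of_bar N A K₁ _ x₁.2 (by rw [← hy]; exact hU.1),
    inG_of_bar N A K₁ _ (x₁⁻¹).2 ?_⟩
  have e : coeffMap (algebraMap K₁ Qb) ((x₁⁻¹ : FK K₁ N) : LaurentSeries K₁) =
      ((y⁻¹ : modularFunctionFieldBar N) : LaurentSeries Qb) := by
    show coeffMap (algebraMap K₁ Qb) ((x₁ : LaurentSeries K₁))⁻¹ = ((y : LaurentSeries Qb))⁻¹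
    rw [map_inv₀, hy]
  rw [e]
  exact hU.2

/-- ascent of Gauss units. -/
theorem unit_asc (x₁ : FK K₁ N) (y : modularFunctionFieldBar N)
    (hy : (y : LaurentSeries Qb) = coeffMap (algebraMap K₁ Qb) (x₁ : LaurentSeries K₁))
    (h1 : H8PB.InG (descVal A K₁) (x₁ : LaurentSeries K₁))
    (h2 : H8PB.InG (descVal A K₁) ((x₁⁻¹ : FK K₁ N) : LaurentSeries K₁)) :
    H17FW.Unit1 A y := by
  refine ⟨by rw [hy]; exact bar_of_inG A K₁ _ h1, ?_⟩
  have e : coeffMap (algebraMap K₁ Qb) ((x₁⁻¹ : FK K₁ N) : LaurentSeries K₁) =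
      ((y⁻¹ : modularFunctionFieldBar N) : LaurentSeries Qb) := by
    show coeffMap (algebraMap K₁ Qb) ((x₁ : LaurentSeries K₁))⁻¹ = ((y : LaurentSeries Qb))⁻¹
    rw [map_inv₀, hy]
  rw [← e]
  exact bar_of_inG A K₁ _ h2

end Level

/-- in a valuation subring: `x, x⁻¹ ∈ V` ⇒ `v(x) = 1`. -/
theorem valuation_eq_one_of_mem {F : Type} [Field F] (V : ValuationSubring F) (x : F)
    (h0 : x ≠ 0) (hx : x ∈ V) (hx' : x⁻¹ ∈ V) : V.valuation x = 1 := by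
  have h3 : IsUnit (⟨x, hx⟩ : V) := by
    refine ⟨⟨⟨x, hx⟩, ⟨x⁻¹, hx'⟩, ?_, ?_⟩, rfl⟩
    · apply Subtype.ext
      show x * x⁻¹ = 1
      exact mul_inv_cancel₀ h0
    · apply Subtype.ext
      show x⁻¹ * x = 1
      exact inv_mul_cancel₀ h0
  exact (V.valuation_eq_one_iff ⟨x, hx⟩).1 h3

/-- in a valuation subring: `v(x) = 1` ⇒ `x, x⁻¹ ∈ V`. -/
theorem mem_of_valuation_eq_one {F : Type} [Field F] (V : ValuationSubring F) (x : F)
    (h : V.valuation x = 1) : x ∈ V ∧ x⁻¹ ∈ V := by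
  refine ⟨(V.valuation_le_one_iff x).1 h.le, (V.valuation_le_one_iff _).1 ?_⟩
  rw [map_inv₀, h, inv_one]

end H29GD

end
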