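import Mathlib
import Fermat.Agent.S35.FWGenDefs_helper1
import Fermat.Agent.S34.GenA1_helper1

/-!
# Item 84 (S35), block FW (helper1): `TwoComp` from the clauses of `H17FW.BranchStatement`

* `arch_of_gint` : a valuation ring `V ⊇ O` with `ϖ ∈ 𝔪(V)` has the archimedean property
  `∀ y, ∃ m, ϖ ^ m y ∈ 𝔪(V)`  (every `y ∈ F` is `a / (ϖ ^ k s)` with `a` integral over `R[t]` and
  `s` a Gauss unit);
* `twoComp_of_branch` : `TwoComp` from (hO), (hm), a comaximality witness and `ϖ ∈ 𝔪(V_i)`.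
-/

set_option autoImplicit false
set_option linter.unusedSectionVars false
set_option linter.unusedVariables false
set_option linter.style.haveILetI false
set_option synthInstance.maxHeartbeats 400000

noncomputable section

open Polynomial IntermediateField AlgebraicCurve H7S18 H4S34 H19S18

namespace H1FW

section Arch

variable (R : Type) [CommRing R] [IsDomain R] [IsDiscreteValuationRing R]
  (K : Type) [Field K] [CharZero K] [Algebra R K] [IsFractionRing R K]
  {F : Type} [Field F] [Algebra K F] [Algebra R F] [IsScalarTower R K F]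

/-- the archimedean property of `ϖ` at a valuation ring containing `O`. -/
theorem arch_of_gint {ϖ : R} (hϖ : Irreducible ϖ) {t : F} (ht : Transcendental K t)
    [FiniteDimensional K⟮t⟯ F] (V : ValuationSubring F)
    (hO : ∀ x : F, GInt R ϖ t x → x ∈ V) (hϖV : V.valuation (algebraMap R F ϖ) < 1) (y : F) :
    ∃ m : ℕ, V.valuation (algebraMap R F ϖ ^ m * y) < 1 := by
  classical
  have htR : Transcendental R t := h19_transc R K ht
  obtain ⟨d, hd0, hda⟩ : ∃ d : Algebra.adjoin R {t}, d ≠ 0 ∧ IsInt R t ((d : F) * y) := by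
    letI : Algebra (Algebra.adjoin R {t}) K⟮t⟯ := (h19_TtoKt R K t).toAlgebra
    haveI : IsFractionRing (Algebra.adjoin R {t}) K⟮t⟯ := h19_T_isFractionRing R K t
    haveI : IsScalarTower (Algebra.adjoin R {t}) K⟮t⟯ F :=
      IsScalarTower.of_algebraMap_eq (fun _ => rfl)
    have halg : IsAlgebraic (Algebra.adjoin R {t}) y :=
      (IsFractionRing.isAlgebraic_iff (Algebra.adjoin R {t}) K⟮t⟯ F).mpr
        (Algebra.IsAlgebraic.isAlgebraic y)
    obtain ⟨z, hz0, hz⟩ := halg.exists_integral_multiple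
    exact ⟨z, hz0, hz⟩
  have hdF : (d : F) ≠ 0 := fun h => hd0 (Subtype.ext h)
  obtain ⟨p, hp⟩ := Algebra.adjoin_mem_exists_aeval R t d.2
  have hp0 : p ≠ 0 := by
    intro h0
    rw [h0, map_zero] at hp
    exact hdF hp.symm
  have hnu : ¬ IsUnit (C ϖ : R[X]) := by
    rw [Polynomial.isUnit_C]
    exact hϖ.not_isUnit
  obtain ⟨k, p', hp', hpp'⟩ := WfDvdMonoid.max_power_factor' hp0 hnu
  have hs : IsGaussUnit R ϖ t (aeval t p') := (h19_gaussUnit_aeval_iff R htR ϖ p').mpr hp'
  have hs0 : aeval t p' ≠ 0 := by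
    intro h0
    apply hdF
    rw [← hp, hpp', map_mul, h0, mul_zero]
  have hsi : GInt R ϖ t (aeval t p')⁻¹ := by
    refine ⟨aeval t p', hs, ?_⟩
    rw [mul_inv_cancel₀ hs0]
    have := h19_isInt_algebraMap R t (1 : R)
    rwa [map_one] at this
  have hdy : GInt R ϖ t ((d : F) * y) := h19_gint_of_isInt R htR hϖ hda
  have h1 : V.valuation ((d : F) * y) ≤ 1 := (V.valuation_le_one_iff _).mpr (hO _ hdy)
  have h2 : V.valuation (aeval t p')⁻¹ ≤ 1 := (V.valuation_le_one_iff _).mpr (hO _ hsi)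
  have hπ0 : algebraMap R F ϖ ≠ 0 := by
    intro h0
    have : algebraMap R F ϖ = algebraMap R F 0 := by rw [h0, map_zero]
    exact hϖ.ne_zero (h19_algebraMap_injective R K this)
  refine ⟨k + 1, ?_⟩
  have e : algebraMap R F ϖ ^ (k + 1) * y =
      algebraMap R F ϖ * (((d : F) * y) * (aeval t p')⁻¹) := by
    have hd' : (d : F) = algebraMap R F ϖ ^ k * aeval t p' := by
      rw [← hp, hpp', map_mul, map_pow, aeval_C]
    rw [hd']
    field_simp
    ring
  rw [e, Valuation.map_mul, Valuation.map_mul]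
  calc V.valuation (algebraMap R F ϖ) * (V.valuation ((d : F) * y) * V.valuation (aeval t p')⁻¹)
      ≤ V.valuation (algebraMap R F ϖ) * (1 * 1) := by gcongr
    _ < 1 := by rw [mul_one, mul_one]; exact hϖV

/-- `TwoComp` from the clauses of `H17FW.BranchStatement`. -/
theorem twoComp_of_branch {ϖ : R} (hϖ : Irreducible ϖ) {t : F} (ht : Transcendental K t)
    [FiniteDimensional K⟮t⟯ F] (V₁ V₂ : ValuationSubring F)
    (hO : ∀ x : F, GInt R ϖ t x ↔ x ∈ V₁ ∧ x ∈ V₂)
    (hm : ∀ x : F, V₁.valuation x < 1 → V₂.valuation x < 1 → ModPi R ϖ t x 0)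
    (hcop : ∃ e : F, V₁.valuation e < 1 ∧ V₂.valuation (1 - e) < 1)
    (hϖ₁ : V₁.valuation (algebraMap R F ϖ) < 1) (hϖ₂ : V₂.valuation (algebraMap R F ϖ) < 1) :
    TwoComp R ϖ t V₁ V₂ := by
  refine ⟨hO, hm, ?_, ?_, ?_⟩
  · obtain ⟨e, he1, he2⟩ := hcop
    refine ⟨e, he1, ?_⟩
    rw [← Valuation.map_neg, neg_sub]; exact he2
  · exact arch_of_gint R K hϖ ht V₁ (fun x hx => ((hO x).mp hx).1) hϖ₁
  · exact arch_of_gint R K hϖ ht V₂ (fun x hx => ((hO x).mp hx).2) hϖ₂

end Arch

end H1FW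

end
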