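import Mathlib
import Fermat.Agent.S35.FWB2UDefs_helper5
import Fermat.Agent.S35.FWGaussDesc_helper29
import Fermat.Agent.S35.FWGenArch_helper1
import Fermat.Agent.S34.PairGauss_helper8
import Fermat.Agent.S34.DichComp_helper22
import Fermat.Agent.S18.C6b_helper4
import Fermat.Agent.S18.C6e_helper9

/-!
# Item 84 (S35), block FW: descent of toric data WITH UNIT ROOTS, proof (helper5)

`H5UR.fwB2U : H17FW.BranchStatement → H5UR.FwB2UStatement`  (two-stage descent).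

1. `H29B2.fwB2` descends `u` to `K⁰` (roots `ψ₁⁰, ψ₂⁰`);
2. over `K⁰` the two Gauss valuation rings `V₁, V₂` (FW-COMP) are comaximal, so there is
   `z⁰ ≠ 0` with `V_i (z⁰) = V_i (ψ_i⁰)` (`H5UR.h5ur_values`); then `x = u⁰ / z⁰ⁿ` is a unit at
   `V₁` and at `V₂`;
3. `z = φ z⁰`, `u' = u / zⁿ = φ x` is a unit at `w₁`, `w₂` over `ℚ̄` (`H29GD.unit_asc`), toric,
   `n ∣ div u'`;
4. `H29B2.fwB2` descends `u'` to `K₁ ⊇ K⁰ ⊔ K₀` with rational support and roots `ψ₁, ψ₂`;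
   `u₁` is a unit at `w₁`, `w₂` (`H29GD.unit_desc`), hence so are the roots
   (`V_i (ψ_i)ⁿ = V_i (u₁) = 1`).
-/

set_option autoImplicit false
set_option synthInstance.maxHeartbeats 400000
set_option maxHeartbeats 1000000
set_option linter.unusedSectionVars false
set_option linter.unusedVariables false
set_option linter.style.haveILetI false
set_option linter.style.longLine false

noncomputable section

open H11W3G ModularCurve AlgebraicCurve H7S18 H28GV H29R2M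

namespace H5UR

local notation "Qb" => AlgebraicClosure ℚ

section Val

variable {F : Type} [Field F] (V : ValuationSubring F)

/-- `x ≡ 1` at `V` ⟹ `V (x) = 1`. -/
theorem val_eq_one_of_one {x : F} (h : H1FW.One V x) : V.valuation x = 1 := by
  have h1 := Valuation.map_one_add_of_lt (v := V.valuation) h
  rwa [add_sub_cancel] at h1

/-- `u ≡ ψⁿ` at `V` and `V (z) = V (ψ)` ⟹ `u / zⁿ` is a unit at `V`. -/
theorem val_unit_of_root (n : ℕ) (u ψ z : F) (hψ : ψ ≠ 0) (hz : z ≠ 0)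
    (h : H1FW.One V (u * (ψ ^ n)⁻¹)) (hzψ : V.valuation z = V.valuation ψ) :
    V.valuation (u * (z ^ n)⁻¹) = 1 := by
  have h1 := val_eq_one_of_one V h
  rw [map_mul, map_inv₀, map_pow] at h1 ⊢
  rw [hzψ]
  exact h1

/-- `u ≡ ψⁿ` at `V` and `u` a unit at `V` ⟹ `ψ` is a unit at `V`. -/
theorem val_root_of_unit (n : ℕ) (hn : 0 < n) (u ψ : F) (hψ : ψ ≠ 0)
    (h : H1FW.One V (u * (ψ ^ n)⁻¹)) (hu : V.valuation u = 1) :
    V.valuation ψ = 1 := by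
  have h1 := val_eq_one_of_one V h
  rw [map_mul, map_inv₀, map_pow, hu, one_mul, inv_eq_one] at h1
  rcases (pow_eq_one_iff (M := V.ValueGroup)).mp h1 with h | h
  · exact h
  · omega

end Val

section Branch

variable (N' q : ℕ) [NeZero N'] [NeZero q] [NeZero (N' * q)] (hq : q.Prime) (hqN : ¬ q ∣ N')

/-- the data of (FW-COMP) at `K₁`, with the comaximality consequence: values at `V₁`, `V₂`
can be prescribed simultaneously. -/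
theorem branchAt (hB : H17FW.BranchStatement) (hT : TameLevel q N')
    (A : ValuationSubring Qb) (hA : A.LiesOverPrime q) :
    ∃ K₀ : IntermediateField ℚ Qb, FiniteDimensional ℚ K₀ ∧
    ∀ (K₁ : IntermediateField ℚ Qb) (_ : K₀ ≤ K₁) (_ : FiniteDimensional ℚ K₁)
      (_ : Normal ℚ K₁),
      ∃ V₁ V₂ : ValuationSubring (FK K₁ (N' * q)),
        (∀ x : FK K₁ (N' * q), x ∈ V₁ ↔ H8PB.InG (descVal A K₁) (x : LaurentSeries K₁)) ∧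
        (∀ x : FK K₁ (N' * q), x ∈ V₂ ↔ H8PB.InG (descVal A K₁)
          ((H12AL.wqKHom K₁ N' q hq hqN x : FK K₁ (N' * q)) : LaurentSeries K₁)) ∧
        (∀ x : FK K₁ (N' * q), V₁.valuation x < 1 ↔
          H8PB.InGm (descVal A K₁) (x : LaurentSeries K₁)) ∧
        (∀ x : FK K₁ (N' * q), V₂.valuation x < 1 ↔ H8PB.InGm (descVal A K₁)
          ((H12AL.wqKHom K₁ N' q hq hqN x : FK K₁ (N' * q)) : LaurentSeries K₁)) ∧
        (∀ ψ₁ ψ₂ : FK K₁ (N' * q), ψ₁ ≠ 0 → ψ₂ ≠ 0 →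
          ∃ z : FK K₁ (N' * q), z ≠ 0 ∧ V₁.valuation z = V₁.valuation ψ₁ ∧
            V₂.valuation z = V₂.valuation ψ₂) := by
  classical
  haveI : Fact q.Prime := ⟨hq⟩
  obtain ⟨K₀, hK₀, hBr⟩ := hB N' q hq hqN hT A hA
  refine ⟨K₀, hK₀, ?_⟩
  intro K₁ hle hK₁fin hnorm
  -- the base function
  have hi := H8PB.h8pg_baseKind_ok hT
  obtain ⟨t₀, ht₀⟩ : ∃ t₀ : LaurentSeries ℚ, IsBase (baseKind q) t₀ := by
    rcases hi with h | h | h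
    · exact ⟨jq, Or.inl ⟨h, rfl⟩⟩
    · exact ⟨modularUnitSeries 2, Or.inr (Or.inl ⟨h.1, rfl⟩)⟩
    · obtain ⟨-, t₃, ht₃, -⟩ := H4HM.hauptmodulStatement
      rw [← h.1] at ht₃
      exact ⟨t₃, ht₃⟩
  -- the DVR
  obtain ⟨hdvr, -, hunit⟩ := H4DVR.dvrStatement q A hA K₁ hK₁fin
  haveI := hdvr
  obtain ⟨ϖ, hϖ⟩ := IsDiscreteValuationRing.exists_irreducible ↥(descVal A K₁)
  -- field basics
  obtain ⟨t₁, ht₁coe, ht₁tr, ht₁fin, ht₁const⟩ :=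
    H9C6e.fieldBasics (N' * q) (baseKind q) hi t₀ ht₀ K₁
  letI algRF : Algebra ↥(descVal A K₁) (FK K₁ (N' * q)) :=
    ((algebraMap K₁ (FK K₁ (N' * q))).comp (algebraMap ↥(descVal A K₁) K₁)).toAlgebra
  haveI towRF : IsScalarTower ↥(descVal A K₁) K₁ (FK K₁ (N' * q)) :=
    IsScalarTower.of_algebraMap_eq (fun _ => rfl)
  haveI := ht₁fin
  obtain ⟨V₁, V₂, hV₁, hV₂, hm₁, hm₂, hO, hm, ⟨e, -, -, he1, he2⟩, -, -⟩ :=
    hBr K₁ hle hK₁fin hnorm ϖ hϖ t₀ ht₀ t₁ ht₁coe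
  have hϖ₁ : V₁.valuation (algebraMap ↥(descVal A K₁) (FK K₁ (N' * q)) ϖ) < 1 :=
    (hm₁ _).2 (H22DC.inGm_algebraMap (descVal A K₁) hϖ.not_isUnit)
  have hϖ₂ : V₂.valuation (algebraMap ↥(descVal A K₁) (FK K₁ (N' * q)) ϖ) < 1 := by
    refine (hm₂ _).2 ?_
    rw [IsScalarTower.algebraMap_apply ↥(descVal A K₁) K₁ (FK K₁ (N' * q)),
      H12AL.wqKHom_const, ← IsScalarTower.algebraMap_apply ↥(descVal A K₁) K₁ (FK K₁ (N' * q))]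
    exact H22DC.inGm_algebraMap (descVal A K₁) hϖ.not_isUnit
  have hTC : H1FW.TwoComp ↥(descVal A K₁) ϖ t₁ V₁ V₂ :=
    H1FW.twoComp_of_branch ↥(descVal A K₁) K₁ hϖ ht₁tr V₁ V₂ hO hm ⟨e, he1, he2⟩ hϖ₁ hϖ₂
  exact ⟨V₁, V₂, hV₁, hV₂, hm₁, hm₂, fun ψ₁ ψ₂ h1 h2 => h5ur_values hTC ψ₁ ψ₂ h1 h2⟩

end Branch

/-- **(FW-B2U)**: descent of toric data with unit roots (two-stage descent). -/
theorem fwB2U (hB : H17FW.BranchStatement) : FwB2UStatement := by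
  classical
  intro N' q _ _ _ hq hqN hT n hn A hA u hu hdiv htor K₀ hK₀
  haveI : Fact q.Prime := ⟨hq⟩
  obtain ⟨KB, hKB, hBr⟩ := branchAt N' q hq hqN hB hT A hA
  haveI := hK₀
  haveI := hKB
  have hK₀B : FiniteDimensional ℚ ↥(K₀ ⊔ KB) := IntermediateField.finiteDimensional_sup K₀ KB
  -- stage 1: descent of `u` to `Kz`
  obtain ⟨Kz, hKzfin, uz, ψ₁z, ψ₂z, hlez, hnormz, -, huz, huz0, hψ₁z, hψ₂z, -, -, h1z, h2z⟩ :=
    H29B2.fwB2 N' q hq hqN n hn A hA u hu hdiv htor (K₀ ⊔ KB) hK₀B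
  obtain ⟨V₁, V₂, hV₁, hV₂, hm₁, hm₂, hval⟩ := hBr Kz (le_sup_right.trans hlez) hKzfin hnormz
  obtain ⟨zz, hzz, hz₁, hz₂⟩ := hval ψ₁z ψ₂z hψ₁z hψ₂z
  obtain ⟨hO1, hO2⟩ :=
    H29B2.one_of_branch N' q hq hqN A Kz V₁ V₂ hm₁ hm₂ n uz ψ₁z ψ₂z h1z h2z
  have hx₁ : V₁.valuation (uz * (zz ^ n)⁻¹) = 1 :=
    val_unit_of_root V₁ n uz ψ₁z zz hψ₁z hzz hO1 hz₁
  have hx₂ : V₂.valuation (uz * (zz ^ n)⁻¹) = 1 :=
    val_unit_of_root V₂ n uz ψ₂z zz hψ₂z hzz hO2 hz₂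
  obtain ⟨hxa, hxb⟩ := H29GD.mem_of_valuation_eq_one V₁ _ hx₁
  obtain ⟨hxc, hxd⟩ := H29GD.mem_of_valuation_eq_one V₂ _ hx₂
  -- the DVR at `Kz`
  obtain ⟨hdvrz, -, -⟩ := H4DVR.dvrStatement q A hA Kz hKzfin
  haveI := hdvrz
  -- the lift of `zz`
  have hφu : phi (N' * q) Kz uz = u := H29B2.phi_eq_of_coe (N' * q) Kz uz u huz
  have hz : phi (N' * q) Kz zz ≠ 0 := (map_ne_zero _).2 hzz
  have hu'coe : ((u * ((phi (N' * q) Kz zz) ^ n)⁻¹ : modularFunctionFieldBar (N' * q)) :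
      LaurentSeries Qb) = coeffMap (algebraMap Kz Qb)
        ((uz * (zz ^ n)⁻¹ : FK Kz (N' * q)) : LaurentSeries Kz) := by
    rw [← phi_coe, map_mul, map_inv₀, map_pow, hφu]
  have hU1 : H17FW.Unit1 A (u * ((phi (N' * q) Kz zz) ^ n)⁻¹) :=
    H29GD.unit_asc (N' * q) A Kz _ _ hu'coe ((hV₁ _).1 hxa) ((hV₁ _).1 hxb)
  have hU2 : H17FW.Unit1 A (H12AL.wqBar N' q hq hqN (u * ((phi (N' * q) Kz zz) ^ n)⁻¹)) := by
    refine H29GD.unit_asc (N' * q) A Kz (H12AL.wqKHom Kz N' q hq hqN (uz * (zz ^ n)⁻¹)) _ ?_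
      ((hV₂ _).1 hxc) ?_
    · rw [H12AL.wqBar_apply, H12AL.coeffMap_wqKHom]
      congr 2
      apply Subtype.ext
      rw [H12AL.coe_phiK]
      exact hu'coe
    · rw [← map_inv₀]
      exact (hV₂ _).1 hxd
  -- stage 2: descent of `u' = u / zⁿ`
  have hu'0 : u * ((phi (N' * q) Kz zz) ^ n)⁻¹ ≠ 0 :=
    mul_ne_zero hu (inv_ne_zero (pow_ne_zero n hz))
  have hdiv' : ∀ P : Place Qb (modularFunctionFieldBar (N' * q)),
      (n : ℤ) ∣ P.ord (u * ((phi (N' * q) Kz zz) ^ n)⁻¹) :=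
    fun P => h5ur_dvd_ord n u _ hu hz hdiv P
  have htor' := isToric_div N' q hq hqN A n u _ hz htor
  obtain ⟨K₁, hK₁fin, u₁, ψ₁, ψ₂, hle₁, hnorm₁, hζ, hu₁, hu₁0, hψ₁, hψ₂, hdiv₁, hrat, h1, h2⟩ :=
    H29B2.fwB2 N' q hq hqN n hn A hA _ hu'0 hdiv' htor' Kz hKzfin
  obtain ⟨W₁, W₂, hW₁, hW₂, hn₁, hn₂, -⟩ :=
    hBr K₁ ((le_sup_right.trans hlez).trans hle₁) hK₁fin hnorm₁
  obtain ⟨hdvr₁, -, -⟩ := H4DVR.dvrStatement q A hA K₁ hK₁fin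
  haveI := hdvr₁
  obtain ⟨ha, hb⟩ := H29GD.unit_desc (N' * q) A K₁ u₁ _ hu₁ hU1
  obtain ⟨hc, hd⟩ := H29GD.unit_desc (N' * q) A K₁ (H12AL.wqKHom K₁ N' q hq hqN u₁)
    (H12AL.wqBar N' q hq hqN (u * ((phi (N' * q) Kz zz) ^ n)⁻¹)) (by
      rw [H12AL.wqBar_apply, H12AL.coeffMap_wqKHom]
      congr 2
      apply Subtype.ext
      rw [H12AL.coe_phiK]
      exact hu₁) hU2
  have hd' : H8PB.InG (descVal A K₁)
      ((H12AL.wqKHom K₁ N' q hq hqN u₁⁻¹ : FK K₁ (N' * q)) : LaurentSeries K₁) := by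
    rw [map_inv₀]
    exact hd
  obtain ⟨hP1, hP2⟩ :=
    H29B2.one_of_branch N' q hq hqN A K₁ W₁ W₂ hn₁ hn₂ n u₁ ψ₁ ψ₂ h1 h2
  have hvu₁ : W₁.valuation u₁ = 1 :=
    H29GD.valuation_eq_one_of_mem W₁ u₁ hu₁0 ((hW₁ _).2 ha) ((hW₁ _).2 hb)
  have hvu₂ : W₂.valuation u₁ = 1 :=
    H29GD.valuation_eq_one_of_mem W₂ u₁ hu₁0 ((hW₂ _).2 hc) ((hW₂ _).2 hd')
  have hvψ₁ := val_root_of_unit W₁ n hn u₁ ψ₁ hψ₁ hP1 hvu₁
  have hvψ₂ := val_root_of_unit W₂ n hn u₁ ψ₂ hψ₂ hP2 hvu₂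
  obtain ⟨hr1, hr2⟩ := H29GD.mem_of_valuation_eq_one W₁ ψ₁ hvψ₁
  obtain ⟨hr3, hr4⟩ := H29GD.mem_of_valuation_eq_one W₂ ψ₂ hvψ₂
  exact ⟨phi (N' * q) Kz zz, K₁, hK₁fin, u₁, ψ₁, ψ₂, hz, (le_sup_left.trans hlez).trans hle₁,
    hnorm₁, hζ, hu₁, hu₁0, hψ₁, hψ₂, hdiv₁, hrat, h1, h2, ha, hb, hc, hd',
    (hW₁ _).1 hr1, (hW₁ _).1 hr2, (hW₂ _).1 hr3, (hW₂ _).1 hr4⟩

end H5UR

end
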