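import Mathlib
import Fermat.Agent.S34.TauVal_helper3
import Fermat.Agent.S34.PairJq_helper25
import Fermat.Agent.S34.PairBasisCore_helper8
import Fermat.Agent.S35.FWDefsK_helper17

/-!
# Item 82b (S35), slice FW-COMP (helper10): the two Gauss valuation rings of `F₁ = F_{K₁}(M q)`

Part A (generic): `K` a field, `R` a valuation subring of `K` which is a DVR, `N` a level.
* `H10FC.gaussVal R N : ValuationSubring (FK K N)`, `x ∈ gaussVal ↔ InG R x`;
* `H10FC.gaussVal_lt_one : valuation x < 1 ↔ InGm R x`;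
* `H10FC.inGm_unif : InGm R x → x = ϖ · y`, `InG y`.

Part B (concrete, level `M q`):
* `H10FC.gaussVal2 = gaussVal.comap w`, `gaussVal2_lt_one`;
* `H10FC.comax_of_swap`, `H10FC.gauss_comax`: the comaximality witness `e = y / (y + w y)`,
  `y = j(𝐪^q) − j^q` (Kronecker congruence `H8PB.h8pb_kronecker`, `h8pb_jq_ne_pow`);
* `H10FC.gaussVal_unif`, `gaussVal2_unif`: `ϖ` is a uniformizer of both;
* **`H10FC.branch_of_pairGauss : H8PB.PairGaussStatement → H17FW.BranchStatement`** (`K₀ = ⊥`).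
-/

set_option autoImplicit false
set_option linter.unusedSectionVars false
set_option linter.unusedVariables false
set_option linter.style.haveILetI false
set_option synthInstance.maxHeartbeats 400000

noncomputable section

namespace H10FC

open ModularCurve HahnSeries H28GV H8PB H3TAU H7S18

section Generic

variable {K : Type} [Field K] (R : ValuationSubring K)

theorem inG_zero : InG R (0 : LaurentSeries K) := by
  rw [h3v_inG_iff]
  exact ⟨0, 1, by rw [map_one]; exact one_ne_zero, by simp⟩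

theorem inG_one' : InG R (1 : LaurentSeries K) := by
  rw [h3v_inG_iff]
  exact ⟨1, 1, by rw [map_one]; exact one_ne_zero, by simp⟩

theorem inG_add {x y : LaurentSeries K} (hx : InG R x) (hy : InG R y) : InG R (x + y) := by
  rw [h3v_inG_iff] at hx hy ⊢
  obtain ⟨f, g, hg, h⟩ := hx
  obtain ⟨f', g', hg', h'⟩ := hy
  refine ⟨f * g' + f' * g, g * g', ?_, ?_⟩
  · rw [map_mul]; exact mul_ne_zero hg hg'
  · rw [map_add, map_mul, map_mul, map_mul, ← h, ← h']; ring

theorem inG_neg {x : LaurentSeries K} (hx : InG R x) : InG R (-x) := by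
  rw [h3v_inG_iff] at hx ⊢
  obtain ⟨f, g, hg, h⟩ := hx
  refine ⟨-f, g, hg, ?_⟩
  rw [map_neg, ← h]; ring

theorem inG_mul' {x y : LaurentSeries K} (hx : InG R x) (hy : InG R y) : InG R (x * y) := by
  rw [h3v_inG_iff] at hx hy ⊢
  obtain ⟨f, g, hg, h⟩ := hx
  obtain ⟨f', g', hg', h'⟩ := hy
  refine ⟨f * f', g * g', ?_, ?_⟩
  · rw [map_mul]; exact mul_ne_zero hg hg'
  · rw [map_mul, map_mul, ← h, ← h']; ring

theorem inGm_inG {x : LaurentSeries K} (hx : InGm R x) : InG R x := by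
  obtain ⟨f, g, hg, -, h⟩ := hx
  exact ⟨f, g, hg, h⟩

/-- an element of the Gauss ring which is not in the maximal ideal is a unit -/
theorem inG_inv_of_not_inGm {x : LaurentSeries K} (hx : InG R x) (hxm : ¬ InGm R x) :
    InG R x⁻¹ := by
  rw [h3v_inG_iff] at hx ⊢
  obtain ⟨f, g, hg, h⟩ := hx
  have hf : rhoR R f ≠ 0 := by
    intro hf
    exact hxm ((h3v_inGm_iff x).mpr ⟨f, g, hg, hf, h⟩)
  have hx0 : x ≠ 0 := by
    rintro rfl
    rw [zero_mul] at h
    have : f = 0 := gvEps_injective R (by rw [← h, map_zero])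
    rw [this, map_zero] at hf
    exact hf rfl
  refine ⟨g, f, hf, ?_⟩
  rw [← h]; field_simp

/-- `InGm x` and `InG x⁻¹` are incompatible for `x ≠ 0` -/
theorem not_inG_inv_of_inGm {x : LaurentSeries K} (hx0 : x ≠ 0) (hx : InGm R x) :
    ¬ InG R x⁻¹ := by
  intro hxi
  rw [h3v_inGm_iff] at hx
  rw [h3v_inG_iff] at hxi
  obtain ⟨f, g, hg, hf, h⟩ := hx
  obtain ⟨f', g', hg', h'⟩ := hxi
  have e : gvEps R (g * g') = gvEps R (f * f') := by
    rw [map_mul, map_mul, ← h, ← h']; field_simp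
  have e2 := gvEps_injective R e
  have e3 := congrArg (rhoR R) e2
  rw [map_mul, map_mul, hf, zero_mul] at e3
  exact mul_ne_zero hg hg' e3

/-- **the Gauss ring is a valuation ring on `F_K(N)`** -/
theorem inG_or_inv [IsDiscreteValuationRing R] (N : ℕ) [NeZero N] (x : LaurentSeries K)
    (hx : x ∈ modularFunctionFieldFullC K N) : InG R x ∨ InG R x⁻¹ := by
  by_cases hx0 : x = 0
  · left; rw [hx0]; exact inG_zero R
  obtain ⟨c, Y₁, Y₂, hc, hY₁, hY₂, hrel⟩ := h3b_nf R N x hx hx0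
  rcases R.mem_or_inv_mem c with hcR | hcR
  · left
    rw [h3v_inG_iff]
    refine ⟨HahnSeries.C ⟨c, hcR⟩ * Y₁, Y₂, hY₂, ?_⟩
    rw [map_mul, gvEps_C, hrel]
  · right
    rw [h3v_inG_iff]
    have hY₁0 : gvEps R Y₁ ≠ 0 := by
      intro h0
      have : Y₁ = 0 := gvEps_injective R (by rw [h0, map_zero])
      rw [this, map_zero] at hY₁
      exact hY₁ rfl
    have hC0 : (HahnSeries.C c : LaurentSeries K) ≠ 0 := by
      intro h0
      have h' := congrArg (fun z : LaurentSeries K => z.coeff 0) h0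
      simp only [HahnSeries.C_apply, HahnSeries.coeff_single_same, HahnSeries.coeff_zero] at h'
      exact hc h'
    refine ⟨HahnSeries.C ⟨c⁻¹, hcR⟩ * Y₂, Y₁, hY₁, ?_⟩
    rw [map_mul, gvEps_C]
    show x⁻¹ * gvEps R Y₁ = HahnSeries.C c⁻¹ * gvEps R Y₂
    have hCi : (HahnSeries.C c⁻¹ : LaurentSeries K) * HahnSeries.C c = 1 := by
      rw [← map_mul, inv_mul_cancel₀ hc, map_one]
    have : x * (x⁻¹ * gvEps R Y₁) = x * (HahnSeries.C c⁻¹ * gvEps R Y₂) := by
      rw [mul_inv_cancel_left₀ hx0]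
      calc gvEps R Y₁ = (HahnSeries.C c⁻¹ * HahnSeries.C c) * gvEps R Y₁ := by
            rw [hCi, one_mul]
        _ = HahnSeries.C c⁻¹ * (HahnSeries.C c * gvEps R Y₁) := by ring
        _ = HahnSeries.C c⁻¹ * (x * gvEps R Y₂) := by rw [hrel]
        _ = _ := by ring
    exact mul_left_cancel₀ hx0 this

variable [Algebra ℚ K]

theorem mem_fullC (N : ℕ) [NeZero N] (x : FK K N) :
    (x : LaurentSeries K) ∈ modularFunctionFieldFullC K N := by
  exact (gv_bar_eq (L := K) N).le x.2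

/-- the Gauss valuation ring of `F_K(N)` attached to `R` -/
def gaussVal [IsDiscreteValuationRing R] (N : ℕ) [NeZero N] : ValuationSubring (FK K N) where
  carrier := {x | InG R (x : LaurentSeries K)}
  mul_mem' := fun {a b} ha hb => by
    show InG R ((a * b : FK K N) : LaurentSeries K)
    exact inG_mul' R ha hb
  one_mem' := inG_one' R
  add_mem' := fun {a b} ha hb => by
    show InG R ((a + b : FK K N) : LaurentSeries K)
    exact inG_add R ha hb
  zero_mem' := inG_zero R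
  neg_mem' := fun {a} ha => by
    show InG R ((-a : FK K N) : LaurentSeries K)
    exact inG_neg R ha
  mem_or_inv_mem' := fun x => by
    have := inG_or_inv R N (x : LaurentSeries K) (mem_fullC N x)
    exact this

theorem mem_gaussVal [IsDiscreteValuationRing R] (N : ℕ) [NeZero N] (x : FK K N) :
    x ∈ gaussVal R N ↔ InG R (x : LaurentSeries K) := Iff.rfl

/-- a general description of the maximal ideal of a valuation subring -/
theorem val_lt_one_iff {F : Type*} [Field F] (V : ValuationSubring F) (x : F) :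
    V.valuation x < 1 ↔ x ∈ V ∧ (x = 0 ∨ x⁻¹ ∉ V) := by
  constructor
  · intro h
    refine ⟨(V.valuation_le_one_iff x).mp h.le, ?_⟩
    by_cases hx0 : x = 0
    · exact Or.inl hx0
    · right
      intro hxi
      have h1 : V.valuation x⁻¹ ≤ 1 := (V.valuation_le_one_iff _).mpr hxi
      rw [map_inv₀] at h1
      have h2 : V.valuation x ≠ 0 := by rwa [Ne, Valuation.zero_iff]
      have h3 : 1 ≤ V.valuation x := (inv_le_one₀ (zero_lt_iff.mpr h2)).mp h1
      exact absurd h (not_lt.mpr h3)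
  · rintro ⟨hx, h⟩
    rcases h with h | h
    · rw [h, Valuation.map_zero]; exact zero_lt_one
    · have h1 : V.valuation x ≤ 1 := (V.valuation_le_one_iff x).mpr hx
      rcases lt_or_eq_of_le h1 with h2 | h2
      · exact h2
      · exfalso
        apply h
        rw [← V.valuation_le_one_iff, map_inv₀, h2, inv_one]

theorem gaussVal_lt_one [IsDiscreteValuationRing R] (N : ℕ) [NeZero N] (x : FK K N) :
    (gaussVal R N).valuation x < 1 ↔ InGm R (x : LaurentSeries K) := by
  rw [val_lt_one_iff]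
  constructor
  · rintro ⟨hx, h⟩
    by_contra hm
    have hxi := inG_inv_of_not_inGm R hx hm
    rcases h with h | h
    · apply hm
      rw [h]
      rw [h3v_inGm_iff]
      exact ⟨0, 1, by rw [map_one]; exact one_ne_zero, map_zero _, by simp⟩
    · exact h hxi
  · intro hm
    refine ⟨inGm_inG R hm, ?_⟩
    by_cases hx0 : x = 0
    · exact Or.inl hx0
    · right
      intro hxi
      have hx0' : (x : LaurentSeries K) ≠ 0 := fun h => hx0 (Subtype.ext h)
      exact not_inG_inv_of_inGm R hx0' hm hxi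

/-- `ϖ` is a uniformizer of the Gauss valuation -/
theorem inGm_unif [IsDiscreteValuationRing R] {ϖ : R} (hϖ : Irreducible ϖ)
    {x : LaurentSeries K} (hx : InGm R x) :
    ∃ y : LaurentSeries K, InG R y ∧ x = HahnSeries.C (ϖ : K) * y := by
  rw [h3v_inGm_iff] at hx
  obtain ⟨f, g, hg, hf, h⟩ := hx
  obtain ⟨f', rfl⟩ := h3b_div_unif hϖ f hf
  have hg0 : gvEps R g ≠ 0 := by
    intro h0
    have : g = 0 := gvEps_injective R (by rw [h0, map_zero])
    rw [this, map_zero] at hg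
    exact hg rfl
  refine ⟨gvEps R f' * (gvEps R g)⁻¹, ?_, ?_⟩
  · rw [h3v_inG_iff]
    exact ⟨f', g, hg, by rw [mul_assoc, inv_mul_cancel₀ hg0, mul_one]⟩
  · rw [map_mul, gvEps_C] at h
    rw [← mul_assoc, ← h, mul_assoc, mul_inv_cancel₀ hg0, mul_one]

end Generic

section Comap

/-- the maximal ideal of a pulled-back valuation ring -/
theorem comap_val_lt_one {F : Type*} [Field F] (V : ValuationSubring F) (f : F →+* F) (x : F) :
    (V.comap f).valuation x < 1 ↔ V.valuation (f x) < 1 := by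
  rw [val_lt_one_iff, val_lt_one_iff, ValuationSubring.mem_comap, ValuationSubring.mem_comap,
    map_inv₀, map_eq_zero]

/-- an element of a valuation ring outside the maximal ideal has valuation `1` -/
theorem val_eq_one_of_mem {F : Type*} [Field F] (V : ValuationSubring F) {x : F}
    (hx : x ∈ V) (hxm : ¬ V.valuation x < 1) : V.valuation x = 1 :=
  le_antisymm ((V.valuation_le_one_iff x).mpr hx) (not_lt.mp hxm)

/-- **the comaximality witness** from an element `y ∈ 𝔪(V)` with `w y ∈ V ∖ 𝔪(V)`,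
`w` an involution: `e = y / (y + w y)`. -/
theorem comax_of_swap {F : Type*} [Field F] (V : ValuationSubring F) (w : F →+* F)
    (hw : ∀ x, w (w x) = x) (y : F) (hy : V.valuation y < 1) (hwy : w y ∈ V)
    (hwym : ¬ V.valuation (w y) < 1) :
    ∃ e : F, e ∈ V ∧ e ∈ V.comap w ∧ V.valuation e < 1 ∧ (V.comap w).valuation (1 - e) < 1 := by
  have h1 : V.valuation (w y) = 1 := val_eq_one_of_mem V hwy hwym
  have h2 : V.valuation (y + w y) = 1 := by
    have h3 : V.valuation y < V.valuation (w y) := by rw [h1]; exact hy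
    rw [Valuation.map_add_eq_of_lt_right _ h3, h1]
  have h0 : y + w y ≠ 0 := by
    intro h
    rw [h, Valuation.map_zero] at h2
    exact zero_ne_one h2
  have he : V.valuation (y * (y + w y)⁻¹) < 1 := by
    rw [map_mul, map_inv₀, h2, inv_one, mul_one]
    exact hy
  have hwe : w (y * (y + w y)⁻¹) = 1 - y * (y + w y)⁻¹ := by
    rw [map_mul, map_inv₀, map_add, hw]
    have h0' : w y + y ≠ 0 := by rwa [add_comm]
    field_simp
    ring
  have h1e : (1 : F) - y * (y + w y)⁻¹ ∈ V :=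
    V.sub_mem V.one_mem ((V.valuation_le_one_iff _).mp he.le)
  refine ⟨y * (y + w y)⁻¹, (V.valuation_le_one_iff _).mp he.le, ?_, he, ?_⟩
  · rw [ValuationSubring.mem_comap, hwe]
    exact h1e
  · rw [comap_val_lt_one, map_sub, map_one, hwe, sub_sub_cancel]
    exact he

end Comap

section Witness

variable {K : Type} [Field K] (R : ValuationSubring K)

/-- the integral `j`-series is not in the maximal ideal when its reduction is nonzero -/
theorem not_inGm_eps {g₀ : LaurentSeries R} (h : rhoR R g₀ ≠ 0) : ¬ InGm R (gvEps R g₀) := by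
  intro hm
  rw [h3v_inGm_iff] at hm
  obtain ⟨f, g, hg, hf, e⟩ := hm
  rw [← map_mul] at e
  have e2 := gvEps_injective R e
  have e3 := congrArg (rhoR R) e2
  rw [map_mul, hf] at e3
  exact mul_ne_zero h hg e3

theorem inG_eps (g₀ : LaurentSeries R) : InG R (gvEps R g₀) := by
  rw [h3v_inG_iff]
  exact ⟨g₀, 1, by rw [map_one]; exact one_ne_zero, by rw [map_one, mul_one]⟩

theorem inGm_eps {g₀ : LaurentSeries R} (h : rhoR R g₀ = 0) : InGm R (gvEps R g₀) := by
  rw [h3v_inGm_iff]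
  exact ⟨g₀, 1, by rw [map_one]; exact one_ne_zero, h, by rw [map_one, mul_one]⟩

variable (q : ℕ) [NeZero q] [Fact q.Prime] [CharP (IsLocalRing.ResidueField R) q]

/-- `j(𝐪^q) − j^q` over `R` -/
def yR : LaurentSeries R := qExpand R q (jqModC R) - jqModC R ^ q

/-- `j − j(𝐪^q)^q` over `R` -/
def wyR : LaurentSeries R := jqModC R - (qExpand R q (jqModC R)) ^ q

theorem rho_yR : rhoR R (yR R q) = 0 := by
  unfold yR
  rw [map_sub, map_pow]
  show coeffMap _ (qExpand R q (jqModC R)) - (coeffMap _ (jqModC R)) ^ q = 0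
  rw [coeffMap_qExpand, coeffMap_jqModC, h8pb_kronecker, sub_self]

theorem rho_wyR : rhoR R (wyR R q) ≠ 0 := by
  unfold wyR
  rw [map_sub, map_pow]
  show coeffMap _ (jqModC R) - (coeffMap _ (qExpand R q (jqModC R))) ^ q ≠ 0
  rw [coeffMap_qExpand, coeffMap_jqModC, h8pb_kronecker, ← pow_mul, sub_ne_zero]
  exact h8pb_jq_ne_pow _ q

theorem eps_yR : gvEps R (yR R q) = qExpand K q (jqModC K) - jqModC K ^ q := by
  unfold yR
  rw [map_sub, map_pow]
  show coeffMap _ (qExpand R q (jqModC R)) - (coeffMap _ (jqModC R)) ^ q = _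
  rw [coeffMap_qExpand, coeffMap_jqModC]

theorem eps_wyR : gvEps R (wyR R q) = jqModC K - (qExpand K q (jqModC K)) ^ q := by
  unfold wyR
  rw [map_sub, map_pow]
  show coeffMap _ (jqModC R) - (coeffMap _ (qExpand R q (jqModC R))) ^ q = _
  rw [coeffMap_qExpand, coeffMap_jqModC]

end Witness

section Concrete

variable (M : ℕ) [NeZero M] (q : ℕ) [NeZero q] (hq : q.Prime) (hqM : ¬ q ∣ M)
  (K₁ : IntermediateField ℚ (AlgebraicClosure ℚ)) (R : ValuationSubring K₁)

/-- `j` as an element of `F₁` -/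
def jF : FK K₁ (M * q) := ⟨jqModC K₁, H25JQ.jqModC_mem_FK K₁ (M * q)⟩

theorem coe_w_jF :
    ((H12AL.wqKHom K₁ M q hq hqM (jF M q K₁) : FK K₁ (M * q)) : LaurentSeries K₁) =
      qExpand K₁ q (jqModC K₁) :=
  H12AL.coe_wqKHom_of_level K₁ M q hq hqM (jF M q K₁) (H25JQ.jqModC_mem_FK K₁ M)

/-- `y = j_q − j^q` as an element of `F₁` -/
def yF : FK K₁ (M * q) := H12AL.wqKHom K₁ M q hq hqM (jF M q K₁) - (jF M q K₁) ^ q

theorem coe_yF :
    ((yF M q hq hqM K₁ : FK K₁ (M * q)) : LaurentSeries K₁) =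
      qExpand K₁ q (jqModC K₁) - jqModC K₁ ^ q := by
  unfold yF
  show ((H12AL.wqKHom K₁ M q hq hqM (jF M q K₁) : FK K₁ (M * q)) : LaurentSeries K₁) -
    ((jF M q K₁ : FK K₁ (M * q)) : LaurentSeries K₁) ^ q = _
  rw [coe_w_jF]
  rfl

theorem coe_w_yF :
    ((H12AL.wqKHom K₁ M q hq hqM (yF M q hq hqM K₁) : FK K₁ (M * q)) : LaurentSeries K₁) =
      jqModC K₁ - (qExpand K₁ q (jqModC K₁)) ^ q := by
  unfold yF
  rw [map_sub, map_pow, H12AL.wqKHom_invol]
  show ((jF M q K₁ : FK K₁ (M * q)) : LaurentSeries K₁) -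
    ((H12AL.wqKHom K₁ M q hq hqM (jF M q K₁) : FK K₁ (M * q)) : LaurentSeries K₁) ^ q = _
  rw [coe_w_jF]
  rfl

variable [IsDiscreteValuationRing R]

/-- the second Gauss valuation ring `V₂ = V₁ ∘ w` -/
def gaussVal2 : ValuationSubring (FK K₁ (M * q)) :=
  (gaussVal R (M * q)).comap (H12AL.wqKHom K₁ M q hq hqM)

theorem mem_gaussVal2 (x : FK K₁ (M * q)) :
    x ∈ gaussVal2 M q hq hqM K₁ R ↔
      InG R ((H12AL.wqKHom K₁ M q hq hqM x : FK K₁ (M * q)) : LaurentSeries K₁) := Iff.rfl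

theorem gaussVal2_lt_one (x : FK K₁ (M * q)) :
    (gaussVal2 M q hq hqM K₁ R).valuation x < 1 ↔
      InGm R ((H12AL.wqKHom K₁ M q hq hqM x : FK K₁ (M * q)) : LaurentSeries K₁) := by
  unfold gaussVal2
  rw [comap_val_lt_one, gaussVal_lt_one]

/-- **the comaximality witness** -/
theorem gauss_comax [Fact q.Prime] [CharP (IsLocalRing.ResidueField R) q] :
    ∃ e : FK K₁ (M * q), e ∈ gaussVal R (M * q) ∧ e ∈ gaussVal2 M q hq hqM K₁ R ∧
      (gaussVal R (M * q)).valuation e < 1 ∧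
      (gaussVal2 M q hq hqM K₁ R).valuation (1 - e) < 1 := by
  refine comax_of_swap (gaussVal R (M * q)) (H12AL.wqKHom K₁ M q hq hqM)
    (H12AL.wqKHom_invol K₁ M q hq hqM) (yF M q hq hqM K₁) ?_ ?_ ?_
  · rw [gaussVal_lt_one, coe_yF, ← eps_yR R q]
    exact inGm_eps R (rho_yR R q)
  · rw [mem_gaussVal, coe_w_yF, ← eps_wyR R q]
    exact inG_eps R _
  · rw [gaussVal_lt_one, coe_w_yF, ← eps_wyR R q]
    exact not_inGm_eps R (rho_wyR R q)

variable [Algebra ↥R (FK K₁ (M * q))] [IsScalarTower ↥R K₁ (FK K₁ (M * q))]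

theorem coe_algebraMap_unif (r : R) :
    ((algebraMap ↥R (FK K₁ (M * q)) r : FK K₁ (M * q)) : LaurentSeries K₁) =
      HahnSeries.C ((r : R) : K₁) := by
  rw [IsScalarTower.algebraMap_apply ↥R K₁ (FK K₁ (M * q))]
  show algebraMap K₁ (LaurentSeries K₁) (algebraMap ↥R K₁ r) = _
  rw [algebraMap_laurentSeries_eq_single]
  rfl

theorem w_algebraMap (r : R) :
    H12AL.wqKHom K₁ M q hq hqM (algebraMap ↥R (FK K₁ (M * q)) r) =
      algebraMap ↥R (FK K₁ (M * q)) r := by
  rw [IsScalarTower.algebraMap_apply ↥R K₁ (FK K₁ (M * q))]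
  exact H12AL.wqKHom_const K₁ M q hq hqM _

/-- `ϖ` is a uniformizer of `V₁` -/
theorem gaussVal_unif {ϖ : R} (hϖ : Irreducible ϖ) (x : FK K₁ (M * q))
    (hx : (gaussVal R (M * q)).valuation x < 1) :
    x * (algebraMap ↥R (FK K₁ (M * q)) ϖ)⁻¹ ∈ gaussVal R (M * q) := by
  rw [gaussVal_lt_one] at hx
  obtain ⟨y, hy, hxy⟩ := inGm_unif R hϖ hx
  rw [mem_gaussVal]
  have hϖ0 : (algebraMap ↥R (FK K₁ (M * q)) ϖ) ≠ 0 := by
    intro h
    have h1 := congrArg (fun z : FK K₁ (M * q) => (z : LaurentSeries K₁)) h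
    simp only [coe_algebraMap_unif] at h1
    have h2 := congrArg (fun z : LaurentSeries K₁ => z.coeff 0) h1
    simp only [HahnSeries.C_apply, HahnSeries.coeff_single_same] at h2
    have h3 : (ϖ : K₁) = 0 := h2
    exact hϖ.ne_zero (Subtype.ext h3)
  have e : ((x * (algebraMap ↥R (FK K₁ (M * q)) ϖ)⁻¹ : FK K₁ (M * q)) : LaurentSeries K₁) = y := by
    have h1 : (x : LaurentSeries K₁) =
        ((algebraMap ↥R (FK K₁ (M * q)) ϖ : FK K₁ (M * q)) : LaurentSeries K₁) * y := by
      rw [coe_algebraMap_unif]; exact hxy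
    have h2 : ((algebraMap ↥R (FK K₁ (M * q)) ϖ : FK K₁ (M * q)) : LaurentSeries K₁) ≠ 0 :=
      fun h => hϖ0 (Subtype.ext h)
    show (x : LaurentSeries K₁) *
      ((algebraMap ↥R (FK K₁ (M * q)) ϖ : FK K₁ (M * q)) : LaurentSeries K₁)⁻¹ = y
    rw [h1]
    field_simp
  rw [e]
  exact hy

/-- `ϖ` is a uniformizer of `V₂` -/
theorem gaussVal2_unif {ϖ : R} (hϖ : Irreducible ϖ) (x : FK K₁ (M * q))
    (hx : (gaussVal2 M q hq hqM K₁ R).valuation x < 1) :
    x * (algebraMap ↥R (FK K₁ (M * q)) ϖ)⁻¹ ∈ gaussVal2 M q hq hqM K₁ R := by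
  unfold gaussVal2 at hx ⊢
  rw [comap_val_lt_one] at hx
  rw [ValuationSubring.mem_comap, map_mul, map_inv₀, w_algebraMap]
  exact gaussVal_unif M q K₁ R hϖ _ hx

end Concrete

/-- **(FW-COMP)**: the two Gauss valuation rings, from (I1). -/
theorem branch_of_pairGauss (hPG : H8PB.PairGaussStatement) : H17FW.BranchStatement := by
  intro N' _ q _ hq hqN hT A hA
  refine ⟨⊥, inferInstance, ?_⟩
  intro K₁ _ hfin _ _ _ ϖ hϖ t₀ ht₀ t ht
  haveI : Fact q.Prime := ⟨hq⟩
  obtain ⟨hdvr, hnu, -⟩ := H4DVR.dvrStatement q A hA K₁ hfin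
  haveI := hdvr
  haveI : CharP (IsLocalRing.ResidueField ↥(descVal A K₁)) q := by
    have h0 : ((q : ℕ) : IsLocalRing.ResidueField ↥(descVal A K₁)) = 0 := by
      have h3 := (IsLocalRing.residue_eq_zero_iff ((q : ℕ) : ↥(descVal A K₁))).mpr
        ((IsLocalRing.mem_maximalIdeal _).mpr hnu)
      rwa [map_natCast] at h3
    exact (CharP.charP_iff_prime_eq_zero hq).mpr h0
  refine ⟨gaussVal (descVal A K₁) (N' * q), gaussVal2 N' q hq hqN K₁ (descVal A K₁),
    fun x => Iff.rfl, fun x => Iff.rfl, fun x => gaussVal_lt_one _ _ x,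
    fun x => gaussVal2_lt_one N' q hq hqN K₁ _ x, ?_, ?_,
    gauss_comax N' q hq hqN K₁ (descVal A K₁),
    fun x hx => gaussVal_unif N' q K₁ (descVal A K₁) hϖ x hx,
    fun x hx => gaussVal2_unif N' q hq hqN K₁ (descVal A K₁) hϖ x hx⟩
  · intro x
    exact (hPG N' q hq hqN hT A hA K₁ hfin ϖ hϖ t₀ ht₀ t ht x).1
  · intro x h1 h2
    exact (hPG N' q hq hqN hT A hA K₁ hfin ϖ hϖ t₀ ht₀ t ht x).2
      ((gaussVal_lt_one _ _ x).mp h1) ((gaussVal2_lt_one N' q hq hqN K₁ _ x).mp h2)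

end H10FC

end
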