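import Mathlib
import Fermat.Agent.S35.FWComp_helper10
import Fermat.Agent.S34.PairGaussFinal_helper8

/-!
# Item 82b (S35), slice FW-COMP, unconditional (helper10)

`H10FC.branchStatement : H17FW.BranchStatement`, from `H10FC.branch_of_pairGauss` and
(I1) `H8PB.h8pg_pairGauss`.
-/

set_option autoImplicit false

namespace H10FC

/-- **(FW-COMP)**, unconditional: the two Gauss valuation rings of `F₁ = F_{K₁}(N' q)`. -/
theorem branchStatement : H17FW.BranchStatement :=
  branch_of_pairGauss H8PB.h8pg_pairGauss

end H10FC
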