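import Mathlib
import Fermat.Agent.S34.Defs_helper4

/-!
# Item 82b (S35), slice FW-RAT (helper5): generic core

Setting: `M` the chart ring at level `M q` (any commutative ring here), `𝔫` a node of the special
fibre (a prime ideal), `P₁, P₂ ≤ 𝔫` the two components, `γ = σ₁²` the square of a Frobenius
element acting coefficientwise, `Q = q²`.

* `h5fr_kron`  : **Kronecker twice**: from `z ≡ y^q mod P₁` and `γ y ≡ z^q mod P₂` (up to a local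
  unit `s ∉ 𝔫`, which makes `z` integral) we get `γ y - y^(q·q) ∈ 𝔫`;
* `h5fr_core`  : if every element of `M` is congruent mod `P₁` to an element of a set `L`
  ("component 1 is the reduction of level `M`"), `γ P₁ ⊆ 𝔫` and `γ y - y^Q ∈ 𝔫` on `L`,
  then `γ m - m^Q ∈ 𝔫` for **all** `m`;
* `h5fr_map_le`, `h5fr_not_mem` : consequently `γ 𝔫 ⊆ 𝔫` and `γ s ∉ 𝔫` for `s ∉ 𝔫`;
* `h5fr_inLoc`, `h5fr_loc_congr` : the chart form (`H4S34.InLoc`): `γ B_𝔫 ⊆ B_𝔫` and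
  `γ x - x^Q ∈ 𝔫 B_𝔫`;
* `h5fr_hγB` : the same for any model `B` of the localization at `𝔫`, in the exact shape of the
  hypothesis `hγB` of `H10FW.h10fw_node`.
-/

set_option autoImplicit false

namespace H5FR

section Core

variable {M : Type*} [CommRing M]

/-- `x - y ∈ I → x^n - y^n ∈ I`. -/
theorem h5fr_pow_sub_pow_mem (I : Ideal M) {x y : M} (h : x - y ∈ I) (n : ℕ) :
    x ^ n - y ^ n ∈ I := by
  obtain ⟨c, hc⟩ := sub_dvd_pow_sub_pow x y n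
  rw [hc]
  exact I.mul_mem_right _ h

/-- **Kronecker twice**.  `y₂ = γ y`, `z' = s · z` with `z = β (σ₁ y)`:
`z' ≡ s y^q mod P₁`, `s^q y₂ ≡ z'^q mod P₂`, `s ∉ 𝔫` ⟹ `y₂ - y^(q·q) ∈ 𝔫`. -/
theorem h5fr_kron (𝔫 P₁ P₂ : Ideal M) [𝔫.IsPrime] (hP₁ : P₁ ≤ 𝔫) (hP₂ : P₂ ≤ 𝔫) (q : ℕ)
    (y y₂ s z' : M) (hs : s ∉ 𝔫) (h1 : z' - s * y ^ q ∈ P₁)
    (h2 : s ^ q * y₂ - z' ^ q ∈ P₂) :
    y₂ - y ^ (q * q) ∈ 𝔫 := by
  have h3 : z' ^ q - (s * y ^ q) ^ q ∈ 𝔫 := hP₁ (h5fr_pow_sub_pow_mem P₁ h1 q)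
  have h4 : s ^ q * (y₂ - y ^ (q * q)) ∈ 𝔫 := by
    have e : s ^ q * (y₂ - y ^ (q * q)) =
        (s ^ q * y₂ - z' ^ q) + (z' ^ q - (s * y ^ q) ^ q) := by
      rw [pow_mul]; ring
    rw [e]
    exact 𝔫.add_mem (hP₂ h2) h3
  rcases Ideal.IsPrime.mem_or_mem ‹𝔫.IsPrime› h4 with h | h
  · exact absurd (Ideal.IsPrime.mem_of_pow_mem ‹𝔫.IsPrime› q h) hs
  · exact h

/-- **FW-RAT, generic core**: `γ m ≡ m^Q mod 𝔫` for all `m`. -/
theorem h5fr_core (𝔫 P₁ : Ideal M) (hP₁ : P₁ ≤ 𝔫) (γ : M →+* M) (Q : ℕ) (L : Set M)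
    (ha : ∀ p ∈ P₁, γ p ∈ 𝔫)
    (hb : ∀ m : M, ∃ y ∈ L, m - y ∈ P₁)
    (hc : ∀ y ∈ L, γ y - y ^ Q ∈ 𝔫) (m : M) :
    γ m - m ^ Q ∈ 𝔫 := by
  obtain ⟨y, hyL, hy⟩ := hb m
  have h1 : γ (m - y) ∈ 𝔫 := ha _ hy
  have h2 : m ^ Q - y ^ Q ∈ 𝔫 := hP₁ (h5fr_pow_sub_pow_mem P₁ hy Q)
  have e : γ m - m ^ Q = (γ y - y ^ Q) + γ (m - y) - (m ^ Q - y ^ Q) := by
    rw [map_sub]; ring
  rw [e]
  exact 𝔫.sub_mem (𝔫.add_mem (hc y hyL) h1) h2

/-- `γ 𝔫 ⊆ 𝔫`. -/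
theorem h5fr_map_mem (𝔫 : Ideal M) (γ : M →+* M) (Q : ℕ) (hQ : 0 < Q)
    (h : ∀ m : M, γ m - m ^ Q ∈ 𝔫) {m : M} (hm : m ∈ 𝔫) : γ m ∈ 𝔫 := by
  have h1 : m ^ Q ∈ 𝔫 := 𝔫.pow_mem_of_mem hm Q hQ
  have := 𝔫.add_mem (h m) h1
  rwa [sub_add_cancel] at this

/-- `γ s ∉ 𝔫` for `s ∉ 𝔫`. -/
theorem h5fr_map_not_mem (𝔫 : Ideal M) [𝔫.IsPrime] (γ : M →+* M) (Q : ℕ)
    (h : ∀ m : M, γ m - m ^ Q ∈ 𝔫) {s : M} (hs : s ∉ 𝔫) : γ s ∉ 𝔫 := by
  intro hγ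
  have h1 : s ^ Q ∈ 𝔫 := by
    have := 𝔫.sub_mem hγ (h s)
    rwa [sub_sub_cancel] at this
  exact hs (Ideal.IsPrime.mem_of_pow_mem ‹𝔫.IsPrime› Q h1)

end Core

section Chart

open H4S34

variable (R : Type) [CommRing R] {E : Type} [Field E] [Algebra R E]

/-- **FW-RAT, chart form, part 1**: `γ B_𝔫 ⊆ B_𝔫`. -/
theorem h5fr_inLoc (t : E) (𝔫 : Ideal (Chart R t)) [𝔫.IsPrime] (γ : E →+* E) (Q : ℕ)
    (hγ : ∀ m : Chart R t, ∃ m' : Chart R t, (m' : E) = γ (m : E) ∧ m' - m ^ Q ∈ 𝔫)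
    (x : E) (hx : InLoc R t 𝔫 x) : InLoc R t 𝔫 (γ x) := by
  obtain ⟨a, s, hs, hsx⟩ := hx
  obtain ⟨s', hs', hs'Q⟩ := hγ s
  obtain ⟨a', ha', -⟩ := hγ a
  refine ⟨a', s', fun hmem => ?_, ?_⟩
  · have h1 : s ^ Q ∈ 𝔫 := by
      have := 𝔫.sub_mem hmem hs'Q
      rwa [sub_sub_cancel] at this
    exact hs (Ideal.IsPrime.mem_of_pow_mem ‹𝔫.IsPrime› Q h1)
  · rw [hs', ha', ← map_mul, hsx]

/-- **FW-RAT, chart form, part 2**: `γ x - x^Q ∈ 𝔫 B_𝔫` for `x ∈ B_𝔫`. -/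
theorem h5fr_loc_congr (t : E) (𝔫 : Ideal (Chart R t)) [𝔫.IsPrime] (γ : E →+* E) (Q : ℕ)
    (hγ : ∀ m : Chart R t, ∃ m' : Chart R t, (m' : E) = γ (m : E) ∧ m' - m ^ Q ∈ 𝔫)
    (x : E) (hx : InLoc R t 𝔫 x) :
    ∃ a s : Chart R t, s ∉ 𝔫 ∧ a ∈ 𝔫 ∧ (s : E) * (γ x - x ^ Q) = (a : E) := by
  obtain ⟨a, s, hs, hsx⟩ := hx
  obtain ⟨s', hs', hs'Q⟩ := hγ s
  obtain ⟨a', ha', ha'Q⟩ := hγ a
  have hs'n : s' ∉ 𝔫 := by
    intro hmem
    have h1 : s ^ Q ∈ 𝔫 := by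
      have := 𝔫.sub_mem hmem hs'Q
      rwa [sub_sub_cancel] at this
    exact hs (Ideal.IsPrime.mem_of_pow_mem ‹𝔫.IsPrime› Q h1)
  have hsQ : s ^ Q ∉ 𝔫 := fun h => hs (Ideal.IsPrime.mem_of_pow_mem ‹𝔫.IsPrime› Q h)
  refine ⟨s ^ Q * (a' - a ^ Q) - (s' - s ^ Q) * a ^ Q, s' * s ^ Q, ?_, ?_, ?_⟩
  · intro h
    rcases Ideal.IsPrime.mem_or_mem ‹𝔫.IsPrime› h with h | h
    · exact hs'n h
    · exact hsQ h
  · exact 𝔫.sub_mem (𝔫.mul_mem_left _ ha'Q) (𝔫.mul_mem_right _ hs'Q)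
  · have e1 : (s' : E) * γ x = (a' : E) := by rw [hs', ha', ← map_mul, hsx]
    have e2 : (s : E) ^ Q * x ^ Q = (a : E) ^ Q := by rw [← mul_pow, hsx]
    show ((s' : E) * (s : E) ^ Q) * (γ x - x ^ Q) =
      (s : E) ^ Q * ((a' : E) - (a : E) ^ Q) - ((s' : E) - (s : E) ^ Q) * (a : E) ^ Q
    linear_combination (s : E) ^ Q * e1 - (s' : E) * e2

end Chart

section Loc

variable {M : Type*} [CommRing M] {E : Type*} [CommRing E] [Algebra M E]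
  (𝔫 : Ideal M) [𝔫.IsPrime]
  (B : Type*) [CommRing B] [Algebra M B] [IsLocalization.AtPrime B 𝔫]
  [Algebra B E] [IsScalarTower M B E]

/-- **FW-RAT for a model `B` of the local ring at `𝔫`** (shape of `hγB` in
`H10FW.h10fw_node`, with `φ = algebraMap B E`): if `γ` preserves `M` with `γ m ≡ m^Q mod 𝔫`, then
for every `b : B` there is `b' : B` with `γ b = b'` in `E` and `b' - b^Q ∈ 𝔪_B`. -/
theorem h5fr_hγB [IsLocalRing B] (γ : E →+* E) (Q : ℕ)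
    (hγ : ∀ m : M, ∃ m' : M, algebraMap M E m' = γ (algebraMap M E m) ∧ m' - m ^ Q ∈ 𝔫)
    (b : B) :
    ∃ b' : B, γ (algebraMap B E b) = algebraMap B E b' ∧
      b' - b ^ Q ∈ IsLocalRing.maximalIdeal B := by
  obtain ⟨a, s, hb⟩ := IsLocalization.exists_mk'_eq 𝔫.primeCompl b
  obtain ⟨s', hs', hs'Q⟩ := hγ (s : M)
  obtain ⟨a', ha', ha'Q⟩ := hγ a
  have hsn : (s : M) ∉ 𝔫 := s.2
  have hs'n : s' ∈ 𝔫.primeCompl := by
    intro hmem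
    have h1 : (s : M) ^ Q ∈ 𝔫 := by
      have := 𝔫.sub_mem hmem hs'Q
      rwa [sub_sub_cancel] at this
    exact hsn (Ideal.IsPrime.mem_of_pow_mem ‹𝔫.IsPrime› Q h1)
  have hsb : algebraMap M B (s : M) * b = algebraMap M B a := by
    rw [← hb, mul_comm, IsLocalization.mk'_spec]
  set b' : B := IsLocalization.mk' B a' (⟨s', hs'n⟩ : 𝔫.primeCompl) with hb'
  have hs'b' : algebraMap M B s' * b' = algebraMap M B a' := by
    rw [hb', mul_comm]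
    exact IsLocalization.mk'_spec B a' (⟨s', hs'n⟩ : 𝔫.primeCompl)
  have hunit : ∀ u : M, u ∉ 𝔫 → IsUnit (algebraMap M B u) := fun u hu =>
    IsLocalization.map_units B (⟨u, hu⟩ : 𝔫.primeCompl)
  have hmapmem : ∀ u : M, u ∈ 𝔫 → algebraMap M B u ∈ IsLocalRing.maximalIdeal B := by
    intro u hu
    rw [← IsLocalization.AtPrime.map_eq_maximalIdeal 𝔫 B]
    exact Ideal.mem_map_of_mem _ hu
  refine ⟨b', ?_, ?_⟩
  · -- `γ b = b'` in `E`: multiply by the unit `γ s = s'`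
    have e1 : algebraMap B E (algebraMap M B (s : M)) * algebraMap B E b =
        algebraMap B E (algebraMap M B a) := by rw [← map_mul, hsb]
    rw [← IsScalarTower.algebraMap_apply, ← IsScalarTower.algebraMap_apply] at e1
    have e2 : γ (algebraMap M E (s : M)) * γ (algebraMap B E b) = γ (algebraMap M E a) := by
      rw [← map_mul, e1]
    rw [← hs', ← ha'] at e2
    have e3 : algebraMap B E (algebraMap M B s') * algebraMap B E b' =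
        algebraMap B E (algebraMap M B a') := by rw [← map_mul, hs'b']
    rw [← IsScalarTower.algebraMap_apply, ← IsScalarTower.algebraMap_apply] at e3
    have hu : IsUnit (algebraMap M E s') := by
      rw [IsScalarTower.algebraMap_apply M B E]
      exact (hunit s' hs'n).map _
    exact hu.mul_left_cancel (e2.trans e3.symm)
  · -- `b' - b^Q ∈ 𝔪_B`: multiply by the unit `s' s^Q`
    have hu : IsUnit (algebraMap M B s' * algebraMap M B (s : M) ^ Q) :=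
      (hunit s' hs'n).mul ((hunit s hsn).pow Q)
    have key : (algebraMap M B s' * algebraMap M B (s : M) ^ Q) * (b' - b ^ Q) =
        algebraMap M B ((s : M) ^ Q * (a' - a ^ Q) - (s' - (s : M) ^ Q) * a ^ Q) := by
      have e2 : algebraMap M B (s : M) ^ Q * b ^ Q = algebraMap M B a ^ Q := by
        rw [← mul_pow, hsb]
      simp only [map_sub, map_mul, map_pow]
      linear_combination algebraMap M B (s : M) ^ Q * hs'b' - algebraMap M B s' * e2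
    have hmem : (algebraMap M B s' * algebraMap M B (s : M) ^ Q) * (b' - b ^ Q) ∈
        IsLocalRing.maximalIdeal B := by
      rw [key]
      exact hmapmem _ (𝔫.sub_mem (𝔫.mul_mem_left _ ha'Q) (𝔫.mul_mem_right _ hs'Q))
    rcases Ideal.IsPrime.mem_or_mem (IsLocalRing.maximalIdeal.isMaximal B).isPrime hmem with h | h
    · exact absurd hu ((IsLocalRing.mem_maximalIdeal _).mp h)
    · exact h

end Loc

end H5FR
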