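import Mathlib
import Fermat.Agent.S35.FWRat_helper5
import Fermat.Agent.S34.Tau_helper3
import Fermat.Agent.S34.DichDefs_helper26
import Fermat.Agent.S34.TransvConc_helper12

/-!
# Item 82b (S35), slice FW-RAT (helper5): concrete wiring

Level `M q`, `q ∤ M`, `K₁ ⊆ ℚ̄` normal over `ℚ`, `R = descVal A K₁`, `F₁ = FK K₁ (M q)`,
chart ring `M₀ = H4S34.Chart R t`, `σ₁ = H3TAU.tau1 K₁ (M q) σ` the coefficientwise action of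
`σ ∈ D_A`, `γ = σ₁²`.

* `h5fr_inG_map`, `h5fr_inGm_map` : elements of the decomposition group preserve the Gauss ring
  and its maximal ideal (coefficientwise action);
* `h5fr_isInt_tau1`               : `σ₁ M₀ ⊆ M₀`;
* `h5fr_gam`                      : `γ = σ₁²` as a ring endomorphism of `M₀`;
* `h5fr_rat`                      : **FW-RAT** from (b) "component 1 = level `M`" and
  (c) "Kronecker twice on level `M`": `γ m ≡ m^(q·q) mod 𝔫` for all `m ∈ M₀`;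
* `h5fr_rat_inLoc`, `h5fr_rat_congr` : the local forms (`H4S34.InLoc`).
-/

set_option autoImplicit false
set_option linter.unusedSectionVars false
set_option linter.unusedVariables false
set_option linter.style.haveILetI false
set_option linter.style.longLine false
set_option synthInstance.maxHeartbeats 400000

noncomputable section

namespace H5FR

open ModularCurve H7S18 H4S34 H26DI H8PB

local notation "Qb" => AlgebraicClosure ℚ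

section Gauss

variable (A : ValuationSubring Qb) (K₁ : IntermediateField ℚ Qb) [Normal ℚ K₁]

/-- `τ_R` commutes with the inclusion `R ⊆ K₁` on series. -/
theorem h5fr_eps_tauR {τ : Qb ≃ₐ[ℚ] Qb} (hτ : τ ∈ A.decompositionSubgroup ℚ)
    (Y : LaurentSeries ↥(descVal A K₁)) :
    coeffMap (descVal A K₁).subtype (coeffMap (H3TAU.tauR (K₁ := K₁) A hτ) Y) =
      coeffMap ((H3TAU.resK K₁ τ : K₁ ≃ₐ[ℚ] K₁) : K₁ →+* K₁)
        (coeffMap (descVal A K₁).subtype Y) := by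
  ext n
  rfl

/-- `τ_R⁻¹ ∘ τ_R = id`. -/
theorem h5fr_tauR_inv {τ : Qb ≃ₐ[ℚ] Qb} (hτ : τ ∈ A.decompositionSubgroup ℚ)
    (r : ↥(descVal A K₁)) :
    H3TAU.tauR (K₁ := K₁) A (inv_mem hτ) (H3TAU.tauR (K₁ := K₁) A hτ r) = r := by
  apply Subtype.ext
  apply (algebraMap K₁ Qb).injective
  rw [H3TAU.coe_tauR, H3TAU.resK_commutes, H3TAU.coe_tauR, H3TAU.resK_commutes]
  show τ⁻¹ (τ _) = _
  exact τ.symm_apply_apply _

/-- `τ_R` reflects units. -/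
theorem h5fr_tauR_isUnit {τ : Qb ≃ₐ[ℚ] Qb} (hτ : τ ∈ A.decompositionSubgroup ℚ)
    (r : ↥(descVal A K₁)) (h : IsUnit (H3TAU.tauR (K₁ := K₁) A hτ r)) : IsUnit r := by
  have := h.map (H3TAU.tauR (K₁ := K₁) A (inv_mem hτ))
  rwa [h5fr_tauR_inv] at this

/-- the decomposition group preserves the Gauss ring. -/
theorem h5fr_inG_map {τ : Qb ≃ₐ[ℚ] Qb} (hτ : τ ∈ A.decompositionSubgroup ℚ)
    {x : LaurentSeries K₁} (hx : InG (descVal A K₁) x) :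
    InG (descVal A K₁) (coeffMap ((H3TAU.resK K₁ τ : K₁ ≃ₐ[ℚ] K₁) : K₁ →+* K₁) x) := by
  obtain ⟨f, g, ⟨n, hn⟩, h⟩ := hx
  refine ⟨coeffMap (H3TAU.tauR (K₁ := K₁) A hτ) f, coeffMap (H3TAU.tauR (K₁ := K₁) A hτ) g,
    ⟨n, ?_⟩, ?_⟩
  · exact hn.map (H3TAU.tauR (K₁ := K₁) A hτ)
  · rw [h5fr_eps_tauR, h5fr_eps_tauR, ← map_mul, h]

/-- the decomposition group preserves the maximal ideal of the Gauss ring. -/
theorem h5fr_inGm_map {τ : Qb ≃ₐ[ℚ] Qb} (hτ : τ ∈ A.decompositionSubgroup ℚ)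
    {x : LaurentSeries K₁} (hx : InGm (descVal A K₁) x) :
    InGm (descVal A K₁) (coeffMap ((H3TAU.resK K₁ τ : K₁ ≃ₐ[ℚ] K₁) : K₁ →+* K₁) x) := by
  obtain ⟨f, g, ⟨n, hn⟩, hf, h⟩ := hx
  refine ⟨coeffMap (H3TAU.tauR (K₁ := K₁) A hτ) f, coeffMap (H3TAU.tauR (K₁ := K₁) A hτ) g,
    ⟨n, ?_⟩, ?_, ?_⟩
  · exact hn.map (H3TAU.tauR (K₁ := K₁) A hτ)
  · intro k hk
    exact hf k (h5fr_tauR_isUnit A K₁ hτ _ hk)
  · rw [h5fr_eps_tauR, h5fr_eps_tauR, ← map_mul, h]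

end Gauss

section Chart

variable (A : ValuationSubring Qb) (K₁ : IntermediateField ℚ Qb) [Normal ℚ K₁]
  (N : ℕ) [NeZero N]
  [Algebra ↥(descVal A K₁) (FK K₁ N)] [IsScalarTower ↥(descVal A K₁) K₁ (FK K₁ N)]

/-- `σ₁` maps constants of `R` to constants of `R`. -/
theorem h5fr_tau1_const {τ : Qb ≃ₐ[ℚ] Qb} (hτ : τ ∈ A.decompositionSubgroup ℚ)
    (r : ↥(descVal A K₁)) :
    H3TAU.tau1 K₁ N τ (algebraMap ↥(descVal A K₁) (FK K₁ N) r) =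
      algebraMap ↥(descVal A K₁) (FK K₁ N) (H3TAU.tauR (K₁ := K₁) A hτ r) := by
  rw [IsScalarTower.algebraMap_apply ↥(descVal A K₁) K₁ (FK K₁ N),
    IsScalarTower.algebraMap_apply ↥(descVal A K₁) K₁ (FK K₁ N), H3TAU.tau1_algebraMap]
  rfl

/-- `σ₁ M₀ ⊆ M₀`. -/
theorem h5fr_isInt_tau1 {τ : Qb ≃ₐ[ℚ] Qb} (hτ : τ ∈ A.decompositionSubgroup ℚ)
    (t₀ : LaurentSeries ℚ) (t : FK K₁ N) (ht : (t : LaurentSeries K₁) = coeffEmb K₁ t₀)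
    {x : FK K₁ N} (hx : IsInt ↥(descVal A K₁) t x) :
    IsInt ↥(descVal A K₁) t (H3TAU.tau1 K₁ N τ x) := by
  have hint_t : IsInt ↥(descVal A K₁) t t := by
    have : t = algebraMap ↥(Algebra.adjoin ↥(descVal A K₁) {t}) (FK K₁ N)
        ⟨t, Algebra.self_mem_adjoin_singleton _ t⟩ := rfl
    rw [IsInt, this]
    exact isIntegral_algebraMap
  have hint_R : ∀ r : ↥(descVal A K₁),
      IsInt ↥(descVal A K₁) t (algebraMap ↥(descVal A K₁) (FK K₁ N) r) := by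
    intro r
    have : algebraMap ↥(descVal A K₁) (FK K₁ N) r =
        algebraMap ↥(Algebra.adjoin ↥(descVal A K₁) {t}) (FK K₁ N)
          (algebraMap ↥(descVal A K₁) ↥(Algebra.adjoin ↥(descVal A K₁) {t}) r) := rfl
    rw [IsInt, this]
    exact isIntegral_algebraMap
  refine H12TC.isInt_map ↥(descVal A K₁) t (H3TAU.tau1 K₁ N τ : FK K₁ N →+* FK K₁ N) ?_ ?_ hx
  · intro r
    change IsInt ↥(descVal A K₁) t (H3TAU.tau1 K₁ N τ _)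
    rw [h5fr_tau1_const A K₁ N hτ]
    exact hint_R _
  · change IsInt ↥(descVal A K₁) t (H3TAU.tau1 K₁ N τ t)
    rw [H3TAU.h3tau_fix K₁ N τ t t₀ ht]
    exact hint_t

/-- **`γ = σ₁²`** as a ring endomorphism of the chart ring `M₀`. -/
def h5fr_gam {τ : Qb ≃ₐ[ℚ] Qb} (hτ : τ ∈ A.decompositionSubgroup ℚ)
    (t₀ : LaurentSeries ℚ) (t : FK K₁ N) (ht : (t : LaurentSeries K₁) = coeffEmb K₁ t₀) :
    Chart ↥(descVal A K₁) t →+* Chart ↥(descVal A K₁) t where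
  toFun m := ⟨H3TAU.tau1 K₁ N τ (H3TAU.tau1 K₁ N τ (m : FK K₁ N)),
    h5fr_isInt_tau1 A K₁ N hτ t₀ t ht (h5fr_isInt_tau1 A K₁ N hτ t₀ t ht m.2)⟩
  map_one' := Subtype.ext (by
    show H3TAU.tau1 K₁ N τ (H3TAU.tau1 K₁ N τ (1 : FK K₁ N)) = 1
    rw [map_one, map_one])
  map_mul' a b := Subtype.ext (by
    show H3TAU.tau1 K₁ N τ (H3TAU.tau1 K₁ N τ ((a : FK K₁ N) * (b : FK K₁ N))) = _
    rw [map_mul, map_mul]
    rfl)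
  map_zero' := Subtype.ext (by
    show H3TAU.tau1 K₁ N τ (H3TAU.tau1 K₁ N τ (0 : FK K₁ N)) = 0
    rw [map_zero, map_zero])
  map_add' a b := Subtype.ext (by
    show H3TAU.tau1 K₁ N τ (H3TAU.tau1 K₁ N τ ((a : FK K₁ N) + (b : FK K₁ N))) = _
    rw [map_add, map_add]
    rfl)

theorem h5fr_coe_gam {τ : Qb ≃ₐ[ℚ] Qb} (hτ : τ ∈ A.decompositionSubgroup ℚ)
    (t₀ : LaurentSeries ℚ) (t : FK K₁ N) (ht : (t : LaurentSeries K₁) = coeffEmb K₁ t₀)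
    (m : Chart ↥(descVal A K₁) t) :
    ((h5fr_gam A K₁ N hτ t₀ t ht m : Chart ↥(descVal A K₁) t) : FK K₁ N) =
      H3TAU.tau1 K₁ N τ (H3TAU.tau1 K₁ N τ (m : FK K₁ N)) := rfl

end Chart

section Main

variable (A : ValuationSubring Qb) (K₁ : IntermediateField ℚ Qb) [Normal ℚ K₁]
  (M q : ℕ) [NeZero M] [NeZero q]
  [Algebra ↥(descVal A K₁) (FK K₁ (M * q))] [IsScalarTower ↥(descVal A K₁) K₁ (FK K₁ (M * q))]

/-- `x` is of level `M` (inside level `M q`). -/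
def IsLvl (x : FK K₁ (M * q)) : Prop :=
  (x : LaurentSeries K₁) ∈ laurentBaseChange K₁ (modularFunctionFieldFull M)

/-- **FW-RAT** (conditional on (b), (c)).  `σ ∈ D_A`, `γ = σ₁²`, `𝔫 ⊇ P₁` a prime of the chart
ring.  If
* (b) every `m ∈ M₀` is congruent mod `P₁` to an element of level `M`
  ("component 1 is the reduction of level `M`"), and
* (c) `γ y ≡ y^(q·q) mod 𝔫` for the elements `y ∈ M₀` of level `M` (Kronecker twice),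

then `γ m ≡ m^(q·q) mod 𝔫` for **all** `m ∈ M₀`. -/
theorem h5fr_rat {σ : Qb ≃ₐ[ℚ] Qb} (hσ : σ ∈ A.decompositionSubgroup ℚ)
    (t₀ : LaurentSeries ℚ) (t : FK K₁ (M * q)) (ht : (t : LaurentSeries K₁) = coeffEmb K₁ t₀)
    (P₁ 𝔫 : Ideal (Chart ↥(descVal A K₁) t)) (hP₁ : IsComp1 A K₁ t P₁) (h1 : P₁ ≤ 𝔫)
    (hb : ∀ m : Chart ↥(descVal A K₁) t, ∃ y : Chart ↥(descVal A K₁) t,
      IsLvl K₁ M q (y : FK K₁ (M * q)) ∧ m - y ∈ P₁)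
    (hc : ∀ y : Chart ↥(descVal A K₁) t, IsLvl K₁ M q (y : FK K₁ (M * q)) →
      h5fr_gam A K₁ (M * q) hσ t₀ t ht y - y ^ (q * q) ∈ 𝔫)
    (m : Chart ↥(descVal A K₁) t) :
    h5fr_gam A K₁ (M * q) hσ t₀ t ht m - m ^ (q * q) ∈ 𝔫 := by
  refine h5fr_core (M := ↥(Chart ↥(descVal A K₁) t)) 𝔫 P₁ h1
    (h5fr_gam A K₁ (M * q) hσ t₀ t ht) (q * q)
    {y : ↥(Chart ↥(descVal A K₁) t) | IsLvl K₁ M q (y : FK K₁ (M * q))} ?_ ?_ ?_ m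
  · intro p hp
    apply h1
    rw [hP₁] at hp ⊢
    rw [h5fr_coe_gam, H3TAU.coe_tau1, H3TAU.coe_tau1]
    exact h5fr_inGm_map A K₁ hσ (h5fr_inGm_map A K₁ hσ hp)
  · intro m
    obtain ⟨y, hy, hmy⟩ := hb m
    exact ⟨y, hy, hmy⟩
  · intro y hy
    exact hc y hy

/-- **FW-RAT, existential form**: for every `m ∈ M₀` there is `m' ∈ M₀` with `m' = γ m` and
`m' - m^(q·q) ∈ 𝔫` (the hypothesis `hγ` of `h5fr_inLoc`, `h5fr_loc_congr`, `h5fr_hγB`). -/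
theorem h5fr_rat_exists {σ : Qb ≃ₐ[ℚ] Qb} (hσ : σ ∈ A.decompositionSubgroup ℚ)
    (t₀ : LaurentSeries ℚ) (t : FK K₁ (M * q)) (ht : (t : LaurentSeries K₁) = coeffEmb K₁ t₀)
    (P₁ 𝔫 : Ideal (Chart ↥(descVal A K₁) t)) (hP₁ : IsComp1 A K₁ t P₁) (h1 : P₁ ≤ 𝔫)
    (hb : ∀ m : Chart ↥(descVal A K₁) t, ∃ y : Chart ↥(descVal A K₁) t,
      IsLvl K₁ M q (y : FK K₁ (M * q)) ∧ m - y ∈ P₁)
    (hc : ∀ y : Chart ↥(descVal A K₁) t, IsLvl K₁ M q (y : FK K₁ (M * q)) →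
      h5fr_gam A K₁ (M * q) hσ t₀ t ht y - y ^ (q * q) ∈ 𝔫)
    (m : Chart ↥(descVal A K₁) t) :
    ∃ m' : Chart ↥(descVal A K₁) t,
      (m' : FK K₁ (M * q)) =
        ((H3TAU.tau1 K₁ (M * q) σ : FK K₁ (M * q) →+* FK K₁ (M * q)).comp
          (H3TAU.tau1 K₁ (M * q) σ : FK K₁ (M * q) →+* FK K₁ (M * q))) (m : FK K₁ (M * q)) ∧
      m' - m ^ (q * q) ∈ 𝔫 :=
  ⟨h5fr_gam A K₁ (M * q) hσ t₀ t ht m, rfl, h5fr_rat A K₁ M q hσ t₀ t ht P₁ 𝔫 hP₁ h1 hb hc m⟩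

/-- **FW-RAT, local form 1**: `γ B_𝔫 ⊆ B_𝔫`. -/
theorem h5fr_rat_inLoc {σ : Qb ≃ₐ[ℚ] Qb} (hσ : σ ∈ A.decompositionSubgroup ℚ)
    (t₀ : LaurentSeries ℚ) (t : FK K₁ (M * q)) (ht : (t : LaurentSeries K₁) = coeffEmb K₁ t₀)
    (P₁ 𝔫 : Ideal (Chart ↥(descVal A K₁) t)) [𝔫.IsPrime] (hP₁ : IsComp1 A K₁ t P₁) (h1 : P₁ ≤ 𝔫)
    (hb : ∀ m : Chart ↥(descVal A K₁) t, ∃ y : Chart ↥(descVal A K₁) t,
      IsLvl K₁ M q (y : FK K₁ (M * q)) ∧ m - y ∈ P₁)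
    (hc : ∀ y : Chart ↥(descVal A K₁) t, IsLvl K₁ M q (y : FK K₁ (M * q)) →
      h5fr_gam A K₁ (M * q) hσ t₀ t ht y - y ^ (q * q) ∈ 𝔫)
    (x : FK K₁ (M * q)) (hx : InLoc ↥(descVal A K₁) t 𝔫 x) :
    InLoc ↥(descVal A K₁) t 𝔫 (H3TAU.tau1 K₁ (M * q) σ (H3TAU.tau1 K₁ (M * q) σ x)) :=
  h5fr_inLoc ↥(descVal A K₁) t 𝔫
    ((H3TAU.tau1 K₁ (M * q) σ : FK K₁ (M * q) →+* FK K₁ (M * q)).comp
      (H3TAU.tau1 K₁ (M * q) σ : FK K₁ (M * q) →+* FK K₁ (M * q))) (q * q)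
    (h5fr_rat_exists A K₁ M q hσ t₀ t ht P₁ 𝔫 hP₁ h1 hb hc) x hx

/-- **FW-RAT, local form 2**: `γ x - x^(q·q) ∈ 𝔫 B_𝔫` for `x ∈ B_𝔫`. -/
theorem h5fr_rat_congr {σ : Qb ≃ₐ[ℚ] Qb} (hσ : σ ∈ A.decompositionSubgroup ℚ)
    (t₀ : LaurentSeries ℚ) (t : FK K₁ (M * q)) (ht : (t : LaurentSeries K₁) = coeffEmb K₁ t₀)
    (P₁ 𝔫 : Ideal (Chart ↥(descVal A K₁) t)) [𝔫.IsPrime] (hP₁ : IsComp1 A K₁ t P₁) (h1 : P₁ ≤ 𝔫)
    (hb : ∀ m : Chart ↥(descVal A K₁) t, ∃ y : Chart ↥(descVal A K₁) t,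
      IsLvl K₁ M q (y : FK K₁ (M * q)) ∧ m - y ∈ P₁)
    (hc : ∀ y : Chart ↥(descVal A K₁) t, IsLvl K₁ M q (y : FK K₁ (M * q)) →
      h5fr_gam A K₁ (M * q) hσ t₀ t ht y - y ^ (q * q) ∈ 𝔫)
    (x : FK K₁ (M * q)) (hx : InLoc ↥(descVal A K₁) t 𝔫 x) :
    ∃ a s : Chart ↥(descVal A K₁) t, s ∉ 𝔫 ∧ a ∈ 𝔫 ∧
      (s : FK K₁ (M * q)) *
        (H3TAU.tau1 K₁ (M * q) σ (H3TAU.tau1 K₁ (M * q) σ x) - x ^ (q * q)) = (a : FK K₁ (M * q)) :=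
  h5fr_loc_congr ↥(descVal A K₁) t 𝔫
    ((H3TAU.tau1 K₁ (M * q) σ : FK K₁ (M * q) →+* FK K₁ (M * q)).comp
      (H3TAU.tau1 K₁ (M * q) σ : FK K₁ (M * q) →+* FK K₁ (M * q))) (q * q)
    (h5fr_rat_exists A K₁ M q hσ t₀ t ht P₁ 𝔫 hP₁ h1 hb hc) x hx

end Main

end H5FR

end
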