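import Mathlib
import Fermat.Agent.S34.TransvAsm_helper12
import Fermat.Agent.S34.Tau_helper3
import Fermat.Agent.S34.DichAsm_helper22
import Fermat.Agent.S35.FWRat_helper5
import Fermat.Agent.S35.FWRatConc_helper5
import Fermat.Agent.S35.FWGenDefs_helper1
import Fermat.Agent.S35.FWDefsK_helper17

/-!
# Item 84 (S35), block FW, slice FW-RAT: input (c) "Kronecker twice" and the wiring (helper16)

Level `M q`, `q` prime, `q ∤ M`; `K₁ ⊆ ℚ̄` normal over `ℚ`, `R = descVal A K₁`, `A` over `q`;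
`W = H12AL.wqKHom K₁ M q` (Atkin–Lehner), `σ ∈ G_ℚ` a Frobenius element at `A`,
`σ₁ = H3TAU.tau1 K₁ (M q) σ` its coefficientwise action on `F₁ = FK K₁ (M q)`, `γ = σ₁²`.

* `H16FR.h16fr_kron1` (generic): if `s` is an endomorphism of `R` with `s a ≡ a^ℓ` modulo the
  maximal ideal, then for every series `x` in the Gauss ring: `(s x)(𝐪^ℓ) - x^ℓ ∈ 𝔪_{w₁}`;
* `H16FR.h16fr_inG_map`, `h16fr_inGm_map`: such an `s` preserves the Gauss ring and its maximal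
  ideal;
* `H16FR.h16fr_c1`, `h16fr_c2` : for `y` of level `M` in the Gauss ring, `z = W (σ₁ y)`:
  `z - y^q ∈ 𝔪_{w₁}` and `W (σ₁² y - z^q) ∈ 𝔪_{w₁}` (i.e. `σ₁² y - z^q ∈ 𝔪_{w₂}`);
* `H16FR.h16fr_level` : at a common point `𝔫 ⊇ P₁ + P₂` of the chart `t` with `W t ∈ B_𝔫`:
  `γ y - y^(q·q) ∈ 𝔫` for `y` in the chart ring of level `M`;
* `H16FR.h16fr_fixAt`, `h16fr_frobAt` : with the residue comparison (b) of helper12
  (`H12TC.ResCompStatement`): `γ m - m^(q·q) ∈ 𝔫` for all `m` of the chart ring, and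
  `H1FW.FrobAt R t 𝔫 γ (q·q)`.
-/

set_option autoImplicit false
set_option linter.style.longLine false
set_option linter.unusedSectionVars false
set_option linter.unusedVariables false
set_option linter.style.haveILetI false
set_option synthInstance.maxHeartbeats 400000
set_option maxHeartbeats 1000000

noncomputable section

open ModularCurve H7S18 H4S34 H26DI

namespace H16FR

/-! ### the generic forward Frobenius congruence -/

section Generic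

variable {K : Type} [Field K] (R : ValuationSubring K)

/-- a ring endomorphism of `R` preserves the Gauss ring -/
theorem h16fr_inG_map (sK : K →+* K) (sR : R →+* R)
    (hs : ∀ a : R, ((sR a : R) : K) = sK (a : K))
    (x : LaurentSeries K) (hx : H8PB.InG R x) : H8PB.InG R (coeffMap sK x) := by
  obtain ⟨F, G, ⟨n, hn⟩, h⟩ := hx
  have hcomm : ∀ Z : LaurentSeries R,
      coeffMap R.subtype (coeffMap sR Z) = coeffMap sK (coeffMap R.subtype Z) := by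
    intro Z
    rw [coeffMap_coeffMap, coeffMap_coeffMap]
    exact coeffMap_congr (RingHom.ext fun a => hs a) Z
  refine ⟨coeffMap sR F, coeffMap sR G, ⟨n, ?_⟩, ?_⟩
  · rw [coeffMap_coeff]
    exact hn.map sR
  · rw [hcomm, hcomm, ← map_mul, h]

/-- a ring endomorphism of `R` which maps non-units to non-units preserves the maximal ideal of
the Gauss ring -/
theorem h16fr_inGm_map (sK : K →+* K) (sR : R →+* R)
    (hs : ∀ a : R, ((sR a : R) : K) = sK (a : K))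
    (hnu : ∀ a : R, ¬ IsUnit a → ¬ IsUnit (sR a))
    (x : LaurentSeries K) (hx : H8PB.InGm R x) : H8PB.InGm R (coeffMap sK x) := by
  obtain ⟨F, G, ⟨n, hn⟩, hF, h⟩ := hx
  have hcomm : ∀ Z : LaurentSeries R,
      coeffMap R.subtype (coeffMap sR Z) = coeffMap sK (coeffMap R.subtype Z) := by
    intro Z
    rw [coeffMap_coeffMap, coeffMap_coeffMap]
    exact coeffMap_congr (RingHom.ext fun a => hs a) Z
  refine ⟨coeffMap sR F, coeffMap sR G, ⟨n, ?_⟩, ?_, ?_⟩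
  · rw [coeffMap_coeff]
    exact hn.map sR
  · intro m
    rw [coeffMap_coeff]
    exact hnu _ (hF m)
  · rw [hcomm, hcomm, ← map_mul, h]

variable (ℓ : ℕ) [Fact ℓ.Prime] [CharP (IsLocalRing.ResidueField R) ℓ]

/-- a Frobenius-like endomorphism maps non-units to non-units -/
theorem h16fr_not_isUnit (sR : R →+* R)
    (hfrob : ∀ a : R, IsLocalRing.residue R (sR a) = IsLocalRing.residue R a ^ ℓ)
    (a : R) (ha : ¬ IsUnit a) : ¬ IsUnit (sR a) := by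
  rw [← IsLocalRing.residue_ne_zero_iff_isUnit, not_not] at ha ⊢
  rw [hfrob, ha, zero_pow (Fact.out : ℓ.Prime).ne_zero]

/-- **Frobenius congruence, forward form (generic)**: `sK : K →+* K` restricts to
`sR : R →+* R`, and `sR a ≡ a^ℓ` modulo the maximal ideal.  Then `(sK x)(𝐪^ℓ) ≡ x^ℓ` modulo the
maximal ideal of the Gauss ring, for every `x` in the Gauss ring. -/
theorem h16fr_kron1 (sK : K →+* K) (sR : R →+* R)
    (hs : ∀ a : R, ((sR a : R) : K) = sK (a : K))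
    (hfrob : ∀ a : R, IsLocalRing.residue R (sR a) = IsLocalRing.residue R a ^ ℓ)
    (x : LaurentSeries K) (hx : H8PB.InG R x) :
    haveI : NeZero ℓ := ⟨(Fact.out : ℓ.Prime).ne_zero⟩
    H8PB.InGm R (qExpand K ℓ (coeffMap sK x) - x ^ ℓ) := by
  haveI : NeZero ℓ := ⟨(Fact.out : ℓ.Prime).ne_zero⟩
  obtain ⟨F, G, hG, h⟩ := hx
  set π := IsLocalRing.residue R with hπ
  set k := IsLocalRing.ResidueField R
  set ε : LaurentSeries R →+* LaurentSeries K := coeffMap R.subtype with hε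
  set ρ : LaurentSeries R →+* LaurentSeries k := coeffMap π with hρ
  set F' := coeffMap sR F with hF'
  set G' := coeffMap sR G with hG'
  -- `ε ∘ sR = sK ∘ ε`
  have hcomm : ∀ Z : LaurentSeries R, ε (coeffMap sR Z) = coeffMap sK (ε Z) := by
    intro Z
    rw [hε, coeffMap_coeffMap, coeffMap_coeffMap]
    exact coeffMap_congr (RingHom.ext fun a => hs a) Z
  -- `ρ ∘ sR = Frob ∘ ρ`
  have hfr : ∀ Z : LaurentSeries R, ρ (coeffMap sR Z) = coeffMap (frobenius k ℓ) (ρ Z) := by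
    intro Z
    rw [hρ, coeffMap_coeffMap, coeffMap_coeffMap]
    refine coeffMap_congr (RingHom.ext fun a => ?_) Z
    simp only [RingHom.coe_comp, Function.comp_apply, frobenius_def]
    exact hfrob a
  have hpow : ∀ Z : LaurentSeries R, qExpand k ℓ (ρ (coeffMap sR Z)) = ρ Z ^ ℓ := by
    intro Z
    rw [H23R3.h23r3_frobenius ℓ (ρ Z), hfr]
  have h1 : coeffMap sK x * ε G' = ε F' := by
    rw [hG', hF', hcomm, hcomm, ← map_mul, h]
  have h2 : qExpand K ℓ (coeffMap sK x) * ε (qExpand R ℓ G') = ε (qExpand R ℓ F') := by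
    rw [hε, coeffMap_qExpand, coeffMap_qExpand, ← map_mul]
    exact congrArg _ h1
  have hρG : ρ G ≠ 0 := H12TC.coeffMap_residue_ne_zero R G hG
  refine ⟨qExpand R ℓ F' * G ^ ℓ - F ^ ℓ * qExpand R ℓ G', qExpand R ℓ G' * G ^ ℓ, ?_, ?_, ?_⟩
  · apply H12TC.exists_isUnit_coeff_of_ne_zero
    change ρ (qExpand R ℓ G' * G ^ ℓ) ≠ 0
    rw [map_mul, map_pow, hρ, coeffMap_qExpand, ← hρ, hG', hpow]
    exact mul_ne_zero (pow_ne_zero _ hρG) (pow_ne_zero _ hρG)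
  · apply H12TC.not_isUnit_coeff_of_eq_zero
    change ρ (qExpand R ℓ F' * G ^ ℓ - F ^ ℓ * qExpand R ℓ G') = 0
    rw [map_sub, map_mul, map_mul, map_pow, map_pow, hρ, coeffMap_qExpand, coeffMap_qExpand,
      ← hρ, hG', hF', hpow, hpow]
    ring
  · change (qExpand K ℓ (coeffMap sK x) - x ^ ℓ) * ε (qExpand R ℓ G' * G ^ ℓ) =
      ε (qExpand R ℓ F' * G ^ ℓ - F ^ ℓ * qExpand R ℓ G')
    rw [map_sub, map_mul, map_mul, map_mul, map_pow, map_pow, ← h2, ← h]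
    ring

end Generic

/-! ### the Frobenius element acting through the coefficients of `K₁` -/

section Concrete

local notation "Kbar" => AlgebraicClosure ℚ

variable (A : ValuationSubring Kbar) (K₁ : IntermediateField ℚ Kbar) [Normal ℚ K₁]

/-- the coefficientwise action of `σ` on `K₁`, as a ring homomorphism -/
def sigK (σ : Kbar ≃ₐ[ℚ] Kbar) : K₁ →+* K₁ :=
  ((H3TAU.resK K₁ σ : K₁ ≃ₐ[ℚ] K₁) : K₁ →+* K₁)

theorem h16fr_coe_tau1 (N : ℕ) [NeZero N] (σ : Kbar ≃ₐ[ℚ] Kbar) (x : FK K₁ N) :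
    ((H3TAU.tau1 K₁ N σ x : FK K₁ N) : LaurentSeries K₁) =
      coeffMap (sigK K₁ σ) (x : LaurentSeries K₁) := rfl

theorem h16fr_resR_coe (σ : Kbar ≃ₐ[ℚ] Kbar) (hσ : σ ∈ A.decompositionSubgroup ℚ)
    (a : ↥(descVal A K₁)) :
    ((H12TC.resR A K₁ σ hσ a : ↥(descVal A K₁)) : K₁) = sigK K₁ σ (a : K₁) := rfl

/-- `σ₁` preserves the level -/
theorem h16fr_sig_level (M : ℕ) [NeZero M] (σ : Kbar ≃ₐ[ℚ] Kbar) (x : LaurentSeries K₁)
    (hx : x ∈ laurentBaseChange K₁ (modularFunctionFieldFull M)) :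
    coeffMap (sigK K₁ σ) x ∈ laurentBaseChange K₁ (modularFunctionFieldFull M) :=
  (H3TAU.tau1 K₁ M σ ⟨x, hx⟩).2

/-- `σ₁` preserves the Gauss ring, for `σ` in the decomposition group -/
theorem h16fr_sig_inG (σ : Kbar ≃ₐ[ℚ] Kbar) (hσ : σ ∈ A.decompositionSubgroup ℚ)
    (x : LaurentSeries K₁) (hx : H8PB.InG (descVal A K₁) x) :
    H8PB.InG (descVal A K₁) (coeffMap (sigK K₁ σ) x) :=
  h16fr_inG_map (descVal A K₁) (sigK K₁ σ) (H12TC.resR A K₁ σ hσ)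
    (fun a => h16fr_resR_coe A K₁ σ hσ a) x hx

/-- `σ₁` preserves the maximal ideal of the Gauss ring, for `σ` a Frobenius element -/
theorem h16fr_sig_inGm (q : ℕ) (hq : q.Prime) (hA : A.LiesOverPrime q)
    (σ : Kbar ≃ₐ[ℚ] Kbar) (hσ : A.IsFrobeniusAt σ q)
    (x : LaurentSeries K₁) (hx : H8PB.InGm (descVal A K₁) x) :
    H8PB.InGm (descVal A K₁) (coeffMap (sigK K₁ σ) x) := by
  haveI : Fact q.Prime := ⟨hq⟩
  haveI := H12TC.charP_residue A K₁ q hq hA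
  exact h16fr_inGm_map (descVal A K₁) (sigK K₁ σ)
    (H12TC.resR A K₁ σ hσ.mem_decompositionSubgroup)
    (fun a => h16fr_resR_coe A K₁ σ hσ.mem_decompositionSubgroup a)
    (h16fr_not_isUnit (descVal A K₁) q _ (H12TC.residue_resR_frob A K₁ q σ hσ)) x hx

/-- **Kronecker, series form**: `(σ x)(𝐪^q) ≡ x^q` modulo the maximal ideal of the Gauss ring -/
theorem h16fr_kron_gal (q : ℕ) [NeZero q] (hq : q.Prime) (hA : A.LiesOverPrime q)
    (σ : Kbar ≃ₐ[ℚ] Kbar) (hσ : A.IsFrobeniusAt σ q)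
    (x : LaurentSeries K₁) (hx : H8PB.InG (descVal A K₁) x) :
    H8PB.InGm (descVal A K₁) (qExpand K₁ q (coeffMap (sigK K₁ σ) x) - x ^ q) := by
  haveI : Fact q.Prime := ⟨hq⟩
  haveI := H12TC.charP_residue A K₁ q hq hA
  exact h16fr_kron1 (descVal A K₁) q (sigK K₁ σ)
    (H12TC.resR A K₁ σ hσ.mem_decompositionSubgroup)
    (fun a => h16fr_resR_coe A K₁ σ hσ.mem_decompositionSubgroup a)
    (H12TC.residue_resR_frob A K₁ q σ hσ) x hx

variable (M q : ℕ) [NeZero M] [NeZero q]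

/-- **(c1)**: `z - y^q ∈ 𝔪_{w₁}` for `y` of level `M` in the Gauss ring, `z = W (σ₁ y)`. -/
theorem h16fr_c1 (hq : q.Prime) (hqM : ¬ q ∣ M) (hA : A.LiesOverPrime q)
    (σ : Kbar ≃ₐ[ℚ] Kbar) (hσ : A.IsFrobeniusAt σ q)
    (y : FK K₁ (M * q))
    (hyM : (y : LaurentSeries K₁) ∈ laurentBaseChange K₁ (modularFunctionFieldFull M))
    (hy : H8PB.InG (descVal A K₁) (y : LaurentSeries K₁)) :
    H8PB.InGm (descVal A K₁)
      (((H12AL.wqKHom K₁ M q hq hqM (H3TAU.tau1 K₁ (M * q) σ y) - y ^ q : FK K₁ (M * q))) :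
        LaurentSeries K₁) := by
  have hlev : ((H3TAU.tau1 K₁ (M * q) σ y : FK K₁ (M * q)) : LaurentSeries K₁) ∈
      laurentBaseChange K₁ (modularFunctionFieldFull M) := by
    rw [h16fr_coe_tau1]
    exact h16fr_sig_level K₁ M σ _ hyM
  have e : (((H12AL.wqKHom K₁ M q hq hqM (H3TAU.tau1 K₁ (M * q) σ y) - y ^ q :
      FK K₁ (M * q))) : LaurentSeries K₁) =
      qExpand K₁ q (coeffMap (sigK K₁ σ) (y : LaurentSeries K₁)) -
        (y : LaurentSeries K₁) ^ q := by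
    have h := H12AL.coe_wqKHom_of_level K₁ M q hq hqM _ hlev
    rw [h16fr_coe_tau1] at h
    rw [← h]
    rfl
  rw [e]
  exact h16fr_kron_gal A K₁ q hq hA σ hσ _ hy

/-- **(c2)**: `σ₁² y - z^q ∈ 𝔪_{w₂}` for `y` of level `M` in the Gauss ring, `z = W (σ₁ y)`. -/
theorem h16fr_c2 (hq : q.Prime) (hqM : ¬ q ∣ M) (hA : A.LiesOverPrime q)
    (σ : Kbar ≃ₐ[ℚ] Kbar) (hσ : A.IsFrobeniusAt σ q)
    (y : FK K₁ (M * q))
    (hyM : (y : LaurentSeries K₁) ∈ laurentBaseChange K₁ (modularFunctionFieldFull M))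
    (hy : H8PB.InG (descVal A K₁) (y : LaurentSeries K₁)) :
    H8PB.InGm (descVal A K₁)
      ((H12AL.wqKHom K₁ M q hq hqM
        (H3TAU.tau1 K₁ (M * q) σ (H3TAU.tau1 K₁ (M * q) σ y) -
          (H12AL.wqKHom K₁ M q hq hqM (H3TAU.tau1 K₁ (M * q) σ y)) ^ q) : FK K₁ (M * q)) :
        LaurentSeries K₁) := by
  set y₁ := H3TAU.tau1 K₁ (M * q) σ y with hy₁
  have hlev₁ : ((y₁ : FK K₁ (M * q)) : LaurentSeries K₁) ∈
      laurentBaseChange K₁ (modularFunctionFieldFull M) := by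
    rw [hy₁, h16fr_coe_tau1]
    exact h16fr_sig_level K₁ M σ _ hyM
  have hlev₂ : ((H3TAU.tau1 K₁ (M * q) σ y₁ : FK K₁ (M * q)) : LaurentSeries K₁) ∈
      laurentBaseChange K₁ (modularFunctionFieldFull M) := by
    rw [h16fr_coe_tau1]
    exact h16fr_sig_level K₁ M σ _ hlev₁
  have hG₁ : H8PB.InG (descVal A K₁) ((y₁ : FK K₁ (M * q)) : LaurentSeries K₁) := by
    rw [hy₁, h16fr_coe_tau1]
    exact h16fr_sig_inG A K₁ σ hσ.mem_decompositionSubgroup _ hy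
  have e : ((H12AL.wqKHom K₁ M q hq hqM
        (H3TAU.tau1 K₁ (M * q) σ y₁ - (H12AL.wqKHom K₁ M q hq hqM y₁) ^ q) :
          FK K₁ (M * q)) : LaurentSeries K₁) =
      qExpand K₁ q (coeffMap (sigK K₁ σ) (y₁ : LaurentSeries K₁)) -
        (y₁ : LaurentSeries K₁) ^ q := by
    rw [map_sub, map_pow, H12AL.wqKHom_invol]
    have h := H12AL.coe_wqKHom_of_level K₁ M q hq hqM _ hlev₂
    rw [h16fr_coe_tau1] at h
    rw [← h]
    rfl
  rw [e]
  exact h16fr_kron_gal A K₁ q hq hA σ hσ _ hG₁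

end Concrete

/-! ### the chart form -/

section ChartForm

local notation "Kbar" => AlgebraicClosure ℚ

variable (A : ValuationSubring Kbar) (K₁ : IntermediateField ℚ Kbar) [Normal ℚ K₁]
  (M q : ℕ) [NeZero M] [NeZero q]
  [Algebra ↥(descVal A K₁) (FK K₁ (M * q))] [IsScalarTower ↥(descVal A K₁) K₁ (FK K₁ (M * q))]

/-- **(c), chart form: Kronecker twice on level `M`.**  `𝔫 ⊇ P₁ + P₂` a prime of the chart ring
with `W t ∈ B_𝔫`; then `γ y ≡ y^(q·q) mod 𝔫` for the elements `y` of the chart ring which are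
of level `M`.  (This is the hypothesis `hc` of `H5FR.h5fr_rat`.) -/
theorem h16fr_level (hq : q.Prime) (hqM : ¬ q ∣ M) (hA : A.LiesOverPrime q)
    (t₀ : LaurentSeries ℚ) (t : FK K₁ (M * q)) (ht : (t : LaurentSeries K₁) = coeffEmb K₁ t₀)
    (P₁ P₂ 𝔫 : Ideal (Chart ↥(descVal A K₁) t)) [𝔫.IsPrime] (h1 : P₁ ≤ 𝔫) (h2 : P₂ ≤ 𝔫)
    (hc1 : IsComp1 A K₁ t P₁) (hc2 : IsComp2 hq hqM A K₁ t P₂)
    (hPGx : ∀ x : Chart ↥(descVal A K₁) t,
      H8PB.InG (descVal A K₁) (((x : FK K₁ (M * q))) : LaurentSeries K₁) ∧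
        H8PB.InG (descVal A K₁)
          ((H12AL.wqKHom K₁ M q hq hqM (x : FK K₁ (M * q)) : FK K₁ (M * q)) :
            LaurentSeries K₁))
    (hwt : InLoc ↥(descVal A K₁) t 𝔫 (H12AL.wqKHom K₁ M q hq hqM t))
    (σ : Kbar ≃ₐ[ℚ] Kbar) (hσ : A.IsFrobeniusAt σ q)
    (y : Chart ↥(descVal A K₁) t) (hyM : H5FR.IsLvl K₁ M q (y : FK K₁ (M * q))) :
    H5FR.h5fr_gam A K₁ (M * q) hσ.mem_decompositionSubgroup t₀ t ht y - y ^ (q * q) ∈ 𝔫 := by
  have hσd := hσ.mem_decompositionSubgroup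
  set W := H12AL.wqKHom K₁ M q hq hqM with hW
  set σ₁ := H3TAU.tau1 K₁ (M * q) σ with hσ₁
  -- `z = W (σ₁ y) ∈ B_𝔫`
  have hint₁ : IsInt ↥(descVal A K₁) t (σ₁ (y : FK K₁ (M * q))) :=
    H5FR.h5fr_isInt_tau1 A K₁ (M * q) hσd t₀ t ht y.2
  have hconst : ∀ r : ↥(descVal A K₁), InLoc ↥(descVal A K₁) t 𝔫
      (W (algebraMap ↥(descVal A K₁) (FK K₁ (M * q)) r)) := by
    intro r
    rw [IsScalarTower.algebraMap_apply ↥(descVal A K₁) K₁ (FK K₁ (M * q)), hW,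
      H12AL.wqKHom_const, ← IsScalarTower.algebraMap_apply ↥(descVal A K₁) K₁ (FK K₁ (M * q))]
    obtain ⟨c, hc⟩ := H26DI.exists_chart_coe ↥(descVal A K₁) t r
    refine ⟨c, 1, fun h => (Ideal.ne_top_iff_one 𝔫).mp (Ideal.IsPrime.ne_top ‹_›) h, ?_⟩
    rw [hc]
    simp
  obtain ⟨a, s, hs, hsz⟩ := H12TC.inLoc_map ↥(descVal A K₁) t 𝔫 W hconst hwt hint₁
  have hyG := (hPGx y).1
  have hsG := hPGx s
  refine H5FR.h5fr_kron 𝔫 P₁ P₂ h1 h2 q y
    (H5FR.h5fr_gam A K₁ (M * q) hσd t₀ t ht y) s a hs ?_ ?_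
  · rw [hc1]
    have e : (((a - s * y ^ q : Chart ↥(descVal A K₁) t) : FK K₁ (M * q))) =
        (s : FK K₁ (M * q)) * (W (σ₁ (y : FK K₁ (M * q))) - (y : FK K₁ (M * q)) ^ q) := by
      rw [mul_sub, hsz]
      rfl
    rw [e]
    exact H12TC.inGm_mul (descVal A K₁) hsG.1 (h16fr_c1 A K₁ M q hq hqM hA σ hσ _ hyM hyG)
  · rw [hc2]
    have e : W (((s ^ q * H5FR.h5fr_gam A K₁ (M * q) hσd t₀ t ht y - a ^ q :
        Chart ↥(descVal A K₁) t) : FK K₁ (M * q))) =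
        (W (s : FK K₁ (M * q))) ^ q *
          W (σ₁ (σ₁ (y : FK K₁ (M * q))) - (W (σ₁ (y : FK K₁ (M * q)))) ^ q) := by
      rw [← map_pow, ← map_mul, mul_sub, ← mul_pow, hsz]
      rfl
    rw [e]
    exact H12TC.inGm_mul (descVal A K₁) (H12TC.inG_pow (descVal A K₁) hsG.2 q)
      (h16fr_c2 A K₁ M q hq hqM hA σ hσ _ hyM hyG)

end ChartForm

/-! ### a node lies on both components -/

section Node

variable {R : Type} [CommRing R] {E : Type} [Field E] [Algebra R E]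

/-- every prime of the chart ring containing `ϖ` contains one of the two components -/
theorem h16fr_comp_le {ϖ : R} {t : E} {P₁ P₂ : Ideal (Chart R t)}
    (h : H26DI.TwoComp R ϖ t P₁ P₂) (Q : Ideal (Chart R t)) [Q.IsPrime]
    (hQ : ∀ y : Chart R t, (y : E) = algebraMap R E ϖ → y ∈ Q) : P₁ ≤ Q ∨ P₂ ≤ Q := by
  by_contra hcon
  rw [not_or] at hcon
  obtain ⟨a, ha1, ha2⟩ := SetLike.not_le_iff_exists.mp hcon.1
  obtain ⟨b, hb1, hb2⟩ := SetLike.not_le_iff_exists.mp hcon.2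
  obtain ⟨c, hc⟩ := h.cap (a * b) (P₁.mul_mem_right _ ha1) (P₂.mul_mem_left _ hb1)
  obtain ⟨y, hy⟩ := H26DI.exists_chart_coe R t ϖ
  have hab : a * b = y * c := by
    apply Subtype.ext
    rw [hc, ← hy]
    rfl
  have : a * b ∈ Q := by
    rw [hab]
    exact Q.mul_mem_right _ (hQ y hy)
  rcases Ideal.IsPrime.mem_or_mem ‹Q.IsPrime› this with h1 | h1
  · exact ha2 h1
  · exact hb2 h1

/-- at a node (in the sense of `H4S34.NodeAt`) the second component passes through `𝔫` -/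
theorem h16fr_node_le_right {ϖ : R} {t : E} {P₁ P₂ : Ideal (Chart R t)}
    (h : H26DI.TwoComp R ϖ t P₁ P₂) (𝔫 : Ideal (Chart R t))
    (hnode : NodeAt R ϖ t 𝔫) : P₂ ≤ 𝔫 := by
  obtain ⟨Q₁, Q₂, hQ₁, hQ₂, hQ₁𝔫, hQ₂𝔫, hπ, -, -, -, -, a, a', s, s', j, hj, -, -, ha, ha', haa'⟩ :=
    hnode
  haveI := hQ₁
  haveI := hQ₂
  haveI := h.prime1
  by_contra hcon
  have hle₁ : P₁ ≤ Q₁ := by
    rcases h16fr_comp_le h Q₁ (fun y hy => (hπ y hy).1) with h' | h'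
    · exact h'
    · exact absurd (h'.trans hQ₁𝔫) hcon
  have hle₂ : P₁ ≤ Q₂ := by
    rcases h16fr_comp_le h Q₂ (fun y hy => (hπ y hy).2) with h' | h'
    · exact h'
    · exact absurd (h'.trans hQ₂𝔫) hcon
  obtain ⟨y, hy⟩ := H26DI.exists_chart_coe R t ϖ
  have hyP : y ∈ P₁ := (h.pi_mem y hy).1
  have hprod : a * a' = y ^ j * (s * s') := by
    apply Subtype.ext
    show (a : E) * (a' : E) = (y : E) ^ j * ((s : E) * (s' : E))
    rw [haa', hy]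
  have hmem : a * a' ∈ P₁ := by
    rw [hprod]
    exact P₁.mul_mem_right _ (P₁.pow_mem_of_mem hyP j (by omega))
  rcases Ideal.IsPrime.mem_or_mem ‹P₁.IsPrime› hmem with h' | h'
  · exact ha (hle₁ h')
  · exact ha' (hle₂ h')

/-- at a node (in the sense of `H4S34.NodeAt`) both components pass through `𝔫` -/
theorem h16fr_node_le {ϖ : R} {t : E} {P₁ P₂ : Ideal (Chart R t)}
    (h : H26DI.TwoComp R ϖ t P₁ P₂) (𝔫 : Ideal (Chart R t))
    (hnode : NodeAt R ϖ t 𝔫) : P₁ ≤ 𝔫 ∧ P₂ ≤ 𝔫 :=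
  ⟨h16fr_node_le_right h.symm 𝔫 hnode, h16fr_node_le_right h 𝔫 hnode⟩

end Node

/-! ### the assembly: `H17FW.RatStatement` -/

section Asm

local notation "Kbar" => AlgebraicClosure ℚ

/-- the chart form implies the local form of helper1's FW-GEN interface -/
theorem h16fr_frobAt_of_fixAt {R : Type} [CommRing R] {E : Type} [Field E] [Algebra R E]
    (t : E) (γ : E ≃+* E) (Q : ℕ) (𝔫 : Ideal (Chart R t)) [𝔫.IsPrime]
    (h : H17FW.FixAt R t γ Q 𝔫) : H1FW.FrobAt R t 𝔫 γ Q :=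
  fun b hb => H5FR.h5fr_loc_congr R t 𝔫 (γ : E →+* E) Q h b hb

/-- **FW-RAT**: `H17FW.RatStatement` from the pair Gauss statement (I1), the residue comparison
(b) and (for `q = 2, 3`) the separation of the two components over `t = 0`. -/
theorem h16fr_rat (hPG : H8PB.PairGaussStatement) (hRC : H12TC.ResCompStatement)
    (hNB : H12TC.NodeBaseStatement) : H17FW.RatStatement := by
  intro M _ q _ hq hqM hT A hA
  haveI : Fact q.Prime := ⟨hq⟩
  obtain ⟨K₀₂, hK₀₂, hRC'⟩ := hRC M q hq hqM hT A hA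
  -- the number field for (c0)
  have hNB' : ∃ K₀ : IntermediateField ℚ (AlgebraicClosure ℚ), FiniteDimensional ℚ K₀ ∧
      ((q = 2 ∨ q = 3) →
      ∀ (K₁ : IntermediateField ℚ (AlgebraicClosure ℚ)) (_ : K₀ ≤ K₁)
        (_ : FiniteDimensional ℚ K₁) (_ : Normal ℚ K₁)
        [Algebra ↥(descVal A K₁) (FK K₁ (M * q))]
        [IsScalarTower ↥(descVal A K₁) K₁ (FK K₁ (M * q))]
        (ϖ : ↥(descVal A K₁)) (_ : Irreducible ϖ)
        (t₀ : LaurentSeries ℚ) (_ : IsBase (baseKind q) t₀)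
        (t : FK K₁ (M * q)) (_ : (t : LaurentSeries K₁) = coeffEmb K₁ t₀)
        (P₁ P₂ : Ideal (Chart ↥(descVal A K₁) t)) (_ : IsComp1 A K₁ t P₁)
        (_ : IsComp2 hq hqM A K₁ t P₂)
        (𝔫 : Ideal (Chart ↥(descVal A K₁) t)) (_ : IsClosedPt ↥(descVal A K₁) ϖ t 𝔫),
        P₁ ≤ 𝔫 → P₂ ≤ 𝔫 → ∀ y : Chart ↥(descVal A K₁) t, (y : FK K₁ (M * q)) = t → y ∉ 𝔫) := by
    by_cases h23 : q = 2 ∨ q = 3
    · obtain ⟨K₀, hK₀, h⟩ := hNB M q hq hqM hT h23 A hA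
      exact ⟨K₀, hK₀, fun _ => h⟩
    · exact ⟨⊥, inferInstance, fun h => absurd h h23⟩
  obtain ⟨K₀₃, hK₀₃, hNB''⟩ := hNB'
  haveI := hK₀₂
  haveI := hK₀₃
  refine ⟨K₀₂ ⊔ K₀₃, inferInstance, ?_⟩
  intro K₁ hle hfin hnorm _ _ ϖ hϖ t₀ ht₀ t ht σ hσ σ₁ hσ₁ 𝔫 hcl hnode
  haveI := hnorm
  haveI : 𝔫.IsPrime := hcl.1.isPrime
  have hle₂ : K₀₂ ≤ K₁ := le_trans le_sup_left hle
  have hle₃ : K₀₃ ≤ K₁ := le_trans le_sup_right hle
  -- `R` is a DVR, `t` is transcendental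
  obtain ⟨hdvr, -, -⟩ := H4DVR.dvrStatement q A hA K₁ hfin
  haveI := hdvr
  obtain ⟨t', ht'coe, ht'tr, -, -⟩ :=
    H9C6e.fieldBasics (M * q) (baseKind q) (H12TC.baseKind_hi M q hT) t₀ ht₀ ↥K₁
  have htt : t' = t := Subtype.ext (ht'coe.trans ht.symm)
  rw [htt] at ht'tr
  have htR : Transcendental ↥(descVal A K₁) t := H19S18.h19_transc ↥(descVal A K₁) ↥K₁ ht'tr
  -- (I1)
  have hPGx : ∀ x : Chart ↥(descVal A K₁) t,
      H8PB.InG (descVal A K₁) (((x : FK K₁ (M * q))) : LaurentSeries K₁) ∧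
        H8PB.InG (descVal A K₁)
          ((H12AL.wqKHom K₁ M q hq hqM (x : FK K₁ (M * q)) : FK K₁ (M * q)) :
            LaurentSeries K₁) := fun x =>
    (hPG M q hq hqM hT A hA K₁ hfin ϖ hϖ t₀ ht₀ t ht (x : FK K₁ (M * q))).1.mp
      (H19S18.h19_gint_of_isInt ↥(descVal A K₁) htR hϖ x.2)
  -- the two components; both pass through the node
  obtain ⟨P₁, P₂, hc1, hc2⟩ :=
    H22DA.exists_comp hPG M q hq hqM hT A hA K₁ hfin ϖ hϖ t₀ ht₀ t ht t (Or.inl rfl)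
  have htc := H22DA.twoComp hPG M q hq hqM hT A hA K₁ hfin ϖ hϖ t₀ ht₀ t ht t (Or.inl rfl)
    P₁ P₂ hc1 hc2
  obtain ⟨h1, h2⟩ := h16fr_node_le htc 𝔫 hnode
  -- `w t ∈ B_𝔫`
  have hint_t : IsInt ↥(descVal A K₁) t t := H19S18.h19_isInt_t ↥(descVal A K₁) t
  have hwt : InLoc ↥(descVal A K₁) t 𝔫 (H12AL.wqKHom K₁ M q hq hqM t) := by
    by_cases h23 : q = 2 ∨ q = 3
    · obtain ⟨D, hD⟩ := H24BI.h24bi_wq_isInt_tame K₁ M q hq hqM hT ↥(descVal A K₁) t₀ ht₀ t ht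
      have ht𝔫 : (⟨t, hint_t⟩ : Chart ↥(descVal A K₁) t) ∉ 𝔫 :=
        hNB'' h23 K₁ hle₃ hfin hnorm ϖ hϖ t₀ ht₀ t ht P₁ P₂ hc1 hc2 𝔫 hcl h1 h2 _ rfl
      refine ⟨⟨_, hD⟩, (⟨t, hint_t⟩ : Chart ↥(descVal A K₁) t) ^ D,
        fun h => ht𝔫 (Ideal.IsPrime.mem_of_pow_mem ‹_› D h), ?_⟩
      push_cast
      rfl
    · have hk : IsBase 1 t₀ := by
        have := H12TC.baseKind_eq_one q h23
        rwa [this] at ht₀
      have hI := H12TC.wq_isInt_kind1 K₁ M q hq hqM ↥(descVal A K₁) t₀ hk t ht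
      exact ⟨⟨_, hI⟩, 1, fun h => (Ideal.ne_top_iff_one 𝔫).mp (Ideal.IsPrime.ne_top ‹_›) h,
        by simp⟩
  -- `σ₁` is `H3TAU.tau1`
  obtain ⟨s₁, hs₁, hs₁x⟩ := hσ₁
  have hs₁eq : s₁ = sigK K₁ σ := by
    refine RingHom.ext fun c => ?_
    apply Subtype.val_injective
    rw [hs₁]
    exact (H3TAU.resK_commutes K₁ σ c).symm
  have hσ₁eq : ∀ x : FK K₁ (M * q), σ₁ x = H3TAU.tau1 K₁ (M * q) σ x := by
    intro x
    apply Subtype.ext
    rw [hs₁x, hs₁eq]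
    rfl
  intro y
  refine ⟨H5FR.h5fr_gam A K₁ (M * q) hσ.mem_decompositionSubgroup t₀ t ht y, ?_, ?_⟩
  · rw [H5FR.h5fr_coe_gam]
    show _ = σ₁ (σ₁ _)
    rw [hσ₁eq, hσ₁eq]
  · rw [pow_two]
    exact H5FR.h5fr_rat A K₁ M q hσ.mem_decompositionSubgroup t₀ t ht P₁ 𝔫 hc1 h1
      (fun m => hRC' K₁ hle₂ hfin hnorm ϖ hϖ t₀ ht₀ t ht P₁ hc1 m)
      (fun y hy => h16fr_level A K₁ M q hq hqM hA t₀ t ht P₁ P₂ 𝔫 h1 h2 hc1 hc2 hPGx hwt σ hσ
        y hy) y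

/-- **FW-RAT** in the architect's interface: `H17FW.RatStatement` from (I1), the residue
comparison (C) and (CUSP0). -/
theorem h16fr_rat' (hPG : H8PB.PairGaussStatement) (hRC : H12TC.ResCompStatement)
    (hC0 : H4S34.CompCusp0Statement) : H17FW.RatStatement :=
  h16fr_rat hPG hRC (H12TC.nodeBase_of_cusp0 hC0)

end Asm

end H16FR

end
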