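/-
Item 84 (S35), block FW, slice **FW-SIG**, generic chart part (helper3).

Generic setting of `H7S18`: `R` a domain, `ϖ ∈ R`, `E ⊇ R` a field, `t : E`.
`σ : E ≃+* E` is `σR`-semilinear over `R`, `σ⁻¹` is `σR'`-semilinear, `σ t = t`, and
`σR' ϖ ∈ ϖ R` ("`σ` lies in the decomposition group of `ϖ`").  Then `σ` preserves the chart
ring `R[t]`, Gauss units, integrality, the ring `O = {GInt}`, the Gauss ring `{GBase}` and the
congruences modulo `ϖ O`.
-/
import Mathlib
import Fermat.Agent.S18.Glue_helper21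

set_option autoImplicit false
set_option linter.unusedSectionVars false
set_option linter.unusedVariables false
set_option linter.style.haveILetI false

open Polynomial

namespace H3SIG

open H7S18 H21S18

/-- the hypotheses on `σ` -/
structure IsDecompE {R : Type} [CommRing R] {E : Type} [Field E] [Algebra R E]
    (ϖ : R) (t : E) (σ : E ≃+* E) (σR σR' : R →+* R) : Prop where
  semilinear : ∀ r : R, σ (algebraMap R E r) = algebraMap R E (σR r)
  semilinear_symm : ∀ r : R, σ.symm (algebraMap R E r) = algebraMap R E (σR' r)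
  fix_t : σ t = t
  pi : ∃ u : R, σR ϖ = ϖ * u
  pi_symm : ∃ u : R, σR' ϖ = ϖ * u

section

variable {R : Type} [CommRing R] [IsDomain R] {E : Type} [Field E] [Algebra R E]
  {ϖ : R} {t : E} {σ : E ≃+* E} {σR σR' : R →+* R}

theorem IsDecompE.symm (h : IsDecompE ϖ t σ σR σR') : IsDecompE ϖ t σ.symm σR' σR where
  semilinear := h.semilinear_symm
  semilinear_symm r := by
    rw [RingEquiv.symm_symm]
    exact h.semilinear r
  fix_t := by
    have := congrArg σ.symm h.fix_t
    rw [RingEquiv.symm_apply_apply] at this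
    exact this.symm
  pi := h.pi_symm
  pi_symm := h.pi

/-- `σ (P(t)) = (σR P)(t)` -/
theorem h3s_aeval (h : IsDecompE ϖ t σ σR σR') (P : R[X]) :
    σ (Polynomial.aeval t P) = Polynomial.aeval t (P.map σR) := by
  have h1 : (σ : E →+* E).comp (algebraMap R E) = (algebraMap R E).comp σR :=
    RingHom.ext fun r => h.semilinear r
  rw [Polynomial.aeval_def, Polynomial.aeval_def, Polynomial.eval₂_map, ← h1]
  have h2 := Polynomial.hom_eval₂ P (algebraMap R E) (σ : E →+* E) t
  rw [show (σ : E →+* E) t = t from h.fix_t] at h2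
  exact h2

/-- `σ` preserves the chart ring `R[t]`. -/
theorem h3s_adjoin (h : IsDecompE ϖ t σ σR σR') {a : E} (ha : a ∈ Algebra.adjoin R {t}) :
    σ a ∈ Algebra.adjoin R {t} := by
  obtain ⟨P, rfl⟩ := exists_poly_of_mem ha
  rw [h3s_aeval h]
  exact aeval_mem t _

/-- `σ` restricted to the chart ring -/
def h3s_chart (h : IsDecompE ϖ t σ σR σR') : Algebra.adjoin R {t} →+* Algebra.adjoin R {t} where
  toFun a := ⟨σ (a : E), h3s_adjoin h a.2⟩
  map_one' := Subtype.ext (map_one σ)
  map_mul' a b := Subtype.ext (map_mul σ _ _)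
  map_zero' := Subtype.ext (map_zero σ)
  map_add' a b := Subtype.ext (map_add σ _ _)

/-- `σ` preserves integrality over the chart ring. -/
theorem h3s_isInt (h : IsDecompE ϖ t σ σR σR') {x : E} (hx : IsInt R t x) :
    IsInt R t (σ x) := by
  have key := IsIntegral.map_of_comp_eq (h3s_chart h) (σ : E →+* E)
    (RingHom.ext fun a => rfl) hx
  exact key

/-- `σ` preserves Gauss units. -/
theorem h3s_gaussUnit (h : IsDecompE ϖ t σ σR σR') {s : E} (hs : IsGaussUnit R ϖ t s) :
    IsGaussUnit R ϖ t (σ s) := by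
  refine ⟨h3s_adjoin h hs.1, fun s' hs' he => ?_⟩
  obtain ⟨u, hu⟩ := h.pi_symm
  refine hs.2 (algebraMap R E u * σ.symm s') ?_ ?_
  · exact Subalgebra.mul_mem _ (Subalgebra.algebraMap_mem _ u) (h3s_adjoin h.symm hs')
  · have := congrArg σ.symm he
    rw [RingEquiv.symm_apply_apply, map_mul, h.semilinear_symm, hu, map_mul] at this
    rw [this]
    ring

/-- `σ` preserves `O = {GInt}`. -/
theorem h3s_gint (h : IsDecompE ϖ t σ σR σR') {x : E} (hx : GInt R ϖ t x) :
    GInt R ϖ t (σ x) := by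
  obtain ⟨s, hs, hsx⟩ := hx
  refine ⟨σ s, h3s_gaussUnit h hs, ?_⟩
  rw [← map_mul]
  exact h3s_isInt h hsx

theorem h3s_gint_iff (h : IsDecompE ϖ t σ σR σR') (x : E) :
    GInt R ϖ t (σ x) ↔ GInt R ϖ t x := by
  constructor
  · intro hx
    have := h3s_gint h.symm hx
    rwa [RingEquiv.symm_apply_apply] at this
  · exact h3s_gint h

/-- `σ` preserves the Gauss ring. -/
theorem h3s_gbase (h : IsDecompE ϖ t σ σR σR') {c : E} (hc : GBase R ϖ t c) :
    GBase R ϖ t (σ c) := by
  obtain ⟨s, a, hs, ha, hsa⟩ := hc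
  exact ⟨σ s, σ a, h3s_gaussUnit h hs, h3s_adjoin h ha, by rw [← map_mul, hsa]⟩

/-- `σ` preserves congruences modulo `ϖ O`. -/
theorem h3s_modPi (hϖ : Prime ϖ) (ht : Transcendental R t)
    (h : IsDecompE ϖ t σ σR σR') {x y : E}
    (hxy : ModPi R ϖ t x y) : ModPi R ϖ t (σ x) (σ y) := by
  obtain ⟨z, hz, he⟩ := hxy
  obtain ⟨u, hu⟩ := h.pi
  refine ⟨algebraMap R E u * σ z, ?_, ?_⟩
  · have h1 : GInt R ϖ t (algebraMap R E u) :=
      ⟨1, ⟨Subalgebra.one_mem _, fun s' hs' he' => by
        obtain ⟨P, rfl⟩ := exists_poly_of_mem hs'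
        have h2 : Polynomial.aeval t (1 - Polynomial.C ϖ * P) = 0 := by
          rw [map_sub, map_one, map_mul, Polynomial.aeval_C, ← he', sub_self]
        have h3 := (injective_iff_map_eq_zero (Polynomial.aeval (R := R) t)).1
          (transcendental_iff_injective.1 ht) _ h2
        have h4 : Polynomial.C ϖ ∣ (1 : R[X]) := ⟨P, by rw [← sub_eq_zero, h3]⟩
        have h5 : IsUnit (Polynomial.C ϖ) := isUnit_of_dvd_one h4
        rw [Polynomial.isUnit_iff] at h5
        obtain ⟨r, hr, hrC⟩ := h5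
        have := Polynomial.C_injective hrC
        subst this
        exact hϖ.not_isUnit hr⟩,
        by rw [one_mul]; exact isInt_of_mem (Subalgebra.algebraMap_mem _ u)⟩
    exact gInt_mul hϖ ht h1 (h3s_gint h hz)
  · rw [← map_sub, he, map_mul, h.semilinear, hu, map_mul]
    ring

end

end H3SIG
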