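/-
Item 84 (S35), block FW, slice **FW-SIG**, generic valuation part (helper3): an automorphism of
the coefficient field in the *decomposition group* preserves the Gauss valuation; a *Frobenius*
automorphism acts on the residue field of the Gauss valuation as the coefficientwise Frobenius.

`K` a field, `R` a valuation subring, `σ : K ≃+* K` with `σ R = R` (`IsDecompK R σ`).
With `InG`, `InGm` of `H8PB` (Gauss ring of `R` in `K((q))` and its maximal ideal) and
`σ` acting coefficientwise: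

* `h3s_inG_iff`, `h3s_inGm_iff` : `InG (σ x) ↔ InG x`, `InGm (σ x) ↔ InGm x`;
* `h3s_inG_div`  : `x ∈ F_K(N)`, `x ≠ 0`  ⟹  `InG (σ x / x)` and `InG (x / σ x)`  (any level `N`;
                   `R` a DVR) — the `K`-level form of (UNIT);
* `h3s_rho_frob` : for a Frobenius (`σ r ≡ r^q mod 𝔪`): `ρ (σ_R Y) = Fr (ρ Y)` coefficientwise,
                   `Fr = x ↦ x ^ q` on the residue field.
-/
import Mathlib
import Fermat.Agent.S34.TauVal_helper3

set_option autoImplicit false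
set_option linter.unusedSectionVars false
set_option linter.unusedVariables false
set_option linter.style.haveILetI false

noncomputable section

namespace H3SIG

open ModularCurve HahnSeries H28GV H8PB H3TAU

variable {K : Type} [Field K] (R : ValuationSubring K)

/-- `σ` preserves `R` (in both directions): "`σ` lies in the decomposition group". -/
structure IsDecompK (σ : K ≃+* K) : Prop where
  mem : ∀ r : K, r ∈ R → σ r ∈ R
  mem_symm : ∀ r : K, r ∈ R → σ.symm r ∈ R

/-- `σ` is a Frobenius: it preserves `R` and is `x ↦ x ^ q` on the residue field. -/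
structure IsFrobK (q : ℕ) (σ : K ≃+* K) : Prop extends IsDecompK R σ where
  cong : ∀ r : K, r ∈ R → σ r - r ^ q ∈ R.nonunits

variable {R} {σ : K ≃+* K}

theorem IsDecompK.symm (h : IsDecompK R σ) : IsDecompK R σ.symm where
  mem := h.mem_symm
  mem_symm r hr := by
    rw [RingEquiv.symm_symm]
    exact h.mem r hr

theorem isDecompK_of_inertial (h : IsInertialK R σ) : IsDecompK R σ :=
  ⟨h.mem, h.mem_symm⟩

/-- the action of `σ` on `R` -/
def dsigR (h : IsDecompK R σ) : R →+* R where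
  toFun r := ⟨σ (r : K), h.mem _ r.2⟩
  map_one' := Subtype.ext (map_one σ)
  map_mul' a b := Subtype.ext (map_mul σ _ _)
  map_zero' := Subtype.ext (map_zero σ)
  map_add' a b := Subtype.ext (map_add σ _ _)

@[simp] theorem coe_dsigR (h : IsDecompK R σ) (r : R) : ((dsigR h r : R) : K) = σ (r : K) := rfl

theorem dsigR_symm (h : IsDecompK R σ) (r : R) : dsigR h.symm (dsigR h r) = r :=
  Subtype.ext (by simp)

theorem dsigR_symm' (h : IsDecompK R σ) (r : R) : dsigR h (dsigR h.symm r) = r :=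
  Subtype.ext (by simp)

theorem dsigR_isUnit_iff (h : IsDecompK R σ) (r : R) : IsUnit (dsigR h r) ↔ IsUnit r := by
  constructor
  · intro hu
    have := hu.map (dsigR h.symm)
    rwa [dsigR_symm] at this
  · intro hu
    exact hu.map (dsigR h)

instance dsigR_isLocalHom (h : IsDecompK R σ) : IsLocalHom (dsigR h) :=
  ⟨fun r hr => (dsigR_isUnit_iff h r).1 hr⟩

/-- the action of `σ` on the residue field of `R` -/
def dsigRes (h : IsDecompK R σ) :
    IsLocalRing.ResidueField R →+* IsLocalRing.ResidueField R :=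
  haveI := dsigR_isLocalHom h
  IsLocalRing.ResidueField.map (dsigR h)

theorem dsigRes_residue (h : IsDecompK R σ) (r : R) :
    dsigRes h (IsLocalRing.residue R r) = IsLocalRing.residue R (dsigR h r) := by
  haveI := dsigR_isLocalHom h
  exact IsLocalRing.ResidueField.map_residue (dsigR h) r

theorem h3s_eps_sig (h : IsDecompK R σ) (Y : LaurentSeries R) :
    gvEps R (coeffMap (dsigR h) Y) = coeffMap (σ : K →+* K) (gvEps R Y) := by
  ext n
  rfl

theorem h3s_rho_sig (h : IsDecompK R σ) (Y : LaurentSeries R) :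
    rhoR R (coeffMap (dsigR h) Y) = coeffMap (dsigRes h) (rhoR R Y) := by
  ext n
  rw [gvRho_coeff, coeffMap_coeff, coeffMap_coeff, gvRho_coeff, dsigRes_residue]

theorem h3s_rho_eq_zero_iff (h : IsDecompK R σ) (Y : LaurentSeries R) :
    rhoR R (coeffMap (dsigR h) Y) = 0 ↔ rhoR R Y = 0 := by
  rw [h3b_rho_eq_zero_iff, h3b_rho_eq_zero_iff]
  constructor
  · intro H n hu
    exact H n (by rw [coeffMap_coeff]; exact (dsigR_isUnit_iff h _).2 hu)
  · intro H n hu
    rw [coeffMap_coeff] at hu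
    exact H n ((dsigR_isUnit_iff h _).1 hu)

/-- `σ` preserves the Gauss ring. -/
theorem h3s_inG (h : IsDecompK R σ) {x : LaurentSeries K} (hx : InG R x) :
    InG R (coeffMap (σ : K →+* K) x) := by
  rw [h3v_inG_iff] at hx ⊢
  obtain ⟨f, g, hg, hfg⟩ := hx
  refine ⟨coeffMap (dsigR h) f, coeffMap (dsigR h) g, ?_, ?_⟩
  · rw [Ne, h3s_rho_eq_zero_iff]
    exact hg
  · rw [h3s_eps_sig, h3s_eps_sig, ← map_mul, hfg]

/-- `σ` preserves the maximal ideal of the Gauss ring. -/
theorem h3s_inGm (h : IsDecompK R σ) {x : LaurentSeries K} (hx : InGm R x) :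
    InGm R (coeffMap (σ : K →+* K) x) := by
  rw [h3v_inGm_iff] at hx ⊢
  obtain ⟨f, g, hg, hf, hfg⟩ := hx
  refine ⟨coeffMap (dsigR h) f, coeffMap (dsigR h) g, ?_, ?_, ?_⟩
  · rw [Ne, h3s_rho_eq_zero_iff]
    exact hg
  · rw [h3s_rho_eq_zero_iff]
    exact hf
  · rw [h3s_eps_sig, h3s_eps_sig, ← map_mul, hfg]

theorem h3s_coeffMap_symm (x : LaurentSeries K) :
    coeffMap ((σ.symm : K ≃+* K) : K →+* K) (coeffMap (σ : K →+* K) x) = x := by
  rw [coeffMap_coeffMap]
  have : ((σ.symm : K ≃+* K) : K →+* K).comp (σ : K →+* K) = RingHom.id K :=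
    RingHom.ext fun a => by simp
  rw [this, coeffMap_id]

theorem h3s_inG_iff (h : IsDecompK R σ) (x : LaurentSeries K) :
    InG R (coeffMap (σ : K →+* K) x) ↔ InG R x := by
  constructor
  · intro hx
    have := h3s_inG h.symm hx
    rwa [h3s_coeffMap_symm] at this
  · exact h3s_inG h

theorem h3s_inGm_iff (h : IsDecompK R σ) (x : LaurentSeries K) :
    InGm R (coeffMap (σ : K →+* K) x) ↔ InGm R x := by
  constructor
  · intro hx
    have := h3s_inGm h.symm hx
    rwa [h3s_coeffMap_symm] at this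
  · exact h3s_inGm h

/-- `σ r / r` and `r / σ r` lie in `R` for `r ∈ R ∖ {0}`. -/
theorem h3s_sig_div_mem_of_mem [IsDiscreteValuationRing R] (h : IsDecompK R σ) (r : R)
    (hr : r ≠ 0) : σ (r : K) / r ∈ R ∧ (r : K) / σ (r : K) ∈ R := by
  obtain ⟨ϖ, hϖ⟩ := IsDiscreteValuationRing.exists_irreducible R
  have hϖ0 : (ϖ : K) ≠ 0 := fun h0 => hϖ.ne_zero (Subtype.ext h0)
  have hσϖ0 : σ (ϖ : K) ≠ 0 := fun h0 => hϖ0 ((map_eq_zero_iff σ σ.injective).1 h0)
  -- units go to units
  have hunit : ∀ u : Rˣ, σ ((u : R) : K) / ((u : R) : K) ∈ R ∧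
      ((u : R) : K) / σ ((u : R) : K) ∈ R := by
    intro u
    have hu0 : ((u : R) : K) ≠ 0 := fun h0 => u.ne_zero (Subtype.ext h0)
    have hinv : (((u⁻¹ : Rˣ) : R) : K) = (((u : R) : K))⁻¹ := by
      have h1 : ((u⁻¹ : Rˣ) : R) * (u : R) = 1 := by simp
      have h2 : (((u⁻¹ : Rˣ) : R) : K) * ((u : R) : K) = 1 := by
        exact_mod_cast congrArg Subtype.val h1
      exact eq_inv_of_mul_eq_one_left h2
    constructor
    · rw [div_eq_mul_inv, ← hinv]
      exact R.mul_mem _ _ (h.mem _ (u : R).2) ((u⁻¹ : Rˣ) : R).2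
    · rw [div_eq_mul_inv, ← map_inv₀, ← hinv]
      exact R.mul_mem _ _ (u : R).2 (h.mem _ ((u⁻¹ : Rˣ) : R).2)
  -- the uniformizer
  have hmax : ∀ m : K, m ∈ R.nonunits → ∃ b : R, m = ϖ * b := by
    intro m hm
    have hmR : m ∈ R := R.nonunits_le hm
    have h2 : (⟨m, hmR⟩ : R) ∈ IsLocalRing.maximalIdeal R :=
      (ValuationSubring.coe_mem_nonunits_iff (A := R) (a := ⟨m, hmR⟩)).1 hm
    rw [hϖ.maximalIdeal_eq, Ideal.mem_span_singleton'] at h2
    obtain ⟨b, hb⟩ := h2
    refine ⟨b, ?_⟩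
    have := congrArg Subtype.val hb
    simp only [MulMemClass.coe_mul] at this
    rw [← this, mul_comm]
  have hϖnu : (ϖ : K) ∈ R.nonunits :=
    (ValuationSubring.coe_mem_nonunits_iff (A := R) (a := ϖ)).2
      ((IsLocalRing.mem_maximalIdeal _).2 hϖ.not_isUnit)
  -- nonunits go to nonunits
  have hnu : ∀ {τ : K ≃+* K}, IsDecompK R τ → τ (ϖ : K) ∈ R.nonunits := by
    intro τ hτ
    have hmem := hτ.mem _ ϖ.2
    rw [ValuationSubring.mem_nonunits_iff_or]
    right
    intro hinv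
    have h1 := hτ.mem_symm _ hinv
    rw [map_inv₀, RingEquiv.symm_apply_apply] at h1
    have h2 : (ϖ : K) ∉ R.nonunits := by
      rw [ValuationSubring.mem_nonunits_iff_or]
      push Not
      exact ⟨hϖ0, h1⟩
    exact h2 hϖnu
  have hσϖ : σ (ϖ : K) ∈ R.nonunits := hnu h
  have hσsϖ : σ.symm (ϖ : K) ∈ R.nonunits := hnu h.symm
  obtain ⟨b, hb⟩ := hmax _ hσϖ
  obtain ⟨b', hb'⟩ := hmax _ hσsϖ
  have ha : σ (ϖ : K) / ϖ ∈ R := by
    rw [hb, mul_div_cancel_left₀ _ hϖ0]
    exact b.2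
  have ha' : (ϖ : K) / σ (ϖ : K) ∈ R := by
    have h1 : (ϖ : K) = σ (ϖ : K) * σ (b' : K) := by
      rw [← map_mul, ← hb', RingEquiv.apply_symm_apply]
    have h2 : (ϖ : K) / σ (ϖ : K) = σ (b' : K) := by
      rw [div_eq_iff hσϖ0, mul_comm]
      exact h1
    rw [h2]
    exact h.mem _ b'.2
  obtain ⟨n, u, hru⟩ := IsDiscreteValuationRing.eq_unit_mul_pow_irreducible hr hϖ
  have hrK : (r : K) = ((u : R) : K) * (ϖ : K) ^ n := by
    rw [hru]
    push_cast
    rfl
  have hu0 : ((u : R) : K) ≠ 0 := fun h0 => u.ne_zero (Subtype.ext h0)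
  have hσu0 : σ ((u : R) : K) ≠ 0 := fun h0 => hu0 ((map_eq_zero_iff σ σ.injective).1 h0)
  constructor
  · have e : σ (r : K) / r = (σ ((u : R) : K) / ((u : R) : K)) * (σ (ϖ : K) / ϖ) ^ n := by
      rw [hrK, map_mul, map_pow, div_pow]
      field_simp
    rw [e]
    exact R.mul_mem _ _ (hunit u).1 (pow_mem ha n)
  · have e : (r : K) / σ (r : K) =
        (((u : R) : K) / σ ((u : R) : K)) * ((ϖ : K) / σ (ϖ : K)) ^ n := by
      rw [hrK, map_mul, map_pow, div_pow]
      field_simp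
    rw [e]
    exact R.mul_mem _ _ (hunit u).2 (pow_mem ha' n)

/-- `σ` preserves the valuation of `K`: `σ c / c ∈ R` for `c ≠ 0`. -/
theorem h3s_sig_div_mem [IsDiscreteValuationRing R] (h : IsDecompK R σ) (c : K) (hc : c ≠ 0) :
    σ c / c ∈ R := by
  rcases R.mem_or_inv_mem c with h1 | h1
  · exact (h3s_sig_div_mem_of_mem h ⟨c, h1⟩ (fun h0 => hc (congrArg Subtype.val h0))).1
  · have h2 := (h3s_sig_div_mem_of_mem h ⟨c⁻¹, h1⟩
      (fun h0 => hc (inv_eq_zero.1 (congrArg Subtype.val h0)))).2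
    have e : (c⁻¹ : K) / σ (c⁻¹ : K) = σ c / c := by
      rw [map_inv₀]
      field_simp
    rw [← e]
    exact h2

/-- `c / σ c ∈ R` for `c ≠ 0`. -/
theorem h3s_div_sig_mem [IsDiscreteValuationRing R] (h : IsDecompK R σ) (c : K) (hc : c ≠ 0) :
    c / σ c ∈ R := by
  have hσc : σ c ≠ 0 := fun h0 => hc ((map_eq_zero_iff σ σ.injective).1 h0)
  have := h3s_sig_div_mem h.symm (σ c) hσc
  rwa [RingEquiv.symm_apply_apply] at this

/-- **(UNIT), `K`-level, first half**: `σ` preserves the Gauss valuation on `F_K(N)`, at any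
level `N`: `σ x / x` lies in the Gauss ring. -/
theorem h3s_inG_div [IsDiscreteValuationRing R] (h : IsDecompK R σ) (N : ℕ) [NeZero N]
    (x : LaurentSeries K) (hx : x ∈ modularFunctionFieldFullC K N) (hx0 : x ≠ 0) :
    InG R (coeffMap (σ : K →+* K) x / x) := by
  obtain ⟨c, Y₁, Y₂, hc, hY₁, hY₂, hrel⟩ := h3b_nf R N x hx hx0
  rw [h3v_inG_iff]
  have hu := h3s_sig_div_mem h c hc
  have h1 : coeffMap (σ : K →+* K) x * gvEps R (coeffMap (dsigR h) Y₂) =
      HahnSeries.C (σ c) * gvEps R (coeffMap (dsigR h) Y₁) := by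
    rw [h3s_eps_sig, h3s_eps_sig, ← map_mul, hrel, map_mul, h3v_coeffMap_C]
    rfl
  refine ⟨HahnSeries.C ⟨σ c / c, hu⟩ * coeffMap (dsigR h) Y₁ * Y₂, coeffMap (dsigR h) Y₂ * Y₁,
    ?_, ?_⟩
  · rw [map_mul]
    refine mul_ne_zero ?_ hY₁
    rw [Ne, h3s_rho_eq_zero_iff]
    exact hY₂
  · rw [div_mul_eq_mul_div, div_eq_iff hx0, map_mul, map_mul, map_mul, gvEps_C]
    have e1 : coeffMap (σ : K →+* K) x * (gvEps R (coeffMap (dsigR h) Y₂) * gvEps R Y₁) =
        HahnSeries.C (σ c) * gvEps R (coeffMap (dsigR h) Y₁) * gvEps R Y₁ := by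
      rw [← mul_assoc, h1]
    have e2 : HahnSeries.C (σ c / c) * gvEps R (coeffMap (dsigR h) Y₁) * gvEps R Y₂ * x =
        HahnSeries.C (σ c / c) * gvEps R (coeffMap (dsigR h) Y₁) * (x * gvEps R Y₂) := by ring
    rw [e1]
    show _ = HahnSeries.C (σ c / c) * gvEps R (coeffMap (dsigR h) Y₁) * gvEps R Y₂ * x
    rw [e2, hrel]
    have e3 : HahnSeries.C (σ c / c) * gvEps R (coeffMap (dsigR h) Y₁) *
        (HahnSeries.C c * gvEps R Y₁) = (HahnSeries.C (σ c / c) * HahnSeries.C c) *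
          gvEps R (coeffMap (dsigR h) Y₁) * gvEps R Y₁ := by ring
    rw [e3, ← map_mul, div_mul_cancel₀ _ hc]

/-- `σ` preserves `F_K(N)` when it fixes the prime field image (always true). -/
theorem h3s_inG_div' [IsDiscreteValuationRing R] (h : IsDecompK R σ) (N : ℕ) [NeZero N]
    (x : LaurentSeries K) (hx : x ∈ modularFunctionFieldFullC K N)
    (hσx : coeffMap (σ : K →+* K) x ∈ modularFunctionFieldFullC K N) (hx0 : x ≠ 0) :
    InG R (x / coeffMap (σ : K →+* K) x) := by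
  have hσx0 : coeffMap (σ : K →+* K) x ≠ 0 := by
    intro h0
    apply hx0
    have := congrArg (coeffMap ((σ.symm : K ≃+* K) : K →+* K)) h0
    rwa [h3s_coeffMap_symm, map_zero] at this
  have := h3s_inG_div h.symm N _ hσx hσx0
  rwa [h3s_coeffMap_symm] at this

/-! ### Frobenius -/

theorem dsigRes_frob {q : ℕ} (h : IsFrobK R q σ) (a : IsLocalRing.ResidueField R) :
    dsigRes h.toIsDecompK a = a ^ q := by
  obtain ⟨r, rfl⟩ := IsLocalRing.residue_surjective a
  rw [dsigRes_residue, ← map_pow, ← sub_eq_zero, ← map_sub, IsLocalRing.residue_eq_zero_iff,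
    ← ValuationSubring.coe_mem_nonunits_iff]
  exact h.cong _ r.2

/-- `σ_R r ≡ r ^ q` modulo the maximal ideal -/
theorem dsigR_frob_mem {q : ℕ} (h : IsFrobK R q σ) (r : R) :
    dsigR h.toIsDecompK r - r ^ q ∈ IsLocalRing.maximalIdeal R := by
  rw [← ValuationSubring.coe_mem_nonunits_iff]
  exact h.cong _ r.2

/-- `σ_R r ≡ r ^ q mod ϖ` -/
theorem dsigR_frob [IsDiscreteValuationRing R] {q : ℕ} (h : IsFrobK R q σ) {ϖ : R}
    (hϖ : Irreducible ϖ) (r : R) : ∃ r' : R, dsigR h.toIsDecompK r - r ^ q = ϖ * r' := by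
  have h1 := dsigR_frob_mem h r
  rw [hϖ.maximalIdeal_eq, Ideal.mem_span_singleton'] at h1
  obtain ⟨r', hr'⟩ := h1
  exact ⟨r', by rw [← hr', mul_comm]⟩

/-- **Frobenius on the residue field of the Gauss valuation**: `ρ (σ Y) = Fr (ρ Y)`
coefficientwise. -/
theorem h3s_rho_frob {q : ℕ} (h : IsFrobK R q σ) (Y : LaurentSeries R) (n : ℤ) :
    (rhoR R (coeffMap (dsigR h.toIsDecompK) Y)).coeff n = ((rhoR R Y).coeff n) ^ q := by
  rw [h3s_rho_sig, coeffMap_coeff, dsigRes_frob h]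

/-- the square of a Frobenius at `q` is a Frobenius at `q ^ 2`. -/
theorem isFrobK_sq {q : ℕ} (h : IsFrobK R q σ) : IsFrobK R (q ^ 2) (σ.trans σ) where
  mem r hr := h.mem _ (h.mem _ hr)
  mem_symm r hr := h.mem_symm _ (h.mem_symm _ hr)
  cong r hr := by
    -- in the residue field
    have hd : IsDecompK R (σ.trans σ) :=
      ⟨fun r hr => h.mem _ (h.mem _ hr), fun r hr => h.mem_symm _ (h.mem_symm _ hr)⟩
    have h1 : IsLocalRing.residue R (dsigR hd ⟨r, hr⟩) =
        (IsLocalRing.residue R ⟨r, hr⟩) ^ (q ^ 2) := by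
      have e : dsigR hd ⟨r, hr⟩ = dsigR h.toIsDecompK (dsigR h.toIsDecompK ⟨r, hr⟩) :=
        Subtype.ext rfl
      rw [e, ← dsigRes_residue, ← dsigRes_residue, dsigRes_frob h, dsigRes_frob h, ← pow_mul,
        pow_two]
    rw [← map_pow, ← sub_eq_zero, ← map_sub, IsLocalRing.residue_eq_zero_iff,
      ← ValuationSubring.coe_mem_nonunits_iff] at h1
    exact h1

end H3SIG

end
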