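/-
Item 84 (S35), block FW, slice **FW-SIG** (helper3): the Gauss valuation subring `V₁` of
`F = F_K(N) = FK K N` at ANY level `N`, and its twist `V₂ = w⁻¹ V₁` by a ring endomorphism `w`.

`K` a field (`ℚ`-algebra), `R` a valuation subring of `K` which is a DVR.

* `gaussVS R N : ValuationSubring (FK K N)`,  `x ∈ gaussVS R N ↔ InG R x`,
  `x ∈ (gaussVS R N).nonunits ↔ InGm R x`,  `(gaussVS R N).valuation x < 1 ↔ InGm R x`;
* `gaussVSw R N w = (gaussVS R N).comap w`   (`x ∈ V₂ ↔ InG R (w x)`, nonunits ↔ `InGm R (w x)`);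
* `h3s_mem_gaussVS_iff` : for `σ` in the decomposition group (`IsDecompK R σ`) and `σ₁` acting
  coefficientwise through `σ`:  `σ₁ x ∈ V₁ ↔ x ∈ V₁`;  the same for `V₂` when `w` commutes with `σ₁`.
-/
import Mathlib
import Fermat.Agent.S35.FWSigGen_helper3
import Fermat.Agent.S18.DefsD

set_option autoImplicit false
set_option linter.unusedSectionVars false
set_option linter.unusedVariables false
set_option linter.style.haveILetI false

noncomputable section

namespace H3SIG

open ModularCurve HahnSeries H28GV H8PB H3TAU H7S18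

variable {K : Type} [Field K] (R : ValuationSubring K)

theorem inG_eps (Y : LaurentSeries R) : InG R (gvEps R Y) := by
  rw [h3v_inG_iff]
  exact ⟨Y, 1, by rw [map_one]; exact one_ne_zero, by rw [map_one, mul_one]⟩

theorem inG_zero : InG R (0 : LaurentSeries K) := by
  have := inG_eps R 0
  rwa [map_zero] at this

theorem inG_one : InG R (1 : LaurentSeries K) := by
  have := inG_eps R 1
  rwa [map_one] at this

variable {R}

theorem inG_add {x y : LaurentSeries K} (hx : InG R x) (hy : InG R y) : InG R (x + y) := by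
  rw [h3v_inG_iff] at hx hy ⊢
  obtain ⟨f, g, hg, hfg⟩ := hx
  obtain ⟨f', g', hg', hfg'⟩ := hy
  refine ⟨f * g' + f' * g, g * g', ?_, ?_⟩
  · rw [map_mul]
    exact mul_ne_zero hg hg'
  · rw [map_add, map_mul, map_mul, map_mul, ← hfg, ← hfg']
    ring

theorem inG_mul {x y : LaurentSeries K} (hx : InG R x) (hy : InG R y) : InG R (x * y) := by
  rw [h3v_inG_iff] at hx hy ⊢
  obtain ⟨f, g, hg, hfg⟩ := hx
  obtain ⟨f', g', hg', hfg'⟩ := hy
  refine ⟨f * f', g * g', ?_, ?_⟩
  · rw [map_mul]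
    exact mul_ne_zero hg hg'
  · rw [map_mul, map_mul, ← hfg, ← hfg']
    ring

theorem inG_neg {x : LaurentSeries K} (hx : InG R x) : InG R (-x) := by
  rw [h3v_inG_iff] at hx ⊢
  obtain ⟨f, g, hg, hfg⟩ := hx
  exact ⟨-f, g, hg, by rw [map_neg, ← hfg]; ring⟩

theorem inG_C (c : R) : InG R (HahnSeries.C (c : K) : LaurentSeries K) := by
  have := inG_eps R (HahnSeries.C c)
  rwa [gvEps_C] at this

theorem inGm_inG {x : LaurentSeries K} (hx : InGm R x) : InG R x := by
  obtain ⟨f, g, hg, -, h⟩ := hx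
  exact ⟨f, g, hg, h⟩

theorem gvEps_ne_zero {Y : LaurentSeries R} (hY : rhoR R Y ≠ 0) : gvEps R Y ≠ 0 := by
  intro h0
  apply hY
  have hY0 : Y = 0 := gvEps_injective R (h0.trans (map_zero _).symm)
  rw [hY0, map_zero]

/-- the Gauss ring is a valuation ring of `F_K(N)`. -/
theorem inG_or_inv [IsDiscreteValuationRing R] (N : ℕ) [NeZero N] (x : LaurentSeries K)
    (hx : x ∈ modularFunctionFieldFullC K N) : InG R x ∨ InG R x⁻¹ := by
  by_cases hx0 : x = 0
  · left
    rw [hx0]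
    exact inG_zero R
  obtain ⟨c, Y₁, Y₂, hc, hY₁, hY₂, hrel⟩ := h3b_nf R N x hx hx0
  have h1 := gvEps_ne_zero hY₁
  have h2 := gvEps_ne_zero hY₂
  rcases R.mem_or_inv_mem c with h | h
  · left
    rw [h3v_inG_iff]
    refine ⟨HahnSeries.C ⟨c, h⟩ * Y₁, Y₂, hY₂, ?_⟩
    rw [hrel, map_mul, gvEps_C]
  · right
    rw [h3v_inG_iff]
    refine ⟨HahnSeries.C ⟨c⁻¹, h⟩ * Y₂, Y₁, hY₁, ?_⟩
    rw [map_mul, gvEps_C]
    show x⁻¹ * gvEps R Y₁ = HahnSeries.C c⁻¹ * gvEps R Y₂
    have hC : (HahnSeries.C c : LaurentSeries K) ≠ 0 := by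
      intro h0
      apply hc
      have := congrArg (fun z : LaurentSeries K => z.coeff 0) h0
      simpa using this
    rw [map_inv₀, inv_mul_eq_iff_eq_mul₀ hx0, ← mul_assoc, mul_comm x, mul_assoc, hrel,
      ← mul_assoc, inv_mul_cancel₀ hC, one_mul]

/-- `InGm` = nonunits of the Gauss ring. -/
theorem inGm_iff_not_inv {x : LaurentSeries K} (hx : InG R x) :
    InGm R x ↔ (x = 0 ∨ ¬ InG R x⁻¹) := by
  constructor
  · intro hm
    by_cases hx0 : x = 0
    · exact Or.inl hx0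
    right
    intro hinv
    rw [h3v_inGm_iff] at hm
    rw [h3v_inG_iff] at hinv
    obtain ⟨f, g, hg, hf, hfg⟩ := hm
    obtain ⟨f', g', hg', hfg'⟩ := hinv
    have h1 : gvEps R (g * g') = gvEps R (f * f') := by
      rw [map_mul, map_mul, ← hfg, ← hfg']
      field_simp
    have h2 : g * g' = f * f' := gvEps_injective R h1
    have h3 : rhoR R (g * g') = 0 := by rw [h2, map_mul, hf, zero_mul]
    rw [map_mul] at h3
    exact mul_ne_zero hg hg' h3
  · rintro (rfl | hinv)
    · rw [h3v_inGm_iff]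
      exact ⟨0, 1, by rw [map_one]; exact one_ne_zero, map_zero _, by simp⟩
    · have hx' := hx
      rw [h3v_inG_iff] at hx'
      obtain ⟨f, g, hg, hfg⟩ := hx'
      rw [h3v_inGm_iff]
      refine ⟨f, g, hg, ?_, hfg⟩
      by_contra hf
      apply hinv
      rw [h3v_inG_iff]
      refine ⟨g, f, hf, ?_⟩
      have hg0 := gvEps_ne_zero hg
      have hf0 := gvEps_ne_zero hf
      have hx0 : x ≠ 0 := by
        rintro rfl
        rw [zero_mul] at hfg
        exact hf0 hfg.symm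
      rw [← hfg]
      field_simp

variable (R) [Algebra ℚ K]

/-- **the Gauss valuation subring `V₁` of `F_K(N)`** (any level). -/
def gaussVS [IsDiscreteValuationRing R] (N : ℕ) [NeZero N] : ValuationSubring (FK K N) where
  carrier := {x | InG R (x : LaurentSeries K)}
  mul_mem' := fun {x y} hx hy => inG_mul hx hy
  one_mem' := inG_one R
  add_mem' := fun {x y} hx hy => inG_add hx hy
  zero_mem' := inG_zero R
  neg_mem' := fun {x} hx => inG_neg hx
  mem_or_inv_mem' := fun x => by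
    have hx : (x : LaurentSeries K) ∈ modularFunctionFieldFullC K N := by
      rw [← gv_bar_eq]
      exact x.2
    exact inG_or_inv N _ hx

variable [IsDiscreteValuationRing R] (N : ℕ) [NeZero N]

theorem mem_gaussVS (x : FK K N) : x ∈ gaussVS R N ↔ InG R (x : LaurentSeries K) := Iff.rfl

theorem mem_nonunits_gaussVS (x : FK K N) :
    x ∈ (gaussVS R N).nonunits ↔ InGm R (x : LaurentSeries K) := by
  rw [ValuationSubring.mem_nonunits_iff_or]
  constructor
  · rintro (rfl | h)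
    · exact (inGm_iff_not_inv (inG_zero R)).2 (Or.inl rfl)
    · have hx : x ∈ gaussVS R N := by
        rcases (gaussVS R N).mem_or_inv_mem x with h1 | h1
        · exact h1
        · exact absurd h1 h
      exact (inGm_iff_not_inv hx).2 (Or.inr h)
  · intro hm
    rcases (inGm_iff_not_inv (inGm_inG hm)).1 hm with h0 | h
    · left
      exact Subtype.ext h0
    · right
      exact h

theorem valuation_gaussVS_lt_one_iff (x : FK K N) :
    (gaussVS R N).valuation x < 1 ↔ InGm R (x : LaurentSeries K) := by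
  rw [← mem_nonunits_gaussVS, ValuationSubring.mem_nonunits_iff]

/-- **the twisted Gauss valuation subring `V₂ = w⁻¹ V₁`**. -/
def gaussVSw (w : FK K N →+* FK K N) : ValuationSubring (FK K N) :=
  (gaussVS R N).comap w

theorem mem_gaussVSw (w : FK K N →+* FK K N) (x : FK K N) :
    x ∈ gaussVSw R N w ↔ InG R ((w x : FK K N) : LaurentSeries K) := Iff.rfl

theorem mem_nonunits_gaussVSw (w : FK K N →+* FK K N) (x : FK K N) :
    x ∈ (gaussVSw R N w).nonunits ↔ InGm R ((w x : FK K N) : LaurentSeries K) := by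
  rw [← mem_nonunits_gaussVS, ValuationSubring.mem_nonunits_iff_or,
    ValuationSubring.mem_nonunits_iff_or, mem_gaussVSw, mem_gaussVS, map_inv₀,
    map_eq_zero_iff w w.injective]

theorem valuation_gaussVSw_lt_one_iff (w : FK K N →+* FK K N) (x : FK K N) :
    (gaussVSw R N w).valuation x < 1 ↔ InGm R ((w x : FK K N) : LaurentSeries K) := by
  rw [← mem_nonunits_gaussVSw, ValuationSubring.mem_nonunits_iff]

variable {R N}

/-- **FW-SIG for `V₁`**: an automorphism acting coefficientwise through `σ` in the decomposition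
group preserves `V₁`. -/
theorem h3s_mem_gaussVS_iff {σ : K ≃+* K} (h : IsDecompK R σ) (σ₁ : FK K N →+* FK K N)
    (hσ₁ : ∀ x : FK K N, ((σ₁ x : FK K N) : LaurentSeries K) =
      coeffMap (σ : K →+* K) (x : LaurentSeries K)) (x : FK K N) :
    σ₁ x ∈ gaussVS R N ↔ x ∈ gaussVS R N := by
  rw [mem_gaussVS, mem_gaussVS, hσ₁, h3s_inG_iff h]

theorem h3s_mem_nonunits_gaussVS_iff {σ : K ≃+* K} (h : IsDecompK R σ)
    (σ₁ : FK K N →+* FK K N)
    (hσ₁ : ∀ x : FK K N, ((σ₁ x : FK K N) : LaurentSeries K) =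
      coeffMap (σ : K →+* K) (x : LaurentSeries K)) (x : FK K N) :
    σ₁ x ∈ (gaussVS R N).nonunits ↔ x ∈ (gaussVS R N).nonunits := by
  rw [mem_nonunits_gaussVS, mem_nonunits_gaussVS, hσ₁, h3s_inGm_iff h]

/-- **FW-SIG for `V₂`**: the same for the twist by `w`, when `w` commutes with `σ₁`. -/
theorem h3s_mem_gaussVSw_iff {σ : K ≃+* K} (h : IsDecompK R σ) (σ₁ : FK K N →+* FK K N)
    (hσ₁ : ∀ x : FK K N, ((σ₁ x : FK K N) : LaurentSeries K) =
      coeffMap (σ : K →+* K) (x : LaurentSeries K))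
    (w : FK K N →+* FK K N) (hw : ∀ x, w (σ₁ x) = σ₁ (w x)) (x : FK K N) :
    σ₁ x ∈ gaussVSw R N w ↔ x ∈ gaussVSw R N w := by
  rw [mem_gaussVSw, mem_gaussVSw, hw, hσ₁, h3s_inG_iff h]

theorem h3s_mem_nonunits_gaussVSw_iff {σ : K ≃+* K} (h : IsDecompK R σ)
    (σ₁ : FK K N →+* FK K N)
    (hσ₁ : ∀ x : FK K N, ((σ₁ x : FK K N) : LaurentSeries K) =
      coeffMap (σ : K →+* K) (x : LaurentSeries K))
    (w : FK K N →+* FK K N) (hw : ∀ x, w (σ₁ x) = σ₁ (w x)) (x : FK K N) :
    σ₁ x ∈ (gaussVSw R N w).nonunits ↔ x ∈ (gaussVSw R N w).nonunits := by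
  rw [mem_nonunits_gaussVSw, mem_nonunits_gaussVSw, hw, hσ₁, h3s_inGm_iff h]

/-- **(UNIT), `K`-level**: `σ₁ x / x` is a unit of `V₁` for every `x ≠ 0`. -/
theorem h3s_unit_gaussVS {σ : K ≃+* K} (h : IsDecompK R σ) (σ₁ : FK K N →+* FK K N)
    (hσ₁ : ∀ x : FK K N, ((σ₁ x : FK K N) : LaurentSeries K) =
      coeffMap (σ : K →+* K) (x : LaurentSeries K)) (x : FK K N) (hx : x ≠ 0) :
    σ₁ x / x ∈ gaussVS R N ∧ x / σ₁ x ∈ gaussVS R N := by
  have hxm : (x : LaurentSeries K) ∈ modularFunctionFieldFullC K N := by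
    rw [← gv_bar_eq]
    exact x.2
  have hσxm : coeffMap (σ : K →+* K) (x : LaurentSeries K) ∈ modularFunctionFieldFullC K N := by
    rw [← gv_bar_eq, ← hσ₁]
    exact (σ₁ x).2
  have hx0 : (x : LaurentSeries K) ≠ 0 := fun h0 => hx (Subtype.ext h0)
  constructor
  · rw [mem_gaussVS]
    have := h3s_inG_div h N _ hxm hx0
    rw [← hσ₁] at this
    exact this
  · rw [mem_gaussVS]
    have := h3s_inG_div' h N _ hxm hσxm hx0
    rw [← hσ₁] at this
    exact this

/-- (UNIT) for `V₂`. -/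
theorem h3s_unit_gaussVSw {σ : K ≃+* K} (h : IsDecompK R σ) (σ₁ : FK K N →+* FK K N)
    (hσ₁ : ∀ x : FK K N, ((σ₁ x : FK K N) : LaurentSeries K) =
      coeffMap (σ : K →+* K) (x : LaurentSeries K))
    (w : FK K N →+* FK K N) (hw : ∀ x, w (σ₁ x) = σ₁ (w x)) (x : FK K N) (hx : x ≠ 0) :
    σ₁ x / x ∈ gaussVSw R N w ∧ x / σ₁ x ∈ gaussVSw R N w := by
  have hwx : w x ≠ 0 := fun h0 => hx ((map_eq_zero_iff w w.injective).1 h0)
  have := h3s_unit_gaussVS h σ₁ hσ₁ (w x) hwx
  constructor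
  · show w (σ₁ x / x) ∈ gaussVS R N
    rw [map_div₀, hw]
    exact this.1
  · show w (x / σ₁ x) ∈ gaussVS R N
    rw [map_div₀, hw]
    exact this.2

end H3SIG

end
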