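/-
Item 84 (S35), block FW, slice **FW-SIG** (helper3): the Frobenius twin of (TAU).

`A ⊆ ℚ̄` a valuation subring over `q`, `K₁ ⊆ ℚ̄` normal over `ℚ`, `R = descVal A K₁ = A ∩ K₁`,
`F₁ = FK K₁ N`.  For `σ` in the decomposition group of `A`, `σ₁ := H3TAU.tau1 K₁ N σ`
(coefficientwise action of `σ|K₁`):

* `h3s_isDecompK` : `σ|K₁` preserves `R` in both directions (`IsDecompK`);
* `h3s_isFrobK`   : for a Frobenius `σ` at `A`: `σ r ≡ r ^ q mod 𝔪_R` (`IsFrobK`);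
* `h3s_isDecompE` : `σ₁` is semilinear over `R`, fixes `t`, `σ_R ϖ ∈ ϖ R` (`IsDecompE`), hence
                    preserves `O = {GInt}`, the Gauss ring `{GBase}` and congruences mod `ϖ O`;
* `h3s_sig`       : the full package (compatibility with the arithmetic Galois action on `F̄_N`,
                    `σ₁ t = t`, `σ₁ R = R`, `InG`, `InGm` preserved, also after the Atkin–Lehner
                    involution `w`, `GInt` preserved, (UNIT) at the `K₁`-level);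
* `h3s_frobR`     : `σ₁ r ≡ r ^ q mod ϖ` on `R` for a Frobenius.
-/
import Mathlib
import Fermat.Agent.S35.FWSigVS_helper3
import Fermat.Agent.S35.FWSigE_helper3
import Fermat.Agent.S34.TauPG_helper3

set_option autoImplicit false
set_option linter.unusedSectionVars false
set_option linter.unusedVariables false
set_option linter.style.haveILetI false
set_option linter.overlappingInstances false
set_option synthInstance.maxHeartbeats 400000
set_option maxHeartbeats 1000000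

noncomputable section

namespace H3SIG

open ModularCurve H7S18 H8PB H28GV H3TAU Polynomial

local notation "Qb" => AlgebraicClosure ℚ

/-- a Frobenius element `σ` at `A` satisfies `σ a ≡ a ^ q mod 𝔪_A`. -/
theorem h3s_frob_sub_mem (A : ValuationSubring Qb) {σ : Qb ≃ₐ[ℚ] Qb} {q : ℕ}
    (hσ : A.IsFrobeniusAt σ q) {a : Qb} (ha : a ∈ A) : σ a - a ^ q ∈ A.nonunits := by
  have h1 := hσ.smul_residue_eq (IsLocalRing.residue A ⟨a, ha⟩)
  rw [← IsLocalRing.ResidueField.residue_smul, ← map_pow, ← sub_eq_zero, ← map_sub,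
    IsLocalRing.residue_eq_zero_iff, ← ValuationSubring.coe_mem_nonunits_iff] at h1
  exact h1

variable (K₁ : IntermediateField ℚ Qb) [Normal ℚ K₁]

/-- for `σ` in the decomposition group of `A`, `σ|K₁` preserves `R = A ∩ K₁`. -/
theorem h3s_isDecompK (A : ValuationSubring Qb) {σ : Qb ≃ₐ[ℚ] Qb}
    (hσ : σ ∈ A.decompositionSubgroup ℚ) : IsDecompK (descVal A K₁) (resKR K₁ σ) where
  mem r hr := resK_mem A hσ ⟨r, hr⟩
  mem_symm r hr := by
    show algebraMap K₁ Qb ((resK K₁ σ).symm r) ∈ A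
    rw [resK_symm_commutes]
    have h1 : σ.symm ∈ A.decompositionSubgroup ℚ := inv_mem hσ
    exact Fermat.Agent.H9.h9_decomposition_apply_mem A h1 hr

/-- for a Frobenius `σ` at `A`, `σ|K₁` is a Frobenius for `R = A ∩ K₁`. -/
theorem h3s_isFrobK (A : ValuationSubring Qb) {σ : Qb ≃ₐ[ℚ] Qb} {q : ℕ}
    (hσ : A.IsFrobeniusAt σ q) : IsFrobK (descVal A K₁) q (resKR K₁ σ) where
  toIsDecompK := h3s_isDecompK K₁ A hσ.mem_decompositionSubgroup
  cong r hr := by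
    have h1 := h3s_frob_sub_mem A hσ (a := algebraMap K₁ Qb r) hr
    rw [← resK_commutes, ← map_pow, ← map_sub] at h1
    rw [ValuationSubring.mem_nonunits_iff_or] at h1 ⊢
    rcases h1 with h1 | h1
    · left
      exact (map_eq_zero_iff _ (algebraMap K₁ Qb).injective).1 h1
    · right
      intro h2
      apply h1
      rw [← map_inv₀]
      exact h2

variable (N : ℕ) [NeZero N]

theorem coe_tau1' (σ : Qb ≃ₐ[ℚ] Qb) (x : FK K₁ N) :
    ((tau1 K₁ N σ x : FK K₁ N) : LaurentSeries K₁) =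
      coeffMap ((resKR K₁ σ : K₁ ≃+* K₁) : K₁ →+* K₁) (x : LaurentSeries K₁) := rfl

/-- `σ₁` is `σ_R`-semilinear, fixes `t`, and `σ_R ϖ ∈ ϖ R`. -/
theorem h3s_isDecompE (A : ValuationSubring Qb) [IsDomain (descVal A K₁)]
    [IsDiscreteValuationRing (descVal A K₁)]
    [Algebra ↥(descVal A K₁) (FK K₁ N)] [IsScalarTower ↥(descVal A K₁) K₁ (FK K₁ N)]
    {ϖ : descVal A K₁} (hϖ : Irreducible ϖ)
    {σ : Qb ≃ₐ[ℚ] Qb} (hσ : σ ∈ A.decompositionSubgroup ℚ)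
    (t₀ : LaurentSeries ℚ) (t : FK K₁ N) (ht : (t : LaurentSeries K₁) = coeffEmb K₁ t₀) :
    IsDecompE ϖ t (tau1 K₁ N σ) (dsigR (h3s_isDecompK K₁ A hσ))
      (dsigR (h3s_isDecompK K₁ A hσ).symm) where
  semilinear r := by
    rw [IsScalarTower.algebraMap_apply ↥(descVal A K₁) K₁ (FK K₁ N),
      IsScalarTower.algebraMap_apply ↥(descVal A K₁) K₁ (FK K₁ N), tau1_algebraMap]
    rfl
  semilinear_symm r := by
    rw [IsScalarTower.algebraMap_apply ↥(descVal A K₁) K₁ (FK K₁ N),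
      IsScalarTower.algebraMap_apply ↥(descVal A K₁) K₁ (FK K₁ N), tau1_symm_algebraMap]
    rfl
  fix_t := h3tau_fix K₁ N σ t t₀ ht
  pi := by
    have h1 := (h3s_sig_div_mem_of_mem (h3s_isDecompK K₁ A hσ) ϖ hϖ.ne_zero).1
    refine ⟨⟨_, h1⟩, Subtype.ext ?_⟩
    have hϖ0 : ((ϖ : descVal A K₁) : K₁) ≠ 0 := fun h0 => hϖ.ne_zero (Subtype.ext h0)
    show resKR K₁ σ (ϖ : K₁) = (ϖ : K₁) * (resKR K₁ σ (ϖ : K₁) / (ϖ : K₁))
    field_simp
  pi_symm := by
    have h1 := (h3s_sig_div_mem_of_mem (h3s_isDecompK K₁ A hσ).symm ϖ hϖ.ne_zero).1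
    refine ⟨⟨_, h1⟩, Subtype.ext ?_⟩
    have hϖ0 : ((ϖ : descVal A K₁) : K₁) ≠ 0 := fun h0 => hϖ.ne_zero (Subtype.ext h0)
    show (resKR K₁ σ).symm (ϖ : K₁) = (ϖ : K₁) * ((resKR K₁ σ).symm (ϖ : K₁) / (ϖ : K₁))
    field_simp

/-- **Frobenius on `R`**: `σ₁ r ≡ r ^ q mod ϖ`. -/
theorem h3s_frobR (A : ValuationSubring Qb) [IsDomain (descVal A K₁)]
    [IsDiscreteValuationRing (descVal A K₁)]
    [Algebra ↥(descVal A K₁) (FK K₁ N)] [IsScalarTower ↥(descVal A K₁) K₁ (FK K₁ N)]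
    {ϖ : descVal A K₁} (hϖ : Irreducible ϖ) {q : ℕ}
    {σ : Qb ≃ₐ[ℚ] Qb} (hσ : A.IsFrobeniusAt σ q) (r : descVal A K₁) :
    ∃ r' : descVal A K₁,
      tau1 K₁ N σ (algebraMap ↥(descVal A K₁) (FK K₁ N) r) -
        (algebraMap ↥(descVal A K₁) (FK K₁ N) r) ^ q =
        algebraMap ↥(descVal A K₁) (FK K₁ N) ϖ * algebraMap ↥(descVal A K₁) (FK K₁ N) r' := by
  obtain ⟨r', hr'⟩ := dsigR_frob (h3s_isFrobK K₁ A hσ) hϖ r
  refine ⟨r', ?_⟩
  have h1 := (h3s_isDecompE K₁ N A hϖ hσ.mem_decompositionSubgroup 0 0 (by simp)).semilinear r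
  rw [h1, ← map_pow, ← map_sub, ← map_mul]
  exact congrArg _ hr'

/-- **FW-SIG, the package** for `σ` in the decomposition group of `A`, at level `N = M q`
(`w` = Atkin–Lehner involution of helper12). -/
theorem h3s_sig (M : ℕ) [NeZero M] (q : ℕ) [NeZero q] (hq : q.Prime) (hqM : ¬ q ∣ M)
    (A : ValuationSubring Qb) [IsDomain (descVal A K₁)]
    [IsDiscreteValuationRing (descVal A K₁)]
    [Algebra ↥(descVal A K₁) (FK K₁ (M * q))]
    [IsScalarTower ↥(descVal A K₁) K₁ (FK K₁ (M * q))]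
    {ϖ : descVal A K₁} (hϖ : Irreducible ϖ)
    {σ : Qb ≃ₐ[ℚ] Qb} (hσ : σ ∈ A.decompositionSubgroup ℚ)
    (t₀ : LaurentSeries ℚ) (t : FK K₁ (M * q))
    (ht : (t : LaurentSeries K₁) = coeffEmb K₁ t₀) :
    -- compatibility with the arithmetic Galois action on `F̄_N`
    (∀ (x : FK K₁ (M * q)) (y : modularFunctionFieldBar (M * q)),
      (y : LaurentSeries Qb) = coeffMap (algebraMap K₁ Qb) (x : LaurentSeries K₁) →
      ((arithmeticGalois (modularFunctionFieldFull (M * q)) σ • y :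
          modularFunctionFieldBar (M * q)) : LaurentSeries Qb) =
        coeffMap (algebraMap K₁ Qb) (tau1 K₁ (M * q) σ x : LaurentSeries K₁)) ∧
    tau1 K₁ (M * q) σ t = t ∧
    (∀ r : ↥(descVal A K₁), ∃ r' : ↥(descVal A K₁),
      tau1 K₁ (M * q) σ (algebraMap ↥(descVal A K₁) (FK K₁ (M * q)) r) =
        algebraMap ↥(descVal A K₁) (FK K₁ (M * q)) r') ∧
    (∀ r : ↥(descVal A K₁), ∃ r' : ↥(descVal A K₁),
      (tau1 K₁ (M * q) σ).symm (algebraMap ↥(descVal A K₁) (FK K₁ (M * q)) r) =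
        algebraMap ↥(descVal A K₁) (FK K₁ (M * q)) r') ∧
    (∀ x : FK K₁ (M * q), InG (descVal A K₁) ((tau1 K₁ (M * q) σ x : FK K₁ (M * q)) :
        LaurentSeries K₁) ↔ InG (descVal A K₁) (x : LaurentSeries K₁)) ∧
    (∀ x : FK K₁ (M * q), InGm (descVal A K₁) ((tau1 K₁ (M * q) σ x : FK K₁ (M * q)) :
        LaurentSeries K₁) ↔ InGm (descVal A K₁) (x : LaurentSeries K₁)) ∧
    (∀ x : FK K₁ (M * q), H12AL.wqKHom K₁ M q hq hqM (tau1 K₁ (M * q) σ x) =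
        tau1 K₁ (M * q) σ (H12AL.wqKHom K₁ M q hq hqM x)) ∧
    (∀ x : FK K₁ (M * q),
      InG (descVal A K₁) ((H12AL.wqKHom K₁ M q hq hqM (tau1 K₁ (M * q) σ x) : FK K₁ (M * q)) :
        LaurentSeries K₁) ↔
      InG (descVal A K₁) ((H12AL.wqKHom K₁ M q hq hqM x : FK K₁ (M * q)) :
        LaurentSeries K₁)) ∧
    (∀ x : FK K₁ (M * q),
      InGm (descVal A K₁) ((H12AL.wqKHom K₁ M q hq hqM (tau1 K₁ (M * q) σ x) : FK K₁ (M * q)) :
        LaurentSeries K₁) ↔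
      InGm (descVal A K₁) ((H12AL.wqKHom K₁ M q hq hqM x : FK K₁ (M * q)) :
        LaurentSeries K₁)) ∧
    (∀ x : FK K₁ (M * q), GInt ↥(descVal A K₁) ϖ t (tau1 K₁ (M * q) σ x) ↔
      GInt ↥(descVal A K₁) ϖ t x) ∧
    (∀ x : FK K₁ (M * q), x ≠ 0 →
      InG (descVal A K₁) ((tau1 K₁ (M * q) σ x / x : FK K₁ (M * q)) : LaurentSeries K₁) ∧
      InG (descVal A K₁) ((x / tau1 K₁ (M * q) σ x : FK K₁ (M * q)) : LaurentSeries K₁) ∧
      InG (descVal A K₁) ((H12AL.wqKHom K₁ M q hq hqM (tau1 K₁ (M * q) σ x / x) :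
        FK K₁ (M * q)) : LaurentSeries K₁) ∧
      InG (descVal A K₁) ((H12AL.wqKHom K₁ M q hq hqM (x / tau1 K₁ (M * q) σ x) :
        FK K₁ (M * q)) : LaurentSeries K₁)) := by
  have hd := h3s_isDecompK K₁ A hσ
  have hE := h3s_isDecompE K₁ (M * q) A hϖ hσ t₀ t ht
  have hcoe : ∀ x : FK K₁ (M * q),
      ((((tau1 K₁ (M * q) σ : FK K₁ (M * q) ≃+* FK K₁ (M * q)) :
        FK K₁ (M * q) →+* FK K₁ (M * q)) x : FK K₁ (M * q)) : LaurentSeries K₁) =
      coeffMap ((resKR K₁ σ : K₁ ≃+* K₁) : K₁ →+* K₁) (x : LaurentSeries K₁) := fun x => rfl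
  -- `σ₁` commutes with `w`
  have hw : ∀ x : FK K₁ (M * q), H12AL.wqKHom K₁ M q hq hqM (tau1 K₁ (M * q) σ x) =
      tau1 K₁ (M * q) σ (H12AL.wqKHom K₁ M q hq hqM x) := by
    intro x
    apply Subtype.ext
    rw [coe_tau1']
    exact H12AL.wqKHom_galois K₁ M q hq hqM σ ((resKR K₁ σ : K₁ ≃+* K₁) : K₁ →+* K₁)
      (fun c => resK_commutes K₁ σ c) x (tau1 K₁ (M * q) σ x) rfl
  refine ⟨?_, hE.fix_t, fun r => ⟨_, hE.semilinear r⟩, fun r => ⟨_, hE.semilinear_symm r⟩,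
    ?_, ?_, hw, ?_, ?_, fun x => h3s_gint_iff hE x, ?_⟩
  · intro x y hxy
    rw [coe_arithmeticGalois_smul, hxy, coe_tau1, coeffMap_coeffMap, coeffMap_coeffMap]
    refine coeffMap_congr (RingHom.ext fun a => ?_) _
    exact (resK_commutes K₁ σ a).symm
  · intro x
    rw [coe_tau1', h3s_inG_iff hd]
  · intro x
    rw [coe_tau1', h3s_inGm_iff hd]
  · intro x
    rw [hw, coe_tau1', h3s_inG_iff hd]
  · intro x
    rw [hw, coe_tau1', h3s_inGm_iff hd]
  · intro x hx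
    have h1 := h3s_unit_gaussVS hd
      ((tau1 K₁ (M * q) σ : FK K₁ (M * q) ≃+* FK K₁ (M * q)) :
        FK K₁ (M * q) →+* FK K₁ (M * q)) hcoe x hx
    have h2 := h3s_unit_gaussVSw hd
      ((tau1 K₁ (M * q) σ : FK K₁ (M * q) ≃+* FK K₁ (M * q)) :
        FK K₁ (M * q) →+* FK K₁ (M * q)) hcoe (H12AL.wqKHom K₁ M q hq hqM) hw x hx
    exact ⟨h1.1, h1.2, h2.1, h2.2⟩

end H3SIG

end
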