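/-
Item 84 (S35), block FW, slice **FW-SIG** (helper3): `H17FW.SigStatement`.

`H3SIG.sigStatement : H17FW.SigStatement` (unconditional): `σ₁ := H3TAU.tau1 K₁ (N' q) σ`,
`K₀ := ⊥`; all clauses from `H3SIG.h3s_sig`.
-/
import Mathlib
import Fermat.Agent.S35.FWSig_helper3
import Fermat.Agent.S35.FWDefsK_helper17

set_option autoImplicit false
set_option linter.unusedSectionVars false
set_option linter.unusedVariables false
set_option linter.style.haveILetI false
set_option linter.overlappingInstances false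
set_option synthInstance.maxHeartbeats 400000
set_option maxHeartbeats 1000000

noncomputable section

namespace H3SIG

open ModularCurve H7S18 H8PB H28GV H3TAU H17FW H11W3G Polynomial

local notation "Qb" => AlgebraicClosure ℚ

/-- `tau1` is a coefficientwise action. -/
theorem h3s_isCoeffAct (K₁ : IntermediateField ℚ Qb) [Normal ℚ K₁] (N : ℕ) [NeZero N]
    (σ : Qb ≃ₐ[ℚ] Qb) : IsCoeffAct K₁ N σ (tau1 K₁ N σ) :=
  ⟨((resKR K₁ σ : K₁ ≃+* K₁) : K₁ →+* K₁), fun c => resK_commutes K₁ σ c, fun x => rfl⟩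

/-- **(FW-SIG)**. -/
theorem sigStatement : SigStatement := by
  intro N' _ q _ hq hqN hT A hA
  refine ⟨⊥, IntermediateField.instFiniteSubtypeMemBot ℚ, ?_⟩
  intro K₁ _ hfin hnorm _ _ ϖ hϖ t₀ ht₀ t ht σ hσ
  haveI := hnorm
  haveI : Fact q.Prime := ⟨hq⟩
  obtain ⟨hdvr, -, -⟩ := H4DVR.dvrStatement q A hA K₁ hfin
  haveI := hdvr
  obtain ⟨h1, h2, h3, h4, h5, h6, h7, -, -, -, -⟩ :=
    h3s_sig K₁ N' q hq hqN A hϖ hσ.mem_decompositionSubgroup t₀ t ht
  exact ⟨tau1 K₁ (N' * q) σ, h3s_isCoeffAct K₁ (N' * q) σ, h1, h2, h3, h4,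
    fun x => (h5 x).symm, fun x => (h6 x).symm, h7⟩

end H3SIG

end
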