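import Mathlib
import Fermat.Agent.S35.Defs_helper11

/-!
# Item 82b (S35): the algebra of the assembly (helper11)

* `h11alg_trace`: `A² - tA + q = 0`, `frobPoly q (A) = 0`, `A` invertible on a nonzero
  torsion-free module over a domain `⇒ t = q + 1 ∨ t = -(q + 1)`;
* `h11alg_injective`: a ring homomorphism from a subring of `ℂ` which is integral over `ℤ` to a
  domain of characteristic `0` is injective.
-/

set_option autoImplicit false

noncomputable section

open Polynomial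

namespace H11S35

theorem h11alg_frobPoly_map (𝒪 : Type*) [CommRing 𝒪] (q : ℕ) :
    (frobPoly q).map (algebraMap ℤ 𝒪) =
      ((X ^ 2 - 1) * (X ^ 2 - C ((q : 𝒪) ^ 2))) ^ 2 := by
  simp [frobPoly, Polynomial.map_pow, Polynomial.map_mul, Polynomial.map_sub]

theorem h11alg_identity (𝒪 : Type*) [CommRing 𝒪] (t q : 𝒪) :
    ((X ^ 2 - 1) * (X ^ 2 - C (q ^ 2)) : 𝒪[X]) =
      (X ^ 2 - C t * X + C q) * (X ^ 2 + C t * X + C q) + C (t ^ 2 - (q + 1) ^ 2) * X ^ 2 := by
  simp only [map_sub, map_add, map_pow, map_one]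
  ring

/-- **(ALG)** -/
theorem h11alg_trace {𝒪 : Type*} [CommRing 𝒪] [IsDomain 𝒪] {M : Type*} [AddCommGroup M]
    [Module 𝒪 M] [Module.IsTorsionFree 𝒪 M] [Nontrivial M]
    (A B : Module.End 𝒪 M) (hAB : A * B = 1) (hBA : B * A = 1) (t : 𝒪) (q : ℕ)
    (h1 : A * A - t • A + (q : 𝒪) • (1 : Module.End 𝒪 M) = 0)
    (h2 : Polynomial.aeval A (frobPoly q) = 0) :
    t = (q : 𝒪) + 1 ∨ t = -((q : 𝒪) + 1) := by
  set c : 𝒪 := t ^ 2 - ((q : 𝒪) + 1) ^ 2 with hc
  have h3 : Polynomial.aeval A ((frobPoly q).map (algebraMap ℤ 𝒪)) = 0 := by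
    rw [Polynomial.aeval_map_algebraMap]
    exact h2
  rw [h11alg_frobPoly_map, h11alg_identity 𝒪 t (q : 𝒪)] at h3
  have h4 : Polynomial.aeval A (X ^ 2 - C t * X + C (q : 𝒪) : 𝒪[X]) = 0 := by
    simp only [map_sub, map_add, map_mul, map_pow, aeval_X, aeval_C, Algebra.algebraMap_eq_smul_one]
    rw [← h1, pow_two, smul_mul_assoc, one_mul]
  have h5 : (c • (A ^ 2)) ^ 2 = 0 := by
    have h6 : Polynomial.aeval A
        ((X ^ 2 - C t * X + C (q : 𝒪)) * (X ^ 2 + C t * X + C (q : 𝒪)) +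
          C (t ^ 2 - ((q : 𝒪) + 1) ^ 2) * X ^ 2 : 𝒪[X]) = c • (A ^ 2) := by
      rw [map_add, map_mul, h4, zero_mul, zero_add, map_mul, aeval_C, map_pow, aeval_X,
        Algebra.algebraMap_eq_smul_one, smul_mul_assoc, one_mul]
    rw [← h6, ← map_pow]
    exact h3
  have h7 : (c ^ 2) • (A ^ 4) = 0 := by
    have h := h5
    rw [pow_two, smul_mul_smul_comm, ← pow_two, ← pow_add] at h
    exact h
  have hAB4 : A ^ 4 * B ^ 4 = 1 := by
    have hcomm : Commute A B := hAB.trans hBA.symm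
    rw [← hcomm.mul_pow, hAB, one_pow]
  have h8 : (c ^ 2) • (1 : Module.End 𝒪 M) = 0 := by
    rw [← hAB4, ← smul_mul_assoc, h7, zero_mul]
  have h9 : c ^ 2 = 0 := by
    obtain ⟨m, hm⟩ := exists_ne (0 : M)
    have h10 := congrArg (fun E : Module.End 𝒪 M => E m) h8
    simp only [LinearMap.smul_apply, Module.End.one_apply, LinearMap.zero_apply] at h10
    rcases smul_eq_zero.mp h10 with h | h
    · exact h
    · exact absurd h hm
  have h10 : c = 0 := pow_eq_zero_iff (two_ne_zero) |>.mp h9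
  have h11 : (t - ((q : 𝒪) + 1)) * (t + ((q : 𝒪) + 1)) = 0 := by
    rw [← h10, hc]; ring
  rcases mul_eq_zero.mp h11 with h | h
  · exact Or.inl (sub_eq_zero.mp h)
  · exact Or.inr (eq_neg_of_add_eq_zero_left h)

/-- a ring homomorphism from an integral domain, integral over `ℤ`, of characteristic `0`, to a
domain of characteristic `0` is injective -/
theorem h11alg_injective {R 𝒪 : Type*} [CommRing R] [IsDomain R] [CommRing 𝒪] [IsDomain 𝒪]
    [CharZero 𝒪] (hint : ∀ x : R, IsIntegral ℤ x) (f : R →+* 𝒪) : Function.Injective f := by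
  have : Algebra.IsIntegral ℤ R := ⟨hint⟩
  have h1 : (RingHom.ker f).comap (algebraMap ℤ R) = ⊥ := by
    rw [eq_bot_iff]
    intro n hn
    rw [Ideal.mem_comap, RingHom.mem_ker, eq_intCast, map_intCast] at hn
    rw [Ideal.mem_bot]
    exact_mod_cast hn
  have h2 := Ideal.eq_bot_of_comap_eq_bot h1
  exact (RingHom.injective_iff_ker_eq_bot f).mpr h2

end H11S35

end
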