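import Mathlib
import Fermat.Agent.W3G.EigenAdicAbs_helper23

/-!
# Item 82b (S35): the transfer principle TP⁺ — exact statement (helper11)

`H11S35.TPPlusStatement` = `H23EA.h23ea_main` (same hypotheses, same three clauses) with a FOURTH
clause: for a word `P` in the Hecke operators and a polynomial `F ∈ ℤ[X]`, if

  `F(σ) y = 0`  for all `y = P(TJ) (emb (p^k) a)`, all `k`, `a`,

then `P(c) • F(ρ(σ)) = 0` on the eigenlattice.

Proof: copy `H23T.h23t_eigenlattice` + `H23EA.h23ea_main` (the module `M` is the eigenlattice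
`h23tEigen`, `ρ` the restriction of the `p`-adic limit `ρO`); new: with `A` the matrix of `σ`
on the image of `emb (p^k)` and `T_P := FreeAlgebra.lift ℤ Tmat P`:
`F(A) T_P ≡ 0 mod p^k` (`h23ea_map_eq_zero`), pass to the limit in `ℤ_[p]`, map to
`𝒪`, apply to `v ∈ M` (`T_P v = P(c) v`, induction on `P` via `FreeAlgebra.induction`).
-/

set_option autoImplicit false

noncomputable section

namespace H11S35

/-- **TP⁺**: `H23EA.h23ea_main` with polynomial relations for words in the Hecke operators. -/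
def TPPlusStatement : Prop :=
  ∀ (G : Type) [Group G] (J : Type) [AddCommGroup J] [DistribMulAction G J]
    (ι : Type) [Fintype ι] [DecidableEq ι] (D : H23EA.h23eaDatum G J ι)
    (p : ℕ) [Fact p.Prime]
    (𝒪 : Type) [CommRing 𝒪] [IsDomain 𝒪] [IsDiscreteValuationRing 𝒪]
    [IsAdicComplete (IsLocalRing.maximalIdeal 𝒪) 𝒪]
    (_hp : (p : 𝒪) ∈ IsLocalRing.maximalIdeal 𝒪) (_hp0 : (p : 𝒪) ≠ 0)
    (τ : Type) (Tmat : τ → Matrix ι ι ℤ) (TJ : τ → (J →+ J)) (c : τ → 𝒪)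
    (_hT : ∀ n : ℕ, 0 < n → ∀ (t : τ) (a : ι → ℤ),
      D.emb n ((Tmat t).mulVec a) = TJ t (D.emb n a))
    (_hcommJ : ∀ (t : τ) (σ : G) (x : J), σ • TJ t x = TJ t (σ • x))
    (_heig : ∃ v : ι → 𝒪, v ≠ 0 ∧
      ∀ t, ((Tmat t).map (Int.cast : ℤ → 𝒪)).mulVec v = c t • v),
    ∃ (M : Type) (_ : AddCommGroup M) (_ : Module 𝒪 M) (_ : Module.Free 𝒪 M)
      (_ : Module.Finite 𝒪 M) (_ : Nontrivial M) (ρ : G →* Module.End 𝒪 M),
      (∀ (σ : G) (n : ℕ), (∀ a, σ • D.emb (p ^ n) a = D.emb (p ^ n) a) →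
        ∀ v : M, ρ σ v - v ∈ (IsLocalRing.maximalIdeal 𝒪 ^ n) • (⊤ : Submodule 𝒪 M)) ∧
      (∀ σ : G, (∀ k a, σ • D.emb (p ^ k) a = D.emb (p ^ k) a) → ρ σ = 1) ∧
      (∀ (σ : G) (t : τ) (ℓ : ℤ),
        (∀ k a, σ • σ • D.emb (p ^ k) a - TJ t (σ • D.emb (p ^ k) a) + ℓ • D.emb (p ^ k) a = 0) →
        ρ σ * ρ σ - c t • ρ σ + (ℓ : 𝒪) • (1 : Module.End 𝒪 M) = 0) ∧
      (∀ (σ : G) (P : FreeAlgebra ℤ τ) (F : Polynomial ℤ),
        (∀ k a,
          Polynomial.aeval ((DistribSMul.toAddMonoidHom J σ).toIntLinearMap : Module.End ℤ J) F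
            (FreeAlgebra.lift ℤ (fun t => (TJ t).toIntLinearMap) P (D.emb (p ^ k) a)) = 0) →
        FreeAlgebra.lift ℤ c P • Polynomial.aeval (ρ σ) F = 0)

end H11S35

end
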