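import Mathlib
import Fermat.Agent.S35.Defs_helper11
import Fermat.Agent.S35.TPPlusDefs_helper11
import Fermat.Agent.W3G.EigenAdic_helper23

/-!
# Item 82b (S35): the Hecke–Galois lattice with polynomial relations (helper11)

`h11eig_plus`: `H23EA.h23ea_eigenAdic_at` with `H23EA.h23ea_main` replaced by `TPPlusStatement`:
the eigenlattice `M` of a character `χ` of the Hecke algebra, with the three clauses of
`EigenAdicStatement` and the FOURTH clause

  `(∀ k, ∀ x Tate-divisible in J₀(N)[p^k], F(σ) (P(T) x) = 0) → χ(P) • F(ρ σ) = 0`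

for every word `P` in the `T_ℓ` (`ℓ ∤ N`, `ℓ ∉ S`) and every `F ∈ ℤ[X]`.
-/

set_option autoImplicit false
set_option linter.style.longLine false
set_option linter.unusedSectionVars false
set_option linter.style.haveILetI false

open Matrix

noncomputable section

namespace H11S35

open H11W3G ModularCurve CongruenceSubgroup TensorProduct H23EA

/-- **EigenAdic⁺ at level `N`.** -/
theorem h11eig_plus (hTP : TPPlusStatement) (N : ℕ) [NeZero N]
    (hHecke : HeckeLStatement N) (hLam : LamGalStatement N)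
    (hESI : ESInertiaStatement N) (hESF : ESFrobeniusStatement N)
    (hComm : CommStatement N) (hFin : FinLevStatement N) (hEig : EigHAdicStatement)
    (p : ℕ) [Fact p.Prime] (S : Finset ℕ)
    (hpS : p ∈ S)
    (𝒪' : Type) [CommRing 𝒪'] [IsDomain 𝒪'] [IsDiscreteValuationRing 𝒪']
    [IsAdicComplete (IsLocalRing.maximalIdeal 𝒪') 𝒪']
    [CharZero 𝒪'] (hp𝒪' : (p : 𝒪') ∈ IsLocalRing.maximalIdeal 𝒪')
    (χ : CuspForm.heckeAlgebra N 2 (↑S : Set ℕ) →+* 𝒪') :
    ∃ (M : Type) (_ : AddCommGroup M) (_ : Module 𝒪' M) (_ : Module.Free 𝒪' M)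
      (_ : Module.Finite 𝒪' M) (_ : Nontrivial M) (ρ : GQ →* Module.End 𝒪' M),
      GaloisActionIsAdicContinuous 𝒪' ρ ∧
      (∀ q : ℕ, q.Prime → ¬ q ∣ N → q ≠ p → ∀ A : ValuationSubring (AlgebraicClosure ℚ),
        A.LiesOverPrime q → ∀ σ ∈ A.inertiaSubgroupIn ℚ, ρ σ = 1) ∧
      (∀ (ℓ : ℕ) (hℓ : ℓ.Prime) (hℓN : ¬ ℓ ∣ N) (hℓS : ℓ ∉ (↑S : Set ℕ)),
        ∀ A : ValuationSubring (AlgebraicClosure ℚ), A.LiesOverPrime ℓ →
          ∀ σ : GQ, A.IsFrobeniusAt σ ℓ →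
            QuadRel (ρ σ) (χ (CuspForm.heckeAlgebra.T hℓ hℓN hℓS)) (ℓ : 𝒪')) ∧
      (∀ (σ : GQ) (P : Wd N S) (F : Polynomial ℤ),
        (∀ (k : ℕ) (x : JZero N), IsTateDiv p k x →
          Polynomial.aeval (sigEnd σ : Module.End ℤ (JZero N)) F (evalJ N S P x) = 0) →
        χ (evalHecke N S P) • Polynomial.aeval (ρ σ) F = 0) := by
  classical
  have hpp : p.Prime := Fact.out
  obtain ⟨lam, hlam, hgal⟩ := hLam
  let ι := Module.Free.ChooseBasisIndex ℤ (Lpar N)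
  let b : Module.Basis ι ℤ (Lpar N) := Module.Free.chooseBasis ℤ (Lpar N)
  let D := h23eaDatumOfLam N b lam hlam hgal
  have hDemb : ∀ (n : ℕ) (a : ι → ℤ), D.emb n a = lam n (b.equivFun.symm a) := fun _ _ => rfl
  -- the index set of Hecke operators
  let τ : Type := Idx N S
  have hT0 : ∀ t : τ, ∃ T : Lpar N →ₗ[ℤ] Lpar N, @IsHeckeL N t.1 ⟨t.2.1⟩ t.2.2.1 T := by
    intro t
    haveI : Fact t.1.Prime := ⟨t.2.1⟩
    exact hHecke t.1 t.2.2.1
  choose T hTH using hT0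
  have hTlam : ∀ (t : τ) (n : ℕ), 0 < n → ∀ φ : Lpar N,
      lam n (T t φ) = heckeOperatorBar N ⟨t.1, t.2.1⟩ (lam n φ) := by
    intro t n hn φ
    haveI : Fact t.1.Prime := ⟨t.2.1⟩
    exact hlam.2.2.2 n hn t.1 t.2.1 t.2.2.1 (T t) (hTH t) φ
  let Tmat : τ → Matrix ι ι ℤ := fun t => LinearMap.toMatrix b b (T t)
  let TJ : τ → (JZero N →+ JZero N) := fun t => (heckeOperatorBar N ⟨t.1, t.2.1⟩).toAddMonoidHom
  let c : τ → 𝒪' := fun t => χ (CuspForm.heckeAlgebra.T t.2.1 t.2.2.1 t.2.2.2)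
  have hT : ∀ n : ℕ, 0 < n → ∀ (t : τ) (a : ι → ℤ),
      D.emb n ((Tmat t).mulVec a) = TJ t (D.emb n a) := by
    intro n hn t a
    rw [hDemb, hDemb]
    have h1 : b.equivFun.symm ((Tmat t).mulVec a) = T t (b.equivFun.symm a) := by
      apply b.equivFun.injective
      rw [LinearEquiv.apply_symm_apply]
      have h2 := LinearMap.toMatrix_mulVec_repr b b (T t) (b.equivFun.symm a)
      have h3 : (b.repr (b.equivFun.symm a) : ι → ℤ) = a := b.equivFun.apply_symm_apply a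
      rw [h3] at h2
      exact h2
    rw [h1, hTlam t n hn]
    rfl
  have hcommJ : ∀ (t : τ) (σ : GQ) (x : JZero N), σ • TJ t x = TJ t (σ • x) := by
    intro t σ x
    exact hComm t.1 t.2.1 t.2.2.1 σ x
  have heig : ∃ v : ι → 𝒪', v ≠ 0 ∧
      ∀ t, ((Tmat t).map (Int.cast : ℤ → 𝒪')).mulVec v = c t • v := by
    obtain ⟨v, hv0, hv⟩ := hEig N S 𝒪' χ
    let B : Module.Basis ι 𝒪' (𝒪' ⊗[ℤ] Lpar N) := Algebra.TensorProduct.basis 𝒪' b
    refine ⟨B.equivFun v, ?_, ?_⟩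
    · intro h
      apply hv0
      exact B.equivFun.map_eq_zero_iff.1 h
    · intro t
      haveI : Fact t.1.Prime := ⟨t.2.1⟩
      have h1 := hv t.1 t.2.1 t.2.2.1 t.2.2.2 (T t) (hTH t)
      have h2 := LinearMap.toMatrix_mulVec_repr B B ((T t).baseChange 𝒪') v
      rw [h1] at h2
      have h3 : LinearMap.toMatrix B B ((T t).baseChange 𝒪') =
          (Tmat t).map (Int.cast : ℤ → 𝒪') := by
        have := LinearMap.toMatrix_baseChange (A := 𝒪') (T t) b b
        rw [this]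
        rfl
      rw [h3] at h2
      rw [map_smul] at h2
      exact h2
  have hp0 : (p : 𝒪') ≠ 0 := Nat.cast_ne_zero.2 hpp.ne_zero
  obtain ⟨M, i1, i2, i3, i4, i5, ρ, h1, h2, h3, h4⟩ :=
    hTP GQ (JZero N) ι D p 𝒪' hp𝒪' hp0 τ Tmat TJ c hT hcommJ heig
  refine ⟨M, i1, i2, i3, i4, i5, ρ, ?_, ?_, ?_, ?_⟩
  · -- adic continuity
    intro n
    have hL : ∀ j : ι, ∃ L : IntermediateField ℚ (AlgebraicClosure ℚ), FiniteDimensional ℚ L ∧
        ∀ σ : GQ, (∀ y ∈ L, σ y = y) →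
          σ • D.emb (p ^ n) (Pi.single j 1) = D.emb (p ^ n) (Pi.single j 1) :=
      fun j => hFin _
    choose L hL1 hL2 using hL
    refine ⟨⨆ j, L j, ?_, ?_⟩
    · haveI : ∀ j, FiniteDimensional ℚ (L j) := hL1
      exact IntermediateField.finiteDimensional_iSup_of_finite
    · intro σ hσ v
      apply h1 σ n
      apply h23ea_fix_of_single D (p ^ n) σ
      intro j
      apply hL2 j σ
      intro y hy
      exact hσ y ((le_iSup L j) hy)
  · -- unramified outside `N p`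
    intro q hq hqN hqp A hA σ hσ
    apply h2 σ
    intro k a
    apply hESI (p ^ k) q hq hqN _ A hA σ hσ
    · exact D.tors _ _
    · intro hdvd
      exact hqp ((Nat.prime_dvd_prime_iff_eq hq hpp).1 (hq.dvd_of_dvd_pow hdvd))
  · -- the Eichler–Shimura relation
    intro ℓ hℓ hℓN hℓS A hA σ hσ
    have hℓp : ℓ ≠ p := by
      rintro rfl
      exact hℓS (Finset.mem_coe.2 hpS)
    have h5 := h3 σ ⟨ℓ, hℓ, hℓN, hℓS⟩ (ℓ : ℤ) ?_
    · show ρ σ * ρ σ - χ (CuspForm.heckeAlgebra.T hℓ hℓN hℓS) • ρ σ + (ℓ : 𝒪') • 1 = 0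
      have h6 : (((ℓ : ℤ) : 𝒪')) = (ℓ : 𝒪') := by push_cast; rfl
      rw [h6] at h5
      exact h5
    · intro k a
      have h6 := hESF (p ^ k) ℓ hℓ hℓN (fun hdvd =>
        hℓp ((Nat.prime_dvd_prime_iff_eq hℓ hpp).1 (hℓ.dvd_of_dvd_pow hdvd))) A hA σ hσ
        (D.emb (p ^ k) a) (D.tors _ _)
      rw [natCast_zsmul]
      exact h6
  · -- polynomial relations
    intro σ P F hrel
    have hc : FreeAlgebra.lift ℤ c P = χ (evalHecke N S P) := by
      have h5 : (FreeAlgebra.lift ℤ c : FreeAlgebra ℤ τ →ₐ[ℤ] 𝒪') =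
          (χ.toIntAlgHom).comp (evalHecke N S) := by
        apply FreeAlgebra.hom_ext
        funext t
        simp only [Function.comp_apply, FreeAlgebra.lift_ι_apply, AlgHom.comp_apply, evalHecke]
        rfl
      rw [h5]
      rfl
    rw [← hc]
    apply h4 σ P F
    intro k a
    have hTJ : (fun t : τ => (TJ t).toIntLinearMap) =
        fun t : Idx N S => heckeOperatorBar N ⟨t.1, t.2.1⟩ := by
      funext t
      apply LinearMap.ext
      intro x
      rfl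
    rw [hTJ]
    refine hrel k (D.emb (p ^ k) a) ?_
    intro j hj
    refine ⟨D.emb (p ^ j) a, D.tors _ _, ?_⟩
    have h5 := D.compat (p ^ k) (p ^ (j - k)) (pow_pos hpp.pos _) (pow_pos hpp.pos _) a
    rw [← pow_add, Nat.add_sub_cancel' hj] at h5
    exact h5

end H11S35

end
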