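import Mathlib
import Fermat.Agent.S35.ASMAlg_helper11
import Fermat.Agent.S35.ASMEigen_helper11
import Fermat.Agent.W3G.FinalAdic_helper11
import Fermat.Agent.S22

/-!
# Item 82b (S35): the assembly (helper11)

`h11s35_of : TPPlusStatement → NewOpStatement → BadFrobStatement → (∀ N, KumGalStatement N) →`
(the statement of `S35`), with `O'' := O'`.
-/

set_option autoImplicit false
set_option linter.style.longLine false
set_option linter.style.haveILetI false
set_option linter.overlappingInstances false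

open Polynomial

noncomputable section

namespace H11S35

open H11W3G ModularCurve CongruenceSubgroup

/-- the quartic relation at a bad prime `q ‖ M` on a Hecke–Galois lattice with the fourth clause
of `h11eig_plus` -/
theorem h11asm_quartic (hNew : NewOpStatement) (hBF : BadFrobStatement)
    {M : ℕ} [NeZero M] {g : CuspForm (Gamma0 M) 2} (hg : g.IsNewform)
    (p : ℕ) (hp : p.Prime) (S : Finset ℕ) (hMS : ∀ q : ℕ, q.Prime → q ∣ M → q ∈ S)
    (𝒪' : Type) [CommRing 𝒪'] [IsDomain 𝒪'] [CharZero 𝒪']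
    (chig : CuspForm.heckeAlgebra M 2 (↑S : Set ℕ) →+* ℂ)
    (hchig : ∀ (ℓ : ℕ) (hℓ : ℓ.Prime) (hℓM : ¬ ℓ ∣ M) (hℓS : ℓ ∉ (↑S : Set ℕ)),
      chig (CuspForm.heckeAlgebra.T hℓ hℓM hℓS) = ModularFormClass.qCoeff g ℓ)
    (iota : chig.range →+* 𝒪')
    (Mod : Type) [AddCommGroup Mod] [Module 𝒪' Mod] [Module.Free 𝒪' Mod]
    (ρ : GQ →* Module.End 𝒪' Mod)
    (hρP : ∀ (σ : GQ) (P : Wd M S) (F : Polynomial ℤ),
        (∀ (k : ℕ) (x : JZero M), IsTateDiv p k x →
          Polynomial.aeval (sigEnd σ : Module.End ℤ (JZero M)) F (evalJ M S P x) = 0) →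
        (iota.comp chig.rangeRestrict) (evalHecke M S P) • Polynomial.aeval (ρ σ) F = 0)
    (q : ℕ) (hq : q.Prime) (hqp : q ≠ p) (hqM : q ∣ M) (hq2 : ¬ q ^ 2 ∣ M)
    (A : ValuationSubring (AlgebraicClosure ℚ)) (hA : A.LiesOverPrime q)
    (σ : GQ) (hσ : A.IsFrobeniusAt σ q) :
    Polynomial.aeval (ρ σ) (frobPoly q) = 0 := by
  obtain ⟨N', rfl⟩ : ∃ N', M = N' * q := ⟨M / q, (Nat.div_mul_cancel hqM).symm⟩
  have hN'0 : N' ≠ 0 := by
    rintro rfl
    exact (NeZero.ne (0 * q)) (zero_mul q)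
  haveI : NeZero N' := ⟨hN'0⟩
  have hqN' : ¬ q ∣ N' := fun h => hq2 (by
    rw [pow_two]
    exact Nat.mul_dvd_mul h (dvd_refl q))
  have hne : N' ≠ N' * q := by
    intro h
    have h1 : N' * 1 = N' * q := by rw [mul_one]; exact h
    have h2 := Nat.eq_of_mul_eq_mul_left (Nat.pos_of_ne_zero hN'0) h1
    exact hq.one_lt.ne h2
  obtain ⟨P, hP0, hPne⟩ := hNew (N' * q) g hg S hMS N' (dvd_mul_right N' q) hne
  have h1 := hρP σ P (frobPoly q) (fun k x hx =>
    hBF N' q hq hqN' S P hP0 p k hp hqp A hA σ hσ x hx)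
  -- the scalar is nonzero
  have hchi : chig (evalHecke (N' * q) S P) =
      evalC (N' * q) S (fun ℓ => ModularFormClass.qCoeff g ℓ) P := by
    have h5 : (chig.toIntAlgHom).comp (evalHecke (N' * q) S) =
        evalC (N' * q) S (fun ℓ => ModularFormClass.qCoeff g ℓ) := by
      apply FreeAlgebra.hom_ext
      funext t
      simp only [Function.comp_apply, AlgHom.comp_apply, evalHecke, evalC,
        FreeAlgebra.lift_ι_apply]
      exact hchig t.1 t.2.1 t.2.2.1 t.2.2.2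
    rw [← h5]
    rfl
  have hint : ∀ x : chig.range, IsIntegral ℤ x := by
    rintro ⟨x, t, rfl⟩
    haveI : Module.Finite ℤ (CuspForm.heckeAlgebra (N' * q) 2 (↑S : Set ℕ)) :=
      Fermat.Agent.S22.result (N' * q) 2 (↑S : Set ℕ)
    have ht : IsIntegral ℤ t := IsIntegral.of_finite ℤ t
    have h2 := ht.map (chig.rangeRestrict.toIntAlgHom)
    exact h2
  have hinj : Function.Injective iota := h11alg_injective hint iota
  have hne0 : (iota.comp chig.rangeRestrict) (evalHecke (N' * q) S P) ≠ 0 := by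
    intro h
    rw [RingHom.comp_apply] at h
    have h2 := hinj (h.trans (map_zero iota).symm)
    have h3 := congrArg Subtype.val h2
    rw [RingHom.coe_rangeRestrict] at h3
    exact hPne (hchi ▸ h3)
  apply LinearMap.ext
  intro m
  have h2 := congrArg (fun E : Module.End 𝒪' Mod => E m) h1
  simp only [LinearMap.smul_apply, LinearMap.zero_apply] at h2
  rcases smul_eq_zero.mp h2 with h | h
  · exact absurd h hne0
  · exact h

/-- **S35** from `TPPlusStatement`, `NewOpStatement`, `BadFrobStatement`, `KumGalStatement`. -/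
theorem h11s35_of (hTP : TPPlusStatement) (hNew : NewOpStatement) (hBF : BadFrobStatement)
    (hK : ∀ (N : ℕ) [NeZero N], KumGalStatement N)
    {M : ℕ} [NeZero M] {g : CuspForm (CongruenceSubgroup.Gamma0 M) 2} (hg : g.IsNewform)
    (lam : ℕ) [Fact lam.Prime]
    (S : Finset ℕ)
    (O' : Type) [CommRing O'] [IsDomain O'] [IsDiscreteValuationRing O']
    [IsAdicComplete (IsLocalRing.maximalIdeal O') O'] [Finite (IsLocalRing.ResidueField O')]
    [CharZero O'] (hlamO' : (lam : O') ∈ IsLocalRing.maximalIdeal O')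
    (chig : CuspForm.heckeAlgebra M 2 (↑S : Set ℕ) →+* ℂ)
    (hchig : ∀ (ℓ : ℕ) (hℓ : ℓ.Prime) (hℓM : ¬ ℓ ∣ M) (hℓS : ℓ ∉ (↑S : Set ℕ)),
      chig (CuspForm.heckeAlgebra.T hℓ hℓM hℓS) = ModularFormClass.qCoeff g ℓ)
    (iota : chig.range →+* O')
    (hlamS : lam ∈ S) (hMS : ∀ q : ℕ, q.Prime → q ∣ M → q ∈ S) :
    ∃ (O'' : Type) (_ : CommRing O'') (_ : IsDomain O'') (_ : IsDiscreteValuationRing O'')
      (_ : IsAdicComplete (IsLocalRing.maximalIdeal O'') O'') (_ : Finite (IsLocalRing.ResidueField O''))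
      (_ : CharZero O'') (_ : Algebra O' O'') (_ : Module.Finite O' O'') (_ : IsLocalHom (algebraMap O' O'')),
      Function.Injective (algebraMap O' O'') ∧
      ∃ ρ : GaloisRepAdic O'',
        (∀ (ℓ : ℕ) (hℓ : ℓ.Prime) (hℓM : ¬ ℓ ∣ M) (hℓS : ℓ ∉ (↑S : Set ℕ)),
          ∀ A : ValuationSubring (AlgebraicClosure ℚ), A.LiesOverPrime ℓ →
            ∀ σ : AlgebraicClosure ℚ ≃ₐ[ℚ] AlgebraicClosure ℚ, A.IsFrobeniusAt σ ℓ →
              LinearMap.charpoly (ρ.ρ σ) =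
                X ^ 2 - C (algebraMap O' O'' ((iota.comp chig.rangeRestrict) (CuspForm.heckeAlgebra.T hℓ hℓM hℓS))) * X
                  + C ((ℓ : O''))) ∧
        (∀ q : ℕ, q.Prime → q ≠ lam → q ∣ M → ¬ q ^ 2 ∣ M →
          ∀ A : ValuationSubring (AlgebraicClosure ℚ), A.LiesOverPrime q →
            ∀ σ : AlgebraicClosure ℚ ≃ₐ[ℚ] AlgebraicClosure ℚ, A.IsFrobeniusAt σ q →
              LinearMap.charpoly (ρ.ρ σ) = X ^ 2 - C ((q : O'') + 1) * X + C ((q : O'')) ∨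
              LinearMap.charpoly (ρ.ρ σ) = X ^ 2 + C ((q : O'') + 1) * X + C ((q : O''))) := by
  classical
  have hp : lam.Prime := Fact.out
  set χ : CuspForm.heckeAlgebra M 2 (↑S : Set ℕ) →+* O' := iota.comp chig.rangeRestrict with hχ
  -- the Hecke–Galois lattice
  obtain ⟨Mod, iM1, iM2, iM3, iM4, iM5, ρ, hρc, hρu, hρF, hρP⟩ :=
    h11eig_plus hTP M (H13E0.heckeLStatement M) (h11lb_lamGal M (hK M))
      (H10ES.h10es_inertiaStatement_final M) (H10ES.h10es_frobeniusStatement_final M)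
      (H13W3G.commStatement M) (H13W3G.finLevStatement M) H29EA.h29ea_eigHAdic
      lam S hlamS O' hlamO' χ
  -- the cyclotomic character
  obtain ⟨d, hdc, hdF, hdu, hdconj⟩ := H27CYC.h27cyc_adic lam hp O' hlamO'
  -- the eigenvalues as a function on `ℕ`
  let a : ℕ → O' := fun ℓ =>
    if h : ℓ.Prime ∧ ¬ ℓ ∣ M ∧ ℓ ∉ (↑S : Set ℕ) then
      χ (CuspForm.heckeAlgebra.T h.1 h.2.1 h.2.2) else 0
  have ha : ∀ (ℓ : ℕ) (hℓ : ℓ.Prime) (hℓN : ¬ ℓ ∣ M) (hℓS : ℓ ∉ (↑S : Set ℕ)),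
      a ℓ = χ (CuspForm.heckeAlgebra.T hℓ hℓN hℓS) := by
    intro ℓ hℓ hℓN hℓS
    show (if h : ℓ.Prime ∧ ¬ ℓ ∣ M ∧ ℓ ∉ (↑S : Set ℕ) then
      χ (CuspForm.heckeAlgebra.T h.1 h.2.1 h.2.2) else 0) = _
    rw [dif_pos ⟨hℓ, hℓN, hℓS⟩]
  -- Frobenius lifts outside `S`
  have hFrob : ∀ ℓ : ℕ, ℓ.Prime → ℓ ∉ S → ∀ A : ValuationSubring (AlgebraicClosure ℚ),
      A.LiesOverPrime ℓ → ∀ σ : GQ, A.IsFrobeniusAt σ ℓ →
        QuadRel (ρ σ) (a ℓ) ((d σ : O'ˣ) : O') := by
    intro ℓ hℓ hℓS A hA σ hσ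
    have hℓN : ¬ ℓ ∣ M := fun h => hℓS (hMS ℓ hℓ h)
    have hℓS' : ℓ ∉ (↑S : Set ℕ) := fun h => hℓS (Finset.mem_coe.mp h)
    have hℓp : ℓ ≠ lam := fun h => hℓS (h ▸ hlamS)
    rw [ha ℓ hℓ hℓN hℓS', hdF ℓ hℓ hℓp A hA σ hσ]
    exact hρF ℓ hℓ hℓN hℓS' A hA σ hσ
  -- EXT-A
  have hquad : ∀ g : GQ, ∃ t : O', QuadRel (ρ g) t ((d g : O'ˣ) : O') :=
    h11xa_extAAdic O' Mod ρ d S a hρc hdc hFrob
  -- EXT-lattice
  have h2 : (2 : O') ≠ 0 := two_ne_zero
  obtain ⟨Λ, iΛ1, iΛ2, iΛ3, iΛ4, ρ', hrank, hcong, htriv, hchar⟩ :=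
    LeadEXT.lead_extLatticeStatement GQ O' h2 Mod ρ d complexConjugation
      complexConjugation_mul_self hdconj hquad
  refine ⟨O', inferInstance, inferInstance, inferInstance, inferInstance, inferInstance,
    inferInstance, Algebra.id O', inferInstance, ?_, ?_, ?_⟩
  · exact ⟨fun a ha => ha⟩
  · exact Function.injective_id
  · refine ⟨{ V := Λ, finrank_eq := hrank, ρ := ρ', isAdicContinuous := ?_ }, ?_, ?_⟩
    · intro n
      obtain ⟨L₁, hL₁, hρL⟩ := hρc n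
      obtain ⟨L₂, hL₂, hdL⟩ := hdc n
      haveI := hL₁
      haveI := hL₂
      refine ⟨L₁ ⊔ L₂, inferInstance, fun σ hσ => ?_⟩
      exact hcong σ n (hρL σ fun x hx => hσ x (le_sup_left (a := L₁) (b := L₂) hx))
        (hdL σ fun x hx => hσ x (le_sup_right (a := L₁) (b := L₂) hx))
    · intro ℓ hℓ hℓN hℓS A hA σ hσ
      have hℓp : ℓ ≠ lam := fun h => hℓS (Finset.mem_coe.mpr (h ▸ hlamS))
      have h1 := hρF ℓ hℓ hℓN hℓS A hA σ hσ
      have h3 := hdF ℓ hℓ hℓp A hA σ hσ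
      rw [← h3] at h1
      have h4 := hchar σ _ h1
      rw [h3] at h4
      exact h4
    · intro q hq hqlam hqM hq2 A hA σ hσ
      have hquart : Polynomial.aeval (ρ σ) (frobPoly q) = 0 :=
        h11asm_quartic hNew hBF hg lam hp S hMS O' chig hchig iota Mod ρ hρP q hq hqlam hqM hq2
          A hA σ hσ
      obtain ⟨t, ht⟩ := hquad σ
      have h3 := hdF q hq hqlam A hA σ hσ
      have ht' : ρ σ * ρ σ - t • ρ σ + (q : O') • (1 : Module.End O' Mod) = 0 := by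
        have := ht
        unfold QuadRel at this
        rw [h3] at this
        exact this
      have hAB : ρ σ * ρ σ⁻¹ = 1 := by rw [← map_mul, mul_inv_cancel, map_one]
      have hBA : ρ σ⁻¹ * ρ σ = 1 := by rw [← map_mul, inv_mul_cancel, map_one]
      have h4 := hchar σ t ht
      rw [h3] at h4
      rcases h11alg_trace (ρ σ) (ρ σ⁻¹) hAB hBA t q ht' hquart with h | h
      · left
        show LinearMap.charpoly (ρ' σ) = _
        rw [h4, h]
      · right
        show LinearMap.charpoly (ρ' σ) = _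
        rw [h4, h, map_neg, neg_mul, sub_neg_eq_add]

end H11S35

end
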