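import Mathlib
import Fermat.Agent.S35.Defs_helper11

/-!
# Item 82b (S35): `BadFrobStatement` from `KillStatement + DegStatement + FWStatement` (helper11)
-/

set_option autoImplicit false

noncomputable section

namespace H11S35

open H11W3G ModularCurve CongruenceSubgroup AlgebraicCurve

/-- intertwining of words: if `f ∘ A t = B t ∘ f` for all generators, then
`f ∘ P(A) = P(B) ∘ f` for all words `P`. -/
theorem h11bf_intertwine {τ : Type} {X Y : Type*} [AddCommGroup X] [AddCommGroup Y]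
    (A : τ → Module.End ℤ X) (B : τ → Module.End ℤ Y) (f : X →+ Y)
    (h : ∀ (t : τ) (x : X), f (A t x) = B t (f x)) (P : FreeAlgebra ℤ τ) (x : X) :
    f (FreeAlgebra.lift ℤ A P x) = FreeAlgebra.lift ℤ B P (f x) := by
  induction P using FreeAlgebra.induction generalizing x with
  | grade0 r =>
    rw [AlgHom.commutes, AlgHom.commutes]
    simp only [Module.algebraMap_end_apply, map_zsmul]
  | grade1 t =>
    rw [FreeAlgebra.lift_ι_apply, FreeAlgebra.lift_ι_apply]
    exact h t x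
  | mul a b ha hb =>
    rw [map_mul, map_mul, Module.End.mul_apply, Module.End.mul_apply, ha, hb]
  | add a b ha hb =>
    rw [map_add, map_add, LinearMap.add_apply, LinearMap.add_apply, map_add, ha, hb]

theorem h11bf_tateDiv_map {X Y : Type*} [AddCommGroup X] [AddCommGroup Y] (f : X →+ Y)
    {p k : ℕ} {x : X} (hx : IsTateDiv p k x) : IsTateDiv p k (f x) := by
  intro j hj
  obtain ⟨y, hy1, hy2⟩ := hx j hj
  exact ⟨f y, by rw [← map_nsmul, hy1, map_zero], by rw [← map_nsmul, hy2]⟩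

theorem h11bf_tateDiv_tors {X : Type*} [AddCommGroup X] {p k : ℕ} {x : X}
    (hx : IsTateDiv p k x) : p ^ k • x = 0 := by
  obtain ⟨y, hy1, hy2⟩ := hx k le_rfl
  rw [Nat.sub_self, pow_zero, one_smul] at hy2
  rw [← hy2, hy1]

/-- **(BF)** from (BF-K), (BF-D), (FW). -/
theorem h11bf_badFrob (hK : KillStatement) (hD : DegStatement) (hFW : FWStatement) :
    BadFrobStatement := by
  intro N' q _ _ hq hqN' S P hP p k hp hqp A hA σ hσ x hx
  have : NeZero q := ⟨hq.ne_zero⟩
  obtain ⟨_, _, hDa, hDb⟩ := hD N' q hq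
  set y := evalJ (N' * q) S P x with hy
  have hxt : p ^ k • x = 0 := h11bf_tateDiv_tors hx
  have hyt : p ^ k • y = 0 := by
    rw [hy, ← map_nsmul, hxt, map_zero]
  have hqn : ¬ q ∣ p ^ k := fun hd =>
    hqp ((Nat.prime_dvd_prime_iff_eq hq hp).1 (hq.dvd_of_dvd_pow hd))
  have ha : pushAlpha N' q y = 0 := by
    have h1 := h11bf_intertwine (fun t : Idx (N' * q) S => heckeOperatorBar (N' * q) ⟨t.1, t.2.1⟩)
      (fun t : Idx (N' * q) S => heckeOperatorBar N' ⟨t.1, t.2.1⟩) (pushAlpha N' q)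
      (fun t x => hDa t.1 t.2.1 t.2.2.1 x) P x
    rw [hy, evalJ, h1]
    exact hK (N' * q) S N' (dvd_mul_right N' q) P hP p k hp _ (h11bf_tateDiv_map _ hx)
  have hb : pushBeta N' q y = 0 := by
    have h1 := h11bf_intertwine (fun t : Idx (N' * q) S => heckeOperatorBar (N' * q) ⟨t.1, t.2.1⟩)
      (fun t : Idx (N' * q) S => heckeOperatorBar N' ⟨t.1, t.2.1⟩) (pushBeta N' q)
      (fun t x => hDb t.1 t.2.1 t.2.2.1 x) P x
    rw [hy, evalJ, h1]
    exact hK (N' * q) S N' (dvd_mul_right N' q) P hP p k hp _ (h11bf_tateDiv_map _ hx)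
  exact hFW N' q hq hqN' (p ^ k) hqn A hA σ hσ y hyt ha hb

end H11S35

end
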