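import Mathlib
import Fermat.Agent.S35.BFGlue_helper11

/-!
# Item 82b (S35): `BadFrobStatement` from a WEAK form of (BF-D) (helper11)

`DegTorsStatement`: Hecke-equivariance of `α_*`, `β_*` on TORSION points only (enough for (BF);
provable through Kummer generators: `α_* x` has Kummer generator `N_α f`, `T_ℓ x` has Kummer
generator `N_{α_ℓ}(β_ℓ f)`, transitivity of norms + base change of the norm in the linearly
disjoint square `F_{N'} ⊂ F_{N'q}, F_{N'ℓ} ⊂ F_{N'qℓ}`).  No Galois-equivariance needed for (BF).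
-/

set_option autoImplicit false

noncomputable section

namespace H11S35

open H11W3G ModularCurve CongruenceSubgroup AlgebraicCurve

/-- **(BF-D), weak form**: `α_*`, `β_*` commute with `T_ℓ` (`ℓ ∤ N' q`) on torsion points. -/
def DegTorsStatement : Prop :=
  ∀ (N' q : ℕ) [NeZero N'] [NeZero q] [NeZero (N' * q)], q.Prime →
    (∀ (ℓ : ℕ) (hℓ : ℓ.Prime), ¬ ℓ ∣ N' * q → ∀ (n : ℕ), 0 < n →
      ∀ x : JZero (N' * q), n • x = 0 →
      pushAlpha N' q (heckeOperatorBar (N' * q) ⟨ℓ, hℓ⟩ x) =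
        heckeOperatorBar N' ⟨ℓ, hℓ⟩ (pushAlpha N' q x)) ∧
    (∀ (ℓ : ℕ) (hℓ : ℓ.Prime), ¬ ℓ ∣ N' * q → ∀ (n : ℕ), 0 < n →
      ∀ x : JZero (N' * q), n • x = 0 →
      pushBeta N' q (heckeOperatorBar (N' * q) ⟨ℓ, hℓ⟩ x) =
        heckeOperatorBar N' ⟨ℓ, hℓ⟩ (pushBeta N' q x))

theorem h11bf_degTors_of_deg (h : DegStatement) : DegTorsStatement := by
  intro N' q _ _ _ hq
  obtain ⟨_, _, ha, hb⟩ := h N' q hq
  exact ⟨fun ℓ hℓ hℓN _ _ x _ => ha ℓ hℓ hℓN x, fun ℓ hℓ hℓN _ _ x _ => hb ℓ hℓ hℓN x⟩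

/-- intertwining of words on `n`-torsion -/
theorem h11bf_intertwine_tors {τ : Type} {X Y : Type*} [AddCommGroup X] [AddCommGroup Y]
    (A : τ → Module.End ℤ X) (B : τ → Module.End ℤ Y) (f : X →+ Y) (n : ℕ)
    (h : ∀ (t : τ) (x : X), n • x = 0 → f (A t x) = B t (f x)) (P : FreeAlgebra ℤ τ) (x : X)
    (hx : n • x = 0) :
    f (FreeAlgebra.lift ℤ A P x) = FreeAlgebra.lift ℤ B P (f x) := by
  have htors : ∀ (E : Module.End ℤ X) (y : X), n • y = 0 → n • E y = 0 := by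
    intro E y hy
    rw [← map_nsmul, hy, map_zero]
  induction P using FreeAlgebra.induction generalizing x with
  | grade0 r =>
    rw [AlgHom.commutes, AlgHom.commutes]
    simp only [Module.algebraMap_end_apply, map_zsmul]
  | grade1 t =>
    rw [FreeAlgebra.lift_ι_apply, FreeAlgebra.lift_ι_apply]
    exact h t x hx
  | mul a b ha hb =>
    rw [map_mul, map_mul, Module.End.mul_apply, Module.End.mul_apply,
      ha _ (htors _ x hx), hb x hx]
  | add a b ha hb =>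
    rw [map_add, map_add, LinearMap.add_apply, LinearMap.add_apply, map_add, ha x hx, hb x hx]

/-- **(BF)** from (BF-K), the weak (BF-D), (FW). -/
theorem h11bf_badFrob' (hK : KillStatement) (hD : DegTorsStatement) (hFW : FWStatement) :
    BadFrobStatement := by
  intro N' q _ _ hq hqN' S P hP p k hp hqp A hA σ hσ x hx
  have : NeZero q := ⟨hq.ne_zero⟩
  obtain ⟨hDa, hDb⟩ := hD N' q hq
  set y := evalJ (N' * q) S P x with hy
  have hxt : p ^ k • x = 0 := h11bf_tateDiv_tors hx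
  have hyt : p ^ k • y = 0 := by
    rw [hy, ← map_nsmul, hxt, map_zero]
  have hqn : ¬ q ∣ p ^ k := fun hd =>
    hqp ((Nat.prime_dvd_prime_iff_eq hq hp).1 (hq.dvd_of_dvd_pow hd))
  have hpk : 0 < p ^ k := pow_pos hp.pos k
  have ha : pushAlpha N' q y = 0 := by
    have h1 := h11bf_intertwine_tors
      (fun t : Idx (N' * q) S => heckeOperatorBar (N' * q) ⟨t.1, t.2.1⟩)
      (fun t : Idx (N' * q) S => heckeOperatorBar N' ⟨t.1, t.2.1⟩) (pushAlpha N' q) (p ^ k)
      (fun t x hx => hDa t.1 t.2.1 t.2.2.1 (p ^ k) hpk x hx) P x hxt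
    rw [hy, evalJ, h1]
    exact hK (N' * q) S N' (dvd_mul_right N' q) P hP p k hp _ (h11bf_tateDiv_map _ hx)
  have hb : pushBeta N' q y = 0 := by
    have h1 := h11bf_intertwine_tors
      (fun t : Idx (N' * q) S => heckeOperatorBar (N' * q) ⟨t.1, t.2.1⟩)
      (fun t : Idx (N' * q) S => heckeOperatorBar N' ⟨t.1, t.2.1⟩) (pushBeta N' q) (p ^ k)
      (fun t x hx => hDb t.1 t.2.1 t.2.2.1 (p ^ k) hpk x hx) P x hxt
    rw [hy, evalJ, h1]
    exact hK (N' * q) S N' (dvd_mul_right N' q) P hP p k hp _ (h11bf_tateDiv_map _ hx)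
  exact hFW N' q hq hqN' (p ^ k) hqn A hA σ hσ y hyt ha hb

end H11S35

end
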