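import Mathlib
import Fermat.Agent.S37.R3Norm_helper13
import Fermat.Agent.S34.ALq_helper12

/-!
# Item 82b (S35), slice FW-ABEL, part 1 (helper13): the norm formula at level `N ℓ`

`F = F_N ℚ̄ ⊆ F' = F_{Nℓ} ℚ̄` (`α` = inclusion), `β = (q ↦ q^ℓ) : F → F'`, `ℓ` prime, `ℓ ∤ N`,
`w = H12AL.wqBarHom` the Atkin–Lehner involution of `F'`.  For EVERY `z ∈ F'`:

* `H13AB.norm_alpha_formula` : `(N_α z)(t^ℓ) = z(t^ℓ) · ∏_{i<ℓ} (w z)(ζ^i t)` in `ℚ̄((t))`;
* `H13AB.normBeta_eq` : `N_β z = N_α (w z)`.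
-/

set_option autoImplicit false
set_option linter.style.haveILetI false
set_option linter.unusedSectionVars false
set_option linter.unusedVariables false

noncomputable section

open AlgebraicCurve IntermediateField
open ModularCurve RH24 H28S28 HahnSeries

namespace H13AB

variable (N ℓ : ℕ) [NeZero N] [NeZero ℓ]

/-- the norm of `z ∈ F_{Nℓ}` down to `F_N` along `α` (the inclusion) -/
def normAlpha (z : modularFunctionFieldBar (N * ℓ)) : modularFunctionFieldBar N :=
  letI := algebraAlong (heckeAlphaBar Kbar N ℓ)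
  Algebra.norm (modularFunctionFieldBar N) z

/-- the norm of `z ∈ F_{Nℓ}` down to `F_N` along `β` (`q ↦ q^ℓ`) -/
def normBeta (z : modularFunctionFieldBar (N * ℓ)) : modularFunctionFieldBar N :=
  letI := algebraAlong (heckeBetaBar Kbar N ℓ)
  Algebra.norm (modularFunctionFieldBar N) z

/-- `embTw` through the Atkin–Lehner involution of `F'` -/
theorem embTw_eq (hℓ : ℓ.Prime) (hℓN : ¬ ℓ ∣ N) (ζ : Kbarˣ) (i : ℕ)
    (z : modularFunctionFieldBar (N * ℓ)) :
    H13R3.embTw N ℓ hℓ hℓN ζ i z =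
      H13R3.cI (tw (ζ ^ i)
        ((H12AL.wqBarHom N ℓ hℓ hℓN z : modularFunctionFieldBar (N * ℓ)) : LaurentSeries Kbar)) := by
  show tw (H13R3.zC ζ ^ i) (H29W.h29w_W N ℓ hℓ hℓN z) = _
  rw [← H12AL.rhoBar_wqBarHom, H12AL.rhoBar_apply, H13R3.cI_tw]
  congr 2
  show Units.map (iota : Kbar →* ℂ) ζ ^ i = Units.map (iota : Kbar →* ℂ) (ζ ^ i)
  rw [map_pow]

set_option synthInstance.maxHeartbeats 400000 in
set_option maxHeartbeats 3200000 in
/-- **the norm formula along `α`** for every `z ∈ F_{Nℓ}`: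
`(N_α z)(t^ℓ) = z(t^ℓ) · ∏_{i<ℓ} (w z)(ζ^i t)`. -/
theorem norm_alpha_formula (hℓ : ℓ.Prime) (hℓN : ¬ ℓ ∣ N) (ζ : Kbarˣ)
    (hζ : IsPrimitiveRoot (ζ : Kbar) ℓ) (z : modularFunctionFieldBar (N * ℓ)) :
    qExpand Kbar ℓ ((normAlpha N ℓ z : modularFunctionFieldBar N) : LaurentSeries Kbar) =
      qExpand Kbar ℓ (z : LaurentSeries Kbar) *
        ∏ i ∈ Finset.range ℓ, tw (ζ ^ i)
          ((H12AL.wqBarHom N ℓ hℓ hℓN z : modularFunctionFieldBar (N * ℓ)) :
            LaurentSeries Kbar) := by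
  classical
  letI iA : Algebra (modularFunctionFieldBar N) (modularFunctionFieldBar (N * ℓ)) :=
    algebraAlong (heckeAlphaBar Kbar N ℓ)
  haveI hfd : FiniteDimensional (modularFunctionFieldBar N) (modularFunctionFieldBar (N * ℓ)) :=
    H13R3.finiteDimensional_along_alpha N ℓ hℓ hℓN
  have hrank : Module.finrank (modularFunctionFieldBar N) (modularFunctionFieldBar (N * ℓ))
      = ℓ + 1 := H13R3.finrank_along_alpha N ℓ hℓ hℓN
  letI iE : Algebra (modularFunctionFieldBar N) (AlgebraicClosure (LaurentSeries ℂ)) :=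
    ((algebraMap (LaurentSeries ℂ) (AlgebraicClosure (LaurentSeries ℂ))).comp
      (H13R3.e0 N ℓ)).toAlgebra
  haveI : CharZero (modularFunctionFieldBar N) :=
    charZero_of_injective_algebraMap (algebraMap Kbar (modularFunctionFieldBar N)).injective
  haveI : Algebra.IsSeparable (modularFunctionFieldBar N) (modularFunctionFieldBar (N * ℓ)) :=
    inferInstance
  -- the algebra embeddings
  let g : Option (Fin ℓ) → (modularFunctionFieldBar (N * ℓ) →ₐ[modularFunctionFieldBar N]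
      AlgebraicClosure (LaurentSeries ℂ)) := fun o =>
    { toRingHom := (algebraMap (LaurentSeries ℂ) (AlgebraicClosure (LaurentSeries ℂ))).comp
        (H13R3.embFam N ℓ hℓ hℓN ζ o)
      commutes' := fun y => by
        show algebraMap (LaurentSeries ℂ) (AlgebraicClosure (LaurentSeries ℂ))
            (H13R3.embFam N ℓ hℓ hℓN ζ o (heckeAlphaBar Kbar N ℓ y))
          = algebraMap (LaurentSeries ℂ) (AlgebraicClosure (LaurentSeries ℂ)) (H13R3.e0 N ℓ y)
        rw [H13R3.embFam_alpha N ℓ hℓ hℓN ζ hζ.pow_eq_one] }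
  have hg_apply : ∀ o (z : modularFunctionFieldBar (N * ℓ)),
      g o z = algebraMap (LaurentSeries ℂ) (AlgebraicClosure (LaurentSeries ℂ))
        (H13R3.embFam N ℓ hℓ hℓN ζ o z) := fun _ _ => rfl
  have hinjE : Function.Injective
      (algebraMap (LaurentSeries ℂ) (AlgebraicClosure (LaurentSeries ℂ))) :=
    (algebraMap (LaurentSeries ℂ) (AlgebraicClosure (LaurentSeries ℂ))).injective
  have hg_inj : Function.Injective g := by
    intro o o' h
    apply H13R3.cfFam_injective ℓ ζ hζ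
    apply iota.injective
    rw [← H13R3.embFam_beta_Jbar_coeff N ℓ hℓ hℓN ζ o,
      ← H13R3.embFam_beta_Jbar_coeff N ℓ hℓ hℓN ζ o']
    have h1 := congrArg (fun σ => σ (heckeBetaBar Kbar N ℓ (Jbar N))) h
    simp only [hg_apply] at h1
    rw [hinjE h1]
  have hcard : Fintype.card (Option (Fin ℓ)) =
      Fintype.card (modularFunctionFieldBar (N * ℓ) →ₐ[modularFunctionFieldBar N]
        AlgebraicClosure (LaurentSeries ℂ)) := by
    rw [AlgHom.card, hrank, Fintype.card_option, Fintype.card_fin]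
  have hg : Function.Bijective g := (Fintype.bijective_iff_injective_and_card g).2 ⟨hg_inj, hcard⟩
  have hnorm := Algebra.norm_eq_prod_embeddings (modularFunctionFieldBar N)
    (AlgebraicClosure (LaurentSeries ℂ)) z
  rw [← Fintype.prod_bijective g hg (fun o => g o z) _ (fun _ => rfl),
    Fintype.prod_option] at hnorm
  simp only [hg_apply] at hnorm
  have hL : algebraMap (modularFunctionFieldBar N) (AlgebraicClosure (LaurentSeries ℂ))
      (Algebra.norm (modularFunctionFieldBar N) z)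
      = algebraMap (LaurentSeries ℂ) (AlgebraicClosure (LaurentSeries ℂ))
        (H13R3.cI (qExpand Kbar ℓ ((normAlpha N ℓ z : modularFunctionFieldBar N) :
          LaurentSeries Kbar))) := rfl
  rw [hL] at hnorm
  have hR1 : H13R3.embFam N ℓ hℓ hℓN ζ none z
      = H13R3.cI (qExpand Kbar ℓ (z : LaurentSeries Kbar)) := H13R3.embInf_apply N ℓ z
  have hR2 : ∀ i : Fin ℓ, H13R3.embFam N ℓ hℓ hℓN ζ (some i) z
      = H13R3.cI (tw (ζ ^ (i : ℕ))
        ((H12AL.wqBarHom N ℓ hℓ hℓN z : modularFunctionFieldBar (N * ℓ)) :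
          LaurentSeries Kbar)) := fun i => embTw_eq N ℓ hℓ hℓN ζ i z
  rw [hR1] at hnorm
  simp only [hR2] at hnorm
  rw [← map_prod, ← map_prod, ← map_mul, ← map_mul,
    Fin.prod_univ_eq_prod_range (fun i => tw (ζ ^ i)
      ((H12AL.wqBarHom N ℓ hℓ hℓN z : modularFunctionFieldBar (N * ℓ)) :
        LaurentSeries Kbar)) ℓ] at hnorm
  exact H13R3.cI_injective (hinjE hnorm)

/-- `N_β z = N_α (w z)`. -/
theorem normBeta_eq (hℓ : ℓ.Prime) (hℓN : ¬ ℓ ∣ N) (z : modularFunctionFieldBar (N * ℓ)) :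
    normBeta N ℓ z = normAlpha N ℓ (H12AL.wqBarHom N ℓ hℓ hℓN z) := by
  have h := @Algebra.norm_eq_of_equiv_equiv (modularFunctionFieldBar N)
    (modularFunctionFieldBar (N * ℓ)) (modularFunctionFieldBar N)
    (modularFunctionFieldBar (N * ℓ)) _ _ _ _
    (algebraAlong (heckeBetaBar Kbar N ℓ)) (algebraAlong (heckeAlphaBar Kbar N ℓ))
    (RingEquiv.refl _) (H12AL.wqBar N ℓ hℓ hℓN) (RingHom.ext fun x => by
      show heckeAlphaBar Kbar N ℓ x = H12AL.wqBarHom N ℓ hℓ hℓN (heckeBetaBar Kbar N ℓ x)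
      rw [H12AL.wqBarHom_beta]) z
  exact h

end H13AB

end
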