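import Mathlib
import Fermat.Agent.S34.Frob_helper24
import Fermat.Agent.S18.GVMain_helper28
import Fermat.Agent.S28.ModEq.ConjMap

/-!
# Item 82b (S35), slice FW-ABEL, part 2 (helper13): calculus of Gauss reductions

`L` a field, `A ⊆ L` a valuation subring, `π : A →+* k`.  `H13AB.IsRed A π x r` says that the
Laurent series `x ∈ L((q))` lies in the Gauss ring `H28GV.gvO A π` and reduces to `r ∈ k((q))`.

* `IsRed.mul/.pow/.inv/.div/.prod/.unique` : ring calculus;
* `IsRed.qExpand` : `q ↦ q^d`;  `IsRed.tw` : twists by `ζ ∈ Aˣ` with `π ζ = 1`;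
* `IsRed.coeffMap` : coefficientwise automorphisms preserving `A`;
* `isRed_root` : if `h ∈ F_L` (level `N` with a `GVBasis`) and `h(q^d)^n` is Gauss-integral with
  nonzero reduction, then `h` is Gauss-integral with nonzero reduction.
-/

set_option autoImplicit false
set_option linter.style.haveILetI false
set_option linter.unusedSectionVars false
set_option linter.unusedVariables false

noncomputable section

open ModularCurve HahnSeries H28GV H28S28

namespace H13AB

section Generic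

variable {L : Type} [Field L] (A : ValuationSubring L) {k : Type} [Field k] (π : A →+* k)

/-- `x` lies in the Gauss ring and reduces to `r` -/
def IsRed (x : LaurentSeries L) (r : LaurentSeries k) : Prop :=
  ∃ hx : x ∈ gvO A π, gvRed A π ⟨x, hx⟩ = r

variable {A π}

theorem IsRed.mem {x : LaurentSeries L} {r : LaurentSeries k} (h : IsRed A π x r) :
    x ∈ gvO A π := h.1

theorem IsRed.unique {x : LaurentSeries L} {r r' : LaurentSeries k} (h : IsRed A π x r)
    (h' : IsRed A π x r') : r = r' := by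
  obtain ⟨hx, h1⟩ := h
  obtain ⟨hx', h2⟩ := h'
  rw [← h1, ← h2]

theorem isRed_mk (u : gvO A π) : IsRed A π (u : LaurentSeries L) (gvRed A π u) :=
  ⟨u.2, rfl⟩

theorem IsRed.exists_eq {x : LaurentSeries L} {r : LaurentSeries k} (h : IsRed A π x r) :
    ∃ u : gvO A π, (u : LaurentSeries L) = x ∧ gvRed A π u = r := by
  obtain ⟨hx, hr⟩ := h
  exact ⟨⟨x, hx⟩, rfl, hr⟩

theorem isRed_one : IsRed A π (1 : LaurentSeries L) 1 := by
  have h := isRed_mk (A := A) (π := π) 1
  rw [map_one] at h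
  exact h

theorem IsRed.mul {x y : LaurentSeries L} {r s : LaurentSeries k} (hx : IsRed A π x r)
    (hy : IsRed A π y s) : IsRed A π (x * y) (r * s) := by
  obtain ⟨u, rfl, rfl⟩ := hx.exists_eq
  obtain ⟨v, rfl, rfl⟩ := hy.exists_eq
  have h := isRed_mk (A := A) (π := π) (u * v)
  rw [map_mul] at h
  exact h

theorem IsRed.pow {x : LaurentSeries L} {r : LaurentSeries k} (hx : IsRed A π x r) (n : ℕ) :
    IsRed A π (x ^ n) (r ^ n) := by
  induction n with
  | zero => rw [pow_zero, pow_zero]; exact isRed_one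
  | succ n ih => rw [pow_succ, pow_succ]; exact ih.mul hx

theorem IsRed.inv {x : LaurentSeries L} {r : LaurentSeries k} (hx : IsRed A π x r)
    (hr : r ≠ 0) : IsRed A π x⁻¹ r⁻¹ := by
  obtain ⟨u, rfl, rfl⟩ := hx.exists_eq
  exact ⟨gv_inv_mem A π u hr, gvRed_inv A π u hr⟩

theorem IsRed.div {x y : LaurentSeries L} {r s : LaurentSeries k} (hx : IsRed A π x r)
    (hy : IsRed A π y s) (hs : s ≠ 0) : IsRed A π (x / y) (r / s) := by
  rw [div_eq_mul_inv, div_eq_mul_inv]
  exact hx.mul (hy.inv hs)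

theorem IsRed.prod {ι : Type*} (s : Finset ι) (x : ι → LaurentSeries L)
    (r : ι → LaurentSeries k) (h : ∀ i ∈ s, IsRed A π (x i) (r i)) :
    IsRed A π (∏ i ∈ s, x i) (∏ i ∈ s, r i) := by
  classical
  induction s using Finset.induction_on with
  | empty => rw [Finset.prod_empty, Finset.prod_empty]; exact isRed_one
  | insert a s ha ih =>
    rw [Finset.prod_insert ha, Finset.prod_insert ha]
    exact (h a (Finset.mem_insert_self a s)).mul
      (ih fun i hi => h i (Finset.mem_insert_of_mem hi))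

theorem IsRed.ne_zero {x : LaurentSeries L} {r : LaurentSeries k} (hx : IsRed A π x r)
    (hr : r ≠ 0) : x ≠ 0 := by
  obtain ⟨u, rfl, rfl⟩ := hx.exists_eq
  exact gv_ne_zero_of_red A π u hr

/-- the basic way to produce `IsRed` -/
theorem isRed_of_rep (x : LaurentSeries L) (f g : LaurentSeries A) (hg : gvRho A π g ≠ 0)
    (h : x * gvEps A g = gvEps A f) : IsRed A π x (gvRho A π f / gvRho A π g) :=
  ⟨⟨f, g, hg, h⟩, gvRed_eq A π ⟨x, ⟨f, g, hg, h⟩⟩ f g hg h⟩

theorem IsRed.exists_rep {x : LaurentSeries L} {r : LaurentSeries k} (hx : IsRed A π x r) :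
    ∃ f g : LaurentSeries A, gvRho A π g ≠ 0 ∧ x * gvEps A g = gvEps A f ∧
      r = gvRho A π f / gvRho A π g := by
  obtain ⟨u, rfl, rfl⟩ := hx.exists_eq
  obtain ⟨f, g, hg, h⟩ := u.2
  exact ⟨f, g, hg, h, gvRed_eq A π u f g hg h⟩

theorem isRed_C (a : A) : IsRed A π (HahnSeries.C (a : L)) (HahnSeries.C (π a)) :=
  ⟨gv_C_mem A π a, gvRed_C A π a⟩

/-- `q ↦ q^d` -/
theorem IsRed.qExpand (d : ℕ) [NeZero d] {x : LaurentSeries L} {r : LaurentSeries k}
    (hx : IsRed A π x r) : IsRed A π (qExpand L d x) (qExpand k d r) := by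
  obtain ⟨u, rfl, rfl⟩ := hx.exists_eq
  exact ⟨H24FR.qExpand_mem_gvO A π d u.2, H24FR.gvRed_qExpand A π d u⟩

/-- coefficientwise maps preserving `A` -/
theorem IsRed.coeffMap (s : L →+* L) (sA : A →+* A) (sk : k →+* k)
    (h1 : A.subtype.comp sA = s.comp A.subtype) (h2 : π.comp sA = sk.comp π)
    {x : LaurentSeries L} {r : LaurentSeries k} (hx : IsRed A π x r) :
    IsRed A π (ModularCurve.coeffMap s x) (ModularCurve.coeffMap sk r) := by
  obtain ⟨f, g, hg, h, rfl⟩ := hx.exists_rep
  have e1 : ∀ y : LaurentSeries A, gvEps A (ModularCurve.coeffMap sA y) =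
      ModularCurve.coeffMap s (gvEps A y) := by
    intro y
    rw [gvEps_def, gvEps_def, coeffMap_coeffMap, coeffMap_coeffMap, h1]
  have e2 : ∀ y : LaurentSeries A, gvRho A π (ModularCurve.coeffMap sA y) =
      ModularCurve.coeffMap sk (gvRho A π y) := by
    intro y
    rw [gvRho_def, gvRho_def, coeffMap_coeffMap, coeffMap_coeffMap, h2]
  have hinj : Function.Injective (ModularCurve.coeffMap sk :
      LaurentSeries k → LaurentSeries k) := by
    intro a b hab
    ext n
    have := congrArg (fun z : LaurentSeries k => z.coeff n) hab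
    simp only [coeffMap_coeff] at this
    exact sk.injective this
  have hg' : gvRho A π (ModularCurve.coeffMap sA g) ≠ 0 := by
    rw [e2]
    intro h0
    exact hg (hinj (by rw [h0, map_zero]))
  have h' : ModularCurve.coeffMap s x * gvEps A (ModularCurve.coeffMap sA g) =
      gvEps A (ModularCurve.coeffMap sA f) := by
    rw [e1, e1, ← map_mul, h]
  have := isRed_of_rep (π := π) _ _ _ hg' h'
  rwa [e2, e2, ← map_div₀] at this

/-- twists by `ζ ∈ Aˣ` with `π ζ = 1` -/
theorem IsRed.tw (ζ : Aˣ) (hζ : π ζ = 1) {x : LaurentSeries L} {r : LaurentSeries k}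
    (hx : IsRed A π x r) :
    IsRed A π (H28S28.tw (Units.map (A.subtype : A →* L) ζ) x) r := by
  obtain ⟨f, g, hg, h, rfl⟩ := hx.exists_rep
  have hone : Units.map (π : A →* k) ζ = 1 := Units.ext hζ
  have e1 : ∀ y : LaurentSeries A, gvEps A (H28S28.tw ζ y) =
      H28S28.tw (Units.map (A.subtype : A →* L) ζ) (gvEps A y) := by
    intro y
    rw [gvEps_def, gvEps_def]
    exact H23M.h21_coeffMap_tw A.subtype ζ y
  have e2 : ∀ y : LaurentSeries A, gvRho A π (H28S28.tw ζ y) = gvRho A π y := by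
    intro y
    rw [gvRho_def]
    have := H23M.h21_coeffMap_tw π ζ y
    rw [this, hone]
    ext n
    simp
  have hg' : gvRho A π (H28S28.tw ζ g) ≠ 0 := by rw [e2]; exact hg
  have h' : H28S28.tw (Units.map (A.subtype : A →* L) ζ) x * gvEps A (H28S28.tw ζ g) =
      gvEps A (H28S28.tw ζ f) := by
    rw [e1, e1, ← map_mul, h]
  have := isRed_of_rep (π := π) _ _ _ hg' h'
  rwa [e2, e2] at this

end Generic

section Root

variable {L : Type} [Field L] {A : ValuationSubring L} {k : Type} [Field k] {π : A →+* k}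
variable {N : ℕ} [NeZero N]

/-- **roots of Gauss units are Gauss units** (level `N` with an orthonormal basis): if
`h ∈ F_L` and `h(q^d)^n` is Gauss-integral with nonzero reduction, then so is `h`. -/
theorem isRed_root (B : GVBasis A π N) (hπ : ∀ a : A, π a ≠ 0 → ((a : L))⁻¹ ∈ A)
    (h : LaurentSeries L) (hh : h ∈ modularFunctionFieldFullC L N) (n : ℕ) (hn : 0 < n)
    (d : ℕ) [NeZero d] (r : LaurentSeries k) (hr : r ≠ 0)
    (hP : IsRed A π (qExpand L d h ^ n) r) :
    ∃ s : LaurentSeries k, s ≠ 0 ∧ IsRed A π h s := by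
  have hh0 : h ≠ 0 := by
    rintro rfl
    rw [map_zero, zero_pow hn.ne'] at hP
    exact hP.ne_zero hr rfl
  obtain ⟨a, u, ha, hx, -, hu0, -⟩ := gv_unit_decomp B h hh hh0
  have hu : IsRed A π (u : LaurentSeries L) (gvRed A π u) := isRed_mk u
  have hqu : IsRed A π (qExpand L d (u : LaurentSeries L) ^ n) (qExpand k d (gvRed A π u) ^ n) :=
    (hu.qExpand d).pow n
  have hqu0 : qExpand k d (gvRed A π u) ^ n ≠ 0 := by
    refine pow_ne_zero n ?_
    intro h0
    exact hu0 (qExpand_injective d (h0.trans (map_zero _).symm))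
  -- `C (a^n)` is a Gauss unit
  have hC : (HahnSeries.C (a ^ n) : LaurentSeries L) =
      qExpand L d h ^ n / qExpand L d (u : LaurentSeries L) ^ n := by
    have hqu' : qExpand L d (u : LaurentSeries L) ^ n ≠ 0 := hqu.ne_zero hqu0
    rw [eq_div_iff hqu', hx, map_mul, qExpand_C, mul_pow, map_pow]
  have hCred : IsRed A π (HahnSeries.C (a ^ n) : LaurentSeries L)
      (r / qExpand k d (gvRed A π u) ^ n) := by
    rw [hC]
    exact hP.div hqu hqu0
  have hanA : a ^ n ∈ A := gv_const_mem hπ (a ^ n) hCred.mem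
  have hred2 := isRed_C (π := π) (⟨a ^ n, hanA⟩ : A)
  have hπan : π ⟨a ^ n, hanA⟩ ≠ 0 := by
    intro h0
    have e := hCred.unique hred2
    rw [h0, map_zero] at e
    exact (div_ne_zero hr hqu0) e
  -- `a ∈ A`
  have haA : a ∈ A := by
    rcases A.mem_or_inv_mem a with h1 | h1
    · exact h1
    · -- `a⁻¹ ∈ A` and `a^n` is a unit of `A`
      have h2 : ((⟨a ^ n, hanA⟩ : A) : L)⁻¹ ∈ A := hπ _ hπan
      have h3 : a = a⁻¹ ^ (n - 1) * ((a ^ n)⁻¹)⁻¹ := by
        rw [inv_inv, inv_pow]
        have : a ^ n = a ^ (n - 1) * a := by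
          rw [← pow_succ, Nat.sub_add_cancel hn]
        rw [this, ← mul_assoc, inv_mul_cancel₀ (pow_ne_zero _ ha), one_mul]
      have h4 : ((a ^ n)⁻¹)⁻¹ ∈ A := by rw [inv_inv]; exact hanA
      rw [h3]
      exact A.mul_mem _ _ (A.pow_mem h1 _) h4
  have hπa : π ⟨a, haA⟩ ≠ 0 := by
    intro h0
    apply hπan
    have : (⟨a ^ n, hanA⟩ : A) = ⟨a, haA⟩ ^ n := Subtype.ext rfl
    rw [this, map_pow, h0, zero_pow hn.ne']
  refine ⟨HahnSeries.C (π ⟨a, haA⟩) * gvRed A π u, mul_ne_zero ?_ hu0, ?_⟩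
  · intro h0
    apply hπa
    have := congrArg (fun z : LaurentSeries k => z.coeff 0) h0
    simpa using this
  · rw [hx]
    exact (isRed_C (π := π) ⟨a, haA⟩).mul hu

end Root

end H13AB

end
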