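import Mathlib
import Fermat.Agent.S35.AbelNorm_helper13
import Fermat.Agent.S35.AbelRed_helper13
import Fermat.Agent.S18.GVBar_helper28

/-!
# Item 82b (S35), slice FW-ABEL (helper13): Step 1 of (FW), "norm compatibility at `q`"

`ℓ` prime, `ℓ ∤ N`, `F' = F_{Nℓ} ℚ̄ ⊆ ℚ̄((q))`, `A ⊆ ℚ̄` a valuation subring over `ℓ`,
`k` its residue field, `w = H12AL.wqBarHom` the Atkin–Lehner involution of `F'`.
The two Gauss valuations of `F'` over `A` are `w₁` (`x ∈ gvO`) and `w₂ = w₁ ∘ w`.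

* `H13AB.isRed_normAlpha` : for `z ∈ F'` with `z ↦ a`, `w z ↦ b` (Gauss reductions):
  `(N_α z)(q^ℓ) ↦ (a · Fr b)(q^ℓ)`, `Fr` the coefficientwise Frobenius of `k((q))`;
* `H13AB.abel_main` : **(ABEL)** if `z`, `w z` are Gauss units, `N_α z = h^n`, `N_β z = h'^n`
  (`h, h' ∈ F_N ℚ̄`, `0 < n`) and `σ` is a Frobenius element at `A`, then
  `σ² z / z ≡ (σ h' / h)^n` modulo `𝔪_{w₁}` and `w (σ² z / z) ≡ (σ h / h')^n` modulo `𝔪_{w₁}`
  (i.e. `σ² z / z ≡ β(σ h / h')^n` modulo `𝔪_{w₂}`): the class `(σ² - 1) x` is toric.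
-/

set_option autoImplicit false
set_option linter.style.haveILetI false
set_option linter.unusedSectionVars false
set_option linter.unusedVariables false

noncomputable section

open AlgebraicCurve IntermediateField
open ModularCurve RH24 H28S28 HahnSeries H28GV

namespace H13AB

section Frobenius

variable (A : ValuationSubring Kbar)

/-- the restriction to `A` of an element of the decomposition group -/
def resA (σ : Kbar ≃ₐ[ℚ] Kbar) (hσ : σ ∈ A.decompositionSubgroup ℚ) : A →+* A :=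
  MulSemiringAction.toRingHom (A.decompositionSubgroup ℚ) A ⟨σ, hσ⟩

/-- the automorphism of the residue field induced by an element of the decomposition group -/
def resK (σ : Kbar ≃ₐ[ℚ] Kbar) (hσ : σ ∈ A.decompositionSubgroup ℚ) :
    IsLocalRing.ResidueField A →+* IsLocalRing.ResidueField A :=
  MulSemiringAction.toRingHom (A.decompositionSubgroup ℚ) (IsLocalRing.ResidueField A) ⟨σ, hσ⟩

theorem subtype_comp_resA (σ : Kbar ≃ₐ[ℚ] Kbar) (hσ : σ ∈ A.decompositionSubgroup ℚ) :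
    A.subtype.comp (resA A σ hσ) = (σ : Kbar →+* Kbar).comp A.subtype :=
  RingHom.ext fun _ => rfl

theorem residue_comp_resA (σ : Kbar ≃ₐ[ℚ] Kbar) (hσ : σ ∈ A.decompositionSubgroup ℚ) :
    (IsLocalRing.residue A).comp (resA A σ hσ) = (resK A σ hσ).comp (IsLocalRing.residue A) :=
  RingHom.ext fun _ => rfl

theorem resK_frobenius (ℓ : ℕ) [Fact ℓ.Prime] [CharP (IsLocalRing.ResidueField A) ℓ]
    (σ : Kbar ≃ₐ[ℚ] Kbar) (hσ : A.IsFrobeniusAt σ ℓ) :
    resK A σ hσ.mem_decompositionSubgroup = frobenius (IsLocalRing.ResidueField A) ℓ :=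
  RingHom.ext fun x => hσ.smul_residue_eq x

/-- a Frobenius element acts on Gauss reductions by the coefficientwise Frobenius -/
theorem IsRed.frob (ℓ : ℕ) [Fact ℓ.Prime] [CharP (IsLocalRing.ResidueField A) ℓ]
    (σ : Kbar ≃ₐ[ℚ] Kbar) (hσ : A.IsFrobeniusAt σ ℓ) {x : LaurentSeries Kbar}
    {r : LaurentSeries (IsLocalRing.ResidueField A)}
    (hx : IsRed A (IsLocalRing.residue A) x r) :
    IsRed A (IsLocalRing.residue A) (ModularCurve.coeffMap (σ : Kbar →+* Kbar) x)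
      (ModularCurve.coeffMap (frobenius (IsLocalRing.ResidueField A) ℓ) r) := by
  have h := hx.coeffMap (σ : Kbar →+* Kbar) (resA A σ hσ.mem_decompositionSubgroup)
    (resK A σ hσ.mem_decompositionSubgroup) (subtype_comp_resA A σ _) (residue_comp_resA A σ _)
  rwa [resK_frobenius A ℓ σ hσ] at h

theorem charP_residue (ℓ : ℕ) (hℓ : ℓ.Prime) (hA : A.LiesOverPrime ℓ) :
    CharP (IsLocalRing.ResidueField A) ℓ :=
  (CharP.charP_iff_prime_eq_zero hℓ).mpr (gv_residue_natCast_eq_zero A ℓ hA)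

/-- a root of unity of `ℚ̄` as a unit of `A` -/
theorem exists_unit_of_pow_eq_one (ζ : Kbarˣ) (n : ℕ) (hn : 0 < n) (hζ : (ζ : Kbar) ^ n = 1) :
    ∃ ζ₀ : Aˣ, Units.map (A.subtype : A →* Kbar) ζ₀ = ζ ∧ (ζ₀ : A) ^ n = 1 := by
  have hmem : ∀ x : Kbar, x ^ n = 1 → x ∈ A := by
    intro x hx
    have hint : IsIntegral A x := by
      refine ⟨Polynomial.X ^ n - 1, Polynomial.monic_X_pow_sub_C 1 hn.ne', ?_⟩
      simp [hx]
    obtain ⟨y, hy⟩ := IsIntegrallyClosed.isIntegral_iff.mp hint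
    rw [← hy]
    exact y.2
  have h1 : (ζ : Kbar) ∈ A := hmem _ hζ
  have h2 : ((ζ⁻¹ : Kbarˣ) : Kbar) ∈ A := by
    apply hmem
    rw [← Units.val_pow_eq_pow_val, inv_pow, Units.val_inv_eq_inv_val, Units.val_pow_eq_pow_val,
      hζ, inv_one]
  refine ⟨⟨⟨ζ, h1⟩, ⟨_, h2⟩, Subtype.ext (by simp), Subtype.ext (by simp)⟩, Units.ext rfl,
    Subtype.ext ?_⟩
  simpa using hζ

end Frobenius

section Algebra

variable {k : Type} [Field k] (ℓ : ℕ) [Fact ℓ.Prime] [CharP k ℓ]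

theorem frob_ne_zero (x : LaurentSeries k) (hx : x ≠ 0) :
    ModularCurve.coeffMap (frobenius k ℓ) x ≠ 0 := fun h0 =>
  hx ((ModularCurve.coeffMap (frobenius k ℓ)).injective (h0.trans (map_zero _).symm))

/-- the algebra in `k((q))`: `s^n = a·Fr b`, `s'^n = b·Fr a` ⟹ `Fr² a / a = (Fr s' / s)^n`. -/
theorem abel_key (n : ℕ) (a b s s' : LaurentSeries k) (ha : a ≠ 0) (hb : b ≠ 0)
    (hs : s ≠ 0) (hs' : s' ≠ 0)
    (h1 : s ^ n = a * ModularCurve.coeffMap (frobenius k ℓ) b)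
    (h2 : s' ^ n = b * ModularCurve.coeffMap (frobenius k ℓ) a) :
    ModularCurve.coeffMap (frobenius k ℓ) (ModularCurve.coeffMap (frobenius k ℓ) a) / a /
      (ModularCurve.coeffMap (frobenius k ℓ) s' / s) ^ n = 1 := by
  have e1 : (ModularCurve.coeffMap (frobenius k ℓ) s' / s) ^ n =
      ModularCurve.coeffMap (frobenius k ℓ) (ModularCurve.coeffMap (frobenius k ℓ) a) / a := by
    rw [div_pow, ← map_pow, h2, h1, map_mul,
      mul_comm (ModularCurve.coeffMap (frobenius k ℓ) b)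
        (ModularCurve.coeffMap (frobenius k ℓ) (ModularCurve.coeffMap (frobenius k ℓ) a)),
      mul_div_mul_right _ _ (frob_ne_zero ℓ b hb)]
  rw [e1]
  exact div_self (div_ne_zero (frob_ne_zero ℓ _ (frob_ne_zero ℓ a ha)) ha)

end Algebra

section Step

variable (A : ValuationSubring Kbar) (ℓ : ℕ) [Fact ℓ.Prime] [CharP (IsLocalRing.ResidueField A) ℓ]

theorem abel_step (σ : Kbar ≃ₐ[ℚ] Kbar) (hσ : A.IsFrobeniusAt σ ℓ) (n : ℕ)
    (x y y' : LaurentSeries Kbar) (a s s' : LaurentSeries (IsLocalRing.ResidueField A))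
    (ha : a ≠ 0) (hs : s ≠ 0) (hs' : s' ≠ 0)
    (hx : IsRed A (IsLocalRing.residue A) x a) (hy : IsRed A (IsLocalRing.residue A) y s)
    (hy' : IsRed A (IsLocalRing.residue A) y' s') :
    IsRed A (IsLocalRing.residue A)
      (ModularCurve.coeffMap (σ : Kbar →+* Kbar) (ModularCurve.coeffMap (σ : Kbar →+* Kbar) x) /
        x / (ModularCurve.coeffMap (σ : Kbar →+* Kbar) y' / y) ^ n)
      (ModularCurve.coeffMap (frobenius (IsLocalRing.ResidueField A) ℓ)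
          (ModularCurve.coeffMap (frobenius (IsLocalRing.ResidueField A) ℓ) a) / a /
        (ModularCurve.coeffMap (frobenius (IsLocalRing.ResidueField A) ℓ) s' / s) ^ n) := by
  have h1 := ((hx.frob A ℓ σ hσ).frob A ℓ σ hσ).div hx ha
  have h2 := (((hy'.frob A ℓ σ hσ).div hy hs).pow n)
  exact h1.div h2 (pow_ne_zero n (div_ne_zero (frob_ne_zero ℓ s' hs') hs))

end Step

section Main

variable (N ℓ : ℕ) [NeZero N] [NeZero ℓ] (A : ValuationSubring Kbar)

/-- **reduction of the norm along `α`**: `z ↦ a`, `w z ↦ b` ⟹ `(N_α z)(q^ℓ) ↦ (a · Fr b)(q^ℓ)`. -/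
theorem isRed_normAlpha [Fact ℓ.Prime] [CharP (IsLocalRing.ResidueField A) ℓ]
    (hℓ : ℓ.Prime) (hℓN : ¬ ℓ ∣ N)
    (z : modularFunctionFieldBar (N * ℓ)) (a b : LaurentSeries (IsLocalRing.ResidueField A))
    (hz : IsRed A (IsLocalRing.residue A) (z : LaurentSeries Kbar) a)
    (hwz : IsRed A (IsLocalRing.residue A)
      ((H12AL.wqBarHom N ℓ hℓ hℓN z : modularFunctionFieldBar (N * ℓ)) : LaurentSeries Kbar) b) :
    IsRed A (IsLocalRing.residue A)
      (qExpand Kbar ℓ ((normAlpha N ℓ z : modularFunctionFieldBar N) : LaurentSeries Kbar))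
      (qExpand (IsLocalRing.ResidueField A) ℓ
        (a * coeffMap (frobenius (IsLocalRing.ResidueField A) ℓ) b)) := by
  haveI : NeZero ((ℓ : ℕ) : ℚ) := ⟨by exact_mod_cast hℓ.ne_zero⟩
  obtain ⟨ζ, hζ⟩ := HasEnoughRootsOfUnity.exists_primitiveRoot Kbar ℓ
  have hζu : IsUnit ζ := hζ.isUnit hℓ.ne_zero
  have hζ' : IsPrimitiveRoot ((hζu.unit : Kbarˣ) : Kbar) ℓ := by
    rw [IsUnit.unit_spec]
    exact hζ
  obtain ⟨ζ₀, hζ₀, hζ₀1⟩ := exists_unit_of_pow_eq_one A hζu.unit ℓ hℓ.pos hζ'.pow_eq_one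
  rw [norm_alpha_formula N ℓ hℓ hℓN hζu.unit hζ' z, map_mul]
  refine (hz.qExpand ℓ).mul ?_
  have hprod := IsRed.prod (A := A) (π := IsLocalRing.residue A) (Finset.range ℓ)
    (fun i => tw (hζu.unit ^ i)
      ((H12AL.wqBarHom N ℓ hℓ hℓN z : modularFunctionFieldBar (N * ℓ)) : LaurentSeries Kbar))
    (fun _ => b) (fun i _ => by
      have h1 : hζu.unit ^ i = Units.map (A.subtype : A →* Kbar) (ζ₀ ^ i) := by
        rw [map_pow, hζ₀]
      rw [h1]
      refine hwz.tw (ζ₀ ^ i) ?_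
      have h2 : IsLocalRing.residue A (ζ₀ : A) = 1 :=
        H23R3.h23r3_pi_zeta A (IsLocalRing.residue A) ℓ (ζ₀ : A) hζ₀1
      rw [Units.val_pow_eq_pow_val, map_pow, h2, one_pow])
  rw [Finset.prod_const, Finset.card_range, H23R3.h23r3_frobenius ℓ b] at hprod
  exact hprod

/-- **Gauss units of level `N` from their norms**: if `N_α z = h^n` with `z ↦ a ≠ 0`,
`w z ↦ b ≠ 0`, then `h ↦ s` with `s^n = a · Fr b`. -/
theorem isRed_root_normAlpha [Fact ℓ.Prime] [CharP (IsLocalRing.ResidueField A) ℓ]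
    (hℓ : ℓ.Prime) (hℓN : ¬ ℓ ∣ N) (hA : A.LiesOverPrime ℓ)
    (z : modularFunctionFieldBar (N * ℓ)) (a b : LaurentSeries (IsLocalRing.ResidueField A))
    (ha : a ≠ 0) (hb : b ≠ 0)
    (hz : IsRed A (IsLocalRing.residue A) (z : LaurentSeries Kbar) a)
    (hwz : IsRed A (IsLocalRing.residue A)
      ((H12AL.wqBarHom N ℓ hℓ hℓN z : modularFunctionFieldBar (N * ℓ)) : LaurentSeries Kbar) b)
    (n : ℕ) (hn : 0 < n) (h : modularFunctionFieldBar N) (hα : normAlpha N ℓ z = h ^ n) :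
    ∃ s : LaurentSeries (IsLocalRing.ResidueField A), s ≠ 0 ∧
      IsRed A (IsLocalRing.residue A) (h : LaurentSeries Kbar) s ∧
      s ^ n = a * coeffMap (frobenius (IsLocalRing.ResidueField A) ℓ) b := by
  obtain ⟨B⟩ := gv_basis_bar A ℓ hA N hℓN
  have hr0 : a * coeffMap (frobenius (IsLocalRing.ResidueField A) ℓ) b ≠ 0 :=
    mul_ne_zero ha (frob_ne_zero ℓ b hb)
  have hqr0 : qExpand (IsLocalRing.ResidueField A) ℓ
      (a * coeffMap (frobenius (IsLocalRing.ResidueField A) ℓ) b) ≠ 0 :=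
    fun h0 => hr0 (qExpand_injective ℓ (h0.trans (map_zero _).symm))
  have hN := isRed_normAlpha N ℓ A hℓ hℓN z a b hz hwz
  rw [hα] at hN
  have hcoe : ((h ^ n : modularFunctionFieldBar N) : LaurentSeries Kbar) =
      (h : LaurentSeries Kbar) ^ n := rfl
  rw [hcoe, map_pow] at hN
  have hmem : (h : LaurentSeries Kbar) ∈ modularFunctionFieldFullC Kbar N := by
    rw [← gv_bar_eq Kbar N]
    exact h.2
  obtain ⟨s, hs0, hs⟩ := isRed_root B (gv_residue_unit A) (h : LaurentSeries Kbar) hmem n hn ℓ _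
    hqr0 hN
  refine ⟨s, hs0, hs, ?_⟩
  have h2 := ((hs.qExpand ℓ).pow n).unique hN
  rw [← map_pow] at h2
  exact qExpand_injective ℓ h2

/-- **(ABEL)**, Laurent series form. -/
theorem abel_main (hℓ : ℓ.Prime) (hℓN : ¬ ℓ ∣ N) (hA : A.LiesOverPrime ℓ)
    (σ : Kbar ≃ₐ[ℚ] Kbar) (hσ : A.IsFrobeniusAt σ ℓ)
    (z : modularFunctionFieldBar (N * ℓ)) (a b : LaurentSeries (IsLocalRing.ResidueField A))
    (ha : a ≠ 0) (hb : b ≠ 0)
    (hz : IsRed A (IsLocalRing.residue A) (z : LaurentSeries Kbar) a)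
    (hwz : IsRed A (IsLocalRing.residue A)
      ((H12AL.wqBarHom N ℓ hℓ hℓN z : modularFunctionFieldBar (N * ℓ)) : LaurentSeries Kbar) b)
    (n : ℕ) (hn : 0 < n) (h h' : modularFunctionFieldBar N)
    (hα : normAlpha N ℓ z = h ^ n) (hβ : normBeta N ℓ z = h' ^ n) :
    IsRed A (IsLocalRing.residue A)
      (coeffMap (σ : Kbar →+* Kbar) (coeffMap (σ : Kbar →+* Kbar) (z : LaurentSeries Kbar)) /
        (z : LaurentSeries Kbar) /
        (coeffMap (σ : Kbar →+* Kbar) (h' : LaurentSeries Kbar) / (h : LaurentSeries Kbar)) ^ n)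
      1 ∧
    IsRed A (IsLocalRing.residue A)
      (coeffMap (σ : Kbar →+* Kbar) (coeffMap (σ : Kbar →+* Kbar)
          ((H12AL.wqBarHom N ℓ hℓ hℓN z : modularFunctionFieldBar (N * ℓ)) : LaurentSeries Kbar)) /
        ((H12AL.wqBarHom N ℓ hℓ hℓN z : modularFunctionFieldBar (N * ℓ)) : LaurentSeries Kbar) /
        (coeffMap (σ : Kbar →+* Kbar) (h : LaurentSeries Kbar) / (h' : LaurentSeries Kbar)) ^ n)
      1 := by
  haveI : Fact ℓ.Prime := ⟨hℓ⟩
  haveI : CharP (IsLocalRing.ResidueField A) ℓ := charP_residue A ℓ hℓ hA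
  obtain ⟨s, hs0, hs, hsn⟩ := isRed_root_normAlpha N ℓ A hℓ hℓN hA z a b ha hb hz hwz n hn h hα
  have hwwz : IsRed A (IsLocalRing.residue A)
      ((H12AL.wqBarHom N ℓ hℓ hℓN (H12AL.wqBarHom N ℓ hℓ hℓN z) :
        modularFunctionFieldBar (N * ℓ)) : LaurentSeries Kbar) a := by
    rw [H12AL.wqBarHom_invol]
    exact hz
  rw [normBeta_eq N ℓ hℓ hℓN z] at hβ
  obtain ⟨s', hs'0, hs', hs'n⟩ := isRed_root_normAlpha N ℓ A hℓ hℓN hA
    (H12AL.wqBarHom N ℓ hℓ hℓN z) b a hb ha hwz hwwz n hn h' hβ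
  refine ⟨?_, ?_⟩
  · have h1 := abel_step A ℓ σ hσ n _ _ _ a s s' ha hs0 hs'0 hz hs hs'
    rwa [abel_key ℓ n a b s s' ha hb hs0 hs'0 hsn hs'n] at h1
  · have h1 := abel_step A ℓ σ hσ n _ _ _ b s' s hb hs'0 hs0 hwz hs' hs
    rwa [abel_key ℓ n b a s' s hb ha hs'0 hs0 hs'n hsn] at h1

end Main

end H13AB

end
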