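import Mathlib
import Fermat.Agent.S35.Abel_helper13
import Fermat.Agent.S35.FWDefs_helper17

/-!
# Item 82b (S35), block FW: the slices (ABEL) and (NORM-GAL) (helper13)

* `H13AB.h13_normGal : H17FW.NormGalStatement` — the norms along `α`, `β` commute with the
  coefficientwise Galois action;
* `H13AB.h13_abel : H17FW.AbelStatement` — for `z` a unit at `w₁`, `w₂` with `N_α z = hⁿ`,
  `N_β z = h'ⁿ` and `σ` a Frobenius element: `σ² z / z` is toric, with
  `ψ₁ = α (σ h' / h)`, `ψ₂ = β (σ h / h')`.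
-/

set_option autoImplicit false
set_option linter.style.haveILetI false
set_option linter.unusedSectionVars false
set_option linter.unusedVariables false

noncomputable section

open AlgebraicCurve IntermediateField
open ModularCurve RH24 H28S28 HahnSeries H28GV H11W3G

namespace H13AB

/-! ### (NORM-GAL) -/

theorem alpha_act (N ℓ : ℕ) [NeZero N] [NeZero ℓ] [NeZero (N * ℓ)] (σ : GQ)
    (y : modularFunctionFieldBar N) :
    heckeAlphaBar Kbar N ℓ (H17FW.act N σ y) = H17FW.act (N * ℓ) σ (heckeAlphaBar Kbar N ℓ y) := by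
  apply Subtype.ext
  rw [coe_heckeAlphaBar, coe_arithmeticGalois_smul, coe_arithmeticGalois_smul,
    coe_heckeAlphaBar]

theorem beta_act (N ℓ : ℕ) [NeZero N] [NeZero ℓ] [NeZero (N * ℓ)] (σ : GQ)
    (y : modularFunctionFieldBar N) :
    heckeBetaBar Kbar N ℓ (H17FW.act N σ y) = H17FW.act (N * ℓ) σ (heckeBetaBar Kbar N ℓ y) := by
  apply Subtype.ext
  rw [coe_heckeBetaBar, coe_arithmeticGalois_smul, coe_arithmeticGalois_smul,
    coe_heckeBetaBar, coeffMap_qExpand]

theorem w_act (N ℓ : ℕ) [NeZero N] [NeZero ℓ] [NeZero (N * ℓ)] (hℓ : ℓ.Prime) (hℓN : ¬ ℓ ∣ N)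
    (σ : GQ) (x : modularFunctionFieldBar (N * ℓ)) :
    H12AL.wqBarHom N ℓ hℓ hℓN (H17FW.act (N * ℓ) σ x) =
      H17FW.act (N * ℓ) σ (H12AL.wqBarHom N ℓ hℓ hℓN x) :=
  H12AL.wqBarHom_galois N ℓ hℓ hℓN σ x

theorem h13_normGal : H17FW.NormGalStatement := by
  intro N' q _ _ _ hq σ f
  constructor
  · have h := @Algebra.norm_eq_of_equiv_equiv (modularFunctionFieldBar N')
      (modularFunctionFieldBar (N' * q)) (modularFunctionFieldBar N')
      (modularFunctionFieldBar (N' * q)) _ _ _ _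
      (algebraAlong (heckeAlphaBar Kbar N' q)) (algebraAlong (heckeAlphaBar Kbar N' q))
      (arithmeticRingAut (modularFunctionFieldFull N') σ)
      (arithmeticRingAut (modularFunctionFieldFull (N' * q)) σ)
      (RingHom.ext fun x => alpha_act N' q σ x) f
    have h2 := congrArg (arithmeticRingAut (modularFunctionFieldFull N') σ) h
    rw [RingEquiv.apply_symm_apply] at h2
    exact h2.symm
  · have h := @Algebra.norm_eq_of_equiv_equiv (modularFunctionFieldBar N')
      (modularFunctionFieldBar (N' * q)) (modularFunctionFieldBar N')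
      (modularFunctionFieldBar (N' * q)) _ _ _ _
      (algebraAlong (heckeBetaBar Kbar N' q)) (algebraAlong (heckeBetaBar Kbar N' q))
      (arithmeticRingAut (modularFunctionFieldFull N') σ)
      (arithmeticRingAut (modularFunctionFieldFull (N' * q)) σ)
      (RingHom.ext fun x => beta_act N' q σ x) f
    have h2 := congrArg (arithmeticRingAut (modularFunctionFieldFull N') σ) h
    rw [RingEquiv.apply_symm_apply] at h2
    exact h2.symm

/-! ### (ABEL) -/

theorem isRed_of_unit1 (A : ValuationSubring Kbar) {N : ℕ} [NeZero N]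
    (x : modularFunctionFieldBar N) (hx0 : x ≠ 0) (hx : H17FW.Unit1 A x) :
    ∃ a : LaurentSeries (IsLocalRing.ResidueField A), a ≠ 0 ∧
      IsRed A (IsLocalRing.residue A) (x : LaurentSeries Kbar) a := by
  obtain ⟨h1, h2⟩ := hx
  have r1 : IsRed A (IsLocalRing.residue A) (x : LaurentSeries Kbar)
      (gvRed A (IsLocalRing.residue A) ⟨_, h1⟩) := ⟨h1, rfl⟩
  have r2 : IsRed A (IsLocalRing.residue A)
      ((x⁻¹ : modularFunctionFieldBar N) : LaurentSeries Kbar)
      (gvRed A (IsLocalRing.residue A) ⟨_, h2⟩) := ⟨h2, rfl⟩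
  refine ⟨_, ?_, r1⟩
  intro h0
  have h3 := r1.mul r2
  have h4 : (x : LaurentSeries Kbar) * ((x⁻¹ : modularFunctionFieldBar N) : LaurentSeries Kbar)
      = 1 := by
    have : x * x⁻¹ = 1 := mul_inv_cancel₀ hx0
    exact congrArg (fun y : modularFunctionFieldBar N => (y : LaurentSeries Kbar)) this
  rw [h4, h0, zero_mul] at h3
  exact zero_ne_one (h3.unique isRed_one)

theorem h13_abel : H17FW.AbelStatement := by
  intro N' q _ _ _ hq hqN n hn A hA σ hσ z hz0 hz hwz hα hβ
  obtain ⟨a, ha, hza⟩ := isRed_of_unit1 A z hz0 hz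
  have hwz0 : H12AL.wqBar N' q hq hqN z ≠ 0 :=
    (map_ne_zero_iff _ (H12AL.wqBar N' q hq hqN).injective).mpr hz0
  obtain ⟨b, hb, hzb⟩ := isRed_of_unit1 A _ hwz0 hwz
  obtain ⟨h, hh⟩ := hα
  obtain ⟨h', hh'⟩ := hβ
  have hzb' : IsRed A (IsLocalRing.residue A)
      ((H12AL.wqBarHom N' q hq hqN z : modularFunctionFieldBar (N' * q)) : LaurentSeries Kbar)
      b := hzb
  have hh1 : normAlpha N' q z = h ^ n := hh
  have hh2 : normBeta N' q z = h' ^ n := hh'
  obtain ⟨m1, m2⟩ := abel_main N' q A hq hqN hA σ hσ z a b ha hb hza hzb' n hn h h' hh1 hh2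
  -- `h, h' ≠ 0`
  haveI : Fact q.Prime := ⟨hq⟩
  haveI : CharP (IsLocalRing.ResidueField A) q := charP_residue A q hq hA
  obtain ⟨s, hs0, hs, -⟩ := isRed_root_normAlpha N' q A hq hqN hA z a b ha hb hza hzb' n hn h hh1
  have hwwz : IsRed A (IsLocalRing.residue A)
      ((H12AL.wqBarHom N' q hq hqN (H12AL.wqBarHom N' q hq hqN z) :
        modularFunctionFieldBar (N' * q)) : LaurentSeries Kbar) a := by
    rw [H12AL.wqBarHom_invol]
    exact hza
  have hh2' := hh2
  rw [normBeta_eq N' q hq hqN z] at hh2'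
  obtain ⟨s', hs'0, hs', -⟩ := isRed_root_normAlpha N' q A hq hqN hA
    (H12AL.wqBarHom N' q hq hqN z) b a hb ha hzb' hwwz n hn h' hh2'
  have hh0 : h ≠ 0 := fun h0 => hs.ne_zero hs0 (by rw [h0]; rfl)
  have hh'0 : h' ≠ 0 := fun h0 => hs'.ne_zero hs'0 (by rw [h0]; rfl)
  have hact0 : ∀ y : modularFunctionFieldBar N', y ≠ 0 → H17FW.act N' σ y ≠ 0 := by
    intro y hy
    exact (map_ne_zero_iff _ (arithmeticRingAut (modularFunctionFieldFull N') σ).injective).mpr hy
  refine ⟨heckeAlphaBar Kbar N' q (H17FW.act N' σ h' * h⁻¹),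
    heckeBetaBar Kbar N' q (H17FW.act N' σ h * h'⁻¹), ?_, ?_, ?_, ?_⟩
  · exact (map_ne_zero_iff _ (heckeAlphaBar Kbar N' q).toRingHom.injective).mpr
      (mul_ne_zero (hact0 h' hh'0) (inv_ne_zero hh0))
  · exact (map_ne_zero_iff _ (heckeBetaBar Kbar N' q).toRingHom.injective).mpr
      (mul_ne_zero (hact0 h hh0) (inv_ne_zero hh'0))
  · -- at `w₁`
    have e : ((H17FW.act (N' * q) σ (H17FW.act (N' * q) σ z) * z⁻¹ *
        ((heckeAlphaBar Kbar N' q (H17FW.act N' σ h' * h⁻¹)) ^ n)⁻¹ :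
          modularFunctionFieldBar (N' * q)) : LaurentSeries Kbar) =
        coeffMap (σ : Kbar →+* Kbar) (coeffMap (σ : Kbar →+* Kbar) (z : LaurentSeries Kbar)) /
          (z : LaurentSeries Kbar) /
          (coeffMap (σ : Kbar →+* Kbar) (h' : LaurentSeries Kbar) / (h : LaurentSeries Kbar)) ^ n := by
      rw [div_eq_mul_inv, div_eq_mul_inv, div_eq_mul_inv, IntermediateField.coe_mul,
        IntermediateField.coe_mul, IntermediateField.coe_inv, IntermediateField.coe_inv,
        IntermediateField.coe_pow, coe_heckeAlphaBar, IntermediateField.coe_mul,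
        IntermediateField.coe_inv, coe_arithmeticGalois_smul, coe_arithmeticGalois_smul,
        coe_arithmeticGalois_smul]
    show IsRed A (IsLocalRing.residue A) _ 1
    rw [e]
    exact m1
  · -- at `w₂`
    have e1 : H12AL.wqBar N' q hq hqN (H17FW.act (N' * q) σ (H17FW.act (N' * q) σ z) * z⁻¹ *
        ((heckeBetaBar Kbar N' q (H17FW.act N' σ h * h'⁻¹)) ^ n)⁻¹) =
        H17FW.act (N' * q) σ (H17FW.act (N' * q) σ (H12AL.wqBarHom N' q hq hqN z)) *
          (H12AL.wqBarHom N' q hq hqN z)⁻¹ *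
          ((heckeAlphaBar Kbar N' q (H17FW.act N' σ h * h'⁻¹)) ^ n)⁻¹ := by
      rw [map_mul, map_mul, map_inv₀, map_inv₀, map_pow, H12AL.wqBar_apply, H12AL.wqBar_apply,
        H12AL.wqBar_apply, H12AL.wqBarHom_beta]
      rw [w_act N' q hq hqN σ, w_act N' q hq hqN σ]
    have e : ((H17FW.act (N' * q) σ (H17FW.act (N' * q) σ (H12AL.wqBarHom N' q hq hqN z)) *
          (H12AL.wqBarHom N' q hq hqN z)⁻¹ *
          ((heckeAlphaBar Kbar N' q (H17FW.act N' σ h * h'⁻¹)) ^ n)⁻¹ :
          modularFunctionFieldBar (N' * q)) : LaurentSeries Kbar) =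
        coeffMap (σ : Kbar →+* Kbar) (coeffMap (σ : Kbar →+* Kbar)
          ((H12AL.wqBarHom N' q hq hqN z : modularFunctionFieldBar (N' * q)) :
            LaurentSeries Kbar)) /
          ((H12AL.wqBarHom N' q hq hqN z : modularFunctionFieldBar (N' * q)) :
            LaurentSeries Kbar) /
          (coeffMap (σ : Kbar →+* Kbar) (h : LaurentSeries Kbar) / (h' : LaurentSeries Kbar)) ^ n := by
      rw [div_eq_mul_inv, div_eq_mul_inv, div_eq_mul_inv, IntermediateField.coe_mul,
        IntermediateField.coe_mul, IntermediateField.coe_inv, IntermediateField.coe_inv,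
        IntermediateField.coe_pow, coe_heckeAlphaBar, IntermediateField.coe_mul,
        IntermediateField.coe_inv, coe_arithmeticGalois_smul, coe_arithmeticGalois_smul,
        coe_arithmeticGalois_smul]
    show IsRed A (IsLocalRing.residue A) _ 1
    rw [e1, e]
    exact m2

end H13AB

end
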