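/-
S35 slice BF-D (helper6): the degeneracy maps `α_*, β_* : J₀(N' q)(ℚ̄) → J₀(N')(ℚ̄)`
* commute with the Galois action (`h6bd_pushAlpha_smul`, `h6bd_pushBeta_smul`), and
* commute with `T_ℓ`, `ℓ ∤ N' q`, on the torsion points of order prime to `ℓ`
  (`h6bd_degTorsPrime`), by the Eichler–Shimura relation `T_ℓ = σ + ℓ σ⁻¹` at both levels.

The unconditional statement `H11S35.DegTorsPrimeStatement` is in `DegFinal_helper6.lean`.
-/
import Mathlib
import Fermat.Agent.S35.Defs_helper11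
import Fermat.Agent.W3G.Comm_helper13
import Fermat.Agent.S54.Frobenius

set_option autoImplicit false
set_option linter.unusedSectionVars false

noncomputable section

namespace H6BD

open H11W3G H11S35 ModularCurve CongruenceSubgroup AlgebraicCurve

section Abstract

variable {K F F' : Type*} [Field K] [Field F] [Field F'] [Algebra K F] [Algebra K F']

theorem pic0Push_mk (φ : F →ₐ[K] F')
    (h : ∃ (_ : φ.toRingHom.IsIntegral) (hfin : FiniteAlong K φ), NormFormulaAlong K φ hfin)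
    (D : Divisor.degZero (K := K) (F := F')) :
    pic0Push φ (Pic0.mk D) =
      Pic0.mk ⟨Divisor.pushforwardAlong φ h.1 (D : Divisor K F'),
        Divisor.pushforwardAlong_mem_degZero φ h.1 D.2⟩ := by
  unfold pic0Push
  rw [dif_pos h]
  rfl

theorem pic0Push_of_not (φ : F →ₐ[K] F')
    (h : ¬ ∃ (_ : φ.toRingHom.IsIntegral) (hfin : FiniteAlong K φ), NormFormulaAlong K φ hfin) :
    pic0Push φ = 0 := by
  unfold pic0Push
  rw [dif_neg h]

/-- the pushforward of divisor classes commutes with intertwined semilinear automorphisms -/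
theorem pic0Push_smul (φ : F →ₐ[K] F') {g : SemilinearAut K F} {g' : SemilinearAut K F'}
    (hint : SemilinearAut.IntertwinesAlong (φ : F →+* F') g g') (x : Pic0 K F') :
    pic0Push φ (g' • x) = g • pic0Push φ x := by
  by_cases h : ∃ (_ : φ.toRingHom.IsIntegral) (hfin : FiniteAlong K φ), NormFormulaAlong K φ hfin
  · obtain ⟨D, rfl⟩ := Pic0.mk_surjective x
    rw [SemilinearAut.pic0_smul_mk, pic0Push_mk φ h, pic0Push_mk φ h, SemilinearAut.pic0_smul_mk]
    refine congrArg Pic0.mk (Subtype.ext ?_)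
    show Divisor.pushforwardAlong φ h.1 (g' • (D : Divisor K F')) =
      g • Divisor.pushforwardAlong φ h.1 (D : Divisor K F')
    exact H13W3G.pushforwardAlong_smul φ h.1 hint D
  · rw [pic0Push_of_not φ h, AddMonoidHom.zero_apply, AddMonoidHom.zero_apply, smul_zero]

end Abstract

section Galois

variable (N' q : ℕ) [NeZero N'] [NeZero q] [NeZero (N' * q)]

/-- `α_*` commutes with the Galois action -/
theorem h6bd_pushAlpha_smul (σ : GQ) (x : JZero (N' * q)) :
    pushAlpha N' q (σ • x) = σ • pushAlpha N' q x := by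
  rw [galois_smul_pic0_def, galois_smul_pic0_def]
  exact pic0Push_smul _ (H13W3G.intertwines_alpha N' q σ) x

/-- `β_*` commutes with the Galois action -/
theorem h6bd_pushBeta_smul (σ : GQ) (x : JZero (N' * q)) :
    pushBeta N' q (σ • x) = σ • pushBeta N' q x := by
  rw [galois_smul_pic0_def, galois_smul_pic0_def]
  exact pic0Push_smul _ (H13W3G.intertwines_beta N' q σ) x

end Galois

section ES

/-- Eichler–Shimura in the form `T_ℓ x = σ x + ℓ σ⁻¹ x` on `J₀(N)[n]`, `ℓ ∤ N n`. -/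
theorem es_form (N : ℕ) [NeZero N] (hES : ESFrobeniusStatement N)
    (n ℓ : ℕ) (hℓ : ℓ.Prime) (hℓN : ¬ ℓ ∣ N) (hℓn : ¬ ℓ ∣ n)
    (A : ValuationSubring (AlgebraicClosure ℚ)) (hA : A.LiesOverPrime ℓ) (σ : GQ)
    (hσ : A.IsFrobeniusAt σ ℓ) (x : JZero N) (hx : n • x = 0) :
    heckeOperatorBar N ⟨ℓ, hℓ⟩ x = σ • x + ℓ • (σ⁻¹ • x) := by
  have hy : n • (σ⁻¹ • x) = 0 := by
    have h1 : σ⁻¹ • (n • x) = n • (σ⁻¹ • x) :=
      map_nsmul (DistribSMul.toAddMonoidHom (JZero N) σ⁻¹) n x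
    rw [← h1, hx]
    exact map_zero (DistribSMul.toAddMonoidHom (JZero N) σ⁻¹)
  have h := hES n ℓ hℓ hℓN hℓn A hA σ hσ (σ⁻¹ • x) hy
  rw [smul_inv_smul] at h
  have h2 : σ • x + ℓ • (σ⁻¹ • x) - heckeOperatorBar N ⟨ℓ, hℓ⟩ x = 0 := by
    rw [← h]; abel
  exact (sub_eq_zero.mp h2).symm

/-- a group homomorphism which commutes with the Galois action commutes with `T_ℓ` on the
torsion of order prime to `ℓ` -/
theorem hecke_of_galois (N N₁ : ℕ) [NeZero N] [NeZero N₁]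
    (hES : ESFrobeniusStatement N) (hES₁ : ESFrobeniusStatement N₁) (f : JZero N →+ JZero N₁)
    (hf : ∀ (σ : GQ) (x : JZero N), f (σ • x) = σ • f x)
    (ℓ : ℕ) (hℓ : ℓ.Prime) (hℓN : ¬ ℓ ∣ N) (hℓN₁ : ¬ ℓ ∣ N₁) (n : ℕ) (hℓn : ¬ ℓ ∣ n)
    (x : JZero N) (hx : n • x = 0) :
    f (heckeOperatorBar N ⟨ℓ, hℓ⟩ x) = heckeOperatorBar N₁ ⟨ℓ, hℓ⟩ (f x) := by
  obtain ⟨A, σ, hA, hσ⟩ := Fermat.Agent.H9.h9_exists_liesOver_isFrobeniusAt ℓ hℓ
  have hfx : n • f x = 0 := by rw [← map_nsmul, hx, map_zero]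
  rw [es_form N hES n ℓ hℓ hℓN hℓn A hA σ hσ x hx,
    es_form N₁ hES₁ n ℓ hℓ hℓN₁ hℓn A hA σ hσ (f x) hfx,
    map_add, map_nsmul, hf, hf]

end ES

end H6BD
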