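/-
S35 slice BF-D (helper6), final form: `H11S35.DegTorsPrimeStatement` — the degeneracy maps
`α_*, β_* : J₀(N' q)(ℚ̄) → J₀(N')(ℚ̄)` commute with `T_ℓ` (`ℓ ∤ N' q`) on the `n`-torsion, `ℓ ∤ n`.
Eichler–Shimura (`H10ES.h10es_frobeniusStatement_final`) at both levels + Galois-equivariance.
-/
import Fermat.Agent.S35.Deg_helper6
import Fermat.Agent.S35.ASM2_helper11
import Fermat.Agent.W3G.ESFinal_helper10

set_option autoImplicit false

namespace H6BD

open H11W3G H11S35 ModularCurve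

/-- **(BF-D)**, torsion form with `ℓ ∤ n`, unconditional. -/
theorem h6bd_degTorsPrime : DegTorsPrimeStatement := by
  intro N' q _ _ _ _
  refine ⟨fun ℓ hℓ hℓN n _ hℓn x hx => ?_, fun ℓ hℓ hℓN n _ hℓn x hx => ?_⟩
  · exact hecke_of_galois (N' * q) N' (H10ES.h10es_frobeniusStatement_final _)
      (H10ES.h10es_frobeniusStatement_final _) (pushAlpha N' q) (h6bd_pushAlpha_smul N' q)
      ℓ hℓ hℓN (fun hd => hℓN (hd.trans (dvd_mul_right N' q))) n hℓn x hx
  · exact hecke_of_galois (N' * q) N' (H10ES.h10es_frobeniusStatement_final _)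
      (H10ES.h10es_frobeniusStatement_final _) (pushBeta N' q) (h6bd_pushBeta_smul N' q)
      ℓ hℓ hℓN (fun hd => hℓN (hd.trans (dvd_mul_right N' q))) n hℓn x hx

/-- **(BF)** (with `p ∈ S`) from (BF-K) and (FW). -/
theorem h6bd_badFrobP (hK : KillStatement) (hFW : FWStatement) : BadFrobPStatement :=
  h11bf_badFrobP hK h6bd_degTorsPrime hFW

end H6BD
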