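/-
helper29: item 82b (S35), bookkeeping (FW-B1): from functions to divisor classes, for an
arbitrary integral polynomial in a Galois element.

For `σ ∈ G_ℚ`, `P ∈ ℤ[X]`, `x = [D] ∈ J₀(N)` with `n D = div f`:
if `∏ᵢ (σⁱ f)^(aᵢ) ∈ ℚ̄ˣ · (F_Nˣ)ⁿ` (`P = Σ aᵢ Xⁱ`), in the divisor form
`Σᵢ aᵢ ord_W (σⁱ f) = n ord_W ψ` for all places `W`, then `P(σ) x = 0`.

* `H29FW.aeval_mk_eq_zero`      : the divisor form;
* `H29FW.aeval_eq_zero_of_prod` : the multiplicative form (`zpow`), with a constant factor;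
* `H29FW.exists_function`       : `n x = 0 ⟹ x = [D]`, `n D = div f`;
* `H29FW.aeval_mul_eq_zero`     : `P(σ) x = 0 ⟹ (Q P)(σ) x = 0`.
-/
import Mathlib
import Fermat.Agent.S35.Defs_helper11
import Fermat.Agent.S34.GUBook_helper29
import Fermat.Agent.S24.PlaceBasic

set_option autoImplicit false
set_option linter.unusedSectionVars false
set_option linter.unusedVariables false
set_option linter.style.haveILetI false
set_option maxHeartbeats 1000000

noncomputable section

namespace H29FW

open H11W3G ModularCurve AlgebraicCurve H11S35 Polynomial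

local notation "Qb" => AlgebraicClosure ℚ

section Abstract

variable {K F : Type*} [Field K] [Field F] [Algebra K F]

/-- the action of `g` on divisors as a `ℤ`-linear map -/
def divEnd (g : SemilinearAut K F) : Module.End ℤ (Divisor K F) :=
  (DistribSMul.toAddMonoidHom (Divisor K F) g).toIntLinearMap

@[simp]
theorem divEnd_apply (g : SemilinearAut K F) (D : Divisor K F) : divEnd g D = g • D := rfl

theorem divEnd_pow (g : SemilinearAut K F) (i : ℕ) (D : Divisor K F) :
    (divEnd g ^ i) D = g ^ i • D := by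
  induction i generalizing D with
  | zero => simp
  | succ i ih =>
    rw [pow_succ, Module.End.mul_apply, ih, divEnd_apply, pow_succ, mul_smul]

/-- the value of `P(g) D` at a place -/
theorem aeval_divEnd_apply (g : SemilinearAut K F) (P : ℤ[X]) (D : Divisor K F)
    (W : Place K F) :
    (aeval (divEnd g) P D) W =
      ∑ i ∈ Finset.range (P.natDegree + 1), P.coeff i * D ((g ^ i)⁻¹ • W) := by
  rw [aeval_eq_sum_range, LinearMap.sum_apply, Finsupp.finset_sum_apply]
  refine Finset.sum_congr rfl fun i _ => ?_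
  rw [LinearMap.smul_apply, Finsupp.smul_apply, divEnd_pow, SemilinearAut.divisor_smul_apply,
    smul_eq_mul]

/-- **divisor form**: if `n D = div f` and `Σ aᵢ ord_W (gⁱ f) = n ord_W ψ` then `P(g) D` is the
divisor of `ψ`. -/
theorem aeval_divEnd_principal (g : SemilinearAut K F) (P : ℤ[X]) (n : ℕ) (hn : 0 < n)
    (D : Divisor K F) (f : F) (hfD : ∀ W : Place K F, W.ord f = n * D W)
    (ψ : F) (hψ0 : ψ ≠ 0)
    (h : ∀ W : Place K F,
      ∑ i ∈ Finset.range (P.natDegree + 1), P.coeff i * W.ord (g ^ i • f) = n * W.ord ψ) :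
    aeval (divEnd g) P D ∈ Divisor.principal (K := K) (F := F) := by
  refine ⟨ψ, hψ0, fun W => ?_⟩
  have hn' : (n : ℤ) ≠ 0 := by exact_mod_cast hn.ne'
  apply mul_left_cancel₀ hn'
  rw [← h W, aeval_divEnd_apply, Finset.mul_sum]
  refine Finset.sum_congr rfl fun i _ => ?_
  rw [H29GU.ord_smul', hfD]
  ring

/-- `div y = n E` (and `y ≠ 0`) -/
def IsDivN (n : ℕ) (E : Divisor K F) (y : F) : Prop :=
  y ≠ 0 ∧ ∀ W : Place K F, W.ord y = n * E W

theorem IsDivN.smul {n : ℕ} {E : Divisor K F} {y : F} (h : IsDivN n E y)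
    (g : SemilinearAut K F) : IsDivN n (divEnd g E) (g • y) := by
  refine ⟨H29GU.smul_ne_zero' g h.1, fun W => ?_⟩
  rw [H29GU.ord_smul', h.2, divEnd_apply, SemilinearAut.divisor_smul_apply]

theorem IsDivN.mul {n : ℕ} {E E' : Divisor K F} {y y' : F} (h : IsDivN n E y)
    (h' : IsDivN n E' y') : IsDivN n (E + E') (y * y') := by
  refine ⟨mul_ne_zero h.1 h'.1, fun W => ?_⟩
  rw [W.ord_mul h.1 h'.1, h.2, h'.2, Finsupp.add_apply]
  ring

theorem IsDivN.inv {n : ℕ} {E : Divisor K F} {y : F} (h : IsDivN n E y) :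
    IsDivN n (-E) y⁻¹ := by
  refine ⟨inv_ne_zero h.1, fun W => ?_⟩
  rw [W.ord_inv, h.2, Finsupp.neg_apply]
  ring

theorem IsDivN.dvd {n : ℕ} {E : Divisor K F} {y : F} (h : IsDivN n E y) (W : Place K F) :
    (n : ℤ) ∣ W.ord y := ⟨E W, h.2 W⟩

end Abstract

section Modular

variable (N : ℕ) [NeZero N]

/-- the action of `σ` on divisors of degree `0`, as a `ℤ`-linear map -/
def dzEnd (σ : GQ) :
    Module.End ℤ (Divisor.degZero (K := Qb) (F := modularFunctionFieldBar N)) :=
  (SemilinearAut.degZeroSMulHom (arithmeticGalois (modularFunctionFieldFull N) σ)).toIntLinearMap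

/-- the class map, as a `ℤ`-linear map -/
def mkLin : Divisor.degZero (K := Qb) (F := modularFunctionFieldBar N) →ₗ[ℤ] JZero N :=
  (QuotientAddGroup.mk' _).toIntLinearMap

theorem mkLin_apply (D : Divisor.degZero (K := Qb) (F := modularFunctionFieldBar N)) :
    mkLin N D = Pic0.mk D := rfl

/-- the inclusion of the divisors of degree `0`, as a `ℤ`-linear map -/
def inclLin : Divisor.degZero (K := Qb) (F := modularFunctionFieldBar N) →ₗ[ℤ]
    Divisor Qb (modularFunctionFieldBar N) :=
  (AddSubgroup.subtype _).toIntLinearMap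

theorem inclLin_apply (D : Divisor.degZero (K := Qb) (F := modularFunctionFieldBar N)) :
    inclLin N D = (D : Divisor Qb (modularFunctionFieldBar N)) := rfl

/-- intertwining of polynomials in endomorphisms -/
theorem aeval_intertwine {M M' : Type*} [AddCommGroup M] [AddCommGroup M']
    (φ : M →ₗ[ℤ] M') (T : Module.End ℤ M) (T' : Module.End ℤ M')
    (h : ∀ v, φ (T v) = T' (φ v)) (P : ℤ[X]) (v : M) :
    φ (aeval T P v) = aeval T' P (φ v) := by
  have hpow : ∀ (i : ℕ) (v : M), φ ((T ^ i) v) = (T' ^ i) (φ v) := by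
    intro i
    induction i with
    | zero => intro v; simp
    | succ i ih =>
      intro v
      rw [pow_succ, Module.End.mul_apply, ih, h, pow_succ, Module.End.mul_apply]
  rw [aeval_eq_sum_range, aeval_eq_sum_range, LinearMap.sum_apply, LinearMap.sum_apply, map_sum]
  refine Finset.sum_congr rfl fun i _ => ?_
  rw [LinearMap.smul_apply, LinearMap.smul_apply, map_smul, hpow]

theorem mkLin_dzEnd (σ : GQ) (D : Divisor.degZero (K := Qb) (F := modularFunctionFieldBar N)) :
    mkLin N (dzEnd N σ D) = sigEnd σ (mkLin N D) := by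
  rw [sigEnd_apply, mkLin_apply, mkLin_apply, galois_smul_pic0_def, SemilinearAut.pic0_smul_mk]
  rfl

theorem inclLin_dzEnd (σ : GQ) (D : Divisor.degZero (K := Qb) (F := modularFunctionFieldBar N)) :
    inclLin N (dzEnd N σ D) =
      divEnd (arithmeticGalois (modularFunctionFieldFull N) σ) (inclLin N D) := rfl

/-- **(FW-B1), operator form**: `P(σ) [D] = 0` if `P(σ) D` is principal. -/
theorem aeval_mk_eq_zero_of_principal (σ : GQ) (P : ℤ[X])
    (D : Divisor.degZero (K := Qb) (F := modularFunctionFieldBar N))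
    (h : aeval (divEnd (arithmeticGalois (modularFunctionFieldFull N) σ)) P
      (D : Divisor Qb (modularFunctionFieldBar N)) ∈
        Divisor.principal (K := Qb) (F := modularFunctionFieldBar N)) :
    aeval (sigEnd σ : Module.End ℤ (JZero N)) P (Pic0.mk D) = 0 := by
  rw [← mkLin_apply, ← aeval_intertwine (mkLin N) (dzEnd N σ) (sigEnd σ) (mkLin_dzEnd N σ) P D,
    mkLin_apply]
  refine H29GU.mk_eq_zero' _ ?_
  rw [← inclLin_apply, aeval_intertwine (inclLin N) (dzEnd N σ)
    (divEnd (arithmeticGalois (modularFunctionFieldFull N) σ)) (inclLin_dzEnd N σ) P D]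
  exact h

/-- **(FW-B1), divisor form**: `P(σ) [D] = 0` if `n D = div f` and
`Σ aᵢ ord_W (σⁱ f) = n ord_W ψ` for all `W`. -/
theorem aeval_mk_eq_zero (σ : GQ) (P : ℤ[X]) (n : ℕ) (hn : 0 < n)
    (D : Divisor.degZero (K := Qb) (F := modularFunctionFieldBar N))
    (f : modularFunctionFieldBar N)
    (hfD : ∀ W : Place Qb (modularFunctionFieldBar N),
      W.ord f = n * (D : Divisor Qb (modularFunctionFieldBar N)) W)
    (ψ : modularFunctionFieldBar N) (hψ0 : ψ ≠ 0)
    (h : ∀ W : Place Qb (modularFunctionFieldBar N),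
      ∑ i ∈ Finset.range (P.natDegree + 1),
        P.coeff i * W.ord (arithmeticGalois (modularFunctionFieldFull N) σ ^ i • f) =
      n * W.ord ψ) :
    aeval (sigEnd σ : Module.End ℤ (JZero N)) P (Pic0.mk D) = 0 := by
  rw [← mkLin_apply, ← aeval_intertwine (mkLin N) (dzEnd N σ) (sigEnd σ) (mkLin_dzEnd N σ) P D,
    mkLin_apply]
  refine H29GU.mk_eq_zero' _ ?_
  rw [← inclLin_apply, aeval_intertwine (inclLin N) (dzEnd N σ)
    (divEnd (arithmeticGalois (modularFunctionFieldFull N) σ)) (inclLin_dzEnd N σ) P D]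
  exact aeval_divEnd_principal _ P n hn _ f hfD ψ hψ0 h

/-- `n x = 0 ⟹ x = [D]` with `n D = div f`. -/
theorem exists_function (n : ℕ) (x : JZero N) (hx : n • x = 0) :
    ∃ (D : Divisor.degZero (K := Qb) (F := modularFunctionFieldBar N))
      (f : modularFunctionFieldBar N), x = Pic0.mk D ∧ f ≠ 0 ∧
      ∀ W : Place Qb (modularFunctionFieldBar N),
        W.ord f = n * (D : Divisor Qb (modularFunctionFieldBar N)) W := by
  obtain ⟨D, rfl⟩ := Pic0.mk_surjective x
  have h1 : (Pic0.mk (n • D) : JZero N) = 0 := hx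
  have h2 : ((n • D : Divisor.degZero (K := Qb) (F := modularFunctionFieldBar N)) :
      Divisor Qb (modularFunctionFieldBar N)) ∈
      Divisor.principal (K := Qb) (F := modularFunctionFieldBar N) :=
    (QuotientAddGroup.eq_zero_iff (n • D)).mp h1
  obtain ⟨f, hf0, hf⟩ := h2
  refine ⟨D, f, rfl, hf0, fun W => ?_⟩
  rw [← hf W, AddSubgroup.coe_nsmul, Finsupp.smul_apply, nsmul_eq_mul]

/-- `P(σ) x = 0 ⟹ (Q P)(σ) x = 0`. -/
theorem aeval_mul_eq_zero (σ : GQ) (P Q : ℤ[X]) (x : JZero N)
    (h : aeval (sigEnd σ : Module.End ℤ (JZero N)) P x = 0) :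
    aeval (sigEnd σ : Module.End ℤ (JZero N)) (Q * P) x = 0 := by
  rw [map_mul, Module.End.mul_apply, h, map_zero]

/-- `P ≡ P' mod n`, `n x = 0`, `P(σ) x = 0 ⟹ P'(σ) x = 0`. -/
theorem aeval_congr_mod (σ : GQ) (P P' R : ℤ[X]) (n : ℕ) (hP : P' = P + C (n : ℤ) * R)
    (x : JZero N) (hx : n • x = 0)
    (h : aeval (sigEnd σ : Module.End ℤ (JZero N)) P x = 0) :
    aeval (sigEnd σ : Module.End ℤ (JZero N)) P' x = 0 := by
  rw [hP, map_add, LinearMap.add_apply, h, zero_add, mul_comm, map_mul, Module.End.mul_apply,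
    aeval_C]
  have : (algebraMap ℤ (Module.End ℤ (JZero N)) (n : ℤ)) x = 0 := by
    rw [Module.algebraMap_end_apply, natCast_zsmul]
    exact hx
  rw [this, map_zero]

end Modular

end H29FW

end
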