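/-
helper29: item 82b (S35), block FW, slice **BOOK**:
`UnitStatement + NormGalStatement + AbelStatement + ToricBarStatement ⟹ H11S35.FWStatement`.

For `x = [D] ∈ J₀(N' q)[n]`, `n D = div f`, `α_* x = 0 = β_* x`:
* `N_α f`, `N_β f` are `n`-th powers (`norm_pow_of_push`: norm formula, a function with zero
  divisor is constant, constants are `n`-th powers in `ℚ̄`);
* `z := σ f / f` is a unit at `w₁`, `w₂` (UNIT), with `N_α z = (σ h / h)ⁿ` (NORM-GAL);
* `u := σ² z / z` is toric (ABEL), `n ∣ div u`, hence `σ² u = ψⁿ u^{q²}` (TORIC);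
* so `(σ² - q²)(σ² - 1)(σ - 1) D = div ψ`, and `(X² - q²)(X² - 1)(X - 1) ∣ frobPoly q`.
-/
import Mathlib
import Fermat.Agent.S35.FWBook_helper29
import Fermat.Agent.S35.FWDefs_helper17
import Fermat.Agent.S37.R0Mod_helper2
import Fermat.Agent.FF.R0Final
import Fermat.Agent.W3G.KUMUnit_helper16

set_option autoImplicit false
set_option linter.unusedSectionVars false
set_option linter.unusedVariables false
set_option linter.style.haveILetI false
set_option synthInstance.maxHeartbeats 400000
set_option maxHeartbeats 1000000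

noncomputable section

namespace H29FW

open H11W3G ModularCurve AlgebraicCurve H11S35 H17FW Polynomial

local notation "Qb" => AlgebraicClosure ℚ

/-- **norms of functions with `n ∣ div f` and trivial pushed class are `n`-th powers** -/
theorem norm_pow_of_push (N' M : ℕ) [NeZero N'] [NeZero M]
    (φ : modularFunctionFieldBar N' →ₐ[Qb] modularFunctionFieldBar M)
    (hint : φ.toRingHom.IsIntegral) (hfin : FiniteAlong Qb φ) (hN : NormFormulaAlong Qb φ hfin)
    (n : ℕ) (hn : 0 < n)
    (D : Divisor.degZero (K := Qb) (F := modularFunctionFieldBar M))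
    (f : modularFunctionFieldBar M) (hf0 : f ≠ 0)
    (hfD : ∀ W : Place Qb (modularFunctionFieldBar M),
      W.ord f = n * (D : Divisor Qb (modularFunctionFieldBar M)) W)
    (h0 : pic0Push φ (Pic0.mk D) = 0) :
    ∃ h : modularFunctionFieldBar N',
      (letI := algebraAlong φ; Algebra.norm (modularFunctionFieldBar N') f) = h ^ n := by
  classical
  letI := algebraAlong φ
  haveI := isScalarTower_along φ
  haveI := isIntegral_along φ hint
  haveI : Module.Finite (modularFunctionFieldBar N') (modularFunctionFieldBar M) := hfin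
  have hex : ∃ (_ : φ.toRingHom.IsIntegral) (hfin : FiniteAlong Qb φ),
      NormFormulaAlong Qb φ hfin := ⟨hint, hfin, hN⟩
  unfold pic0Push at h0
  rw [dif_pos hex] at h0
  have h1 : Divisor.pushforwardAlong φ hint (D : Divisor Qb (modularFunctionFieldBar M)) ∈
      Divisor.principal (K := Qb) (F := modularFunctionFieldBar N') := by
    have h2 := (QuotientAddGroup.eq_zero_iff _).mp h0
    exact h2
  obtain ⟨h₀, hh₀, hD₀⟩ := h1
  have hnorm0 : Algebra.norm (modularFunctionFieldBar N') f ≠ 0 :=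
    Algebra.norm_ne_zero_iff.mpr hf0
  have hord : ∀ v : Place Qb (modularFunctionFieldBar N'),
      v.ord (Algebra.norm (modularFunctionFieldBar N') f) = n * v.ord h₀ := by
    intro v
    have h3 := hN f hf0 (n • (D : Divisor Qb (modularFunctionFieldBar M))) (fun w => by
      rw [Finsupp.smul_apply, nsmul_eq_mul, hfD]) v
    rw [← h3, map_nsmul, Finsupp.smul_apply, nsmul_eq_mul, ← hD₀ v]
    rfl
  set y : modularFunctionFieldBar N' :=
    Algebra.norm (modularFunctionFieldBar N') f * (h₀ ^ n)⁻¹ with hy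
  have hy0 : ∀ v : Place Qb (modularFunctionFieldBar N'), v.ord y = 0 := by
    intro v
    have e : v.ord (h₀ ^ n) = n * v.ord h₀ := by
      have := v.ord_zpow h₀ (n : ℤ)
      rwa [zpow_natCast] at this
    rw [hy, v.ord_mul hnorm0 (inv_ne_zero (pow_ne_zero n hh₀)), v.ord_inv, e, hord]
    ring
  obtain ⟨c, hc⟩ := H16KU.h16_const_of_ord_nonneg N' y (fun v => (hy0 v).ge)
  obtain ⟨d, hd⟩ := IsAlgClosed.exists_pow_nat_eq c hn
  refine ⟨algebraMap Qb (modularFunctionFieldBar N') d * h₀, ?_⟩
  have e1 : Algebra.norm (modularFunctionFieldBar N') f = y * h₀ ^ n := by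
    rw [hy, mul_assoc, inv_mul_cancel₀ (pow_ne_zero n hh₀), mul_one]
  rw [e1, hc, mul_pow, ← map_pow, hd]

section Norms

variable (N' q : ℕ) [NeZero N'] [NeZero q]

/-- the inputs along `α` -/
theorem inputs_alpha [NeZero (N' * q)] :
    ∃ (hint : (heckeAlphaBar Qb N' q).toRingHom.IsIntegral)
      (hfin : FiniteAlong Qb (heckeAlphaBar Qb N' q)),
      NormFormulaAlong Qb (heckeAlphaBar Qb N' q) hfin := by
  obtain ⟨hα, hβ, hP, hfinα, -, hNα⟩ := H27FF.h27ff_heckeInputsAlong N' q
  exact ⟨hα, hfinα, hNα⟩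

/-- the inputs along `β` -/
theorem inputs_beta [NeZero (N' * q)] :
    ∃ (hint : (heckeBetaBar Qb N' q).toRingHom.IsIntegral)
      (hfin : FiniteAlong Qb (heckeBetaBar Qb N' q)),
      NormFormulaAlong Qb (heckeBetaBar Qb N' q) hfin := by
  obtain ⟨hα, hβ, hP, hfinα, -, hNα⟩ := H27FF.h27ff_heckeInputsAlong N' q
  have hfinβ := H2R0.finiteAlong_beta N' q
  refine ⟨hβ, hfinβ, ?_⟩
  exact @H27FF.h27ff_FF3Statement (modularFunctionFieldBar N') (modularFunctionFieldBar (N' * q))
    _ _ _ _ (algebraAlong (heckeBetaBar Qb N' q)) (isScalarTower_along (heckeBetaBar Qb N' q))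
    (AlgebraicCurve.isIntegral_along (heckeBetaBar Qb N' q) hβ) hP hfinβ (RH24.Jbar N')
    (RH24.B_transcendental N') (H2R0.h2r0_finiteDimensional N')

theorem normA_mul (a b : modularFunctionFieldBar (N' * q)) :
    normA N' q (a * b) = normA N' q a * normA N' q b := by
  unfold normA
  exact map_mul _ a b

theorem normB_mul (a b : modularFunctionFieldBar (N' * q)) :
    normB N' q (a * b) = normB N' q a * normB N' q b := by
  unfold normB
  exact map_mul _ a b

theorem normA_one : normA N' q (1 : modularFunctionFieldBar (N' * q)) = 1 := by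
  unfold normA
  exact map_one _

theorem normB_one : normB N' q (1 : modularFunctionFieldBar (N' * q)) = 1 := by
  unfold normB
  exact map_one _

theorem normA_inv {b : modularFunctionFieldBar (N' * q)} (hb : b ≠ 0) :
    normA N' q b⁻¹ = (normA N' q b)⁻¹ := by
  have h := normA_mul N' q b⁻¹ b
  rw [inv_mul_cancel₀ hb, normA_one] at h
  exact eq_inv_of_mul_eq_one_left h.symm

theorem normB_inv {b : modularFunctionFieldBar (N' * q)} (hb : b ≠ 0) :
    normB N' q b⁻¹ = (normB N' q b)⁻¹ := by
  have h := normB_mul N' q b⁻¹ b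
  rw [inv_mul_cancel₀ hb, normB_one] at h
  exact eq_inv_of_mul_eq_one_left h.symm

end Norms

/-- the polynomial `(X² - q²)(X² - 1)(X - 1)` -/
def fwPoly (q : ℕ) : ℤ[X] := (X * X - C ((q : ℤ) ^ 2)) * ((X * X - 1) * (X - 1))

theorem frobPoly_eq (q : ℕ) : frobPoly q = ((X + 1) * (X ^ 2 - C ((q : ℤ) ^ 2))) * fwPoly q := by
  unfold frobPoly fwPoly
  ring

/-- **BOOK**: the Frobenius-weight statement from the four `ℚ̄`-level slices. -/
theorem fw_of_slices (hU : UnitStatement) (hNG : NormGalStatement) (hAb : AbelStatement)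
    (hT : ToricBarStatement) : H11S35.FWStatement := by
  intro N' q _ _ _ hq hqN n hqn A hA σ hσ x hx hα hβ
  have hn : 0 < n := Nat.pos_of_ne_zero (fun h0 => hqn (h0 ▸ dvd_zero q))
  obtain ⟨D, f, rfl, hf0, hfD⟩ := exists_function (N' * q) n x hx
  -- the norms of `f`
  obtain ⟨hintα, hfinα, hNα⟩ := inputs_alpha N' q
  obtain ⟨hintβ, hfinβ, hNβ⟩ := inputs_beta N' q
  obtain ⟨h₁, hh₁⟩ : ∃ h : modularFunctionFieldBar N', normA N' q f = h ^ n :=
    norm_pow_of_push N' (N' * q) (heckeAlphaBar Qb N' q) hintα hfinα hNα n hn D f hf0 hfD hα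
  obtain ⟨h₂, hh₂⟩ : ∃ h : modularFunctionFieldBar N', normB N' q f = h ^ n :=
    norm_pow_of_push N' (N' * q) (heckeBetaBar Qb N' q) hintβ hfinβ hNβ n hn D f hf0 hfD hβ
  -- `z = σ f / f`
  set g := arithmeticGalois (modularFunctionFieldFull (N' * q)) σ with hg
  set z : modularFunctionFieldBar (N' * q) := act (N' * q) σ f * f⁻¹ with hz
  have hE : IsDivN n (D : Divisor Qb (modularFunctionFieldBar (N' * q))) f := ⟨hf0, hfD⟩
  have hzE := (hE.smul g).mul hE.inv
  have hz0 : z ≠ 0 := hzE.1
  obtain ⟨hz1, hz2⟩ := hU N' q hq hqN A hA σ hσ.mem_decompositionSubgroup f hf0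
  have hzA : ∃ h : modularFunctionFieldBar N', normA N' q z = h ^ n := by
    refine ⟨act N' σ h₁ * h₁⁻¹, ?_⟩
    rw [hz, normA_mul, normA_inv N' q hf0, (hNG N' q hq σ f).1, hh₁, mul_pow, inv_pow]
    congr 1
    exact smul_pow' _ _ _
  have hzB : ∃ h : modularFunctionFieldBar N', normB N' q z = h ^ n := by
    refine ⟨act N' σ h₂ * h₂⁻¹, ?_⟩
    rw [hz, normB_mul, normB_inv N' q hf0, (hNG N' q hq σ f).2, hh₂, mul_pow, inv_pow]
    congr 1
    exact smul_pow' _ _ _
  -- `u = σ² z / z`
  have htor := hAb N' q hq hqN n hn A hA σ hσ z hz0 hz1 hz2 hzA hzB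
  set u : modularFunctionFieldBar (N' * q) :=
    act (N' * q) σ (act (N' * q) σ z) * z⁻¹ with hu
  have huE := ((hzE.smul g).smul g).mul hzE.inv
  have hu0 : u ≠ 0 := huE.1
  obtain ⟨ψ, hψ⟩ := hT N' q hq hqN n hn hqn A hA σ hσ u hu0 (fun P => huE.dvd P) htor
  have huuE := (huE.smul g).smul g
  have hψ0 : ψ ≠ 0 := by
    rintro rfl
    rw [zero_pow hn.ne', zero_mul] at hψ
    exact huuE.1 hψ
  -- conclusion
  rw [frobPoly_eq]
  apply aeval_mul_eq_zero
  apply aeval_mk_eq_zero_of_principal
  refine ⟨ψ, hψ0, fun W => ?_⟩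
  have h1 := huuE.2 W
  have h2 : W.ord (act (N' * q) σ (act (N' * q) σ u)) =
      n * W.ord ψ + (q : ℤ) ^ 2 * W.ord u := by
    rw [hψ, W.ord_mul (pow_ne_zero n hψ0) (pow_ne_zero _ hu0)]
    have e1 : W.ord (ψ ^ n) = n * W.ord ψ := by
      have := W.ord_zpow ψ (n : ℤ)
      rwa [zpow_natCast] at this
    have e2 : W.ord (u ^ (q ^ 2)) = (q : ℤ) ^ 2 * W.ord u := by
      have := W.ord_zpow u ((q ^ 2 : ℕ) : ℤ)
      rw [zpow_natCast] at this
      rw [this]
      push_cast
      ring
    rw [e1, e2]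
  have h3 := huE.2 W
  have hn' : (n : ℤ) ≠ 0 := by exact_mod_cast hn.ne'
  apply mul_left_cancel₀ hn'
  have h4 : n * W.ord ψ = n * (divEnd g (divEnd g
      (divEnd g (divEnd g (divEnd g (D : Divisor Qb (modularFunctionFieldBar (N' * q))) +
          -(D : Divisor Qb (modularFunctionFieldBar (N' * q)))))
        + -(divEnd g (D : Divisor Qb (modularFunctionFieldBar (N' * q))) +
          -(D : Divisor Qb (modularFunctionFieldBar (N' * q))))))) W -
      (q : ℤ) ^ 2 * (n * (divEnd g (divEnd g (divEnd g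
        (D : Divisor Qb (modularFunctionFieldBar (N' * q))) +
          -(D : Divisor Qb (modularFunctionFieldBar (N' * q)))))
        + -(divEnd g (D : Divisor Qb (modularFunctionFieldBar (N' * q))) +
          -(D : Divisor Qb (modularFunctionFieldBar (N' * q))))) W) := by
    have h5 : W.ord (act (N' * q) σ (act (N' * q) σ u)) = _ := h1
    rw [← h5, ← h3, h2]
    ring
  rw [h4]
  have h6 : (aeval (divEnd g)) (fwPoly q) (D : Divisor Qb (modularFunctionFieldBar (N' * q))) =
      divEnd g (divEnd g (divEnd g (divEnd g (divEnd g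
        (D : Divisor Qb (modularFunctionFieldBar (N' * q))) +
          -(D : Divisor Qb (modularFunctionFieldBar (N' * q)))))
        + -(divEnd g (D : Divisor Qb (modularFunctionFieldBar (N' * q))) +
          -(D : Divisor Qb (modularFunctionFieldBar (N' * q)))))) -
      ((q : ℤ) ^ 2) • (divEnd g (divEnd g (divEnd g
        (D : Divisor Qb (modularFunctionFieldBar (N' * q))) +
          -(D : Divisor Qb (modularFunctionFieldBar (N' * q)))))
        + -(divEnd g (D : Divisor Qb (modularFunctionFieldBar (N' * q))) +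
          -(D : Divisor Qb (modularFunctionFieldBar (N' * q))))) := by
    unfold fwPoly
    simp only [map_mul, map_sub, aeval_X, aeval_C, map_one, Algebra.algebraMap_eq_smul_one,
      Module.End.mul_apply, LinearMap.sub_apply, LinearMap.smul_apply, Module.End.one_apply]
    simp only [sub_eq_add_neg, map_add, map_neg, smul_add, smul_neg]
    abel
  rw [h6, Finsupp.sub_apply, Finsupp.smul_apply, smul_eq_mul]
  ring

end H29FW

end
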