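/-
helper21, item 82b (S35), block FW, slice (LC): level change for the TORIC statement.

`H17FW.ToricTameStatement → H17FW.ToricBarStatement`: if `q = 3`, `2 ∤ N'` pass to level `2 N'`,
if `q = 2`, `3 ∤ N'` pass to level `3 N'`; being toric is a condition on `q`-expansions, the
Atkin–Lehner involution is compatible with the levels, and an `n`-th root descends because the
degree (`3`, resp. `4`) is prime to `n`.

NOTE (helper23/helper18): no `rfl` between two levels anywhere; all cross-level coercion facts go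
through generic lemmas on `IntermediateField`s and level-free series (`jser`).
-/
import Mathlib
import Fermat.Agent.S35.FWDefs_helper17
import Fermat.Agent.S18.C11b_helper12
import Fermat.Agent.S34.LevelChange_helper21

set_option autoImplicit false
set_option linter.unusedSectionVars false
set_option linter.unusedVariables false
set_option linter.style.haveILetI false
set_option linter.style.longLine false

noncomputable section

open ModularCurve AlgebraicCurve H11W3G H28GV H7S18 H17FW RH24 H29W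

namespace H21FL

/-! ### generic coercion lemmas -/

section generic

variable {K L : Type*} [Field K] [Field L] [Algebra K L]

theorem coe_inclusion' {E F : IntermediateField K L} (hle : E ≤ F) (x : E) :
    ((IntermediateField.inclusion hle x : F) : L) = (x : L) := rfl

theorem coe_algebraMap' (E : IntermediateField K L) (c : K) :
    ((algebraMap K E c : E) : L) = algebraMap K L c := rfl

end generic

/-- the level-free series `j(q^m)` -/
def jser (m : ℕ) : LaurentSeries Kbar :=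
  if h : m = 0 then 0 else
    haveI : NeZero m := ⟨h⟩
    coeffEmb Kbar (qExpand ℚ m jq)

theorem coe_Jgen_jser {N : ℕ} [NeZero N] (d : Dv N) :
    ((Jgen d : modularFunctionFieldBar N) : LaurentSeries Kbar) = jser d.1 := by
  unfold jser
  rw [dif_neg (Dv_ne_zero d)]
  rfl

/-! ### the inclusion of levels -/

section levels

variable {N N' : ℕ} [NeZero N] [NeZero N']

/-- the inclusion of levels, as a ring homomorphism -/
def incl (h : N ∣ N') : modularFunctionFieldBar N →+* modularFunctionFieldBar N' :=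
  (IntermediateField.inclusion (H12C11b.bar_le h)).toRingHom

theorem coe_incl (h : N ∣ N') (x : modularFunctionFieldBar N) :
    ((incl h x : modularFunctionFieldBar N') : LaurentSeries Kbar) = (x : LaurentSeries Kbar) :=
  coe_inclusion' (H12C11b.bar_le h) x

theorem incl_const (h : N ∣ N') (c : Kbar) :
    incl h (algebraMap Kbar (modularFunctionFieldBar N) c) =
      algebraMap Kbar (modularFunctionFieldBar N') c :=
  (IntermediateField.inclusion (H12C11b.bar_le h)).commutes c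

theorem incl_Jgen (h : N ∣ N') (d : Dv N) :
    incl h (Jgen d) = Jgen (⟨d.1, d.2.trans h⟩ : Dv N') := by
  apply Subtype.ext
  rw [coe_incl, coe_Jgen_jser, coe_Jgen_jser]

theorem incl_ne_zero (h : N ∣ N') {x : modularFunctionFieldBar N} (hx : x ≠ 0) :
    incl h x ≠ 0 := (map_ne_zero (incl h)).2 hx

end levels

/-! ### compatibility of the Atkin–Lehner involution with the levels -/

section wq

variable (N₁ N₂ q : ℕ) [NeZero N₁] [NeZero N₂] [NeZero q] [NeZero (N₁ * q)] [NeZero (N₂ * q)]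

/-- the value of `w_q` as a Laurent series -/
def wSer (hq : q.Prime) (hqN : ¬ q ∣ N₁) :
    modularFunctionFieldBar (N₁ * q) →+* LaurentSeries Kbar :=
  (algebraMap (modularFunctionFieldBar (N₁ * q)) (LaurentSeries Kbar)).comp
    (H12AL.wqBarHom N₁ q hq hqN)

theorem wSer_apply (hq : q.Prime) (hqN : ¬ q ∣ N₁) (x : modularFunctionFieldBar (N₁ * q)) :
    wSer N₁ q hq hqN x =
      ((H12AL.wqBarHom N₁ q hq hqN x : modularFunctionFieldBar (N₁ * q)) :
        LaurentSeries Kbar) := rfl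

theorem wSer_const (hq : q.Prime) (hqN : ¬ q ∣ N₁) (c : Kbar) :
    wSer N₁ q hq hqN (algebraMap Kbar (modularFunctionFieldBar (N₁ * q)) c) =
      algebraMap Kbar (LaurentSeries Kbar) c := by
  rw [wSer_apply, H12AL.wqBarHom_const, coe_algebraMap']

theorem swap_val (hq : q.Prime) (d : Dv (N₁ * q)) :
    (h29w_swap N₁ q hq d).1 = if q ∣ d.1 then d.1 / q else d.1 * q := by
  by_cases h : q ∣ d.1
  · rw [if_pos h, h29w_swap_of_dvd N₁ q hq d h]
  · rw [if_neg h, h29w_swap_of_not_dvd N₁ q hq d h]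

theorem wSer_Jgen (hq : q.Prime) (hqN : ¬ q ∣ N₁) (d : Dv (N₁ * q)) :
    wSer N₁ q hq hqN (Jgen d) = jser (if q ∣ d.1 then d.1 / q else d.1 * q) := by
  rw [wSer_apply, H12AL.wqBarHom_Jgen, coe_Jgen_jser, swap_val]

/-- **level compatibility of `w_q`** -/
theorem wq_compat (h12 : N₁ ∣ N₂) (hq : q.Prime) (hqN₁ : ¬ q ∣ N₁) (hqN₂ : ¬ q ∣ N₂)
    (x : modularFunctionFieldBar (N₁ * q)) :
    ((H12AL.wqBarHom N₂ q hq hqN₂ (incl (Nat.mul_dvd_mul_right h12 q) x) :
        modularFunctionFieldBar (N₂ * q)) : LaurentSeries Kbar) =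
      ((H12AL.wqBarHom N₁ q hq hqN₁ x : modularFunctionFieldBar (N₁ * q)) :
        LaurentSeries Kbar) := by
  have key : (wSer N₂ q hq hqN₂).comp (incl (Nat.mul_dvd_mul_right h12 q)) =
      wSer N₁ q hq hqN₁ := by
    apply ringHom_ext_F
    · intro c
      rw [RingHom.comp_apply, incl_const, wSer_const, wSer_const]
    · intro d
      rw [RingHom.comp_apply, incl_Jgen, wSer_Jgen, wSer_Jgen]
  have := RingHom.congr_fun key x
  rw [RingHom.comp_apply, wSer_apply, wSer_apply] at this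
  exact this

end wq

/-! ### transport of `One1` and of toric functions -/

theorem one1_of_coe_eq (A : ValuationSubring Kbar) {N N' : ℕ} [NeZero N] [NeZero N']
    (x : modularFunctionFieldBar N) (y : modularFunctionFieldBar N')
    (hxy : (y : LaurentSeries Kbar) = (x : LaurentSeries Kbar)) (h : One1 A x) : One1 A y := by
  obtain ⟨hx, hr⟩ := h
  have hy : (y : LaurentSeries Kbar) ∈ gvO A (resA A) := by rw [hxy]; exact hx
  refine ⟨hy, ?_⟩
  have e : (⟨(y : LaurentSeries Kbar), hy⟩ : gvO A (resA A)) =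
      ⟨(x : LaurentSeries Kbar), hx⟩ := Subtype.ext hxy
  rw [e]
  exact hr

theorem coe_act (N : ℕ) [NeZero N] (σ : GQ) (x : modularFunctionFieldBar N) :
    ((act N σ x : modularFunctionFieldBar N) : LaurentSeries Kbar) =
      coeffMap ((σ : Kbar ≃ₐ[ℚ] Kbar) : Kbar →+* Kbar) (x : LaurentSeries Kbar) := rfl

/-- the toric statement at a single level `N' q` and a single exponent `n` -/
def ToricAt (N' q : ℕ) [NeZero N'] [NeZero q] [NeZero (N' * q)] (hq : q.Prime) (hqN : ¬ q ∣ N')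
    (n : ℕ) : Prop :=
  ∀ A : ValuationSubring (AlgebraicClosure ℚ), A.LiesOverPrime q →
    ∀ σ : GQ, A.IsFrobeniusAt σ q →
    ∀ u : modularFunctionFieldBar (N' * q), u ≠ 0 →
      (∀ P : Place (AlgebraicClosure ℚ) (modularFunctionFieldBar (N' * q)), (n : ℤ) ∣ P.ord u) →
      IsToric N' q hq hqN A n u →
      ∃ ψ : modularFunctionFieldBar (N' * q),
        act (N' * q) σ (act (N' * q) σ u) = ψ ^ n * u ^ (q ^ 2)

section change

variable (N₁ N₂ q : ℕ) [NeZero N₁] [NeZero N₂] [NeZero q] [NeZero (N₁ * q)] [NeZero (N₂ * q)]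

theorem isToric_incl (h12 : N₁ ∣ N₂) (hq : q.Prime) (hqN₁ : ¬ q ∣ N₁) (hqN₂ : ¬ q ∣ N₂)
    (A : ValuationSubring Kbar) (n : ℕ) (u : modularFunctionFieldBar (N₁ * q))
    (h : IsToric N₁ q hq hqN₁ A n u) :
    IsToric N₂ q hq hqN₂ A n (incl (Nat.mul_dvd_mul_right h12 q) u) := by
  obtain ⟨ψ₁, ψ₂, h1, h2, hO1, hO2⟩ := h
  refine ⟨incl (Nat.mul_dvd_mul_right h12 q) ψ₁, incl (Nat.mul_dvd_mul_right h12 q) ψ₂,
    incl_ne_zero _ h1, incl_ne_zero _ h2, ?_, ?_⟩
  · have e : incl (Nat.mul_dvd_mul_right h12 q) u *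
        (incl (Nat.mul_dvd_mul_right h12 q) ψ₁ ^ n)⁻¹ =
        incl (Nat.mul_dvd_mul_right h12 q) (u * (ψ₁ ^ n)⁻¹) := by
      rw [map_mul, map_inv₀, map_pow]
    rw [e]
    exact one1_of_coe_eq A _ _ (coe_incl _ _) hO1
  · have e : incl (Nat.mul_dvd_mul_right h12 q) u *
        (incl (Nat.mul_dvd_mul_right h12 q) ψ₂ ^ n)⁻¹ =
        incl (Nat.mul_dvd_mul_right h12 q) (u * (ψ₂ ^ n)⁻¹) := by
      rw [map_mul, map_inv₀, map_pow]
    rw [e, H12AL.wqBar_apply]
    rw [H12AL.wqBar_apply] at hO2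
    exact one1_of_coe_eq A _ _ (wq_compat N₁ N₂ q h12 hq hqN₁ hqN₂ _) hO2

/-- **(LC) for toric functions** -/
theorem levelChangeToric (h12 : N₁ ∣ N₂) (hq : q.Prime) (hqN₁ : ¬ q ∣ N₁) (hqN₂ : ¬ q ∣ N₂)
    (n : ℕ) (hcop : Nat.Coprime (dedekindPsi (N₂ * q) / dedekindPsi (N₁ * q)) n)
    (h' : ToricAt N₂ q hq hqN₂ n) : ToricAt N₁ q hq hqN₁ n := by
  intro A hA σ hσ u hu hdiv htor
  have hdvd : N₁ * q ∣ N₂ * q := Nat.mul_dvd_mul_right h12 q
  have hle : modularFunctionFieldBar (N₁ * q) ≤ modularFunctionFieldBar (N₂ * q) :=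
    H12C11b.bar_le hdvd
  have hu' : incl hdvd u ≠ 0 := incl_ne_zero _ hu
  have hιu : incl hdvd u = ⟨(u : LaurentSeries Kbar), hle u.2⟩ :=
    Subtype.ext (coe_incl hdvd u)
  have hdiv' : ∀ P' : Place Kbar (modularFunctionFieldBar (N₂ * q)),
      (n : ℤ) ∣ P'.ord (incl hdvd u) := by
    intro P'
    have h1 := H12C11b.dvd_ord_of_dvd_ord hle (n : ℤ) (x₁ := (u : LaurentSeries Kbar))
      (x₂ := (1 : LaurentSeries Kbar)) u.2 (one_mem _) (fun P => by
        have e1 : (⟨(1 : LaurentSeries Kbar), one_mem _⟩ : modularFunctionFieldBar (N₁ * q)) = 1 :=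
          rfl
        have e2 : (⟨(u : LaurentSeries Kbar), u.2⟩ : modularFunctionFieldBar (N₁ * q)) = u := rfl
        rw [e1, e2, P.ord_one, sub_zero]
        exact hdiv P) P'
    have e1 : (⟨(1 : LaurentSeries Kbar), hle (one_mem _)⟩ :
        modularFunctionFieldBar (N₂ * q)) = 1 := rfl
    rw [e1, P'.ord_one, sub_zero, ← hιu] at h1
    exact h1
  obtain ⟨ψ'', hψ''⟩ := h' A hA σ hσ (incl hdvd u) hu' hdiv'
    (isToric_incl N₁ N₂ q h12 hq hqN₁ hqN₂ A n u htor)
  have hu0 : (u : LaurentSeries Kbar) ≠ 0 := fun h0 => hu (Subtype.ext h0)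
  -- pass to Laurent series
  have hL : coeffMap ((σ : Kbar ≃ₐ[ℚ] Kbar) : Kbar →+* Kbar)
        (coeffMap ((σ : Kbar ≃ₐ[ℚ] Kbar) : Kbar →+* Kbar) (u : LaurentSeries Kbar)) =
      (ψ'' : LaurentSeries Kbar) ^ n * (u : LaurentSeries Kbar) ^ (q ^ 2) := by
    have h1 := congrArg (fun z : modularFunctionFieldBar (N₂ * q) => (z : LaurentSeries Kbar)) hψ''
    rw [coe_act, coe_act, coe_incl] at h1
    rw [h1]
    have e : ((ψ'' ^ n * incl hdvd u ^ (q ^ 2) : modularFunctionFieldBar (N₂ * q)) :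
        LaurentSeries Kbar) = (ψ'' : LaurentSeries Kbar) ^ n *
          ((incl hdvd u : modularFunctionFieldBar (N₂ * q)) : LaurentSeries Kbar) ^ (q ^ 2) := rfl
    rw [e, coe_incl]
  -- `v = σ² u / u^{q²} ∈ F_{N₁ q}` is an `n`-th power in `F_{N₂ q}`
  set v : modularFunctionFieldBar (N₁ * q) :=
    act (N₁ * q) σ (act (N₁ * q) σ u) * (u ^ (q ^ 2))⁻¹ with hv
  have ev : (v : LaurentSeries Kbar) =
      coeffMap ((σ : Kbar ≃ₐ[ℚ] Kbar) : Kbar →+* Kbar)
        (coeffMap ((σ : Kbar ≃ₐ[ℚ] Kbar) : Kbar →+* Kbar) (u : LaurentSeries Kbar)) *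
        ((u : LaurentSeries Kbar) ^ (q ^ 2))⁻¹ := rfl
  have hpow : (ψ'' : LaurentSeries Kbar) ^ n = (v : LaurentSeries Kbar) := by
    rw [ev, hL, mul_assoc, mul_inv_cancel₀ (pow_ne_zero _ hu0), mul_one]
  obtain ⟨g, hg, hgp⟩ := H12C11b.exists_pow_eq_of_coprime (modularFunctionFieldBar (N₁ * q))
    (modularFunctionFieldBar (N₂ * q)) hle n (by rw [H12C11b.relfinrank_bar hdvd]; exact hcop)
    v.2 ψ''.2 hpow
  refine ⟨⟨g, hg⟩, ?_⟩
  apply Subtype.ext
  show coeffMap ((σ : Kbar ≃ₐ[ℚ] Kbar) : Kbar →+* Kbar)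
        (coeffMap ((σ : Kbar ≃ₐ[ℚ] Kbar) : Kbar →+* Kbar) (u : LaurentSeries Kbar)) =
      g ^ n * (u : LaurentSeries Kbar) ^ (q ^ 2)
  rw [hgp, ev, mul_assoc, inv_mul_cancel₀ (pow_ne_zero _ hu0), mul_one]

end change

/-! ### the two level changes and the final statement -/

theorem toricAt_of_tame (h : ToricTameStatement) (N' q : ℕ) [NeZero N'] [NeZero q]
    [NeZero (N' * q)] (hq : q.Prime) (hqN : ¬ q ∣ N') (ht : TameLevel q N') (n : ℕ)
    (hn : 0 < n) (hqn : ¬ q ∣ n) : ToricAt N' q hq hqN n :=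
  fun A hA σ hσ u hu hdiv htor => h N' q hq hqN ht n hn hqn A hA σ hσ u hu hdiv htor

/-- `q = 3`, `2 ∤ N'`: pass to level `2 N'` -/
theorem toricAt_three (h : ToricTameStatement) (N' : ℕ) [NeZero N'] [NeZero (N' * 3)]
    (hqN : ¬ 3 ∣ N') (h2 : ¬ 2 ∣ N') (n : ℕ) (hn : 0 < n) (h3n : ¬ 3 ∣ n) :
    ToricAt N' 3 Nat.prime_three hqN n := by
  haveI : NeZero (2 * N') := ⟨mul_ne_zero two_ne_zero (NeZero.ne N')⟩
  haveI : NeZero (2 * N' * 3) := ⟨mul_ne_zero (NeZero.ne (2 * N')) three_ne_zero⟩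
  have hqN₂ : ¬ 3 ∣ 2 * N' := by
    intro hd
    rcases (Nat.Prime.dvd_mul Nat.prime_three).1 hd with h1 | h1
    · omega
    · exact hqN h1
  have htame : TameLevel 3 (2 * N') :=
    ⟨hqN₂, fun h32 => absurd h32 (by norm_num), fun _ => dvd_mul_right 2 N'⟩
  refine levelChangeToric N' (2 * N') 3 (dvd_mul_left N' 2) Nat.prime_three hqN hqN₂ n ?_
    (toricAt_of_tame h (2 * N') 3 Nat.prime_three hqN₂ htame n hn h3n)
  have h2' : ¬ 2 ∣ N' * 3 := by
    intro hd
    rcases (Nat.Prime.dvd_mul Nat.prime_two).1 hd with h1 | h1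
    · exact h2 h1
    · omega
  have hψ : dedekindPsi (2 * N' * 3) / dedekindPsi (N' * 3) = 3 := by
    rw [mul_assoc, H7S18.h7_dedekindPsi_prime_mul 2 (N' * 3) Nat.prime_two (NeZero.ne _) h2']
    exact Nat.mul_div_cancel _ (H21LC.dedekindPsi_pos' (N' * 3) (NeZero.ne _))
  rw [hψ]
  exact (Nat.Prime.coprime_iff_not_dvd Nat.prime_three).2 h3n

/-- `q = 2`, `3 ∤ N'`: pass to level `3 N'` -/
theorem toricAt_two (h : ToricTameStatement) (N' : ℕ) [NeZero N'] [NeZero (N' * 2)]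
    (hqN : ¬ 2 ∣ N') (h3 : ¬ 3 ∣ N') (n : ℕ) (hn : 0 < n) (h2n : ¬ 2 ∣ n) :
    ToricAt N' 2 Nat.prime_two hqN n := by
  haveI : NeZero (3 * N') := ⟨mul_ne_zero three_ne_zero (NeZero.ne N')⟩
  haveI : NeZero (3 * N' * 2) := ⟨mul_ne_zero (NeZero.ne (3 * N')) two_ne_zero⟩
  have hqN₂ : ¬ 2 ∣ 3 * N' := by
    intro hd
    rcases (Nat.Prime.dvd_mul Nat.prime_two).1 hd with h1 | h1
    · omega
    · exact hqN h1
  have htame : TameLevel 2 (3 * N') :=
    ⟨hqN₂, fun _ => dvd_mul_right 3 N', fun h23 => absurd h23 (by norm_num)⟩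
  refine levelChangeToric N' (3 * N') 2 (dvd_mul_left N' 3) Nat.prime_two hqN hqN₂ n ?_
    (toricAt_of_tame h (3 * N') 2 Nat.prime_two hqN₂ htame n hn h2n)
  have h3' : ¬ 3 ∣ N' * 2 := by
    intro hd
    rcases (Nat.Prime.dvd_mul Nat.prime_three).1 hd with h1 | h1
    · exact h3 h1
    · omega
  have hψ : dedekindPsi (3 * N' * 2) / dedekindPsi (N' * 2) = 4 := by
    rw [mul_assoc, H7S18.h7_dedekindPsi_prime_mul 3 (N' * 2) Nat.prime_three (NeZero.ne _) h3']
    exact Nat.mul_div_cancel _ (H21LC.dedekindPsi_pos' (N' * 2) (NeZero.ne _))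
  rw [hψ]
  have h2c : Nat.Coprime 2 n := (Nat.Prime.coprime_iff_not_dvd Nat.prime_two).2 h2n
  exact Nat.Coprime.pow_left 2 h2c

/-- **(LC) for block FW**: the toric statement at tame levels gives it at all levels. -/
theorem toricBar_of_tame (h : ToricTameStatement) : ToricBarStatement := by
  intro N' q _ _ _ hq hqN n hn hqn A hA σ hσ u hu hdiv htor
  by_cases htame : TameLevel q N'
  · exact h N' q hq hqN htame n hn hqn A hA σ hσ u hu hdiv htor
  · have hcases : (q = 2 ∧ ¬ 3 ∣ N') ∨ (q = 3 ∧ ¬ 2 ∣ N') := by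
      unfold TameLevel at htame
      by_contra hcon
      rw [not_or] at hcon
      apply htame
      refine ⟨hqN, fun h2 => ?_, fun h3 => ?_⟩
      · by_contra h3N
        exact hcon.1 ⟨h2, h3N⟩
      · by_contra h2N
        exact hcon.2 ⟨h3, h2N⟩
    rcases hcases with ⟨rfl, h3⟩ | ⟨rfl, h2⟩
    · exact toricAt_two h N' hqN h3 n hn hqn A hA σ hσ u hu hdiv htor
    · exact toricAt_three h N' hqN h2 n hn hqn A hA σ hσ u hu hdiv htor

end H21FL
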