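import Mathlib
import Fermat.Agent.S18.GVBar_helper28
import Fermat.Agent.S18.GVBasis_helper28

/-!
# Item 82b (S35), block FW, slice UNIT, part A (helper28): fractions of integral series

For a valuation subring `R` of a field `K` of characteristic `0`, every element of
`F_K(N) = K · F_N ⊆ K((q))` is a quotient of two series with coefficients in `R`
(`H28FU.exists_frac`).  If `R` is a discrete valuation ring, a nonzero series with coefficients
in `R` is a nonzero constant times a series with a unit coefficient (`H28FU.exists_content`).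
-/

set_option autoImplicit false
set_option linter.unusedSectionVars false
set_option linter.style.haveILetI false

noncomputable section

open ModularCurve H28GV

namespace H28FU

section Frac

variable {K : Type} [Field K] [Algebra ℚ K] (R : ValuationSubring K)

/-- the subfield of `K((q))` of quotients of series with coefficients in `R` -/
def fracField : Subfield (LaurentSeries K) :=
  Subfield.closure ((gvEps R).range : Set (LaurentSeries K))

theorem gvEps_mem_fracField (f : LaurentSeries R) : gvEps R f ∈ fracField R :=
  Subfield.subset_closure ⟨f, rfl⟩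

theorem mem_fracField_iff (x : LaurentSeries K) :
    x ∈ fracField R ↔ ∃ f g : LaurentSeries R, g ≠ 0 ∧ x * gvEps R g = gvEps R f := by
  constructor
  · intro hx
    rw [fracField, Subfield.mem_closure_iff] at hx
    obtain ⟨y, hy, z, hz, rfl⟩ := hx
    rw [Subring.closure_eq] at hy hz
    obtain ⟨f, rfl⟩ := hy
    obtain ⟨g, rfl⟩ := hz
    by_cases hg : g = 0
    · refine ⟨0, 1, one_ne_zero, ?_⟩
      rw [hg, map_zero, div_zero, zero_mul]
    · refine ⟨f, g, hg, ?_⟩
      have hg' : gvEps R g ≠ 0 := fun h => hg ((gvEps_eq_zero_iff R g).mp h)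
      exact div_mul_cancel₀ _ hg'
  · rintro ⟨f, g, hg, h⟩
    have hg' : gvEps R g ≠ 0 := fun h => hg ((gvEps_eq_zero_iff R g).mp h)
    have hx : x = gvEps R f / gvEps R g := by
      rw [← h, mul_div_cancel_right₀ _ hg']
    rw [hx]
    exact div_mem (gvEps_mem_fracField R f) (gvEps_mem_fracField R g)

theorem const_mem_fracField (a : K) : algebraMap K (LaurentSeries K) a ∈ fracField R := by
  have hC : ∀ b : K, b ∈ R → algebraMap K (LaurentSeries K) b ∈ fracField R := by
    intro b hb
    have h1 : algebraMap K (LaurentSeries K) b = gvEps R (HahnSeries.C (⟨b, hb⟩ : R)) := by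
      rw [gvEps_C, algebraMap_laurentSeries_eq_single]
      rfl
    rw [h1]
    exact gvEps_mem_fracField R _
  rcases R.mem_or_inv_mem a with h | h
  · exact hC a h
  · have h2 := inv_mem (hC _ h)
    rwa [← map_inv₀, inv_inv] at h2

theorem coeffEmb_mem_fracField (N : ℕ) [NeZero N] (z : LaurentSeries ℚ)
    (hz : z ∈ modularFunctionFieldFull N) : coeffEmb K z ∈ fracField R := by
  have hle : Subfield.closure (Set.range (algebraMap ℚ (LaurentSeries ℚ)) ∪ divisorExpansions N) ≤
      (fracField R).comap (coeffEmb K) := by
    rw [Subfield.closure_le]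
    rintro y (⟨c, rfl⟩ | ⟨d, hd, -, rfl⟩)
    · show coeffEmb K (algebraMap ℚ (LaurentSeries ℚ) c) ∈ fracField R
      rw [gv_coeffEmb_algebraMap]
      exact const_mem_fracField R _
    · haveI := hd
      show coeffEmb K (qExpand ℚ d jq) ∈ fracField R
      rw [gv_coeffEmb_qExpand, gv_coeffEmb_jq, ← gvEps_jd R d]
      exact gvEps_mem_fracField R _
  exact hle hz

/-- **fraction form**: every element of `F_K(N)` is a quotient of two `R`-integral series -/
theorem exists_frac (N : ℕ) [NeZero N] (x : LaurentSeries K)
    (hx : x ∈ laurentBaseChange K (modularFunctionFieldFull N)) :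
    ∃ f g : LaurentSeries R, g ≠ 0 ∧ x * gvEps R g = gvEps R f := by
  rw [← mem_fracField_iff]
  rw [mem_laurentBaseChange_iff] at hx
  have hle : Subfield.closure (Set.range (algebraMap K (LaurentSeries K)) ∪
      (⇑(coeffEmb K) '' (modularFunctionFieldFull N : Set (LaurentSeries ℚ)))) ≤ fracField R := by
    rw [Subfield.closure_le]
    rintro y (⟨c, rfl⟩ | ⟨z, hz, rfl⟩)
    · exact const_mem_fracField R c
    · exact coeffEmb_mem_fracField R N z hz
  exact hle hx

end Frac

section Content

variable {K : Type} [Field K] (R : ValuationSubring K) [IsDiscreteValuationRing ↥R]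

/-- **content**: a nonzero series over a discrete valuation ring is a nonzero constant times a
series with a unit coefficient -/
theorem exists_content (f : LaurentSeries R) (hf : f ≠ 0) :
    ∃ (a : R) (f' : LaurentSeries R), a ≠ 0 ∧ f = HahnSeries.C a * f' ∧
      ∃ n, IsUnit (f'.coeff n) := by
  have hne : ∃ n, f.coeff n ≠ 0 := by
    by_contra h
    push Not at h
    exact hf (HahnSeries.ext (funext fun n => by rw [h n]; rfl))
  let S : Set ℕ∞ := {v | ∃ n, f.coeff n ≠ 0 ∧ v = IsDiscreteValuationRing.addVal ↥R (f.coeff n)}
  have hS : S.Nonempty := by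
    obtain ⟨n, hn⟩ := hne
    exact ⟨_, n, hn, rfl⟩
  obtain ⟨v, ⟨n₀, hn₀, rfl⟩, hmin⟩ := wellFounded_lt.has_min S hS
  have hdvd : ∀ n, f.coeff n₀ ∣ f.coeff n := by
    intro n
    by_cases hn : f.coeff n = 0
    · rw [hn]; exact dvd_zero _
    · rw [← IsDiscreteValuationRing.addVal_le_iff_dvd]
      exact not_lt.mp (hmin _ ⟨n, hn, rfl⟩)
  choose b hb using hdvd
  have hsupp : Function.support b = f.support := by
    ext n
    simp only [Function.mem_support, HahnSeries.mem_support]
    constructor
    · intro h1 h2
      rw [hb n] at h2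
      rcases mul_eq_zero.mp h2 with h | h
      · exact hn₀ h
      · exact h1 h
    · intro h1 h2
      apply h1
      rw [hb n, h2, mul_zero]
  let f' : LaurentSeries R :=
    { coeff := b
      isPWO_support' := by rw [hsupp]; exact f.isPWO_support }
  refine ⟨f.coeff n₀, f', hn₀, ?_, n₀, ?_⟩
  · apply HahnSeries.ext
    funext n
    rw [HahnSeries.C_mul_eq_smul, HahnSeries.coeff_smul, smul_eq_mul]
    exact hb n
  · have h1 : f.coeff n₀ * 1 = f.coeff n₀ * b n₀ := by rw [mul_one]; exact hb n₀
    have h2 : (1 : R) = b n₀ := mul_left_cancel₀ hn₀ h1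
    show IsUnit (b n₀)
    rw [← h2]
    exact isUnit_one

end Content

end H28FU

end
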