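import Mathlib
import Fermat.Agent.S35.FWDefs_helper17
import Fermat.Agent.S35.FWUnitA_helper28
import Fermat.Agent.S18.C6a_helper1
import Fermat.Agent.S18.C6b_helper4
import Fermat.Agent.S37.R1_helper10

/-!
# Item 82b (S35), block FW, slice UNIT (helper28): `H17FW.UnitStatement`

* `H28FU.gauss_bar` (**GAUSS**): for every level `N` and every `x ≠ 0` in `F̄_N ⊆ ℚ̄((q))`:
  `x · ε g = c · ε f` with `c ∈ ℚ̄ˣ` and `f, g ∈ A((q))` of nonzero reduction, i.e. the value group
  of the Gauss valuation on `F̄_N` is the value group of `A`.  (Descent to a number field `K₁`,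
  `A ∩ K₁` is a discrete valuation ring, the minimum of the valuations of the coefficients is
  attained.)
* `H28FU.decomp_valuation`: the decomposition group of `A` preserves the valuation of `A`.
* `H28FU.unit_of_decomp`: `σ x / x` is a unit of the Gauss ring for `σ` in the decomposition
  group.
* `H28FU.unitStatement : H17FW.UnitStatement`.
-/

set_option autoImplicit false
set_option linter.unusedSectionVars false
set_option linter.style.haveILetI false
set_option synthInstance.maxHeartbeats 400000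

noncomputable section

open scoped Pointwise

open ModularCurve H28GV H7S18 H17FW

namespace H28FU

section Decomp

variable (A : ValuationSubring (AlgebraicClosure ℚ))

/-- an element of the decomposition group maps `A` into `A` -/
theorem decomp_mem {σ : AlgebraicClosure ℚ ≃ₐ[ℚ] AlgebraicClosure ℚ}
    (hσ : σ ∈ A.decompositionSubgroup ℚ) {x : AlgebraicClosure ℚ} (hx : x ∈ A) : σ x ∈ A := by
  have h1 : σ • A = A := hσ
  have h2 : σ • x ∈ σ • A := ValuationSubring.smul_mem_pointwise_smul σ x A hx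
  rw [h1] at h2
  exact h2

theorem decomp_mem_iff {σ : AlgebraicClosure ℚ ≃ₐ[ℚ] AlgebraicClosure ℚ}
    (hσ : σ ∈ A.decompositionSubgroup ℚ) (x : AlgebraicClosure ℚ) : σ x ∈ A ↔ x ∈ A := by
  constructor
  · intro h
    have h2 := decomp_mem A (Subgroup.inv_mem _ hσ) h
    have h3 : σ⁻¹ (σ x) = x := σ.symm_apply_apply x
    rwa [h3] at h2
  · exact decomp_mem A hσ

theorem decomp_lt_one_iff {σ : AlgebraicClosure ℚ ≃ₐ[ℚ] AlgebraicClosure ℚ}
    (hσ : σ ∈ A.decompositionSubgroup ℚ) (x : AlgebraicClosure ℚ) :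
    A.valuation (σ x) < 1 ↔ A.valuation x < 1 := by
  by_cases hx : x = 0
  · rw [hx, map_zero]
  have hσx : σ x ≠ 0 := fun h => hx ((map_eq_zero_iff σ σ.injective).mp h)
  have h1 : ∀ y : AlgebraicClosure ℚ, y ≠ 0 → (A.valuation y < 1 ↔ y⁻¹ ∉ A) := by
    intro y hy
    rw [← A.valuation_le_one_iff, map_inv₀, not_le, one_lt_inv₀ (by
      rw [zero_lt_iff]; exact (A.valuation.ne_zero_iff).mpr hy)]
  rw [h1 _ hσx, h1 _ hx, ← map_inv₀, decomp_mem_iff A hσ]

theorem decomp_lt_iff {σ : AlgebraicClosure ℚ ≃ₐ[ℚ] AlgebraicClosure ℚ}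
    (hσ : σ ∈ A.decompositionSubgroup ℚ) (x y : AlgebraicClosure ℚ) (hy : y ≠ 0) :
    A.valuation (σ x) < A.valuation (σ y) ↔ A.valuation x < A.valuation y := by
  have hσy : σ y ≠ 0 := fun h => hy ((map_eq_zero_iff σ σ.injective).mp h)
  have h1 : ∀ a b : AlgebraicClosure ℚ, b ≠ 0 →
      (A.valuation a < A.valuation b ↔ A.valuation (a / b) < 1) := by
    intro a b hb
    rw [map_div₀, div_lt_one₀ (by rw [zero_lt_iff]; exact (A.valuation.ne_zero_iff).mpr hb)]
  rw [h1 _ _ hσy, h1 _ _ hy, ← map_div₀, decomp_lt_one_iff A hσ]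

/-- a power of `σ` fixes `c` -/
theorem exists_pow_fix (σ : AlgebraicClosure ℚ ≃ₐ[ℚ] AlgebraicClosure ℚ)
    (c : AlgebraicClosure ℚ) : ∃ m : ℕ, 0 < m ∧ (σ ^ m) c = c := by
  have hint : IsIntegral ℚ c := (AlgebraicClosure.isAlgebraic ℚ).isAlgebraic c |>.isIntegral
  have hmem : ∀ i : ℕ, (σ ^ i) c ∈ (minpoly ℚ c).rootSet (AlgebraicClosure ℚ) := by
    intro i
    rw [Polynomial.mem_rootSet]
    refine ⟨minpoly.ne_zero hint, ?_⟩
    have := Polynomial.aeval_algHom_apply ((σ ^ i : AlgebraicClosure ℚ ≃ₐ[ℚ] AlgebraicClosure ℚ) :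
      AlgebraicClosure ℚ →ₐ[ℚ] AlgebraicClosure ℚ) c (minpoly ℚ c)
    rw [minpoly.aeval, map_zero] at this
    exact this
  have : Finite ((minpoly ℚ c).rootSet (AlgebraicClosure ℚ)) :=
    (Polynomial.rootSet_finite _ _).to_subtype
  obtain ⟨i, j, hij, h⟩ := Finite.exists_ne_map_eq_of_infinite
    (fun i : ℕ => (⟨(σ ^ i) c, hmem i⟩ : (minpoly ℚ c).rootSet (AlgebraicClosure ℚ)))
  have h' : (σ ^ i) c = (σ ^ j) c := congrArg Subtype.val h
  have key : ∀ i j : ℕ, i < j → (σ ^ i) c = (σ ^ j) c → ∃ m : ℕ, 0 < m ∧ (σ ^ m) c = c := by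
    intro i j hlt he
    refine ⟨j - i, Nat.sub_pos_of_lt hlt, ?_⟩
    have h1 : σ ^ j = σ ^ i * σ ^ (j - i) := by
      rw [← pow_add, Nat.add_sub_cancel' hlt.le]
    rw [h1, AlgEquiv.mul_apply] at he
    exact ((σ ^ i).injective he).symm
  rcases lt_or_gt_of_ne hij with hlt | hlt
  · exact key i j hlt h'
  · exact key j i hlt h'.symm

/-- **the decomposition group preserves the valuation** -/
theorem decomp_valuation {σ : AlgebraicClosure ℚ ≃ₐ[ℚ] AlgebraicClosure ℚ}
    (hσ : σ ∈ A.decompositionSubgroup ℚ) (c : AlgebraicClosure ℚ) :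
    A.valuation (σ c) = A.valuation c := by
  by_cases hc : c = 0
  · rw [hc, map_zero]
  obtain ⟨m, hm, hfix⟩ := exists_pow_fix σ c
  have hpow : ∀ i : ℕ, σ ^ i ∈ A.decompositionSubgroup ℚ := fun i => Subgroup.pow_mem _ hσ i
  have hne : ∀ i : ℕ, (σ ^ i) c ≠ 0 := fun i h =>
    hc ((map_eq_zero_iff (σ ^ i) (σ ^ i).injective).mp h)
  have hsucc : ∀ i : ℕ, (σ ^ (i + 1)) c = (σ ^ i) (σ c) := by
    intro i
    rw [pow_succ, AlgEquiv.mul_apply]
  rcases lt_trichotomy (A.valuation (σ c)) (A.valuation c) with h | h | h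
  · exfalso
    have hstep : ∀ i : ℕ, A.valuation ((σ ^ (i + 1)) c) < A.valuation c := by
      intro i
      induction i with
      | zero => simpa using h
      | succ i ih =>
        have h2 : A.valuation ((σ ^ (i + 1)) (σ c)) < A.valuation ((σ ^ (i + 1)) c) :=
          (decomp_lt_iff A (hpow (i + 1)) (σ c) c hc).mpr h
        rw [← hsucc] at h2
        exact h2.trans ih
    obtain ⟨k, rfl⟩ : ∃ k, m = k + 1 := ⟨m - 1, by omega⟩
    have := hstep k
    rw [hfix] at this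
    exact lt_irrefl _ this
  · exact h
  · exfalso
    have hstep : ∀ i : ℕ, A.valuation c < A.valuation ((σ ^ (i + 1)) c) := by
      intro i
      induction i with
      | zero => simpa using h
      | succ i ih =>
        have h2 : A.valuation ((σ ^ (i + 1)) c) < A.valuation ((σ ^ (i + 1)) (σ c)) :=
          (decomp_lt_iff A (hpow (i + 1)) c (σ c) (by simpa using hne 1)).mpr h
        rw [← hsucc] at h2
        exact ih.trans h2
    obtain ⟨k, rfl⟩ : ∃ k, m = k + 1 := ⟨m - 1, by omega⟩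
    have := hstep k
    rw [hfix] at this
    exact lt_irrefl _ this

/-- `σ c / c` is a unit of `A` -/
theorem decomp_div_mem {σ : AlgebraicClosure ℚ ≃ₐ[ℚ] AlgebraicClosure ℚ}
    (hσ : σ ∈ A.decompositionSubgroup ℚ) (c : AlgebraicClosure ℚ) (hc : c ≠ 0) :
    σ c / c ∈ A ∧ (σ c / c)⁻¹ ∈ A := by
  have hv : A.valuation (σ c / c) = 1 := by
    rw [map_div₀, decomp_valuation A hσ c]
    exact div_self ((A.valuation.ne_zero_iff).mpr hc)
  constructor
  · rw [← A.valuation_le_one_iff, hv]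
  · rw [← A.valuation_le_one_iff, map_inv₀, hv, inv_one]

end Decomp

section Gauss

variable (A : ValuationSubring (AlgebraicClosure ℚ))

/-- a unit coefficient gives a nonzero reduction -/
theorem rho_ne_zero_of_isUnit (K₁ : IntermediateField ℚ (AlgebraicClosure ℚ))
    (g : LaurentSeries ↥(descVal A K₁)) (hg : ∃ n, IsUnit (g.coeff n)) :
    gvRho A (IsLocalRing.residue A) (coeffMap (descIncl A K₁) g) ≠ 0 := by
  obtain ⟨n, hn⟩ := hg
  intro h0
  have h1 := congrArg (fun z => z.coeff n) h0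
  simp only [gvRho_coeff, coeffMap_coeff, HahnSeries.coeff_zero] at h1
  have h2 : IsUnit (descIncl A K₁ (g.coeff n)) := hn.map (descIncl A K₁)
  exact ((IsLocalRing.residue_eq_zero_iff _).mp h1) h2

/-- compatibility of the coefficient embeddings -/
theorem coeffMap_gvEps_desc (K₁ : IntermediateField ℚ (AlgebraicClosure ℚ))
    (g : LaurentSeries ↥(descVal A K₁)) :
    coeffMap (algebraMap K₁ (AlgebraicClosure ℚ)) (gvEps (descVal A K₁) g) =
      gvEps A (coeffMap (descIncl A K₁) g) := by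
  rw [gvEps, gvEps, coeffMap_coeffMap, coeffMap_coeffMap]
  exact coeffMap_congr (RingHom.ext fun _ => rfl) g

/-- **GAUSS**: the value group of the Gauss valuation on `F̄_N` is the value group of `A`. -/
theorem gauss_bar (ℓ : ℕ) [Fact ℓ.Prime] (hA : A.LiesOverPrime ℓ) (N : ℕ) [NeZero N]
    (x : LaurentSeries (AlgebraicClosure ℚ)) (hx : x ∈ modularFunctionFieldBar N)
    (hx0 : x ≠ 0) :
    ∃ (c : AlgebraicClosure ℚ) (f g : LaurentSeries A), c ≠ 0 ∧
      gvRho A (IsLocalRing.residue A) f ≠ 0 ∧ gvRho A (IsLocalRing.residue A) g ≠ 0 ∧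
      x * gvEps A g = HahnSeries.C c * gvEps A f := by
  obtain ⟨K₁, hK₁, x₁, hx₁, rfl⟩ := H1S18.desc_of_mem hx
  obtain ⟨hdvr, -, -⟩ := H4DVR.dvrStatement ℓ A hA K₁ hK₁
  haveI := hdvr
  obtain ⟨f, g, hg, hfg⟩ := exists_frac (descVal A K₁) N x₁ hx₁
  have hx₁0 : x₁ ≠ 0 := by
    rintro rfl
    exact hx0 (map_zero _)
  have hf : f ≠ 0 := by
    rintro rfl
    rw [map_zero] at hfg
    rcases mul_eq_zero.mp hfg with h | h
    · exact hx₁0 h
    · exact hg ((gvEps_eq_zero_iff _ g).mp h)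
  obtain ⟨a, f', ha, rfl, hf'⟩ := exists_content (descVal A K₁) f hf
  obtain ⟨b, g', hb, rfl, hg'⟩ := exists_content (descVal A K₁) g hg
  have ha' : algebraMap K₁ (AlgebraicClosure ℚ) (a : K₁) ≠ 0 := by
    intro h
    exact ha (Subtype.ext ((map_eq_zero_iff _ (algebraMap K₁ (AlgebraicClosure ℚ)).injective).mp h))
  have hb' : algebraMap K₁ (AlgebraicClosure ℚ) (b : K₁) ≠ 0 := by
    intro h
    exact hb (Subtype.ext ((map_eq_zero_iff _ (algebraMap K₁ (AlgebraicClosure ℚ)).injective).mp h))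
  refine ⟨algebraMap K₁ (AlgebraicClosure ℚ) (a : K₁) / algebraMap K₁ (AlgebraicClosure ℚ) (b : K₁),
    coeffMap (descIncl A K₁) f', coeffMap (descIncl A K₁) g', div_ne_zero ha' hb',
    rho_ne_zero_of_isUnit A K₁ f' hf', rho_ne_zero_of_isUnit A K₁ g' hg', ?_⟩
  have hfg' : x₁ * (HahnSeries.C (b : K₁) * gvEps (descVal A K₁) g') =
      HahnSeries.C (a : K₁) * gvEps (descVal A K₁) f' := by
    rw [← gvEps_C, ← gvEps_C, ← map_mul, ← map_mul]
    exact hfg
  have hC : ∀ c : K₁, coeffMap (algebraMap K₁ (AlgebraicClosure ℚ)) (HahnSeries.C c) =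
      HahnSeries.C (algebraMap K₁ (AlgebraicClosure ℚ) c) := fun c => coeffMap_single _ _ _
  have h1 := congrArg (coeffMap (algebraMap K₁ (AlgebraicClosure ℚ))) hfg'
  rw [map_mul, map_mul, map_mul, hC, hC, coeffMap_gvEps_desc, coeffMap_gvEps_desc] at h1
  have hCb : (HahnSeries.C (algebraMap K₁ (AlgebraicClosure ℚ) (b : K₁)) :
      LaurentSeries (AlgebraicClosure ℚ)) ≠ 0 := by
    intro h
    exact hb' ((map_eq_zero_iff _ HahnSeries.C_injective).mp h)
  rw [map_div₀, div_mul_eq_mul_div, eq_div_iff hCb, ← h1]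
  ring

/-- **GAUSS**, reduction form: a nonzero `x ∈ F̄_N` is a nonzero constant times an element of the
Gauss ring with nonzero reduction. -/
theorem gauss_red (ℓ : ℕ) [Fact ℓ.Prime] (hA : A.LiesOverPrime ℓ) (N : ℕ) [NeZero N]
    (x : LaurentSeries (AlgebraicClosure ℚ)) (hx : x ∈ modularFunctionFieldBar N)
    (hx0 : x ≠ 0) :
    ∃ (c : AlgebraicClosure ℚ) (_ : c ≠ 0)
      (h : x * (HahnSeries.C c)⁻¹ ∈ gvO A (IsLocalRing.residue A)),
      gvRed A (IsLocalRing.residue A)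
        (⟨x * (HahnSeries.C c)⁻¹, h⟩ : gvO A (IsLocalRing.residue A)) ≠ 0 := by
  obtain ⟨c, f, g, hc, hf, hg, h⟩ := gauss_bar A ℓ hA N x hx hx0
  have hCc : (HahnSeries.C c : LaurentSeries (AlgebraicClosure ℚ)) ≠ 0 := fun h0 =>
    hc ((map_eq_zero_iff _ HahnSeries.C_injective).mp h0)
  have h' : x * (HahnSeries.C c)⁻¹ * gvEps A g = gvEps A f := by
    rw [mul_right_comm, h, mul_comm (HahnSeries.C c), mul_assoc, mul_inv_cancel₀ hCc, mul_one]
  have hmem : x * (HahnSeries.C c)⁻¹ ∈ gvO A (IsLocalRing.residue A) := ⟨f, g, hg, h'⟩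
  refine ⟨c, hc, hmem, ?_⟩
  rw [gvRed_eq A (IsLocalRing.residue A) ⟨x * (HahnSeries.C c)⁻¹, hmem⟩ f g hg h']
  exact div_ne_zero hf hg

end Gauss

section Unit

variable (A : ValuationSubring (AlgebraicClosure ℚ))

/-- a quotient of two series of nonzero reduction is a unit of the Gauss ring -/
theorem unit_of_eq (u : LaurentSeries (AlgebraicClosure ℚ)) (p r : LaurentSeries A)
    (hp : gvRho A (IsLocalRing.residue A) p ≠ 0) (hr : gvRho A (IsLocalRing.residue A) r ≠ 0)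
    (h : u * gvEps A r = gvEps A p) :
    u ∈ gvO A (IsLocalRing.residue A) ∧ u⁻¹ ∈ gvO A (IsLocalRing.residue A) := by
  have hr0 := gvEps_ne_zero_of_rho A _ r hr
  have hp0 := gvEps_ne_zero_of_rho A _ p hp
  refine ⟨⟨p, r, hr, h⟩, ⟨r, p, hp, ?_⟩⟩
  have hu : u ≠ 0 := by
    rintro rfl
    rw [zero_mul] at h
    exact hp0 h.symm
  rw [← h, ← mul_assoc, inv_mul_cancel₀ hu, one_mul]

/-- the action of the decomposition group on series with coefficients in `A` -/
theorem coeffMap_gvEps_resA {σ : AlgebraicClosure ℚ ≃ₐ[ℚ] AlgebraicClosure ℚ}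
    (hσ : σ ∈ A.decompositionSubgroup ℚ) (f : LaurentSeries A) :
    coeffMap (σ : AlgebraicClosure ℚ →+* AlgebraicClosure ℚ) (gvEps A f) =
      gvEps A (coeffMap (H10R1.h10r1_resA A σ hσ) f) := by
  rw [gvEps, coeffMap_coeffMap, coeffMap_coeffMap, H10R1.h10r1_subtype_comp]

theorem gvRho_resA_ne_zero {σ : AlgebraicClosure ℚ ≃ₐ[ℚ] AlgebraicClosure ℚ}
    (hσ : σ ∈ A.decompositionSubgroup ℚ) (f : LaurentSeries A)
    (hf : gvRho A (IsLocalRing.residue A) f ≠ 0) :
    gvRho A (IsLocalRing.residue A) (coeffMap (H10R1.h10r1_resA A σ hσ) f) ≠ 0 := by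
  intro h
  apply hf
  apply HahnSeries.ext
  funext n
  have h1 := congrArg (fun z => z.coeff n) h
  simp only [gvRho_coeff, coeffMap_coeff, HahnSeries.coeff_zero] at h1
  rw [gvRho_coeff]
  have h2 := congrArg (fun φ : ↥A →+* IsLocalRing.ResidueField A => φ (f.coeff n))
    (H10R1.h10r1_residue_comp A σ hσ)
  simp only [RingHom.comp_apply] at h2
  rw [h1] at h2
  exact (map_eq_zero_iff _ (RingEquiv.injective _)).mp h2.symm

/-- **UNIT at `w₁`**: `σ x / x` is a unit of the Gauss ring, for `σ` in the decomposition group -/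
theorem unit_of_decomp (ℓ : ℕ) [Fact ℓ.Prime] (hA : A.LiesOverPrime ℓ) (N : ℕ) [NeZero N]
    {σ : AlgebraicClosure ℚ ≃ₐ[ℚ] AlgebraicClosure ℚ} (hσ : σ ∈ A.decompositionSubgroup ℚ)
    (x : LaurentSeries (AlgebraicClosure ℚ)) (hx : x ∈ modularFunctionFieldBar N)
    (hx0 : x ≠ 0) :
    coeffMap (σ : AlgebraicClosure ℚ →+* AlgebraicClosure ℚ) x * x⁻¹ ∈
        gvO A (IsLocalRing.residue A) ∧
      (coeffMap (σ : AlgebraicClosure ℚ →+* AlgebraicClosure ℚ) x * x⁻¹)⁻¹ ∈
        gvO A (IsLocalRing.residue A) := by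
  obtain ⟨c, f, g, hc, hf, hg, h⟩ := gauss_bar A ℓ hA N x hx hx0
  obtain ⟨ha, ha'⟩ := decomp_div_mem A hσ c hc
  set σA := H10R1.h10r1_resA A σ hσ with hσA
  have hunit : IsUnit (⟨σ c / c, ha⟩ : A) := by
    refine IsUnit.of_mul_eq_one (⟨(σ c / c)⁻¹, ha'⟩ : A) ?_
    apply Subtype.ext
    have hne : σ c / c ≠ 0 :=
      div_ne_zero (fun h => hc ((map_eq_zero_iff σ σ.injective).mp h)) hc
    exact mul_inv_cancel₀ hne
  have hCa : gvRho A (IsLocalRing.residue A) (HahnSeries.C (⟨σ c / c, ha⟩ : A)) ≠ 0 := by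
    rw [gvRho_C]
    intro h0
    have h1 := (map_eq_zero_iff _ HahnSeries.C_injective).mp h0
    exact ((IsLocalRing.residue_eq_zero_iff _).mp h1) hunit
  refine unit_of_eq A _ (HahnSeries.C (⟨σ c / c, ha⟩ : A) * coeffMap σA f * g)
    (coeffMap σA g * f) ?_ ?_ ?_
  · rw [map_mul, map_mul]
    exact mul_ne_zero (mul_ne_zero hCa (gvRho_resA_ne_zero A hσ f hf)) hg
  · rw [map_mul]
    exact mul_ne_zero (gvRho_resA_ne_zero A hσ g hg) hf
  · have h2 := congrArg (coeffMap (σ : AlgebraicClosure ℚ →+* AlgebraicClosure ℚ)) h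
    rw [map_mul, map_mul, coeffMap_gvEps_resA A hσ, coeffMap_gvEps_resA A hσ] at h2
    have hC : coeffMap (σ : AlgebraicClosure ℚ →+* AlgebraicClosure ℚ) (HahnSeries.C c) =
        HahnSeries.C (σ c) := coeffMap_single _ _ _
    rw [hC] at h2
    rw [map_mul, map_mul, map_mul, gvEps_C]
    have hg0 := gvEps_ne_zero_of_rho A _ g hg
    have hCc : (HahnSeries.C c : LaurentSeries (AlgebraicClosure ℚ)) ≠ 0 := fun h0 =>
      hc ((map_eq_zero_iff _ HahnSeries.C_injective).mp h0)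
    have hf1 : gvEps A f = (HahnSeries.C c)⁻¹ * (x * gvEps A g) := by
      rw [h, ← mul_assoc, inv_mul_cancel₀ hCc, one_mul]
    have hCdiv : (HahnSeries.C (σ c / c) : LaurentSeries (AlgebraicClosure ℚ)) =
        HahnSeries.C (σ c) * (HahnSeries.C c)⁻¹ := by
      rw [map_div₀, div_eq_mul_inv]
    rw [hCdiv, hf1]
    calc coeffMap (↑σ) x * x⁻¹ * (gvEps A (coeffMap σA g) * ((HahnSeries.C c)⁻¹ * (x * gvEps A g)))
        = (coeffMap (↑σ) x * gvEps A (coeffMap σA g)) * (HahnSeries.C c)⁻¹ * gvEps A g *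
            (x⁻¹ * x) := by ring
      _ = HahnSeries.C (σ c) * (HahnSeries.C c)⁻¹ * gvEps A (coeffMap σA f) * gvEps A g := by
          rw [h2, inv_mul_cancel₀ hx0]; ring

end Unit

/-- **(UNIT)** -/
theorem unitStatement : H17FW.UnitStatement := by
  intro N' q _ _ _ hq hqN A hA σ hσ f hf
  haveI : Fact q.Prime := ⟨hq⟩
  have key : ∀ y : modularFunctionFieldBar (N' * q), y ≠ 0 →
      Unit1 A (act (N' * q) σ y * y⁻¹) := by
    intro y hy
    have hy0 : (y : LaurentSeries (AlgebraicClosure ℚ)) ≠ 0 := fun h => hy (Subtype.ext h)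
    exact unit_of_decomp A q hA (N' * q) hσ (y : LaurentSeries (AlgebraicClosure ℚ)) y.2 hy0
  refine ⟨key f hf, ?_⟩
  have hWf : H12AL.wqBar N' q hq hqN f ≠ 0 := by
    intro h
    exact hf ((map_eq_zero_iff _ (H12AL.wqBar N' q hq hqN).injective).mp h)
  have hcomm : H12AL.wqBar N' q hq hqN (act (N' * q) σ f * f⁻¹) =
      act (N' * q) σ (H12AL.wqBar N' q hq hqN f) * (H12AL.wqBar N' q hq hqN f)⁻¹ := by
    rw [map_mul, map_inv₀]
    congr 1
    exact H12AL.wqBarHom_galois N' q hq hqN σ f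
  rw [hcomm]
  exact key _ hWf

end H28FU

end
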