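/-
S35 slice BF-H (helper6): `H11S35.HardFaithStatement` — a word in the good Hecke operators that
kills `S₂(Γ₀(N'))` kills the lattice `Hom_par(Γ₀(N'), ℤ)`.

Proof: Eichler–Shimura (`S21`: the pair of period maps is onto `Hom_par(Γ₀(N'), ℂ)`), the
Hecke-equivariance of the period map (`H21S16.h22a_periodMap_heckeT`) and the compatibility of
the transfer formula with the involution `γ ↦ JγJ` (`H21S16.h27h2_heckeTFun_jConj`).
-/
import Mathlib
import Fermat.Agent.S35.Defs_helper11
import Fermat.Agent.S21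
import Fermat.Agent.S16.A_H1_helper22
import Fermat.Agent.S16.A_H2_helper27

set_option autoImplicit false
set_option linter.unusedSectionVars false

noncomputable section

namespace H6HF

open ModularCurve ModularCurve.Period CongruenceSubgroup H11W3G H11S35

variable {N : ℕ} [NeZero N]

/-- the pair of period maps, explicitly -/
theorem pair_apply (f g : CuspForm (Gamma0 N) 2) (γ : Gamma0 N) :
    periodHomPair N (f, g) (Additive.ofMul γ) =
      periodMap N f (Additive.ofMul γ) + periodMap N f (Additive.ofMul (jConjGamma0 N γ))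
        + (periodMap N g (Additive.ofMul γ) -
            periodMap N g (Additive.ofMul (jConjGamma0 N γ))) := by
  obtain ⟨pml, hpml, h⟩ := periodHomPair_def N (H21E1.existsPeriodMapLinear N)
  rw [h]
  simp only [LinearMap.coprod_apply, LinearMap.comp_apply, LinearMap.add_apply,
    LinearMap.sub_apply, LinearMap.id_apply, hpml]
  rfl

/-- Hecke-equivariance of the pair of period maps -/
theorem pair_hecke {ℓ : ℕ} [Fact ℓ.Prime] (hℓ : ℓ.Prime) (hℓN : ¬ ℓ ∣ N)
    (f g : CuspForm (Gamma0 N) 2) (γ : Gamma0 N) :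
    periodHomPair N (CuspForm.heckeTLin 2 hℓ hℓN f, CuspForm.heckeTLin 2 hℓ hℓN g)
        (Additive.ofMul γ) =
      H21S16.heckeTFun hℓN (fun δ => periodHomPair N (f, g) (Additive.ofMul δ)) γ := by
  have hJ : ∀ (u : CuspForm (Gamma0 N) 2),
      periodMap N (CuspForm.heckeTLin 2 hℓ hℓN u) (Additive.ofMul (jConjGamma0 N γ)) =
        ∑ x : OnePoint (ZMod ℓ),
          periodMap N u (Additive.ofMul (jConjGamma0 N (H21S16.transT hℓN γ x))) := by
    intro u
    rw [H21S16.h22a_periodMap_heckeT hℓ hℓN u (jConjGamma0 N γ)]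
    have := H21S16.h27h2_heckeTFun_jConj hℓN (periodMap N u) γ
    unfold H21S16.heckeTFun at this
    exact this.symm
  rw [pair_apply, H21S16.h22a_periodMap_heckeT hℓ hℓN f γ,
    H21S16.h22a_periodMap_heckeT hℓ hℓN g γ, hJ f, hJ g]
  unfold H21S16.heckeTFun
  simp only [pair_apply]
  rw [Finset.sum_add_distrib, Finset.sum_add_distrib, Finset.sum_sub_distrib]

/-- the compatibility relation between an endomorphism of the lattice and an endomorphism of
the space of cusp forms -/
def Rel (a : Module.End ℤ (Lpar N)) (b : Module.End ℂ (CuspForm (Gamma0 N) 2)) : Prop :=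
  ∀ (φ : Lpar N) (f g : CuspForm (Gamma0 N) 2),
    (∀ γ : Gamma0 N, (((φ : Additive (Gamma0 N) →+ ℤ) (Additive.ofMul γ) : ℤ) : ℂ) =
      periodHomPair N (f, g) (Additive.ofMul γ)) →
    ∀ γ : Gamma0 N, ((((a φ : Lpar N) : Additive (Gamma0 N) →+ ℤ) (Additive.ofMul γ) : ℤ) : ℂ) =
      periodHomPair N (b f, b g) (Additive.ofMul γ)

theorem rel_gen {ℓ : ℕ} [Fact ℓ.Prime] (hℓ : ℓ.Prime) (hℓN : ¬ ℓ ∣ N)
    (T : Lpar N →ₗ[ℤ] Lpar N) (hT : IsHeckeL hℓN T) :
    Rel T (CuspForm.heckeTLin 2 hℓ hℓN) := by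
  intro φ f g h γ
  rw [hT φ γ, pair_hecke hℓ hℓN f g γ]
  unfold H21S16.heckeTFun
  push_cast
  exact Finset.sum_congr rfl fun x _ => h _

theorem rel_algebraMap (n : ℤ) :
    Rel (N := N) (algebraMap ℤ _ n) (algebraMap ℤ _ n) := by
  intro φ f g h γ
  have h1 : (algebraMap ℤ (Module.End ℤ (Lpar N)) n) φ = n • φ := by
    rw [Algebra.algebraMap_eq_smul_one]; rfl
  have h2 : ∀ u : CuspForm (Gamma0 N) 2,
      (algebraMap ℤ (Module.End ℂ (CuspForm (Gamma0 N) 2)) n) u = (n : ℂ) • u := by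
    intro u
    rw [Algebra.algebraMap_eq_smul_one, LinearMap.smul_apply, Module.End.one_apply,
      Int.cast_smul_eq_zsmul]
  rw [h1, h2, h2, ← Prod.smul_mk, map_smul]
  have h3 : (((n • φ : Lpar N) : Additive (Gamma0 N) →+ ℤ) (Additive.ofMul γ) : ℤ) =
      n * (φ : Additive (Gamma0 N) →+ ℤ) (Additive.ofMul γ) := by
    simp
  rw [h3]
  push_cast
  rw [h γ]
  rfl

theorem rel_add {a a' : Module.End ℤ (Lpar N)} {b b' : Module.End ℂ (CuspForm (Gamma0 N) 2)}
    (h1 : Rel a b) (h2 : Rel a' b') : Rel (a + a') (b + b') := by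
  intro φ f g h γ
  have e1 := h1 φ f g h γ
  have e2 := h2 φ f g h γ
  rw [LinearMap.add_apply, LinearMap.add_apply, LinearMap.add_apply, ← Prod.mk_add_mk, map_add,
    AddMonoidHom.add_apply, ← e1, ← e2]
  simp

theorem rel_mul {a a' : Module.End ℤ (Lpar N)} {b b' : Module.End ℂ (CuspForm (Gamma0 N) 2)}
    (h1 : Rel a b) (h2 : Rel a' b') : Rel (a * a') (b * b') := by
  intro φ f g h γ
  exact h1 (a' φ) (b' f) (b' g) (h2 φ f g h) γ

/-- a lattice element is in the image of the pair of period maps (Eichler–Shimura) -/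
theorem exists_pair (φ : Lpar N) :
    ∃ f g : CuspForm (Gamma0 N) 2, ∀ γ : Gamma0 N,
      (((φ : Additive (Gamma0 N) →+ ℤ) (Additive.ofMul γ) : ℤ) : ℂ) =
        periodHomPair N (f, g) (Additive.ofMul γ) := by
  have hmem : (Int.castAddHom ℂ).comp (φ : Additive (Gamma0 N) →+ ℤ) ∈
      parabolicHoms ℂ (Gamma0 N) ℂ := by
    rw [mem_parabolicHoms_iff]
    intro γ hγ
    have := (mem_parabolicHoms_iff (R := ℤ)).mp φ.2 γ hγ
    simp [this]
  rw [← (Fermat.Agent.S21.result N).2] at hmem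
  obtain ⟨⟨f, g⟩, hfg⟩ := hmem
  refine ⟨f, g, fun γ => ?_⟩
  rw [hfg]
  rfl

theorem rel_word (M : ℕ) (S : Finset ℕ) (h : N ∣ M) (T : Idx M S → (Lpar N →ₗ[ℤ] Lpar N))
    (hT : ∀ t : Idx M S, haveI : Fact t.1.Prime := ⟨t.2.1⟩;
      IsHeckeL (N := N) (ℓ := t.1) (fun hd => t.2.2.1 (hd.trans h)) (T t)) (P : Wd M S) :
    Rel (evalL M S N T P) (evalCusp M S N h P) := by
  induction P using FreeAlgebra.induction with
  | grade0 r =>
    rw [AlgHom.commutes, AlgHom.commutes]
    exact rel_algebraMap r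
  | grade1 x =>
    unfold evalL evalCusp
    rw [FreeAlgebra.lift_ι_apply, FreeAlgebra.lift_ι_apply]
    have : Fact x.1.Prime := ⟨x.2.1⟩
    exact rel_gen x.2.1 (fun hd => x.2.2.1 (hd.trans h)) (T x) (hT x)
  | mul a b ha hb =>
    rw [map_mul, map_mul]
    exact rel_mul ha hb
  | add a b ha hb =>
    rw [map_add, map_add]
    exact rel_add ha hb

/-- **(BF-H)** a word in the good Hecke operators that kills `S₂(Γ₀(N'))` kills
`Hom_par(Γ₀(N'), ℤ)`. -/
theorem h6hf_hardFaith : HardFaithStatement := by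
  intro M S N' _ h T hT P hP
  have hrel := rel_word M S h T hT P
  rw [hP] at hrel
  refine LinearMap.ext fun φ => ?_
  obtain ⟨f, g, hfg⟩ := exists_pair φ
  have key := hrel φ f g hfg
  apply Subtype.ext
  refine AddMonoidHom.ext fun γ => ?_
  have := key (Additive.toMul γ)
  simp only [LinearMap.zero_apply] at this
  have h0 : periodHomPair N' ((0 : CuspForm (Gamma0 N') 2), (0 : CuspForm (Gamma0 N') 2)) = 0 :=
    map_zero _
  rw [h0] at this
  simp only [AddMonoidHom.zero_apply, Int.cast_eq_zero] at this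
  exact this

end H6HF
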