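import Fermat.Agent.S35.Kill_helper19
import Fermat.Agent.S35.HardFaith_helper6

/-!
# Item 82b (S35), slice (BF-K) (helper19): `KillStatement`, unconditional
(`H19BK.h19bk_kill` + helper6's `H6HF.h6hf_hardFaith`).
-/

set_option autoImplicit false

namespace H19BK

/-- **(BF-K)**: a word in the good Hecke operators that kills `S₂(Γ₀(N'))` kills the
Tate-divisible `p`-power torsion of `J₀(N')`. -/
theorem h19bk_killStatement : H11S35.KillStatement := h19bk_kill H6HF.h6hf_hardFaith

end H19BK
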