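/-
Item S35 (stretch), slice (e) (helper16): from an eigenvector of the ANEMIC Hecke algebra
(away from `S`) to a NORMALIZED eigenform with the same eigencharacter.

* `H16S35.h16_normalized_of_anemic`: if `v ≠ 0` in `S₂(Γ₀(N))` satisfies `t v = χ(t) v` for all
  `t` in the Hecke algebra away from `S`, then there is a normalized eigenform `g` (prelude's
  `IsNormalizedEigenform`) with `t g = χ(t) g`; in particular `a_ℓ(g) = χ(T_ℓ)` for `ℓ ∉ S`, `ℓ ∤ N`.
* `H16S35.h16_occursAt_of_anemic`: hence `GoodEigensystemOccursAt`-type conclusions.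
-/
import Mathlib
import Fermat.Agent.Lib.H20_LiftingLemma
import Fermat.Agent.Lib.H20_CommonEigen
import Fermat.Agent.Lib.H3_QExp
import Fermat.Prelude.Def_CuspForm_Newforms

set_option autoImplicit false
set_option linter.style.longLine false
set_option linter.unusedSectionVars false
set_option linter.unusedVariables false

noncomputable section

open ModularFormClass CongruenceSubgroup

namespace H16S35

variable {N : ℕ} [NeZero N]

/-- **(e)** a nonzero eigenvector of the anemic Hecke algebra gives a normalized eigenform with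
the same eigencharacter -/
theorem h16_normalized_of_anemic (S : Set ℕ) (χ : CuspForm.heckeAlgebra N 2 S →+* ℂ)
    (v : CuspForm (Gamma0 N) 2) (hv : v ≠ 0)
    (hev : ∀ t : CuspForm.heckeAlgebra N 2 S,
      (t : Module.End ℂ (CuspForm (Gamma0 N) 2)) v = χ t • v) :
    ∃ g : CuspForm (Gamma0 N) 2, g.IsNormalizedEigenform ∧
      (∀ t : CuspForm.heckeAlgebra N 2 S,
        (t : Module.End ℂ (CuspForm (Gamma0 N) 2)) g = χ t • g) ∧
      ∀ (ℓ : ℕ) (hℓ : ℓ.Prime) (hℓN : ¬ ℓ ∣ N) (hℓS : ℓ ∉ S),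
        qCoeff g ℓ = χ (CuspForm.heckeAlgebra.T hℓ hℓN hℓS) := by
  classical
  have hfd : FiniteDimensional ℂ (CuspForm (Gamma0 N) 2) := Fermat.Agent.H3.h3_finiteDimensional N 2
  -- the eigenspace of the anemic algebra
  let W : Submodule ℂ (CuspForm (Gamma0 N) 2) :=
    { carrier := {w | ∀ t : CuspForm.heckeAlgebra N 2 S,
        (t : Module.End ℂ (CuspForm (Gamma0 N) 2)) w = χ t • w}
      add_mem' := by
        intro a b ha hb t
        rw [map_add, ha t, hb t, smul_add]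
      zero_mem' := by
        intro t
        rw [map_zero, smul_zero]
      smul_mem' := by
        intro c a ha t
        rw [map_smul, ha t, smul_comm] }
  have hvW : v ∈ W := hev
  -- the full Hecke algebra
  let ρ : CuspForm.heckeAlgebra N 2 (∅ : Set ℕ) →+* Module.End ℂ (CuspForm (Gamma0 N) 2) :=
    (CuspForm.heckeAlgebra N 2 (∅ : Set ℕ)).val.toRingHom
  have hle : CuspForm.heckeAlgebra N 2 S ≤ CuspForm.heckeAlgebra N 2 (∅ : Set ℕ) :=
    CuspForm.heckeAlgebra_mono (Set.empty_subset S)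
  have hstab : ∀ t' : CuspForm.heckeAlgebra N 2 (∅ : Set ℕ), ∀ w ∈ W, ρ t' w ∈ W := by
    intro t' w hw t
    have hc : (t : Module.End ℂ (CuspForm (Gamma0 N) 2)) * (t' : Module.End ℂ _) =
        (t' : Module.End ℂ _) * (t : Module.End ℂ _) := by
      have := mul_comm (⟨(t : Module.End ℂ _), hle t.2⟩ : CuspForm.heckeAlgebra N 2 (∅ : Set ℕ)) t'
      exact congrArg Subtype.val this
    show (t : Module.End ℂ _) ((t' : Module.End ℂ _) w) = χ t • (t' : Module.End ℂ _) w
    rw [← Module.End.mul_apply, hc, Module.End.mul_apply, hw t, map_smul]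
  -- the annihilator of `W`
  let I : Ideal (CuspForm.heckeAlgebra N 2 (∅ : Set ℕ)) :=
    { carrier := {y | ∀ w ∈ W, ρ y w = 0}
      add_mem' := by
        intro a b ha hb w hw
        rw [map_add, LinearMap.add_apply, ha w hw, hb w hw, add_zero]
      zero_mem' := by
        intro w hw
        rw [map_zero, LinearMap.zero_apply]
      smul_mem' := by
        intro c y hy w hw
        show ρ (c * y) w = 0
        rw [map_mul, Module.End.mul_apply, hy w hw, map_zero] }
  have hI : I ≠ ⊤ := by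
    intro h
    have h1 : (1 : CuspForm.heckeAlgebra N 2 (∅ : Set ℕ)) ∈ I := by rw [h]; trivial
    have h2 := h1 v hvW
    rw [map_one, Module.End.one_apply] at h2
    exact hv h2
  obtain ⟨𝔪, h𝔪, hI𝔪⟩ := Ideal.exists_le_maximal I hI
  have : 𝔪.IsPrime := h𝔪.isPrime
  obtain ⟨ψ, u, huW, hu0, hevu, -⟩ :=
    Fermat.Agent.H20.exists_eigenvector_ker_le_prime_aux (K := ℂ) ρ 𝔪
      (Module.finrank ℂ W) W rfl hstab (fun y hy => hI𝔪 hy)
  have hev' : ∀ t : CuspForm.heckeAlgebra N 2 (∅ : Set ℕ),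
      (t : Module.End ℂ (CuspForm (Gamma0 N) 2)) u = ψ t • u := hevu
  -- normalisation (as in `s49_main`)
  let lam : ℕ → ℂ := fun ℓ =>
    if hℓ : ℓ.Prime then
      (if hN : ℓ ∣ N then ψ (CuspForm.heckeAlgebra.U hℓ hN (Set.notMem_empty ℓ))
        else ψ (CuspForm.heckeAlgebra.T hℓ hN (Set.notMem_empty ℓ)))
    else 0
  have hT : ∀ (g : CuspForm (Gamma0 N) 2),
      (∀ t : CuspForm.heckeAlgebra N 2 (∅ : Set ℕ),
        (t : Module.End ℂ (CuspForm (Gamma0 N) 2)) g = ψ t • g) →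
      ∀ ℓ : ℕ, ℓ.Prime → ¬ ℓ ∣ N → ∀ n : ℕ,
      ModularForm.coeffHeckeT 2 ℓ (qCoeff g) n = lam ℓ * qCoeff g n := by
    intro g hg ℓ hℓ hN n
    have h1 := hg (CuspForm.heckeAlgebra.T hℓ hN (Set.notMem_empty ℓ))
    rw [CuspForm.heckeAlgebra.coe_T] at h1
    have h2 := congrArg (fun x : CuspForm (Gamma0 N) 2 => qCoeff ⇑x n) h1
    simp only [Fermat.Agent.H20.qCoeff_smul, Fermat.Agent.H20.qCoeff_heckeTLin] at h2
    simp only [lam, dif_pos hℓ, dif_neg hN]
    rw [ModularForm.coeffHeckeT_apply]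
    exact h2
  have hU : ∀ (g : CuspForm (Gamma0 N) 2),
      (∀ t : CuspForm.heckeAlgebra N 2 (∅ : Set ℕ),
        (t : Module.End ℂ (CuspForm (Gamma0 N) 2)) g = ψ t • g) →
      ∀ q : ℕ, q.Prime → q ∣ N → ∀ n : ℕ,
      ModularForm.coeffHeckeU q (qCoeff g) n = lam q * qCoeff g n := by
    intro g hg q hq hN n
    have h1 := hg (CuspForm.heckeAlgebra.U hq hN (Set.notMem_empty q))
    rw [CuspForm.heckeAlgebra.coe_U] at h1
    have h2 := congrArg (fun x : CuspForm (Gamma0 N) 2 => qCoeff ⇑x n) h1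
    simp only [Fermat.Agent.H20.qCoeff_smul, Fermat.Agent.H20.qCoeff_heckeULin] at h2
    simp only [lam, dif_pos hq, dif_pos hN]
    rw [ModularForm.coeffHeckeU_apply]
    exact h2
  have ha1 : qCoeff u 1 ≠ 0 := by
    intro h0
    apply hu0
    apply Fermat.Agent.H20.eq_zero_of_forall_qCoeff
    intro n
    rcases Nat.eq_zero_or_pos n with rfl | hn
    · exact Fermat.Agent.H20.qCoeff_zero_eq_zero u
    · exact Fermat.Agent.H4.qCoeff_eq_zero_of_coeffHecke u lam h0 (hT u hev') (hU u hev') n hn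
  set g : CuspForm (Gamma0 N) 2 := (qCoeff u 1)⁻¹ • u with hg
  have hgev : ∀ t : CuspForm.heckeAlgebra N 2 (∅ : Set ℕ),
      (t : Module.End ℂ (CuspForm (Gamma0 N) 2)) g = ψ t • g := by
    intro t
    rw [hg, map_smul, hev' t, smul_comm]
  have hg1 : qCoeff g 1 = 1 := by
    rw [hg, Fermat.Agent.H20.qCoeff_smul, inv_mul_cancel₀ ha1]
  obtain ⟨hnorm, hlam⟩ :=
    Fermat.Agent.H4.isNormalizedEigenform_of_coeffHecke g lam hg1 (hT g hgev) (hU g hgev)
  have hgW : g ∈ W := W.smul_mem _ huW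
  have hg0 : g ≠ 0 := by
    intro h0
    rw [h0] at hg1
    have : qCoeff (⇑(0 : CuspForm (Gamma0 N) 2)) 1 = 0 := by
      have := Fermat.Agent.H20.qCoeff_smul (N := N) (k := 2) (0 : ℂ) (0 : CuspForm (Gamma0 N) 2) 1
      simpa using this
    rw [this] at hg1
    exact zero_ne_one hg1
  refine ⟨g, hnorm, hgW, fun ℓ hℓ hℓN hℓS => ?_⟩
  rw [← hlam ℓ hℓ]
  simp only [lam, dif_pos hℓ, dif_neg hℓN]
  -- compare the two eigenvalues of `T_ℓ` on `g`
  have e1 := hgev (CuspForm.heckeAlgebra.T hℓ hℓN (Set.notMem_empty ℓ))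
  have e2 := hgW (CuspForm.heckeAlgebra.T hℓ hℓN hℓS)
  rw [CuspForm.heckeAlgebra.coe_T] at e1 e2
  have e3 : (ψ (CuspForm.heckeAlgebra.T hℓ hℓN (Set.notMem_empty ℓ)) -
      χ (CuspForm.heckeAlgebra.T hℓ hℓN hℓS)) • g = 0 := by
    rw [sub_smul, ← e1, ← e2, sub_self]
  rcases smul_eq_zero.mp e3 with h | h
  · exact sub_eq_zero.mp h
  · exact absurd h hg0

end H16S35

end
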