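/-
Item S35, slice NEWOP (helper16): `H11S35.SMOStatement → H11S35.NewOpStatement`.

For a newform `g` of level `M` and a proper divisor `N'` of `M` there is a word `P` in the good
Hecke operators which kills `S₂(Γ₀(N'))` with `P(a(g)) ≠ 0`.

Proof.  If not, the character `χ : X_ℓ ↦ a_ℓ(g)` of `ℤ[X_ℓ]` kills the kernel of the action on
`S₂(Γ₀(N'))`; so there is an eigenvector `v` whose character `ψ` satisfies `ker ψ ≤ ker χ`
(`H20.exists_eigenvector_ker_le_prime`).  The values of `ψ` are algebraic integers (integral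
lattice, S23), hence `χ = σ ∘ ψ` for some `σ ∈ Aut(ℂ)` (`h16no_exists_aut`), and the conjugate
`v^σ` (`H23.galois_stable`) is an eigenvector with character `χ`.  By (e)
(`H16S35.h16_normalized_of_anemic`) there is a normalised eigenform of level `N'` with eigenvalues
`a_ℓ(g)` for `ℓ ∉ S`, hence for all `ℓ ∤ M` by (d) SMO: contradiction with `IsNewform`.
-/
import Mathlib
import Fermat.Agent.S35.Defs_helper11
import Fermat.Agent.S35.AnemicEigen_helper16
import Fermat.Agent.S35.NewOpAut_helper16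
import Fermat.Agent.S23

set_option autoImplicit false
set_option linter.style.longLine false
set_option linter.unusedSectionVars false
set_option linter.unusedVariables false
set_option linter.style.haveILetI false
set_option maxHeartbeats 800000

noncomputable section

namespace H16NO

open H11S35 ModularFormClass CongruenceSubgroup

/-- the conjugate of an eigenvector is an eigenvector for the conjugate eigenvalue -/
theorem h16no_conj_eigen {N : ℕ} [NeZero N] (σ : ℂ ≃+* ℂ) {ℓ : ℕ} (hℓ : ℓ.Prime) (hℓN : ¬ ℓ ∣ N)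
    (v v' : CuspForm (Gamma0 N) 2) (hv' : ∀ n : ℕ, qCoeff v' n = σ (qCoeff v n))
    (c : ℂ) (hc : CuspForm.heckeTLin 2 hℓ hℓN v = c • v) :
    CuspForm.heckeTLin 2 hℓ hℓN v' = σ c • v' := by
  apply Fermat.Agent.H3.h3_eq_of_qCoeff_eq
  intro n
  have h1 := Fermat.Agent.H3.h3_qCoeff_heckeTLin hℓ hℓN v n
  rw [hc, Fermat.Agent.H3.h3_qCoeff_smul] at h1
  rw [Fermat.Agent.H3.h3_qCoeff_heckeTLin hℓ hℓN v' n, Fermat.Agent.H3.h3_qCoeff_smul, hv', hv',
    hv', ← map_mul, h1, map_add]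
  congr 1
  split_ifs
  · rw [map_mul, map_natCast]
  · rw [map_zero]

/-- the eigencharacter of a simultaneous eigenvector of the generators of the Hecke algebra
(no `U`-generators: all primes dividing `N` are in `S`) -/
theorem h16no_exists_char {N : ℕ} [NeZero N] (S : Set ℕ)
    (hNS : ∀ q : ℕ, q.Prime → q ∣ N → q ∈ S) (a : ℕ → ℂ)
    (v : CuspForm (Gamma0 N) 2) (hv : v ≠ 0)
    (hev : ∀ (ℓ : ℕ) (hℓ : ℓ.Prime) (hℓN : ¬ ℓ ∣ N), ℓ ∉ S →
      CuspForm.heckeTLin 2 hℓ hℓN v = a ℓ • v) :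
    ∃ χ : CuspForm.heckeAlgebra N 2 S →+* ℂ,
      (∀ t : CuspForm.heckeAlgebra N 2 S,
        (t : Module.End ℂ (CuspForm (Gamma0 N) 2)) v = χ t • v) ∧
      ∀ (ℓ : ℕ) (hℓ : ℓ.Prime) (hℓN : ¬ ℓ ∣ N) (hℓS : ℓ ∉ S),
        χ (CuspForm.heckeAlgebra.T hℓ hℓN hℓS) = a ℓ := by
  classical
  have hinj : ∀ c c' : ℂ, c • v = c' • v → c = c' := fun c c' h => smul_left_injective ℂ hv h
  have hsc : ∀ t : Module.End ℂ (CuspForm (Gamma0 N) 2), t ∈ CuspForm.heckeAlgebra N 2 S →
      ∃ c : ℂ, t v = c • v := by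
    intro t ht
    induction ht using Algebra.adjoin_induction with
    | mem x hx =>
      rcases hx with ⟨ℓ, hℓ, hℓN, hℓS, rfl⟩ | ⟨q, hqN, hq, hqS, rfl⟩
      · exact ⟨a ℓ, hev ℓ hℓ hℓN hℓS⟩
      · exact absurd (hNS q hq hqN) hqS
    | algebraMap r =>
      refine ⟨(r : ℂ), ?_⟩
      rw [Algebra.algebraMap_eq_smul_one, LinearMap.smul_apply, Module.End.one_apply,
        Int.cast_smul_eq_zsmul]
    | add x y _ _ hx hy =>
      obtain ⟨c, hc⟩ := hx
      obtain ⟨d, hd⟩ := hy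
      exact ⟨c + d, by rw [LinearMap.add_apply, hc, hd, add_smul]⟩
    | mul x y _ _ hx hy =>
      obtain ⟨c, hc⟩ := hx
      obtain ⟨d, hd⟩ := hy
      exact ⟨c * d, by rw [Module.End.mul_apply, hd, map_smul, hc, smul_smul, mul_comm]⟩
  choose c hc using hsc
  let χ : CuspForm.heckeAlgebra N 2 S →+* ℂ :=
    { toFun := fun t => c t.1 t.2
      map_one' := by
        apply hinj
        rw [← hc, one_smul]
        rfl
      map_mul' := by
        intro s t
        apply hinj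
        rw [← hc, ← smul_smul, ← hc t.1 t.2, ← map_smul, ← hc s.1 s.2, mul_comm s t]
        rfl
      map_zero' := by
        apply hinj
        rw [← hc, zero_smul]
        rfl
      map_add' := by
        intro s t
        apply hinj
        rw [← hc, add_smul, ← hc s.1 s.2, ← hc t.1 t.2]
        rfl }
  refine ⟨χ, fun t => hc t.1 t.2, fun ℓ hℓ hℓN hℓS => ?_⟩
  apply hinj
  rw [← hev ℓ hℓ hℓN hℓS]
  exact (hc _ _).symm

/-- **(NEWOP)** from (d) SMO. -/
theorem h16no_newOp (hSMO : SMOStatement) : NewOpStatement := by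
  intro M _ g hg S hMS N' hN'M hne
  classical
  haveI hN' : NeZero N' := ⟨fun h0 => by
    subst h0
    exact NeZero.ne M (Nat.eq_zero_of_zero_dvd hN'M)⟩
  by_contra hcon
  push Not at hcon
  haveI hfd : FiniteDimensional ℂ (CuspForm (Gamma0 N') 2) :=
    Fermat.Agent.H3.h3_finiteDimensional N' 2
  have hnd : ∀ t : Idx M S, ¬ t.1 ∣ N' := fun t hd => t.2.2.1 (hd.trans hN'M)
  have hN'S : ∀ q : ℕ, q.Prime → q ∣ N' → q ∈ (↑S : Set ℕ) := fun q hq hqN =>
    Finset.mem_coe.2 (hMS q hq (hqN.trans hN'M))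
  -- the commutative polynomial ring and its two characters
  let gen : Idx M S → CuspForm.heckeAlgebra N' 2 (↑S : Set ℕ) :=
    fun t => CuspForm.heckeAlgebra.T t.2.1 (hnd t) t.2.2.2
  let ρ₀ : MvPolynomial (Idx M S) ℤ →ₐ[ℤ] CuspForm.heckeAlgebra N' 2 (↑S : Set ℕ) :=
    MvPolynomial.aeval gen
  let ρA : MvPolynomial (Idx M S) ℤ →ₐ[ℤ] Module.End ℂ (CuspForm (Gamma0 N') 2) :=
    (CuspForm.heckeAlgebra N' 2 (↑S : Set ℕ)).val.comp ρ₀
  let χA : MvPolynomial (Idx M S) ℤ →ₐ[ℤ] ℂ :=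
    MvPolynomial.aeval (fun t : Idx M S => qCoeff g t.1)
  let π : Wd M S →ₐ[ℤ] MvPolynomial (Idx M S) ℤ :=
    FreeAlgebra.lift ℤ (fun t : Idx M S => (MvPolynomial.X t : MvPolynomial (Idx M S) ℤ))
  have hπ : Function.Surjective π := by
    intro P
    induction P using MvPolynomial.induction_on with
    | C r => exact ⟨algebraMap ℤ _ r, by rw [AlgHom.commutes]; rfl⟩
    | add p q hp hq =>
      obtain ⟨p', rfl⟩ := hp
      obtain ⟨q', rfl⟩ := hq
      exact ⟨p' + q', map_add _ _ _⟩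
    | mul_X p i hp =>
      obtain ⟨p', rfl⟩ := hp
      exact ⟨p' * FreeAlgebra.ι ℤ i, by rw [map_mul, FreeAlgebra.lift_ι_apply]⟩
  have e1 : evalCusp M S N' hN'M = ρA.comp π := by
    apply FreeAlgebra.hom_ext
    funext t
    simp only [evalCusp, Function.comp_apply, FreeAlgebra.lift_ι_apply, AlgHom.coe_comp,
      π, ρA, ρ₀, MvPolynomial.aeval_X, gen]
    rfl
  have e2 : evalC M S (fun ℓ => qCoeff g ℓ) = χA.comp π := by
    apply FreeAlgebra.hom_ext
    funext t
    simp only [evalC, Function.comp_apply, FreeAlgebra.lift_ι_apply, AlgHom.coe_comp,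
      π, χA, MvPolynomial.aeval_X]
  have hker : RingHom.ker ρA.toRingHom ≤ RingHom.ker χA.toRingHom := by
    intro P hP
    rw [RingHom.mem_ker] at hP ⊢
    obtain ⟨P', rfl⟩ := hπ P
    have h1 : evalCusp M S N' hN'M P' = 0 := by
      rw [e1]
      exact hP
    have h2 := hcon P' h1
    rw [e2] at h2
    exact h2
  haveI hprime : (RingHom.ker χA.toRingHom).IsPrime := RingHom.ker_isPrime _
  obtain ⟨ψ, v, hv0, hev, hψker⟩ :=
    Fermat.Agent.H20.exists_eigenvector_ker_le_prime ρA.toRingHom (RingHom.ker χA.toRingHom) hker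
  -- the eigenvalues are algebraic integers
  have hevX : ∀ t : Idx M S,
      CuspForm.heckeTLin 2 t.2.1 (hnd t) v = ψ (MvPolynomial.X t) • v := by
    intro t
    have h1 := hev (MvPolynomial.X t)
    have h2 : ρA.toRingHom (MvPolynomial.X t) = CuspForm.heckeTLin 2 t.2.1 (hnd t) := by
      show ρA (MvPolynomial.X t) = _
      simp only [ρA, ρ₀, AlgHom.coe_comp, Function.comp_apply, MvPolynomial.aeval_X, gen]
      rfl
    rw [h2] at h1
    exact h1
  have hint : ∀ x, IsIntegral ℤ (ψ x) := by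
    intro x
    induction x using MvPolynomial.induction_on with
    | C r =>
      have : ψ (MvPolynomial.C r) = (r : ℂ) := by
        rw [← map_intCast ψ r]
        congr 1
      rw [this]
      exact isIntegral_algebraMap (R := ℤ) (A := ℂ) (x := r)
    | add p q hp hq =>
      rw [map_add]
      exact hp.add hq
    | mul_X p i hp =>
      rw [map_mul]
      refine hp.mul ?_
      exact Fermat.Agent.H20.isIntegral_eigenvalue_of_lattice
        (CuspForm.heckeTLin 2 i.2.1 (hnd i)) (CuspForm.intLattice N' 2)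
        (CuspForm.intLattice_fg N' 2) (Fermat.Agent.S23.result N')
        (fun f hf => CuspForm.mem_intLattice_of_mem_heckeAlgebra one_le_two
          (CuspForm.heckeTLin_mem_heckeAlgebra (S := (↑S : Set ℕ)) i.2.1 (hnd i) i.2.2.2) hf)
        hv0 (hevX i)
  -- Galois conjugation
  obtain ⟨σ, hσ⟩ := h16no_exists_aut ψ χA.toRingHom hψker hint
  obtain ⟨v', hv'⟩ := H23.galois_stable N' σ v
  have hv'0 : v' ≠ 0 := by
    intro h0
    apply hv0
    apply Fermat.Agent.H3.h3_eq_zero_of_qCoeff_eq_zero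
    intro n
    have h1 := hv' n
    rw [h0, Fermat.Agent.H3.h3_qCoeff_zero] at h1
    exact (map_eq_zero_iff σ σ.injective).1 h1.symm
  have hσX : ∀ t : Idx M S, σ (ψ (MvPolynomial.X t)) = qCoeff g t.1 := by
    intro t
    rw [hσ]
    show χA (MvPolynomial.X t) = _
    simp only [χA, MvPolynomial.aeval_X]
  have hev' : ∀ (ℓ : ℕ) (hℓ : ℓ.Prime) (hℓN : ¬ ℓ ∣ N'), ℓ ∉ (↑S : Set ℕ) →
      CuspForm.heckeTLin 2 hℓ hℓN v' = qCoeff g ℓ • v' := by
    intro ℓ hℓ hℓN hℓS
    have hℓM : ¬ ℓ ∣ M := fun hd => hℓS (Finset.mem_coe.2 (hMS ℓ hℓ hd))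
    have h1 := h16no_conj_eigen σ hℓ hℓN v v' hv' _ (hevX ⟨ℓ, hℓ, hℓM, hℓS⟩)
    rw [hσX ⟨ℓ, hℓ, hℓM, hℓS⟩] at h1
    exact h1
  -- the eigencharacter and the normalised eigenform
  obtain ⟨χ', hχ'ev, hχ'T⟩ := h16no_exists_char (↑S : Set ℕ) hN'S (fun ℓ => qCoeff g ℓ) v' hv'0 hev'
  obtain ⟨g', hg'norm, -, hg'coeff⟩ := H16S35.h16_normalized_of_anemic (↑S : Set ℕ) χ' v' hv'0 hχ'ev
  have hSMO' := hSMO M N' hN'M S g g' hg.1 hg'norm (fun ℓ hℓ hℓM hℓS => by
    have hℓN' : ¬ ℓ ∣ N' := fun hd => hℓM (hd.trans hN'M)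
    have hℓS' : ℓ ∉ (↑S : Set ℕ) := fun h => hℓS (Finset.mem_coe.1 h)
    rw [hg'coeff ℓ hℓ hℓN' hℓS', hχ'T ℓ hℓ hℓN' hℓS'])
  exact hg.2 N' hN'M hne ⟨g', hg'norm, hSMO'⟩

end H16NO

end
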