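/-
S35 slice (d): strong multiplicity one for the good Hecke eigenvalues (helper6).

If `g` (level `M`) and `g'` (level `M' ∣ M`) are normalized eigenforms of weight 2 whose
prime coefficients agree outside a finite set `S`, then they agree at every prime not
dividing `M`.  Elementary (Atkin–Lehner style) proof, Mathlib only:
`h = g - g'`, the operators `K_t = 1 - V_t U_t` (as averages over translates), the matrix
identity `diag(ℓ, 1/ℓ) = [ℓ,-b;-N,a] · T^{b/ℓ} · [1,0;Nℓ,1]` and exponential decay.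
-/
import Mathlib
import Fermat.Prelude.Def_CuspForm_Newforms
import Fermat.Prelude.Thm_CongruenceSubgroup_one_mem_strictPeriods_Gamma0

set_option autoImplicit false

noncomputable section

namespace H6SMO

open UpperHalfPlane Complex

/-- Explicit weight-2 invariance of a function on `ℍ` under `Γ₀(N)`. -/
def Inv (N : ℕ) (F : ℍ → ℂ) : Prop :=
  ∀ (a b c d : ℤ), a * d - b * c = 1 → (N : ℤ) ∣ c → ∀ z w : ℍ,
    (w : ℂ) * (c * z + d) = a * z + b → F w = ((c : ℂ) * z + d) ^ 2 * F z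

/-- Exponential decay at `i∞`. -/
def Dec (F : ℍ → ℂ) : Prop :=
  ∃ C A : ℝ, ∀ z : ℍ, A ≤ z.im → ‖F z‖ ≤ C * Real.exp (-(2 * Real.pi) * z.im)

/-- Periodicity under translation by `1/ℓ`. -/
def Per (ℓ : ℕ) (F : ℍ → ℂ) : Prop :=
  ∀ z w : ℍ, (w : ℂ) = z + 1 / (ℓ : ℂ) → F w = F z

/-- The point `t + z` of `ℍ` for real `t`. -/
def shiftPt (t : ℝ) (z : ℍ) : ℍ := ⟨(t : ℂ) + z, by simpa using z.im_pos⟩

@[simp] theorem coe_shiftPt (t : ℝ) (z : ℍ) : ((shiftPt t z : ℍ) : ℂ) = (t : ℂ) + z := rfl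

@[simp] theorem im_shiftPt (t : ℝ) (z : ℍ) : (shiftPt t z).im = z.im := by
  change ((t : ℂ) + z).im = z.im
  simp

/-- The point `r * z` of `ℍ` for real `r > 0`. -/
def scalePt (r : ℝ) (hr : 0 < r) (z : ℍ) : ℍ :=
  ⟨(r : ℂ) * z, by simpa using mul_pos hr z.im_pos⟩

@[simp] theorem coe_scalePt (r : ℝ) (hr : 0 < r) (z : ℍ) :
    ((scalePt r hr z : ℍ) : ℂ) = (r : ℂ) * z := rfl

@[simp] theorem im_scalePt (r : ℝ) (hr : 0 < r) (z : ℍ) : (scalePt r hr z).im = r * z.im := by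
  change ((r : ℂ) * z).im = r * z.im
  simp

theorem coe_ne_zero' (z : ℍ) : (z : ℂ) ≠ 0 := by
  intro h
  have := z.im_pos
  rw [← UpperHalfPlane.coe_im, h] at this
  simp at this

/-- Existence of the Möbius image. -/
theorem exists_pt (a b c d : ℤ) (h : a * d - b * c = 1) (z : ℍ) :
    ∃ w : ℍ, (w : ℂ) * (c * z + d) = a * z + b := by
  let γ : Matrix.SpecialLinearGroup (Fin 2) ℤ := ⟨!![a, b; c, d], by
    rw [Matrix.det_fin_two_of]; exact h⟩
  refine ⟨γ • z, ?_⟩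
  have hden : ((c : ℂ) * z + d) ≠ 0 := by
    have := UpperHalfPlane.denom_ne_zero (γ : GL (Fin 2) ℝ) z
    intro h0
    apply this
    rw [ModularGroup.denom_apply]
    simpa [γ] using h0
  rw [UpperHalfPlane.coe_specialLinearGroup_apply]
  simp only [γ, Matrix.of_apply, Matrix.cons_val', Matrix.cons_val_zero,
    Matrix.cons_val_one, Matrix.cons_val_fin_one, algebraMap_int_eq, Int.coe_castRingHom,
    Complex.ofReal_intCast]
  exact div_mul_cancel₀ _ hden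

theorem Per.int_mul {ℓ : ℕ} {F : ℍ → ℂ} (hP : Per ℓ F) (k : ℕ) :
    ∀ z w : ℍ, (w : ℂ) = z + k / (ℓ : ℂ) → F w = F z := by
  induction k with
  | zero =>
    intro z w h
    have : w = z := UpperHalfPlane.ext (by simpa using h)
    rw [this]
  | succ k ih =>
    intro z w h
    have h1 := ih z (shiftPt ((k : ℝ) / ℓ) z) (by simp [add_comm])
    have h2 := hP (shiftPt ((k : ℝ) / ℓ) z) w (by
      rw [h]; simp; ring)
    rw [h2, h1]

theorem Per.int_mul' {ℓ : ℕ} {F : ℍ → ℂ} (hP : Per ℓ F) (k : ℤ) :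
    ∀ z w : ℍ, (w : ℂ) = z + k / (ℓ : ℂ) → F w = F z := by
  intro z w h
  rcases Int.eq_nat_or_neg k with ⟨n, rfl | rfl⟩
  · exact hP.int_mul n z w (by simpa using h)
  · refine (hP.int_mul n w z ?_).symm
    rw [h]; push_cast; ring

/-- The functional equation `F z = ℓ² F (ℓ² z)`. -/
theorem key_step {N ℓ : ℕ} (hℓ : 0 < ℓ) (hcop : Nat.Coprime ℓ N) {F : ℍ → ℂ}
    (hI : Inv N F) (hP : Per ℓ F) :
    ∀ z w : ℍ, (w : ℂ) = (ℓ : ℂ) ^ 2 * z → F z = (ℓ : ℂ) ^ 2 * F w := by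
  intro z w hw
  have hℓ0 : (ℓ : ℂ) ≠ 0 := by exact_mod_cast hℓ.ne'
  obtain ⟨a, b, hab⟩ : ∃ a b : ℤ, a * ℓ - b * N = 1 := by
    have h1 := Int.gcd_eq_gcd_ab (ℓ : ℤ) (N : ℤ)
    have h2 : ((Int.gcd (ℓ : ℤ) (N : ℤ) : ℕ) : ℤ) = 1 := by
      rw [Int.gcd_natCast_natCast]; exact_mod_cast hcop
    refine ⟨Int.gcdA ℓ N, - Int.gcdB ℓ N, ?_⟩
    rw [h2] at h1
    linarith
  have habC : (a : ℂ) * ℓ - b * N = 1 := by exact_mod_cast hab
  obtain ⟨z₁, hz₁⟩ := exists_pt 1 0 (N * ℓ) 1 (by ring) z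
  have e1 := hI 1 0 (N * ℓ) 1 (by ring) (dvd_mul_right _ _) z z₁ hz₁
  have e2 : F (shiftPt ((b : ℝ) / ℓ) z₁) = F z₁ :=
    hP.int_mul' b z₁ _ (by simp [add_comm])
  push_cast at hz₁ e1
  have hu : ((N : ℂ) * ℓ * z + 1) ≠ 0 := by
    intro h0
    rw [h0, mul_zero] at hz₁
    exact coe_ne_zero' z (by simpa using hz₁.symm)
  have key : ((-N : ℂ) * (shiftPt ((b : ℝ) / ℓ) z₁ : ℍ) + a) * ((N : ℂ) * ℓ * z + 1) * ℓ = 1 := by
    simp only [coe_shiftPt]
    push_cast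
    field_simp
    linear_combination ((N : ℂ) * ℓ * z + 1) * habC - (N : ℂ) * ℓ * hz₁
  have hz₂ : ((shiftPt ((b : ℝ) / ℓ) z₁ : ℍ) : ℂ) * ℓ = b + z₁ * ℓ := by
    simp only [coe_shiftPt]
    push_cast
    field_simp
  have e3 := hI ℓ (-b) (-N) a (by linarith) (by simp) (shiftPt ((b : ℝ) / ℓ) z₁) w (by
    rw [hw]
    push_cast
    apply mul_right_cancel₀ hu
    linear_combination ((ℓ : ℂ) * z) * key - (ℓ : ℂ) * hz₁ - ((N : ℂ) * ℓ * z + 1) * hz₂)
  push_cast at e3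
  rw [e3, e2, e1]
  have key2 : ((-N : ℂ) * (shiftPt ((b : ℝ) / ℓ) z₁ : ℍ) + a) ^ 2 * ((N : ℂ) * ℓ * z + 1) ^ 2
      * (ℓ : ℂ) ^ 2 = 1 := by
    rw [← mul_pow, ← mul_pow, key, one_pow]
  linear_combination (-(F z)) * key2

theorem key_iter {N ℓ : ℕ} (hℓ : 0 < ℓ) (hcop : Nat.Coprime ℓ N) {F : ℍ → ℂ}
    (hI : Inv N F) (hP : Per ℓ F) (j : ℕ) :
    ∀ z w : ℍ, (w : ℂ) = ((ℓ : ℂ) ^ 2) ^ j * z → F z = ((ℓ : ℂ) ^ 2) ^ j * F w := by
  induction j with
  | zero =>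
    intro z w h
    have : w = z := UpperHalfPlane.ext (by simpa using h)
    simp [this]
  | succ j ih =>
    intro z w h
    have hr : (0 : ℝ) < (ℓ : ℝ) ^ 2 := by positivity
    have h1 := key_step hℓ hcop hI hP z (scalePt ((ℓ : ℝ) ^ 2) hr z) (by simp)
    have h2 := ih (scalePt ((ℓ : ℝ) ^ 2) hr z) w (by
      rw [h]; simp; ring)
    rw [h1, h2]; ring

/-- **Key lemma**: a `Γ₀(N)`-invariant function decaying at `i∞` which is `1/ℓ`-periodic,
`ℓ` coprime to `N`, `ℓ ≥ 2`, vanishes. -/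
theorem key_zero {N ℓ : ℕ} (hℓ : 2 ≤ ℓ) (hcop : Nat.Coprime ℓ N) {F : ℍ → ℂ}
    (hI : Inv N F) (hP : Per ℓ F) (hD : Dec F) : ∀ z, F z = 0 := by
  intro z
  obtain ⟨C, A, hbd⟩ := hD
  obtain ⟨c, hcdef⟩ : ∃ c : ℝ, c = 2 * Real.pi := ⟨_, rfl⟩
  rw [← hcdef] at hbd
  have hc : 0 < c := by rw [hcdef]; positivity
  have hℓ0 : 0 < ℓ := by omega
  have hy : 0 < z.im := z.im_pos
  have hr1 : (1 : ℝ) < (ℓ : ℝ) ^ 2 := by
    have : (2 : ℝ) ≤ ℓ := by exact_mod_cast hℓ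
    nlinarith
  have hrpos : ∀ j : ℕ, (0 : ℝ) < ((ℓ : ℝ) ^ 2) ^ j := fun j => by positivity
  have hT : Filter.Tendsto (fun j : ℕ => ((ℓ : ℝ) ^ 2) ^ j) Filter.atTop Filter.atTop :=
    tendsto_pow_atTop_atTop_of_one_lt hr1
  -- the bounding function
  have hφ : Filter.Tendsto (fun x : ℝ => x * (C * Real.exp (-c * (x * z.im))))
      Filter.atTop (nhds 0) := by
    have h1 : Filter.Tendsto (fun x : ℝ => (c * z.im) * x) Filter.atTop Filter.atTop :=
      Filter.Tendsto.const_mul_atTop (by positivity) Filter.tendsto_id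
    have h2 := (Real.tendsto_pow_mul_exp_neg_atTop_nhds_zero 1).comp h1
    have h3 := h2.const_mul (C / (c * z.im))
    rw [mul_zero] at h3
    refine h3.congr (fun x => ?_)
    simp only [Function.comp_apply, pow_one]
    have : c * z.im ≠ 0 := by positivity
    rw [show -(c * z.im * x) = -c * (x * z.im) by ring]
    field_simp
  have hφ' := hφ.comp hT
  have hev : ∀ᶠ j : ℕ in Filter.atTop,
      ‖F z‖ ≤ (fun x : ℝ => x * (C * Real.exp (-c * (x * z.im)))) (((ℓ : ℝ) ^ 2) ^ j) := by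
    have hA : ∀ᶠ j : ℕ in Filter.atTop, A / z.im ≤ ((ℓ : ℝ) ^ 2) ^ j :=
      hT.eventually_ge_atTop _
    filter_upwards [hA] with j hj
    have hAj : A ≤ (scalePt (((ℓ : ℝ) ^ 2) ^ j) (hrpos j) z).im := by
      rw [im_scalePt]
      rwa [div_le_iff₀ hy] at hj
    have h1 := hbd _ hAj
    have h2 := key_iter hℓ0 hcop hI hP j z (scalePt (((ℓ : ℝ) ^ 2) ^ j) (hrpos j) z) (by simp)
    rw [h2, norm_mul]
    rw [im_scalePt] at h1
    have h3 : ‖((ℓ : ℂ) ^ 2) ^ j‖ = ((ℓ : ℝ) ^ 2) ^ j := by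
      simp
    rw [h3]
    exact mul_le_mul_of_nonneg_left h1 (hrpos j).le
  have := ge_of_tendsto hφ' hev
  exact norm_le_zero_iff.mp this


/-- `F` has the Fourier expansion `∑ c m q^m`. -/
def Four (c : ℕ → ℂ) (F : ℍ → ℂ) : Prop :=
  ∀ τ : ℍ, HasSum (fun m : ℕ => c m * Function.Periodic.qParam 1 (τ : ℂ) ^ m) (F τ)

/-- The root of unity `exp(2πi/t)`. -/
def zeta (t : ℕ) : ℂ := Complex.exp (2 * Real.pi * Complex.I / t)

theorem zeta_prim {t : ℕ} (ht : t ≠ 0) : IsPrimitiveRoot (zeta t) t :=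
  Complex.isPrimitiveRoot_exp t ht

theorem sum_zeta {t : ℕ} (ht : t ≠ 0) (m : ℕ) :
    ∑ j ∈ Finset.range t, zeta t ^ (j * m) = if t ∣ m then (t : ℂ) else 0 := by
  have hp := zeta_prim ht
  simp_rw [mul_comm _ m, pow_mul]
  split_ifs with h
  · have : zeta t ^ m = 1 := (hp.pow_eq_one_iff_dvd m).mpr h
    simp [this]
  · have h1 : zeta t ^ m ≠ 1 := fun h' => h ((hp.pow_eq_one_iff_dvd m).mp h')
    rw [geom_sum_eq h1]
    have : (zeta t ^ m) ^ t = 1 := by
      rw [← pow_mul, mul_comm, pow_mul, hp.pow_eq_one, one_pow]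
    rw [this, sub_self, zero_div]

theorem qParam_shift (z w : ℍ) (k t : ℕ) (ht : t ≠ 0) (h : (w : ℂ) = (k : ℂ) / t + z) (m : ℕ) :
    Function.Periodic.qParam 1 (w : ℂ) ^ m =
      zeta t ^ (k * m) * Function.Periodic.qParam 1 (z : ℂ) ^ m := by
  have ht' : (t : ℂ) ≠ 0 := by exact_mod_cast ht
  rw [pow_mul, ← mul_pow]
  congr 1
  rw [h, Function.Periodic.qParam, Function.Periodic.qParam, zeta, ← Complex.exp_nat_mul,
    ← Complex.exp_add]
  congr 1
  push_cast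
  field_simp

/-- `1/ℓ`-periodicity from the vanishing of Fourier coefficients prime to `ℓ`. -/
theorem per_of_four {ℓ : ℕ} (hℓ : ℓ ≠ 0) {c : ℕ → ℂ} {F : ℍ → ℂ} (hF : Four c F)
    (hc : ∀ m, ¬ ℓ ∣ m → c m = 0) : Per ℓ F := by
  intro z w hw
  have h1 := hF w
  have h2 := hF z
  have heq : (fun m : ℕ => c m * Function.Periodic.qParam 1 (w : ℂ) ^ m) =
      (fun m => c m * Function.Periodic.qParam 1 (z : ℂ) ^ m) := by
    funext m
    by_cases hm : ℓ ∣ m
    · rw [qParam_shift z w 1 ℓ hℓ (by rw [hw]; push_cast; ring) m]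
      obtain ⟨k, rfl⟩ := hm
      have : zeta ℓ ^ (1 * (ℓ * k)) = 1 := by
        rw [one_mul, pow_mul, (zeta_prim hℓ).pow_eq_one, one_pow]
      rw [this, one_mul]
    · rw [hc m hm]; simp
  rw [heq] at h1
  exact h1.unique h2

/-- The operator `K_t = 1 - V_t U_t` killing the Fourier coefficients of index divisible
by `t`. -/
def Kop (t : ℕ) (F : ℍ → ℂ) : ℍ → ℂ := fun z =>
  F z - (t : ℂ)⁻¹ * ∑ j ∈ Finset.range t, F (shiftPt ((j : ℝ) / t) z)

theorem four_Kop {t : ℕ} (ht : t ≠ 0) {c : ℕ → ℂ} {F : ℍ → ℂ} (hF : Four c F) :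
    Four (fun m => if t ∣ m then 0 else c m) (Kop t F) := by
  intro τ
  have ht' : (t : ℂ) ≠ 0 := by exact_mod_cast ht
  have h0 := hF τ
  have hj : ∀ j ∈ Finset.range t, HasSum
      (fun m : ℕ => zeta t ^ (j * m) * (c m * Function.Periodic.qParam 1 (τ : ℂ) ^ m))
      (F (shiftPt ((j : ℝ) / t) τ)) := by
    intro j _
    have := hF (shiftPt ((j : ℝ) / t) τ)
    have heq : (fun m : ℕ => c m *
        Function.Periodic.qParam 1 ((shiftPt ((j : ℝ) / t) τ : ℍ) : ℂ) ^ m) =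
        fun m => zeta t ^ (j * m) * (c m * Function.Periodic.qParam 1 (τ : ℂ) ^ m) := by
      funext m
      rw [qParam_shift τ (shiftPt ((j : ℝ) / t) τ) j t ht (by simp) m]
      ring
    rwa [heq] at this
  have hsum := hasSum_sum hj
  have key := h0.sub (hsum.mul_left (t : ℂ)⁻¹)
  have heq : (fun m : ℕ => (if t ∣ m then 0 else c m) * Function.Periodic.qParam 1 (τ : ℂ) ^ m) =
      fun b => c b * Function.Periodic.qParam 1 (τ : ℂ) ^ b -
        (t : ℂ)⁻¹ * ∑ i ∈ Finset.range t,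
          zeta t ^ (i * b) * (c b * Function.Periodic.qParam 1 (τ : ℂ) ^ b) := by
    funext m
    rw [← Finset.sum_mul, sum_zeta ht m]
    split_ifs
    · field_simp
      ring
    · simp
  rw [heq]
  exact key

theorem dec_Kop {t : ℕ} (ht : t ≠ 0) {F : ℍ → ℂ} (hF : Dec F) : Dec (Kop t F) := by
  obtain ⟨C, A, hbd⟩ := hF
  obtain ⟨c, hcdef⟩ : ∃ c : ℝ, c = 2 * Real.pi := ⟨_, rfl⟩
  rw [← hcdef] at hbd
  refine ⟨2 * C, A, fun z hz => ?_⟩
  rw [← hcdef]
  have ht' : (0 : ℝ) < t := by exact_mod_cast Nat.pos_of_ne_zero ht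
  have h1 := hbd z hz
  have h2 : ∀ j ∈ Finset.range t, ‖F (shiftPt ((j : ℝ) / t) z)‖ ≤ C * Real.exp (-c * z.im) := by
    intro j _
    have := hbd (shiftPt ((j : ℝ) / t) z) (by simpa using hz)
    simpa using this
  have h3 : ‖∑ j ∈ Finset.range t, F (shiftPt ((j : ℝ) / t) z)‖ ≤
      t * (C * Real.exp (-c * z.im)) := by
    refine (norm_sum_le _ _).trans ?_
    refine (Finset.sum_le_sum h2).trans ?_
    simp
  unfold Kop
  refine (norm_sub_le _ _).trans ?_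
  rw [norm_mul, norm_inv, Complex.norm_natCast]
  have h4 : (t : ℝ)⁻¹ * ‖∑ j ∈ Finset.range t, F (shiftPt ((j : ℝ) / t) z)‖ ≤
      C * Real.exp (-c * z.im) := by
    rw [inv_mul_le_iff₀ ht']
    exact h3
  linarith


theorem Inv.int_shift {N : ℕ} {F : ℍ → ℂ} (hI : Inv N F) (m : ℤ) :
    ∀ z w : ℍ, (w : ℂ) = z + m → F w = F z := by
  intro z w h
  have := hI 1 m 0 1 (by ring) (dvd_zero _) z w (by rw [h]; push_cast; ring)
  simpa using this

theorem sum_range_eq_sum_zmod (t : ℕ) [NeZero t] (f : ℕ → ℂ) :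
    ∑ j ∈ Finset.range t, f j = ∑ j : ZMod t, f j.val := by
  rcases t with _ | n
  · exact absurd rfl (NeZero.ne 0)
  · change _ = ∑ j : Fin (n + 1), f j.val
    rw [Fin.sum_univ_eq_sum_range]

theorem shift_zmod {N t : ℕ} [NeZero t] {F : ℍ → ℂ} (hI : Inv N F) (z : ℍ) (k : ℤ) (w : ℍ)
    (hw : (w : ℂ) = (k : ℂ) / t + z) :
    F w = F (shiftPt ((((k : ZMod t)).val : ℝ) / t) z) := by
  have ht : (t : ℂ) ≠ 0 := by exact_mod_cast NeZero.ne t
  have h1 : (((k : ZMod t).val : ℕ) : ℤ) = k % t := ZMod.val_intCast k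
  have h2 : (t : ℤ) * (k / t) + k % t = k := Int.mul_ediv_add_emod k t
  have h3 : (k : ℂ) = (t : ℂ) * ((k / (t : ℤ) : ℤ) : ℂ) + (((k : ZMod t).val : ℕ) : ℂ) := by
    have : (k : ℤ) = (t : ℤ) * (k / t) + (((k : ZMod t).val : ℕ) : ℤ) := by rw [h1, h2]
    exact_mod_cast this
  refine hI.int_shift (k / (t : ℤ)) _ w ?_
  rw [hw, coe_shiftPt]
  push_cast
  rw [h3]
  field_simp
  ring

theorem inv_Kop_term {N t : ℕ} [NeZero t] {F : ℍ → ℂ} (hI : Inv N F)
    (a b c₂ d : ℤ) (hdet : a * d - b * ((N * t ^ 2 : ℕ) * c₂) = 1) (z w : ℍ)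
    (hw : (w : ℂ) * (((N * t ^ 2 : ℕ) * c₂ : ℤ) * z + d) = a * z + b) (j : ZMod t) :
    F (shiftPt ((j.val : ℝ) / t) w) =
      ((((N * t ^ 2 : ℕ) * c₂ : ℤ) : ℂ) * z + d) ^ 2 *
        F (shiftPt (((((d : ZMod t) ^ 2 * j).val : ℕ) : ℝ) / t) z) := by
  have ht : (t : ℂ) ≠ 0 := by exact_mod_cast NeZero.ne t
  set J : ℤ := (j.val : ℤ) with hJ
  set c₁ : ℤ := N * t * c₂ with hc₁
  set K : ℤ := d ^ 2 * J with hK
  set e : ℤ := -J * d * b * c₁ - J ^ 2 * d ^ 2 * N * c₂ with he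
  have hcc : ((N * t ^ 2 : ℕ) : ℤ) * c₂ = t * c₁ := by rw [hc₁]; push_cast; ring
  have hdet' : (a + J * c₁) * (d - c₁ * K) - (b + e) * ((N * t ^ 2 : ℕ) * c₂) = 1 := by
    rw [hcc] at hdet ⊢
    rw [he, hK]
    rw [hc₁] at hdet ⊢
    linear_combination (1 - J * d * N * t * c₂) * hdet
  have hKz : F (shiftPt ((K : ℝ) / t) z) =
      F (shiftPt (((((d : ZMod t) ^ 2 * j).val : ℕ) : ℝ) / t) z) := by
    have := shift_zmod (t := t) hI z K (shiftPt ((K : ℝ) / t) z) (by simp)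
    rw [this]
    congr 4
    rw [hK, hJ]
    push_cast
    rw [ZMod.natCast_zmod_val]
  rw [← hKz]
  have hrel : ((shiftPt ((j.val : ℝ) / t) w : ℍ) : ℂ) *
      ((((N * t ^ 2 : ℕ) * c₂ : ℤ) : ℂ) * (shiftPt ((K : ℝ) / t) z : ℍ) + ((d - c₁ * K : ℤ) : ℂ)) =
      ((a + J * c₁ : ℤ) : ℂ) * (shiftPt ((K : ℝ) / t) z : ℍ) + ((b + e : ℤ) : ℂ) := by
    have hint : (t : ℤ) * e = J * d - a * K - J * c₁ * K := by
      rw [hcc] at hdet
      rw [he, hK]
      rw [hc₁] at hdet ⊢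
      linear_combination (J * d) * hdet
    have hintC : (t : ℂ) * e = J * d - a * K - J * c₁ * K := by exact_mod_cast hint
    have hcC : (((N * t ^ 2 : ℕ) * c₂ : ℤ) : ℂ) = t * c₁ := by exact_mod_cast hcc
    have hJc : ((j.val : ℕ) : ℂ) = (J : ℂ) := by rw [hJ]; push_cast; rfl
    rw [hcC] at hw ⊢
    simp only [coe_shiftPt]
    push_cast
    rw [hJc]
    field_simp
    linear_combination (t : ℂ) * hw - hintC
  have := hI (a + J * c₁) (b + e) ((N * t ^ 2 : ℕ) * c₂) (d - c₁ * K) hdet'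
    (Dvd.dvd.mul_right (by push_cast; exact dvd_mul_right _ _) _) _ _ hrel
  rw [this]
  congr 2
  have hcC : (((N * t ^ 2 : ℕ) * c₂ : ℤ) : ℂ) = t * c₁ := by exact_mod_cast hcc
  rw [hcC]
  simp only [coe_shiftPt]
  push_cast
  field_simp
  ring

theorem inv_Kop {N t : ℕ} (ht : t ≠ 0) {F : ℍ → ℂ} (hI : Inv N F) :
    Inv (N * t ^ 2) (Kop t F) := by
  intro a b c d hdet hc z w hw
  have : NeZero t := ⟨ht⟩
  obtain ⟨c₂, rfl⟩ := hc
  have hFw : F w = ((((N * t ^ 2 : ℕ) * c₂ : ℤ) : ℂ) * z + d) ^ 2 * F z :=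
    hI a b _ d hdet (Dvd.dvd.mul_right (by push_cast; exact dvd_mul_right _ _) _) z w hw
  have hunit : (d : ZMod t) * (a : ZMod t) = 1 := by
    have := congrArg (Int.cast : ℤ → ZMod t) hdet
    push_cast at this
    simp only [ZMod.natCast_self, ne_eq, OfNat.ofNat_ne_zero, not_false_eq_true, zero_pow,
      mul_zero, zero_mul, sub_zero] at this
    rw [mul_comm]; exact this
  have hd : IsUnit ((d : ZMod t) ^ 2) := (IsUnit.of_mul_eq_one _ hunit).pow 2
  have hperm : ∑ j : ZMod t, F (shiftPt (((((d : ZMod t) ^ 2 * j).val : ℕ) : ℝ) / t) z) =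
      ∑ j : ZMod t, F (shiftPt ((j.val : ℝ) / t) z) :=
    Function.Bijective.sum_comp (IsUnit.isUnit_iff_mulLeft_bijective.mp hd)
      (fun j : ZMod t => F (shiftPt ((j.val : ℝ) / t) z))
  unfold Kop
  rw [sum_range_eq_sum_zmod t (fun j => F (shiftPt ((j : ℝ) / t) w)),
    sum_range_eq_sum_zmod t (fun j => F (shiftPt ((j : ℝ) / t) z))]
  rw [Finset.sum_congr rfl (fun j _ => inv_Kop_term hI a b c₂ d hdet z w hw j),
    ← Finset.mul_sum, hperm, hFw]
  ring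


theorem four_zero {c : ℕ → ℂ} {F : ℍ → ℂ} (hF : Four c F) (h0 : ∀ z, F z = 0) :
    ∀ m, c m = 0 := by
  intro m
  have key := ModularFormClass.qExpansion_coeff_unique (c := c) one_pos
    (CongruenceSubgroup.one_mem_strictPeriods_Gamma0 1)
    (f := (0 : CuspForm (CongruenceSubgroup.Gamma0 1) 2))
    (fun τ => by
      have := hF τ
      rw [h0 τ] at this
      simpa [smul_eq_mul] using this) m
  rw [key, FunLike.coe_zero, UpperHalfPlane.qExpansion_zero]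
  simp


variable {M : ℕ}

theorem four_of_cusp (g : CuspForm (CongruenceSubgroup.Gamma0 M) 2) :
    Four (ModularFormClass.qCoeff g) g := by
  intro τ
  have hΓ := CongruenceSubgroup.one_mem_strictPeriods_Gamma0 M
  have : Fact (IsCusp OnePoint.infty
      (Subgroup.map (Matrix.SpecialLinearGroup.mapGL ℝ) (CongruenceSubgroup.Gamma0 M))) :=
    ⟨Subgroup.isCusp_of_mem_strictPeriods one_pos hΓ⟩
  exact ModularForm.hasSum_qExpansion g one_pos hΓ τ

theorem inv_of_cusp (g : CuspForm (CongruenceSubgroup.Gamma0 M) 2) :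
    Inv M g := by
  intro a b c d h hc z w hw
  let γ : Matrix.SpecialLinearGroup (Fin 2) ℤ := ⟨!![a, b; c, d], by
    rw [Matrix.det_fin_two_of]; exact h⟩
  have hγ : γ ∈ CongruenceSubgroup.Gamma0 M := by
    rw [CongruenceSubgroup.Gamma0_mem]
    simp only [γ, Matrix.of_apply, Matrix.cons_val', Matrix.cons_val_zero,
      Matrix.cons_val_one, Matrix.cons_val_fin_one]
    exact (ZMod.intCast_zmod_eq_zero_iff_dvd c M).mpr hc
  have h1 := SlashInvariantForm.slash_action_eqn_SL'' g hγ z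
  have hden : UpperHalfPlane.denom (γ : GL (Fin 2) ℝ) z = (c : ℂ) * z + d := by
    rw [ModularGroup.denom_apply]
    simp [γ]
  have hden0 : ((c : ℂ) * z + d) ≠ 0 := by
    rw [← hden]; exact UpperHalfPlane.denom_ne_zero _ z
  have hwz : w = γ • z := by
    apply UpperHalfPlane.ext
    rw [UpperHalfPlane.coe_specialLinearGroup_apply]
    simp only [γ, Matrix.of_apply, Matrix.cons_val', Matrix.cons_val_zero,
      Matrix.cons_val_one, Matrix.cons_val_fin_one, algebraMap_int_eq, Int.coe_castRingHom,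
      Complex.ofReal_intCast]
    rw [eq_div_iff hden0]
    exact hw
  rw [hwz, h1, hden]
  norm_cast

theorem dec_of_cusp (g : CuspForm (CongruenceSubgroup.Gamma0 M) 2) :
    Dec g := by
  have h := CuspFormClass.exp_decay_atImInfty g one_pos
    (CongruenceSubgroup.one_mem_strictPeriods_Gamma0 M)
  rw [Asymptotics.isBigO_iff] at h
  obtain ⟨C, hC⟩ := h
  rw [UpperHalfPlane.atImInfty, Filter.eventually_comap] at hC
  obtain ⟨A, hA⟩ := Filter.eventually_atTop.mp hC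
  refine ⟨C, A, fun z hz => ?_⟩
  have := hA z.im hz z rfl
  rw [Real.norm_eq_abs, abs_of_pos (Real.exp_pos _)] at this
  convert this using 3
  ring


/-! ### Closure properties and iteration of the operators `K_t` -/

theorem Inv.mono {N N' : ℕ} (h : N ∣ N') {F : ℍ → ℂ} (hI : Inv N F) : Inv N' F :=
  fun a b c d hdet hc z w hw =>
    hI a b c d hdet (dvd_trans (Int.natCast_dvd_natCast.mpr h) hc) z w hw

theorem Inv.sub {N : ℕ} {F G : ℍ → ℂ} (hF : Inv N F) (hG : Inv N G) :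
    Inv N (fun z => F z - G z) := by
  intro a b c d hdet hc z w hw
  simp only []
  rw [hF a b c d hdet hc z w hw, hG a b c d hdet hc z w hw]
  ring

theorem Four.sub {c c' : ℕ → ℂ} {F G : ℍ → ℂ} (hF : Four c F) (hG : Four c' G) :
    Four (fun m => c m - c' m) (fun z => F z - G z) := by
  intro τ
  have := (hF τ).sub (hG τ)
  simp only []
  have heq : (fun m : ℕ => (c m - c' m) * Function.Periodic.qParam 1 (τ : ℂ) ^ m) =
      fun m => c m * Function.Periodic.qParam 1 (τ : ℂ) ^ m -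
        c' m * Function.Periodic.qParam 1 (τ : ℂ) ^ m := by
    funext m; ring
  rw [heq]
  exact this

theorem Dec.sub {F G : ℍ → ℂ} (hF : Dec F) (hG : Dec G) : Dec (fun z => F z - G z) := by
  obtain ⟨C, A, hbd⟩ := hF
  obtain ⟨C', A', hbd'⟩ := hG
  refine ⟨C + C', max A A', fun z hz => ?_⟩
  have h1 := hbd z (le_trans (le_max_left _ _) hz)
  have h2 := hbd' z (le_trans (le_max_right _ _) hz)
  refine (norm_sub_le _ _).trans ?_
  rw [add_mul]
  exact add_le_add h1 h2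

/-- The package of properties preserved by the operators `K_t`. -/
structure Good (N : ℕ) (c : ℕ → ℂ) (F : ℍ → ℂ) : Prop where
  inv : Inv N F
  four : Four c F
  dec : Dec F

theorem Good.Kop {N t : ℕ} (ht : t ≠ 0) {c : ℕ → ℂ} {F : ℍ → ℂ} (h : Good N c F) :
    Good (N * t ^ 2) (fun m => if t ∣ m then 0 else c m) (Kop t F) :=
  ⟨inv_Kop ht h.inv, four_Kop ht h.four, dec_Kop ht h.dec⟩

theorem good_iter (P : Finset ℕ) (hP : ∀ t ∈ P, t ≠ 0) {N : ℕ} {c : ℕ → ℂ} {F : ℍ → ℂ}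
    (h : Good N c F) :
    ∃ F' : ℍ → ℂ, Good (N * (∏ t ∈ P, t) ^ 2)
      (fun m => if ∃ t ∈ P, t ∣ m then 0 else c m) F' := by
  classical
  induction P using Finset.induction_on with
  | empty =>
    refine ⟨F, ?_⟩
    simpa using h
  | insert t P htP ih =>
    obtain ⟨F', hF'⟩ := ih (fun s hs => hP s (Finset.mem_insert_of_mem hs))
    refine ⟨Kop t F', ?_⟩
    have h1 := hF'.Kop (hP t (Finset.mem_insert_self t P))
    have hN : N * (∏ s ∈ P, s) ^ 2 * t ^ 2 = N * (∏ s ∈ insert t P, s) ^ 2 := by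
      rw [Finset.prod_insert htP]; ring
    have hc : (fun m => if t ∣ m then 0 else if ∃ s ∈ P, s ∣ m then 0 else c m) =
        fun m => if ∃ s ∈ insert t P, s ∣ m then 0 else c m := by
      funext m
      by_cases h1 : t ∣ m
      · rw [if_pos h1, if_pos ⟨t, Finset.mem_insert_self t P, h1⟩]
      · rw [if_neg h1]
        by_cases h2 : ∃ s ∈ P, s ∣ m
        · obtain ⟨s, hs, hsm⟩ := h2
          rw [if_pos ⟨s, hs, hsm⟩, if_pos ⟨s, Finset.mem_insert_of_mem hs, hsm⟩]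
        · rw [if_neg h2, if_neg]
          rintro ⟨s, hs, hsm⟩
          rcases Finset.mem_insert.mp hs with rfl | hs'
          · exact h1 hsm
          · exact h2 ⟨s, hs', hsm⟩
    rw [hN, hc] at h1
    exact h1

/-! ### Agreement of the coefficients prime to `S` -/

open ModularFormClass in
theorem coeff_prime_pow {M M' : ℕ} {g : CuspForm (CongruenceSubgroup.Gamma0 M) 2}
    {g' : CuspForm (CongruenceSubgroup.Gamma0 M') 2}
    (hg : g.IsNormalizedEigenform) (hg' : g'.IsNormalizedEigenform)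
    {p : ℕ} (hp : p.Prime) (hpM : ¬ p ∣ M) (hpM' : ¬ p ∣ M')
    (h : qCoeff g' p = qCoeff g p) : ∀ n : ℕ, qCoeff g' (p ^ n) = qCoeff g (p ^ n) := by
  intro n
  induction n using Nat.twoStepInduction with
  | zero => rw [pow_zero, hg.qCoeff_one, hg'.qCoeff_one]
  | one => rw [pow_one, h]
  | more r ih0 ih1 =>
    rw [hg.qCoeff_prime_pow_of_not_dvd p r hp hpM, hg'.qCoeff_prime_pow_of_not_dvd p r hp hpM',
      h, ih0, ih1]

open ModularFormClass in
theorem coeff_agree {M M' : ℕ} (hMM' : M' ∣ M) {g : CuspForm (CongruenceSubgroup.Gamma0 M) 2}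
    {g' : CuspForm (CongruenceSubgroup.Gamma0 M') 2}
    (hg : g.IsNormalizedEigenform) (hg' : g'.IsNormalizedEigenform)
    (S : Set ℕ) (hS : ∀ q : ℕ, q.Prime → q ∣ M → q ∈ S)
    (h : ∀ ℓ : ℕ, ℓ.Prime → ℓ ∉ S → qCoeff g' ℓ = qCoeff g ℓ) :
    ∀ m : ℕ, m ≠ 0 → (∀ ℓ : ℕ, ℓ.Prime → ℓ ∣ m → ℓ ∉ S) → qCoeff g' m = qCoeff g m := by
  intro m
  induction m using Nat.recOnPrimeCoprime with
  | zero => intro h0; exact absurd rfl h0
  | prime_pow p n hp =>
    intro _ hall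
    rcases Nat.eq_zero_or_pos n with rfl | hn
    · rw [pow_zero, hg.qCoeff_one, hg'.qCoeff_one]
    · have hpS : p ∉ S := hall p hp (dvd_pow_self p hn.ne')
      have hpM : ¬ p ∣ M := fun hd => hpS (hS p hp hd)
      have hpM' : ¬ p ∣ M' := fun hd => hpM (dvd_trans hd hMM')
      exact coeff_prime_pow hg hg' hp hpM hpM' (h p hp hpS) n
  | coprime a b ha hb hab iha ihb =>
    intro _ hall
    rw [hg.qCoeff_mul_of_coprime a b hab, hg'.qCoeff_mul_of_coprime a b hab,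
      iha (by omega) (fun ℓ hℓ hd => hall ℓ hℓ (dvd_mul_of_dvd_left hd b)),
      ihb (by omega) (fun ℓ hℓ hd => hall ℓ hℓ (dvd_mul_of_dvd_right hd a))]

/-! ### Strong multiplicity one -/

open ModularFormClass in
/-- **Strong multiplicity one** (good eigenvalues): normalized eigenforms `g` of level `M` and
`g'` of level `M' ∣ M` whose prime coefficients agree at the primes `ℓ ∤ M` outside a finite
set `S` have the same coefficient at every prime `ℓ ∤ M`. -/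
theorem h6smo_main {M M' : ℕ} (hMM' : M' ∣ M) (S : Finset ℕ)
    (g : CuspForm (CongruenceSubgroup.Gamma0 M) 2)
    (g' : CuspForm (CongruenceSubgroup.Gamma0 M') 2)
    (hg : g.IsNormalizedEigenform) (hg' : g'.IsNormalizedEigenform)
    (h : ∀ ℓ : ℕ, ℓ.Prime → ¬ ℓ ∣ M → ℓ ∉ S → qCoeff g' ℓ = qCoeff g ℓ) :
    ∀ ℓ : ℕ, ℓ.Prime → ¬ ℓ ∣ M → qCoeff g' ℓ = qCoeff g ℓ := by
  classical
  intro s hs hsM
  by_cases hsS : s ∈ S
  swap
  · exact h s hs hsM hsS
  have hM0 : M ≠ 0 := by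
    rintro rfl
    exact hsM (dvd_zero s)
  -- the enlarged exceptional set
  let S' : Finset ℕ := S ∪ M.primeFactors
  have hS' : ∀ q : ℕ, q.Prime → q ∣ M → q ∈ (↑S' : Set ℕ) := fun q hq hd =>
    Finset.mem_coe.mpr (Finset.mem_union_right _ (Nat.mem_primeFactors.mpr ⟨hq, hd, hM0⟩))
  have h' : ∀ ℓ : ℕ, ℓ.Prime → ℓ ∉ (↑S' : Set ℕ) → qCoeff g' ℓ = qCoeff g ℓ := by
    intro ℓ hℓ hn
    have hn' : ℓ ∉ S' := fun hm => hn (Finset.mem_coe.mpr hm)
    refine h ℓ hℓ (fun hd => hn' ?_) (fun hm => hn' (Finset.mem_union_left _ hm))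
    exact Finset.mem_union_right _ (Nat.mem_primeFactors.mpr ⟨hℓ, hd, hM0⟩)
  have hagree := coeff_agree hMM' hg hg' (↑S' : Set ℕ) hS' h'
  -- the primes of `S'` other than `s`
  let P : Finset ℕ := (S'.filter Nat.Prime).erase s
  have hPprime : ∀ t ∈ P, t.Prime := fun t ht =>
    (Finset.mem_filter.mp (Finset.mem_of_mem_erase ht)).2
  have hPne : ∀ t ∈ P, t ≠ s := fun t ht => Finset.ne_of_mem_erase ht
  have hgood : Good M (fun m => qCoeff g m - qCoeff g' m) (fun z => g z - g' z) :=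
    ⟨(inv_of_cusp g).sub ((inv_of_cusp g').mono hMM'),
      (four_of_cusp g).sub (four_of_cusp g'), (dec_of_cusp g).sub (dec_of_cusp g')⟩
  obtain ⟨F', hF'⟩ := good_iter P (fun t ht => (hPprime t ht).ne_zero) hgood
  have hvan : ∀ m : ℕ, ¬ s ∣ m →
      (if ∃ t ∈ P, t ∣ m then (0 : ℂ) else qCoeff g m - qCoeff g' m) = 0 := by
    intro m hm
    by_cases hex : ∃ t ∈ P, t ∣ m
    · rw [if_pos hex]
    · rw [if_neg hex]
      have hm0 : m ≠ 0 := by
        rintro rfl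
        exact hm (dvd_zero s)
      rw [hagree m hm0 ?_, sub_self]
      intro ℓ hℓ hd hℓS
      apply hex
      refine ⟨ℓ, Finset.mem_erase.mpr ⟨?_, Finset.mem_filter.mpr ⟨Finset.mem_coe.mp hℓS, hℓ⟩⟩, hd⟩
      rintro rfl
      exact hm hd
  have hper : Per s F' := per_of_four hs.ne_zero hF'.four hvan
  have hcop : Nat.Coprime s (M * (∏ t ∈ P, t) ^ 2) := by
    rw [Nat.Prime.coprime_iff_not_dvd hs]
    intro hd
    rcases (Nat.Prime.dvd_mul hs).mp hd with h1 | h1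
    · exact hsM h1
    · have h2 := hs.dvd_of_dvd_pow h1
      obtain ⟨t, ht, hst⟩ := (Prime.dvd_finsetProd_iff hs.prime _).mp h2
      have : s = t := (Nat.prime_dvd_prime_iff_eq hs (hPprime t ht)).mp hst
      exact hPne t ht this.symm
  have hzero := key_zero hs.two_le hcop hF'.inv hper hF'.dec
  have hc := four_zero hF'.four hzero s
  have hnex : ¬ ∃ t ∈ P, t ∣ s := by
    rintro ⟨t, ht, hts⟩
    exact hPne t ht ((Nat.prime_dvd_prime_iff_eq (hPprime t ht) hs).mp hts)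
  simp only [if_neg hnex] at hc
  exact (sub_eq_zero.mp hc).symm

open ModularFormClass in
/-- Consequence for newforms: the good eigensystem of a newform `g` of level `M` away from a
finite set `S` does not occur at a proper divisor level. -/
theorem h6smo_newform {M : ℕ} {g : CuspForm (CongruenceSubgroup.Gamma0 M) 2}
    (hg : g.IsNewform) (S : Finset ℕ) {M' : ℕ} (hMM' : M' ∣ M) (hne : M' ≠ M)
    (g' : CuspForm (CongruenceSubgroup.Gamma0 M') 2) (hg' : g'.IsNormalizedEigenform) :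
    ¬ ∀ ℓ : ℕ, ℓ.Prime → ¬ ℓ ∣ M → ℓ ∉ S → qCoeff g' ℓ = qCoeff g ℓ := by
  intro h
  exact hg.2 M' hMM' hne ⟨g', hg', h6smo_main hMM' S g g' hg.1 hg' h⟩

end H6SMO
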