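/-
S35 slice (d): `H11S35.SMOStatement` (strong multiplicity one), from `H6SMO.h6smo_main`.
-/
import Fermat.Agent.S35.Defs_helper11
import Fermat.Agent.S35.SMO_helper6

set_option autoImplicit false

namespace H6SMO

/-- **(d) SMO**: strong multiplicity one in the exact form of helper11's interface. -/
theorem h6smo_SMO : H11S35.SMOStatement :=
  fun _ _ _ _ hd S g g' hg hg' h => h6smo_main hd S g g' hg hg' h

end H6SMO
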