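/-
Item S35, slice NEWOP (helper16): `H11S35.NewOpStatement`, unconditional
(`H16NO.h16no_newOp` + helper6's `H6SMO.h6smo_SMO`).
-/
import Fermat.Agent.S35.NewOp_helper16
import Fermat.Agent.S35.SMOStmt_helper6

set_option autoImplicit false

namespace H16NO

/-- **(NEWOP)**: for a newform `g` of level `M` and a proper divisor `N'` of `M` there is a word
`P` in the good Hecke operators with `P = 0` on `S₂(Γ₀(N'))` and `P(a(g)) ≠ 0`. -/
theorem h16no_newOpStatement : H11S35.NewOpStatement :=
  h16no_newOp H6SMO.h6smo_SMO

end H16NO
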