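import Mathlib
import Fermat.Agent.W3G.EigenAdicAbs_helper23
import Fermat.Agent.S35.TPPlusDefs_helper11

/-!
# Item 82b (S35), slice TP⁺ (helper20): the transfer principle with polynomial relations

`H20TP.h20tp_main : H11S35.TPPlusStatement`.

* `h20tp_aeval_mem`, `h20tp_lift_mem`: integer polynomials / words in a free algebra preserve any
  relation that is a `ℤ`-subalgebra of a product `A₁ × A₂`;
* `h20tp_map_aeval`, `h20tp_map_lift`: ring homomorphisms commute with integer polynomials/words;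
* `h20tpS1`, `h20tpS3`, `h20tpS4`: the three intertwining relations (on `J`, scalars on the
  eigenlattice, restriction to the eigenlattice);
* `h20tp_eigenlattice`: copy of `H23T.h23t_eigenlattice` with the fourth clause;
* `h20tp_main`: copy of `H23EA.h23ea_main` with the fourth clause.
-/

set_option autoImplicit false
set_option linter.style.longLine false
set_option linter.unusedSectionVars false
set_option linter.unnecessarySimpa false

open Matrix Polynomial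

noncomputable section

namespace H20TP

section Rel

variable {A₁ A₂ : Type*} [Ring A₁] [Ring A₂] [Algebra ℤ A₁] [Algebra ℤ A₂]

/-- polynomials preserve a relation given by a subalgebra of the product -/
theorem h20tp_aeval_mem (S : Subalgebra ℤ (A₁ × A₂)) {x₁ : A₁} {x₂ : A₂} (h : (x₁, x₂) ∈ S)
    (F : ℤ[X]) : (aeval x₁ F, aeval x₂ F) ∈ S := by
  have h1 := Polynomial.aeval_prod_apply (R := ℤ) ((x₁, x₂) : A₁ × A₂) F
  rw [← h1]
  have h2 := Polynomial.aeval_algHom_apply S.val (⟨(x₁, x₂), h⟩ : S) F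
  rw [Subalgebra.val_apply] at h2
  rw [h2]
  exact SetLike.coe_mem _

/-- words preserve a relation given by a subalgebra of the product -/
theorem h20tp_lift_mem (S : Subalgebra ℤ (A₁ × A₂)) {τ : Type*} (f₁ : τ → A₁) (f₂ : τ → A₂)
    (h : ∀ t, (f₁ t, f₂ t) ∈ S) (P : FreeAlgebra ℤ τ) :
    (FreeAlgebra.lift ℤ f₁ P, FreeAlgebra.lift ℤ f₂ P) ∈ S := by
  induction P using FreeAlgebra.induction with
  | grade0 r =>
    rw [AlgHom.commutes, AlgHom.commutes, ← Prod.algebraMap_apply]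
    exact S.algebraMap_mem r
  | grade1 t =>
    rw [FreeAlgebra.lift_ι_apply, FreeAlgebra.lift_ι_apply]
    exact h t
  | mul a b ha hb =>
    rw [map_mul, map_mul, ← Prod.mk_mul_mk]
    exact S.mul_mem ha hb
  | add a b ha hb =>
    rw [map_add, map_add, ← Prod.mk_add_mk]
    exact S.add_mem ha hb

/-- a ring homomorphism as a `ℤ`-algebra homomorphism, for arbitrary `ℤ`-algebra structures -/
def h20tpAlgHom (ψ : A₁ →+* A₂) : A₁ →ₐ[ℤ] A₂ :=
  { ψ with
    commutes' := fun n => by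
      show ψ (algebraMap ℤ A₁ n) = algebraMap ℤ A₂ n
      rw [eq_intCast (algebraMap ℤ A₁) n, eq_intCast (algebraMap ℤ A₂) n, map_intCast] }

theorem h20tpAlgHom_apply (ψ : A₁ →+* A₂) (x : A₁) : h20tpAlgHom ψ x = ψ x := rfl

/-- ring homomorphisms commute with integer polynomials -/
theorem h20tp_map_aeval (ψ : A₁ →+* A₂) (x : A₁) (F : ℤ[X]) :
    ψ (aeval x F) = aeval (ψ x) F :=
  (Polynomial.aeval_algHom_apply (h20tpAlgHom ψ) x F).symm

/-- ring homomorphisms commute with integer words -/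
theorem h20tp_map_lift (ψ : A₁ →+* A₂) {τ : Type*} (f : τ → A₁) (P : FreeAlgebra ℤ τ) :
    ψ (FreeAlgebra.lift ℤ f P) = FreeAlgebra.lift ℤ (fun t => ψ (f t)) P := by
  have h : (h20tpAlgHom ψ).comp (FreeAlgebra.lift ℤ f) =
      FreeAlgebra.lift ℤ (fun t => ψ (f t)) := by
    apply FreeAlgebra.hom_ext
    funext t
    simp [h20tpAlgHom_apply]
  exact congrArg (fun g : FreeAlgebra ℤ τ →ₐ[ℤ] A₂ => g P) h

end Rel

section Sub

variable {ι : Type} [Fintype ι] [DecidableEq ι]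

/-- intertwining relation for `emb : ℤ^ι → J` -/
def h20tpS1 {J : Type*} [AddCommGroup J] (e : (ι → ℤ) →+ J) :
    Subalgebra ℤ (Module.End ℤ J × Matrix ι ι ℤ) where
  carrier := {x | ∀ a, x.1 (e a) = e (x.2.mulVec a)}
  mul_mem' := by
    rintro ⟨Φ₁, B₁⟩ ⟨Φ₂, B₂⟩ h₁ h₂ a
    have h₁' : ∀ a, Φ₁ (e a) = e (B₁.mulVec a) := h₁
    have h₂' : ∀ a, Φ₂ (e a) = e (B₂.mulVec a) := h₂
    show (Φ₁ * Φ₂) (e a) = e ((B₁ * B₂).mulVec a)
    rw [Module.End.mul_apply, h₂', h₁', Matrix.mulVec_mulVec]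
  add_mem' := by
    rintro ⟨Φ₁, B₁⟩ ⟨Φ₂, B₂⟩ h₁ h₂ a
    have h₁' : ∀ a, Φ₁ (e a) = e (B₁.mulVec a) := h₁
    have h₂' : ∀ a, Φ₂ (e a) = e (B₂.mulVec a) := h₂
    show (Φ₁ + Φ₂) (e a) = e ((B₁ + B₂).mulVec a)
    rw [LinearMap.add_apply, h₁', h₂', Matrix.add_mulVec, map_add]
  algebraMap_mem' := by
    intro r a
    rw [Algebra.algebraMap_eq_smul_one]
    show (r • (1 : Module.End ℤ J)) (e a) = e ((r • (1 : Matrix ι ι ℤ)).mulVec a)
    rw [LinearMap.smul_apply, Module.End.one_apply, Matrix.smul_mulVec, Matrix.one_mulVec,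
      map_zsmul]

theorem h20tp_mem_S1 {J : Type*} [AddCommGroup J] (e : (ι → ℤ) →+ J)
    (x : Module.End ℤ J × Matrix ι ι ℤ) :
    x ∈ h20tpS1 e ↔ ∀ a, x.1 (e a) = e (x.2.mulVec a) := Iff.rfl

variable {𝒪 : Type} [CommRing 𝒪]

/-- scalar relation on a submodule -/
def h20tpS3 (M : Submodule 𝒪 (ι → 𝒪)) : Subalgebra ℤ (Matrix ι ι 𝒪 × 𝒪) where
  carrier := {x | ∀ v ∈ M, x.1.mulVec v = x.2 • v}
  mul_mem' := by
    rintro ⟨B₁, b₁⟩ ⟨B₂, b₂⟩ h₁ h₂ v hv
    have h₁' : ∀ v ∈ M, B₁.mulVec v = b₁ • v := h₁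
    have h₂' : ∀ v ∈ M, B₂.mulVec v = b₂ • v := h₂
    show (B₁ * B₂).mulVec v = (b₁ * b₂) • v
    rw [← Matrix.mulVec_mulVec, h₂' v hv, Matrix.mulVec_smul, h₁' v hv, smul_smul, mul_comm]
  add_mem' := by
    rintro ⟨B₁, b₁⟩ ⟨B₂, b₂⟩ h₁ h₂ v hv
    have h₁' : ∀ v ∈ M, B₁.mulVec v = b₁ • v := h₁
    have h₂' : ∀ v ∈ M, B₂.mulVec v = b₂ • v := h₂
    show (B₁ + B₂).mulVec v = (b₁ + b₂) • v
    rw [Matrix.add_mulVec, h₁' v hv, h₂' v hv, add_smul]
  algebraMap_mem' := by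
    intro r v _
    rw [Algebra.algebraMap_eq_smul_one]
    show (r • (1 : Matrix ι ι 𝒪)).mulVec v = (r • (1 : 𝒪)) • v
    rw [Matrix.smul_mulVec, Matrix.one_mulVec, smul_assoc, one_smul]

theorem h20tp_mem_S3 (M : Submodule 𝒪 (ι → 𝒪)) (x : Matrix ι ι 𝒪 × 𝒪) :
    x ∈ h20tpS3 M ↔ ∀ v ∈ M, x.1.mulVec v = x.2 • v := Iff.rfl

/-- restriction relation on a submodule -/
def h20tpS4 (M : Submodule 𝒪 (ι → 𝒪)) : Subalgebra ℤ (Module.End 𝒪 M × Matrix ι ι 𝒪) where
  carrier := {x | ∀ v : M, ((x.1 v : M) : ι → 𝒪) = x.2.mulVec (v : ι → 𝒪)}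
  mul_mem' := by
    rintro ⟨Φ₁, B₁⟩ ⟨Φ₂, B₂⟩ h₁ h₂ v
    have h₁' : ∀ v : M, ((Φ₁ v : M) : ι → 𝒪) = B₁.mulVec (v : ι → 𝒪) := h₁
    have h₂' : ∀ v : M, ((Φ₂ v : M) : ι → 𝒪) = B₂.mulVec (v : ι → 𝒪) := h₂
    show (((Φ₁ * Φ₂) v : M) : ι → 𝒪) = (B₁ * B₂).mulVec (v : ι → 𝒪)
    rw [Module.End.mul_apply, h₁', h₂', Matrix.mulVec_mulVec]
  add_mem' := by
    rintro ⟨Φ₁, B₁⟩ ⟨Φ₂, B₂⟩ h₁ h₂ v
    have h₁' : ∀ v : M, ((Φ₁ v : M) : ι → 𝒪) = B₁.mulVec (v : ι → 𝒪) := h₁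
    have h₂' : ∀ v : M, ((Φ₂ v : M) : ι → 𝒪) = B₂.mulVec (v : ι → 𝒪) := h₂
    show (((Φ₁ + Φ₂) v : M) : ι → 𝒪) = (B₁ + B₂).mulVec (v : ι → 𝒪)
    rw [LinearMap.add_apply, Submodule.coe_add, h₁', h₂', Matrix.add_mulVec]
  algebraMap_mem' := by
    intro r v
    rw [Algebra.algebraMap_eq_smul_one]
    show (((r • (1 : Module.End 𝒪 M)) v : M) : ι → 𝒪) = (r • (1 : Matrix ι ι 𝒪)).mulVec (v : ι → 𝒪)
    rw [LinearMap.smul_apply, Module.End.one_apply, Matrix.smul_mulVec, Matrix.one_mulVec]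
    rfl

theorem h20tp_mem_S4 (M : Submodule 𝒪 (ι → 𝒪)) (x : Module.End 𝒪 M × Matrix ι ι 𝒪) :
    x ∈ h20tpS4 M ↔ ∀ v : M, ((x.1 v : M) : ι → 𝒪) = x.2.mulVec (v : ι → 𝒪) := Iff.rfl

end Sub


section Eigen

open H23T

/-- **The abstract Tate eigenlattice with polynomial relations for words** (copy of
`H23T.h23t_eigenlattice` with a fourth clause). -/
theorem h20tp_eigenlattice (p : ℕ) [Fact p.Prime] (G : Type) [Group G]
    (ι : Type) [Fintype ι] [DecidableEq ι]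
    (𝒪 : Type) [CommRing 𝒪] [IsDomain 𝒪] [IsDiscreteValuationRing 𝒪]
    (φ : ℤ_[p] →+* 𝒪) (hp : (p : 𝒪) ∈ IsLocalRing.maximalIdeal 𝒪) (hp0 : (p : 𝒪) ≠ 0)
    (Sy : h23tSystem p G ι) (τ : Type) (T : τ → Matrix ι ι ℤ) (c : τ → 𝒪)
    (hcomm : ∀ k g t, Sy.R k g * (T t).map (Int.cast : ℤ → ZMod (p ^ k)) =
      (T t).map (Int.cast : ℤ → ZMod (p ^ k)) * Sy.R k g)
    (heig : ∃ v : ι → 𝒪, v ≠ 0 ∧ ∀ t, ((T t).map (Int.cast : ℤ → 𝒪)).mulVec v = c t • v) :
    ∃ (M : Type) (_ : AddCommGroup M) (_ : Module 𝒪 M) (_ : Module.Free 𝒪 M)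
      (_ : Module.Finite 𝒪 M) (_ : Nontrivial M) (ρ : G →* Module.End 𝒪 M),
      (∀ (g : G) (n : ℕ), Sy.R n g = 1 →
        ∀ v : M, ρ g v - v ∈ (IsLocalRing.maximalIdeal 𝒪 ^ n) • (⊤ : Submodule 𝒪 M)) ∧
      (∀ g : G, (∀ k, Sy.R k g = 1) → ρ g = 1) ∧
      (∀ (g : G) (t : τ) (ℓ : ℤ),
        (∀ k, Sy.R k g * Sy.R k g - (T t).map (Int.cast : ℤ → ZMod (p ^ k)) * Sy.R k g +
          (ℓ : ZMod (p ^ k)) • (1 : Matrix ι ι (ZMod (p ^ k))) = 0) →
        ρ g * ρ g - c t • ρ g + (ℓ : 𝒪) • (1 : Module.End 𝒪 M) = 0) ∧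
      (∀ (g : G) (P : FreeAlgebra ℤ τ) (F : ℤ[X]),
        (∀ k, aeval (Sy.R k g) F *
          FreeAlgebra.lift ℤ (fun t => (T t).map (Int.cast : ℤ → ZMod (p ^ k))) P = 0) →
        FreeAlgebra.lift ℤ c P • aeval (ρ g) F = 0) := by
  obtain ⟨ρp, hρp⟩ := h23t_exists_padic Sy
  -- the integral Hecke matrices over `ℤ_[p]` and over `𝒪`
  set Tp : τ → Matrix ι ι ℤ_[p] := fun t => (T t).map (Int.cast : ℤ → ℤ_[p]) with hTp
  set TO : τ → Matrix ι ι 𝒪 := fun t => (T t).map (Int.cast : ℤ → 𝒪) with hTO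
  have hTpO : ∀ t, (Tp t).map φ = TO t := fun t => h23t_intMat_map φ (T t)
  -- the representation over `𝒪`
  set ρO : G →* Matrix ι ι 𝒪 := (φ.mapMatrix : Matrix ι ι ℤ_[p] →+* Matrix ι ι 𝒪).toMonoidHom.comp ρp
    with hρO
  have hρO_apply : ∀ g, ρO g = (ρp g).map φ := fun g => rfl
  -- commutation
  have hcommp : ∀ g t, ρp g * Tp t = Tp t * ρp g := by
    intro g t
    apply h23t_matrix_ext
    intro k
    rw [Matrix.map_mul, Matrix.map_mul, hρp, h23t_intMat_toZModPow, hcomm]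
  have hcommO : ∀ g t, ρO g * TO t = TO t * ρO g := by
    intro g t
    rw [hρO_apply, ← hTpO, ← Matrix.map_mul, ← Matrix.map_mul, hcommp]
  -- the eigenlattice
  set M : Submodule 𝒪 (ι → 𝒪) := h23tEigen TO c with hM
  have hstab : ∀ g, ∀ v ∈ M, (Matrix.mulVecLin (ρO g)) v ∈ M := by
    intro g v hv
    rw [Matrix.mulVecLin_apply]
    exact h23t_eigen_stable (fun t => hcommO g t) hv
  set ρ : G →* Module.End 𝒪 M :=
    { toFun := fun g => (Matrix.mulVecLin (ρO g)).restrict (hstab g)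
      map_one' := by
        ext v i
        simp
      map_mul' := by
        intro g h
        ext v i
        simp [Matrix.mulVec_mulVec] } with hρ
  have hρ_apply : ∀ g (v : M), ((ρ g v : M) : ι → 𝒪) = (ρO g).mulVec (v : ι → 𝒪) := by
    intro g v
    rfl
  obtain ⟨v₀, hv₀, hv₀e⟩ := heig
  have hnt : Nontrivial M := by
    refine ⟨⟨⟨v₀, hv₀e⟩, 0, ?_⟩⟩
    intro h
    exact hv₀ (congrArg Subtype.val h)
  refine ⟨M, inferInstance, inferInstance, inferInstance, inferInstance, hnt, ρ, ?_, ?_, ?_, ?_⟩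
  · -- adic continuity
    intro g n hg v
    have h1 : (ρp g).map (PadicInt.toZModPow n) = 1 := by rw [hρp, hg]
    obtain ⟨Y, hY⟩ := h23t_exists_of_map_eq_one h1
    set w : ι → 𝒪 := (Y.map φ).mulVec (v : ι → 𝒪) with hw
    have h2 : (ρO g).mulVec (v : ι → 𝒪) - (v : ι → 𝒪) = ((p : 𝒪) ^ n) • w := by
      rw [hρO_apply, hY]
      have h3 : (1 + (p : ℤ_[p]) ^ n • Y).map φ = 1 + ((p : 𝒪) ^ n) • Y.map φ := by
        ext i j
        by_cases hij : i = j
        · subst hij; simp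
        · simp [Matrix.one_apply_ne hij]
      rw [h3, Matrix.add_mulVec, Matrix.one_mulVec, Matrix.smul_mulVec, add_sub_cancel_left]
    have hpn : ((p : 𝒪) ^ n) ≠ 0 := pow_ne_zero n hp0
    have hwM : w ∈ M := by
      apply h23t_eigen_saturated hpn
      rw [← h2]
      exact M.sub_mem (hstab g v v.2) v.2
    have h4 : ρ g v - v = ((p : 𝒪) ^ n) • (⟨w, hwM⟩ : M) := by
      apply Subtype.ext
      rw [Submodule.coe_sub, hρ_apply, h2]
      rfl
    rw [h4]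
    exact Submodule.smul_mem_smul (Ideal.pow_mem_pow hp n) Submodule.mem_top
  · -- triviality
    intro g hg
    have h1 : ρp g = 1 := by
      apply h23t_matrix_ext
      intro k
      rw [hρp, hg, Matrix.map_one _ (map_zero _) (map_one _)]
    ext v i
    rw [hρ_apply, hρO_apply, h1]
    simp
  · -- quadratic relations
    intro g t ℓ hrel
    have h1 : ρp g * ρp g - Tp t * ρp g + ℓ • (1 : Matrix ι ι ℤ_[p]) = 0 := by
      apply h23t_matrix_ext
      intro k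
      have hk := hrel k
      rw [Int.cast_smul_eq_zsmul] at hk
      simp only [← RingHom.mapMatrix_apply, map_add, map_sub, map_mul, map_zsmul, map_one,
        map_zero]
      simp only [RingHom.mapMatrix_apply, hρp]
      have hT : (Tp t).map (PadicInt.toZModPow k) = (T t).map (Int.cast : ℤ → ZMod (p ^ k)) :=
        h23t_intMat_toZModPow (T t) k
      rw [hT]
      exact hk
    have h5 : ρO g * ρO g - TO t * ρO g + ℓ • (1 : Matrix ι ι 𝒪) = 0 := by
      have h6 := congrArg (φ.mapMatrix : Matrix ι ι ℤ_[p] →+* Matrix ι ι 𝒪) h1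
      simp only [map_add, map_sub, map_mul, map_zsmul, map_one, map_zero] at h6
      simp only [RingHom.mapMatrix_apply, hTpO] at h6
      rw [hρO_apply]
      exact h6
    ext v i
    have h8 := congrFun (congrArg (fun A : Matrix ι ι 𝒪 => A.mulVec (v : ι → 𝒪)) h5) i
    simp only [Matrix.add_mulVec, Matrix.sub_mulVec, Matrix.zero_mulVec, Matrix.smul_mulVec,
      Matrix.one_mulVec, ← Matrix.mulVec_mulVec] at h8
    have h9 : (TO t).mulVec ((ρO g).mulVec (v : ι → 𝒪)) = c t • (ρO g).mulVec (v : ι → 𝒪) :=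
      (hstab g v v.2) t
    rw [h9] at h8
    rw [Int.cast_smul_eq_zsmul]
    simpa [hρ_apply] using h8
  · -- polynomial relations for words
    intro g P F hrel
    -- over `ℤ_[p]`
    have h1 : aeval (ρp g) F * FreeAlgebra.lift ℤ Tp P = 0 := by
      apply h23t_matrix_ext
      intro k
      have hk := hrel k
      have e1 : (aeval (ρp g) F * FreeAlgebra.lift ℤ Tp P).map (PadicInt.toZModPow k) =
          (PadicInt.toZModPow (p := p) k).mapMatrix (aeval (ρp g) F * FreeAlgebra.lift ℤ Tp P) :=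
        rfl
      rw [e1, map_mul, h20tp_map_aeval, h20tp_map_lift]
      have e2 : (PadicInt.toZModPow (p := p) k).mapMatrix (ρp g) = Sy.R k g := hρp k g
      have e3 : (fun t => (PadicInt.toZModPow (p := p) k).mapMatrix (Tp t)) =
          fun t => (T t).map (Int.cast : ℤ → ZMod (p ^ k)) := by
        funext t
        exact h23t_intMat_toZModPow (T t) k
      rw [e2, e3, hk]
      exact (Matrix.map_zero _ (map_zero _)).symm
    -- over `𝒪`
    have h2 : aeval (ρO g) F * FreeAlgebra.lift ℤ TO P = 0 := by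
      have h3 := congrArg (φ.mapMatrix : Matrix ι ι ℤ_[p] →+* Matrix ι ι 𝒪) h1
      rw [map_mul, h20tp_map_aeval, h20tp_map_lift, map_zero] at h3
      have e3 : (fun t => φ.mapMatrix (Tp t)) = TO := by
        funext t
        exact hTpO t
      rw [e3] at h3
      exact h3
    -- the word acts on `M` through `c`
    have h4 : (FreeAlgebra.lift ℤ TO P, FreeAlgebra.lift ℤ c P) ∈ h20tpS3 M :=
      h20tp_lift_mem (h20tpS3 M) TO c
        (fun t => (h20tp_mem_S3 M (TO t, c t)).mpr (fun v hv => hv t)) P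
    -- the polynomial in `ρ g` is the restriction of the polynomial in `ρO g`
    have h5 : (aeval (ρ g) F, aeval (ρO g) F) ∈ h20tpS4 M :=
      h20tp_aeval_mem (h20tpS4 M) (x₁ := ρ g) (x₂ := ρO g)
        ((h20tp_mem_S4 M (ρ g, ρO g)).mpr (fun v => hρ_apply g v)) F
    ext v i
    have h6 : (((FreeAlgebra.lift ℤ c P • aeval (ρ g) F) v : M) : ι → 𝒪) = 0 := by
      rw [LinearMap.smul_apply, Submodule.coe_smul, (h20tp_mem_S4 M _).mp h5 v,
        ← Matrix.mulVec_smul, ← (h20tp_mem_S3 M _).mp h4 (v : ι → 𝒪) v.2,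
        Matrix.mulVec_mulVec, h2, Matrix.zero_mulVec]
    exact congrFun h6 i

end Eigen

section Main

open H23EA H23T

variable {G : Type} [Group G] {J : Type} [AddCommGroup J] [DistribMulAction G J]
variable {ι : Type} [Fintype ι] [DecidableEq ι]

/-- **TP⁺**. -/
theorem h20tp_main : H11S35.TPPlusStatement := by
  intro G _ J _ _ ι _ _ D p _ 𝒪 _ _ _ _ hp hp0 τ Tmat TJ c hT hcommJ heig
  have hpos : ∀ k, 0 < p ^ k := fun k => pow_pos (Fact.out : p.Prime).pos k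
  obtain ⟨Sy, hSy⟩ := h23ea_exists_system D p
  have hone : ∀ (k : ℕ) (σ : G), (∀ a, σ • D.emb (p ^ k) a = D.emb (p ^ k) a) → Sy.R k σ = 1 := by
    intro k σ h
    have h1 : h23eaRel D (p ^ k) σ 1 := fun a => by rw [h a, Matrix.one_mulVec]
    rw [hSy k σ 1 h1, h23ea_intMat_map_one]
  have hcomm : ∀ k g t, Sy.R k g * (Tmat t).map (Int.cast : ℤ → ZMod (p ^ k)) =
      (Tmat t).map (Int.cast : ℤ → ZMod (p ^ k)) * Sy.R k g := by
    intro k g t
    obtain ⟨A, hA⟩ := h23ea_exists_rel D (hpos k) g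
    rw [hSy k g A hA, ← h23ea_intMat_map_mul, ← h23ea_intMat_map_mul, ← sub_eq_zero]
    have h1 : (A * Tmat t - Tmat t * A).map (Int.cast : ℤ → ZMod (p ^ k)) = 0 := by
      apply h23ea_map_eq_zero D (hpos k)
      intro a
      rw [Matrix.sub_mulVec, map_sub, ← Matrix.mulVec_mulVec, ← Matrix.mulVec_mulVec, ← hA,
        hT _ (hpos k), hT _ (hpos k), ← hA, hcommJ, sub_self]
    rw [← h1]
    ext i j
    simp
  obtain ⟨M, i1, i2, i3, i4, i5, ρ, h1, h2, h3, h4⟩ :=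
    h20tp_eigenlattice p G ι 𝒪 (H27CYC.h27cyc_padicHom p 𝒪 (IsLocalRing.maximalIdeal 𝒪) hp)
      hp hp0 Sy τ Tmat c hcomm heig
  refine ⟨M, i1, i2, i3, i4, i5, ρ, ?_, ?_, ?_, ?_⟩
  · intro σ n h v
    exact h1 σ n (hone n σ h) v
  · intro σ h
    exact h2 σ fun k => hone k σ (h k)
  · intro σ t ℓ h
    apply h3 σ t ℓ
    intro k
    obtain ⟨A, hA⟩ := h23ea_exists_rel D (hpos k) σ
    rw [hSy k σ A hA]
    have h4 : (A * A - Tmat t * A + ℓ • (1 : Matrix ι ι ℤ)).map (Int.cast : ℤ → ZMod (p ^ k))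
        = 0 := by
      apply h23ea_map_eq_zero D (hpos k)
      intro a
      have h5 := h k a
      rw [hA a, hA] at h5
      rw [Matrix.add_mulVec, Matrix.sub_mulVec, map_add, map_sub, ← Matrix.mulVec_mulVec,
        ← Matrix.mulVec_mulVec, Matrix.smul_mulVec, Matrix.one_mulVec, map_zsmul,
        hT _ (hpos k)]
      exact h5
    have h6 : (Int.castRingHom (ZMod (p ^ k))).mapMatrix
        (A * A - Tmat t * A + ℓ • (1 : Matrix ι ι ℤ)) = 0 := h4
    simp only [map_add, map_sub, map_mul, map_zsmul, map_one] at h6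
    rw [Int.cast_smul_eq_zsmul]
    exact h6
  · intro σ P F h
    apply h4 σ P F
    intro k
    obtain ⟨A, hA⟩ := h23ea_exists_rel D (hpos k) σ
    rw [hSy k σ A hA]
    -- the intertwining relations on `J`
    have r1 : ((DistribSMul.toAddMonoidHom J σ).toIntLinearMap, A) ∈ h20tpS1 (D.emb (p ^ k)) :=
      (h20tp_mem_S1 _ _).mpr (fun a => hA a)
    have r2 : ∀ t, ((TJ t).toIntLinearMap, Tmat t) ∈ h20tpS1 (D.emb (p ^ k)) :=
      fun t => (h20tp_mem_S1 _ _).mpr (fun a => (hT _ (hpos k) t a).symm)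
    have r3 := (h20tp_mem_S1 _ _).mp (h20tp_aeval_mem (h20tpS1 (D.emb (p ^ k))) r1 F)
    have r4 := (h20tp_mem_S1 _ _).mp
      (h20tp_lift_mem (h20tpS1 (D.emb (p ^ k))) (fun t => (TJ t).toIntLinearMap) Tmat r2 P)
    have h5 : (aeval A F * FreeAlgebra.lift ℤ Tmat P).map (Int.cast : ℤ → ZMod (p ^ k)) = 0 := by
      apply h23ea_map_eq_zero D (hpos k)
      intro a
      rw [← Matrix.mulVec_mulVec, ← r3, ← r4]
      exact h k a
    have h6 : (Int.castRingHom (ZMod (p ^ k))).mapMatrix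
        (aeval A F * FreeAlgebra.lift ℤ Tmat P) = 0 := h5
    rw [map_mul, h20tp_map_aeval, h20tp_map_lift] at h6
    exact h6

end Main

end H20TP

end
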