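import Mathlib
import Fermat.Agent.S35.ASM2_helper11
import Fermat.Agent.S35.FWBookMain_helper29
import Fermat.Agent.S35.AbelWire_helper13
import Fermat.Agent.S35.FWLevel_helper21
import Fermat.Agent.S35.FWUnit_helper28
import Fermat.Agent.S35.KillFinal_helper19
import Fermat.Agent.S35.NewOpFinal_helper16
import Fermat.Agent.W3G.KUMGalFinal_helper8
import Fermat.Agent.S35.TPPlus_helper20
import Fermat.Agent.S35.DegFinal_helper6

/-!
# Item 84 (S35): final wiring of the landed slices (helper11)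

`h11s35_final : H17FW.ToricTameStatement →` (the statement of `S35`): the only open slice is
TORIC-TAME (helper17's crew).  Everything else is landed: TP⁺ (helper20), BF-D (helper6),
NEWOP (helper16, on SMO of helper6), BF-K (helper19, on HardFaith of helper6), UNIT (helper28),
NORMG + ABEL (helper13), BOOK (helper29), LC (helper21), KumGal (helper8).
-/

set_option autoImplicit false
set_option linter.style.longLine false

open Polynomial

noncomputable section

namespace H11S35

/-- **(FW)** from the one remaining slice `ToricTameStatement`. -/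
theorem h11fw_of_toricTame (hT : H17FW.ToricTameStatement) : FWStatement :=
  H29FW.fw_of_slices H28FU.unitStatement H13AB.h13_normGal H13AB.h13_abel
    (H21FL.toricBar_of_tame hT)

/-- **(BF)** (with `p ∈ S`) from (TORIC-TAME). -/
theorem h11bf_of (hT : H17FW.ToricTameStatement) : BadFrobPStatement :=
  h11bf_badFrobP H19BK.h19bk_killStatement H6BD.h6bd_degTorsPrime (h11fw_of_toricTame hT)

/-- **S35** from the one open slice. -/
theorem h11s35_final (hT : H17FW.ToricTameStatement)

    {M : ℕ} [NeZero M] {g : CuspForm (CongruenceSubgroup.Gamma0 M) 2} (hg : g.IsNewform)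
    (lam : ℕ) [Fact lam.Prime]
    (S : Finset ℕ)
    (O' : Type) [CommRing O'] [IsDomain O'] [IsDiscreteValuationRing O']
    [IsAdicComplete (IsLocalRing.maximalIdeal O') O'] [Finite (IsLocalRing.ResidueField O')]
    [CharZero O'] (hlamO' : (lam : O') ∈ IsLocalRing.maximalIdeal O')
    (chig : CuspForm.heckeAlgebra M 2 (↑S : Set ℕ) →+* ℂ)
    (hchig : ∀ (ℓ : ℕ) (hℓ : ℓ.Prime) (hℓM : ¬ ℓ ∣ M) (hℓS : ℓ ∉ (↑S : Set ℕ)),
      chig (CuspForm.heckeAlgebra.T hℓ hℓM hℓS) = ModularFormClass.qCoeff g ℓ)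
    (iota : chig.range →+* O')
    (hlamS : lam ∈ S) (hMS : ∀ q : ℕ, q.Prime → q ∣ M → q ∈ S)
    :
    ∃ (O'' : Type) (_ : CommRing O'') (_ : IsDomain O'') (_ : IsDiscreteValuationRing O'')
      (_ : IsAdicComplete (IsLocalRing.maximalIdeal O'') O'') (_ : Finite (IsLocalRing.ResidueField O''))
      (_ : CharZero O'') (_ : Algebra O' O'') (_ : Module.Finite O' O'') (_ : IsLocalHom (algebraMap O' O'')),
      Function.Injective (algebraMap O' O'') ∧
      ∃ ρ : GaloisRepAdic O'',
        (∀ (ℓ : ℕ) (hℓ : ℓ.Prime) (hℓM : ¬ ℓ ∣ M) (hℓS : ℓ ∉ (↑S : Set ℕ)),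
          ∀ A : ValuationSubring (AlgebraicClosure ℚ), A.LiesOverPrime ℓ →
            ∀ σ : AlgebraicClosure ℚ ≃ₐ[ℚ] AlgebraicClosure ℚ, A.IsFrobeniusAt σ ℓ →
              LinearMap.charpoly (ρ.ρ σ) =
                X ^ 2 - C (algebraMap O' O'' ((iota.comp chig.rangeRestrict) (CuspForm.heckeAlgebra.T hℓ hℓM hℓS))) * X
                  + C ((ℓ : O''))) ∧
        (∀ q : ℕ, q.Prime → q ≠ lam → q ∣ M → ¬ q ^ 2 ∣ M →
          ∀ A : ValuationSubring (AlgebraicClosure ℚ), A.LiesOverPrime q →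
            ∀ σ : AlgebraicClosure ℚ ≃ₐ[ℚ] AlgebraicClosure ℚ, A.IsFrobeniusAt σ q →
              LinearMap.charpoly (ρ.ρ σ) = X ^ 2 - C ((q : O'') + 1) * X + C ((q : O'')) ∨
              LinearMap.charpoly (ρ.ρ σ) = X ^ 2 + C ((q : O'') + 1) * X + C ((q : O''))) :=
  h11s35_ofP H20TP.h20tp_main H16NO.h16no_newOpStatement (h11bf_of hT) (fun N _ => H8KUM.h8k_kumGal N)
    hg lam S O' hlamO' chig hchig iota hlamS hMS

end H11S35

end
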