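import Mathlib
import Fermat.Agent.S35.FWGenDefs_helper1

/-!
# Item 84 (S35), block FW (helper1): generic auxiliary lemmas for the `K₁`-level assembly

* `frobAt_of_fixAt` : the chart form of (FW-RAT) (`∀ y ∈ M₀, γ y ∈ M₀ ∧ γ y ≡ y ^ Q mod 𝔫`)
  gives the local form `H1FW.FrobAt`;
* `fwLocAt_congr`   : `FWLocAt` only depends on the local ring (for `H4S34.ChartChangeStatement`);
* `unif_of_twoComp` : `𝔪(V_i) ⊆ ϖ V_i` from `TwoComp`.
-/

set_option autoImplicit false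
set_option linter.unusedSectionVars false
set_option linter.unusedVariables false

noncomputable section

open Polynomial IntermediateField AlgebraicCurve H7S18 H4S34

namespace H1FW

section Fix

variable (R : Type) [CommRing R] {F : Type} [Field F] [Algebra R F]

/-- the chart form of (FW-RAT) gives the local form. -/
theorem frobAt_of_fixAt (t : F) (𝔫 : Ideal (Chart R t)) (h𝔫 : 𝔫.IsPrime) (γ : F ≃+* F) (Q : ℕ)
    (hfix : ∀ y : Chart R t, ∃ y' : Chart R t, (y' : F) = γ (y : F) ∧ y' - y ^ Q ∈ 𝔫) :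
    FrobAt R t 𝔫 γ Q := by
  intro b hb
  obtain ⟨a₀, s₀, hs₀, e⟩ := hb
  obtain ⟨a', ha', ha'Q⟩ := hfix a₀
  obtain ⟨s', hs', hs'Q⟩ := hfix s₀
  have hs'n : s' ∉ 𝔫 := by
    intro h
    have h1 : s₀ ^ Q ∈ 𝔫 := by
      have := 𝔫.sub_mem h hs'Q
      rwa [sub_sub_cancel] at this
    exact hs₀ (h𝔫.mem_of_pow_mem Q h1)
  have hs₀0 : (s₀ : F) ≠ 0 := by
    intro h0
    apply hs₀
    have : s₀ = 0 := Subtype.ext h0
    rw [this]; exact 𝔫.zero_mem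
  refine ⟨s₀ ^ Q * (a' - a₀ ^ Q) - a₀ ^ Q * (s' - s₀ ^ Q), s' * s₀ ^ Q, ?_, ?_, ?_⟩
  · intro h
    rcases h𝔫.mem_or_mem h with h1 | h1
    · exact hs'n h1
    · exact hs₀ (h𝔫.mem_of_pow_mem Q h1)
  · exact 𝔫.sub_mem (𝔫.mul_mem_left _ ha'Q) (𝔫.mul_mem_left _ hs'Q)
  · have e1 : γ (s₀ : F) * γ b = γ (a₀ : F) := by rw [← map_mul, e]
    have e2 : (s₀ : F) ^ Q * b ^ Q = (a₀ : F) ^ Q := by rw [← mul_pow, e]
    simp only [Subalgebra.coe_sub, Subalgebra.coe_mul, Subalgebra.coe_pow]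
    rw [ha', hs']
    linear_combination ((s₀ : F) ^ Q) * e1 - (γ (s₀ : F)) * e2

/-- `FWLocAt` only depends on the local ring. -/
theorem fwLocAt_congr {V₁ V₂ : ValuationSubring F} {c c' : F} {𝔫 : Ideal (Chart R c)}
    {𝔫' : Ideal (Chart R c')} (hloc : ∀ x : F, InLoc R c 𝔫 x → InLoc R c' 𝔫' x) {n : ℕ} {v : F}
    (h : FWLocAt R V₁ V₂ c 𝔫 n v) : FWLocAt R V₁ V₂ c' 𝔫' n v := by
  obtain ⟨h', h1, h2, h3⟩ := h
  exact ⟨h', h1, h2, hloc _ h3⟩

end Fix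

end H1FW

end
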