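import Mathlib
import Fermat.Agent.S34.KR_helper25
import Fermat.Agent.S34.LocRegUnit_helper21

/-!
# Item 84 (S35), slice FW-LOC-REG, part A (helper25): the special fibre at a regular point

Mathlib + `H25KR` + `H21LR`.  `A` a noetherian domain with fraction field `F`, `𝔫` a prime of `A`,
`ϖ ∈ 𝔫`, `ϖ ≠ 0`, with the two clauses of `H4S34.RegAt` in element form:
`hgen : 𝔫 A_𝔫 = (ϖ, x)` and `hprime : ϖ` is prime in `A_𝔫`.

* `ctr 𝔫 ϖ`            : the contraction `Q = ϖ A_𝔫 ∩ A`, a prime of `A` with `ϖ ∈ Q ⊆ 𝔫`;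
* `ctr_isLocPrincipal` : `Q` is locally principal, generated by `ϖ` (`H25KR.IsLocPrincipal`);
* `ctr_under`          : **going down**: `Q ∩ A₀ = (ϖ₀)` if `A` is integral over the integrally
                         closed domain `A₀` and `ϖ` is the image of a prime element `ϖ₀` of `A₀`;
* `prime_dichotomy`    : a prime `P` of `A` with `ϖ ∈ P ⊆ 𝔫` is `Q` or `𝔫`
                         (`A_𝔫 / ϖ` is a discrete valuation ring or a field);
* `quot_intClosed`     : `A_𝔫 / ϖ` is integrally closed.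
-/

set_option autoImplicit false
set_option linter.unusedSectionVars false
set_option linter.unusedVariables false
set_option linter.style.haveILetI false

noncomputable section

namespace H25FL

open IsLocalRing H25KR

section ctr

variable {A : Type*} [CommRing A] [IsDomain A]

/-- the contraction of `ϖ A_𝔫` to `A`, in element form -/
def ctr (𝔫 : Ideal A) [h𝔫 : 𝔫.IsPrime] (ϖ : A) : Ideal A where
  carrier := {a | ∃ c s : A, s ∉ 𝔫 ∧ s * a = c * ϖ}
  add_mem' := by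
    rintro a b ⟨c, s, hs, e⟩ ⟨c', s', hs', e'⟩
    refine ⟨s' * c + s * c', s * s', fun h => (h𝔫.mem_or_mem h).elim hs hs', ?_⟩
    linear_combination s' * e + s * e'
  zero_mem' := ⟨0, 1, fun h => h𝔫.ne_top ((Ideal.eq_top_iff_one _).2 h), by simp⟩
  smul_mem' := by
    rintro r a ⟨c, s, hs, e⟩
    refine ⟨r * c, s, hs, ?_⟩
    rw [smul_eq_mul]
    linear_combination r * e

theorem mem_ctr {𝔫 : Ideal A} [h𝔫 : 𝔫.IsPrime] {ϖ a : A} :
    a ∈ ctr 𝔫 ϖ ↔ ∃ c s : A, s ∉ 𝔫 ∧ s * a = c * ϖ := Iff.rfl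

theorem pi_mem_ctr (𝔫 : Ideal A) [h𝔫 : 𝔫.IsPrime] (ϖ : A) : ϖ ∈ ctr 𝔫 ϖ :=
  ⟨1, 1, fun h => h𝔫.ne_top ((Ideal.eq_top_iff_one _).2 h), by simp⟩

variable {𝔫 : Ideal A} [h𝔫 : 𝔫.IsPrime] {ϖ : A}

theorem ctr_le (hϖ𝔫 : ϖ ∈ 𝔫) : ctr 𝔫 ϖ ≤ 𝔫 := by
  rintro a ⟨c, s, hs, e⟩
  have : s * a ∈ 𝔫 := e ▸ 𝔫.mul_mem_left c hϖ𝔫
  exact (h𝔫.mem_or_mem this).resolve_left hs

/-- `ϖ` prime in `A_𝔫` (element form) makes the contraction prime. -/
theorem ctr_isPrime (hϖ𝔫 : ϖ ∈ 𝔫)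
    (hprime : ∀ a b : A, (∃ c s : A, s ∉ 𝔫 ∧ s * (a * b) = c * ϖ) →
      (∃ c s : A, s ∉ 𝔫 ∧ s * a = c * ϖ) ∨ (∃ c s : A, s ∉ 𝔫 ∧ s * b = c * ϖ)) :
    (ctr 𝔫 ϖ).IsPrime := by
  refine ⟨fun h => h𝔫.ne_top (top_le_iff.1 (h ▸ ctr_le hϖ𝔫)), fun {a b} hab => hprime a b hab⟩

/-- the contraction is locally principal, generated by `ϖ` -/
theorem ctr_isLocPrincipal [IsNoetherianRing A] (hϖ𝔫 : ϖ ∈ 𝔫) :
    ∃ u : A, u ∉ 𝔫 ∧ IsLocPrincipal (ctr 𝔫 ϖ) ϖ u := by
  have key : ∀ I : Ideal A, I.FG → I ≤ ctr 𝔫 ϖ → ∃ u : A, u ∉ 𝔫 ∧ ∀ b ∈ I, ∃ c, u * b = c * ϖ := by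
    intro I hI
    induction I, hI using Submodule.fg_induction with
    | singleton x =>
      intro hx
      obtain ⟨c, s, hs, e⟩ := hx (Ideal.mem_span_singleton_self x)
      refine ⟨s, hs, fun b hb => ?_⟩
      obtain ⟨r, rfl⟩ := Ideal.mem_span_singleton'.1 hb
      exact ⟨r * c, by linear_combination r * e⟩
    | sup I J _ _ hI hJ =>
      intro hIJ
      obtain ⟨u, hu, hu'⟩ := hI (le_sup_left.trans hIJ)
      obtain ⟨w, hw, hw'⟩ := hJ (le_sup_right.trans hIJ)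
      refine ⟨u * w, fun h => (h𝔫.mem_or_mem h).elim hu hw, fun b hb => ?_⟩
      obtain ⟨x, hx, y, hy, rfl⟩ := Submodule.mem_sup.1 hb
      obtain ⟨c, hc⟩ := hu' x hx
      obtain ⟨d, hd⟩ := hw' y hy
      exact ⟨w * c + u * d, by linear_combination w * hc + u * hd⟩
  obtain ⟨u, hu, hgen⟩ := key (ctr 𝔫 ϖ) (IsNoetherian.noetherian _) le_rfl
  exact ⟨u, hu, pi_mem_ctr 𝔫 ϖ, fun h => hu (ctr_le hϖ𝔫 h), hgen⟩

end ctr

section goingDown

variable {A₀ : Type*} [CommRing A₀] [IsDomain A₀] [IsIntegrallyClosed A₀]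
variable {A : Type*} [CommRing A] [IsDomain A] [IsNoetherianRing A]
variable [Algebra A₀ A] [FaithfulSMul A₀ A] [Algebra.IsIntegral A₀ A]

/-- **going down** for a locally principal prime containing the image of a prime element -/
theorem under_eq_of_isLocPrincipal {πA : A₀} (hprime : (Ideal.span {πA}).IsPrime)
    (hπ0 : πA ≠ 0) {P : Ideal A} [hP : P.IsPrime] {a u : A} (hau : IsLocPrincipal P a u)
    (hπP : algebraMap A₀ A πA ∈ P) : P.under A₀ = Ideal.span {πA} := by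
  have hle : Ideal.span {πA} ≤ P.under A₀ := by
    rw [Ideal.span_singleton_le_iff_mem]
    exact hπP
  obtain ⟨P', hP'le, hP'prime, hP'over⟩ :=
    Ideal.exists_ideal_le_liesOver_of_le (p := Ideal.span {πA}) (q := P.under A₀) P hle
  have hπP' : algebraMap A₀ A πA ∈ P' := by
    have : πA ∈ P'.under A₀ := by
      rw [← hP'over.over]
      exact Ideal.mem_span_singleton_self πA
    exact this
  have hP'0 : P' ≠ ⊥ := by
    intro h0
    rw [h0, Ideal.mem_bot] at hπP'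
    exact hπ0 (FaithfulSMul.algebraMap_injective A₀ A (by rw [hπP', map_zero]))
  have heq : P' = P := height_one hau hP'prime hP'le hP'0
  rw [← heq]
  exact hP'over.over.symm

/-- **going down** for the contraction `Q = ϖ A_𝔫 ∩ A`: an element of `A₀` lying in `Q` is
divisible by `ϖ₀`. -/
theorem ctr_under {πA : A₀} (hprime : (Ideal.span {πA}).IsPrime) (hπ0 : πA ≠ 0)
    {𝔫 : Ideal A} [h𝔫 : 𝔫.IsPrime] (hϖ𝔫 : algebraMap A₀ A πA ∈ 𝔫)
    (hpr : ∀ a b : A, (∃ c s : A, s ∉ 𝔫 ∧ s * (a * b) = c * algebraMap A₀ A πA) →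
      (∃ c s : A, s ∉ 𝔫 ∧ s * a = c * algebraMap A₀ A πA) ∨
        (∃ c s : A, s ∉ 𝔫 ∧ s * b = c * algebraMap A₀ A πA))
    (s : A₀) (hs : algebraMap A₀ A s ∈ ctr 𝔫 (algebraMap A₀ A πA)) : πA ∣ s := by
  haveI := ctr_isPrime hϖ𝔫 hpr
  obtain ⟨u, -, hau⟩ := ctr_isLocPrincipal (ϖ := algebraMap A₀ A πA) hϖ𝔫
  have h := under_eq_of_isLocPrincipal hprime hπ0 hau (pi_mem_ctr 𝔫 _)
  have : s ∈ (ctr 𝔫 (algebraMap A₀ A πA)).under A₀ := hs
  rw [h] at this
  exact Ideal.mem_span_singleton.1 this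

end goingDown

section quot

/-- **the special fibre at a regular point**: if `π` is a prime element of the noetherian local
domain `B` and `𝔪_B = (π, x)`, then `B / π` is integrally closed (a discrete valuation ring or a
field) and the only primes of `B` containing `π` are `(π)` and `𝔪_B`. -/
theorem quot_structure {B : Type*} [CommRing B] [IsDomain B] [IsNoetherianRing B] [IsLocalRing B]
    (π x : B) (hπ : Prime π) (hm : maximalIdeal B = Ideal.span {π, x}) :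
    IsIntegrallyClosed (B ⧸ Ideal.span {π}) ∧
      ∀ P' : Ideal B, P'.IsPrime → π ∈ P' → P' = Ideal.span {π} ∨ P' = maximalIdeal B := by
  set P : Ideal B := Ideal.span {π} with hP
  haveI hPprime : P.IsPrime := (Ideal.span_singleton_prime hπ.ne_zero).2 hπ
  haveI : IsDomain (B ⧸ P) := Ideal.Quotient.isDomain P
  haveI : IsLocalRing (B ⧸ P) :=
    IsLocalRing.of_surjective' (Ideal.Quotient.mk P) Ideal.Quotient.mk_surjective
  haveI : IsLocalHom (Ideal.Quotient.mk P) :=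
    IsLocalHom.of_surjective _ Ideal.Quotient.mk_surjective
  have hprinc : (maximalIdeal (B ⧸ P)).IsPrincipal := by
    refine ⟨⟨Ideal.Quotient.mk P x, ?_⟩⟩
    apply le_antisymm
    · intro y hy
      obtain ⟨b, rfl⟩ := Ideal.Quotient.mk_surjective y
      have hb : b ∈ maximalIdeal B := by
        rw [← maximalIdeal_comap (Ideal.Quotient.mk P)]; exact hy
      rw [hm, Ideal.mem_span_pair] at hb
      obtain ⟨α, β, rfl⟩ := hb
      rw [Ideal.submodule_span_eq, Ideal.mem_span_singleton]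
      refine ⟨Ideal.Quotient.mk P β, ?_⟩
      rw [map_add, map_mul, map_mul,
        Ideal.Quotient.eq_zero_iff_mem.2 (Ideal.mem_span_singleton_self π), mul_zero, zero_add,
        mul_comm]
    · rw [Ideal.submodule_span_eq, Ideal.span_singleton_le_iff_mem]
      apply map_nonunit
      rw [hm]; exact Ideal.subset_span (by simp)
  have h4 := ((tfae_of_isNoetherianRing_of_isLocalRing_of_isDomain (R := B ⧸ P)).out 4 3).1 hprinc
  refine ⟨h4.1, fun P' hP' hπP' => ?_⟩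
  have hle : P ≤ P' := (Ideal.span_singleton_le_iff_mem _).2 hπP'
  by_cases h0 : P'.map (Ideal.Quotient.mk P) = ⊥
  · left
    apply le_antisymm _ hle
    intro b hb
    have : Ideal.Quotient.mk P b ∈ P'.map (Ideal.Quotient.mk P) := Ideal.mem_map_of_mem _ hb
    rw [h0, Ideal.mem_bot, Ideal.Quotient.eq_zero_iff_mem] at this
    exact this
  · right
    have hker : RingHom.ker (Ideal.Quotient.mk P) ≤ P' := by rw [Ideal.mk_ker]; exact hle
    have hprime' : (P'.map (Ideal.Quotient.mk P)).IsPrime :=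
      Ideal.map_isPrime_of_surjective Ideal.Quotient.mk_surjective hker
    have h6 := h4.2 _ h0 hprime'
    have h5 : (P'.map (Ideal.Quotient.mk P)).comap (Ideal.Quotient.mk P) = P' := by
      rw [Ideal.comap_map_of_surjective _ Ideal.Quotient.mk_surjective,
        ← RingHom.ker_eq_comap_bot, Ideal.mk_ker]
      exact sup_eq_left.2 hle
    rw [← h5, h6, maximalIdeal_comap]

variable {A : Type*} [CommRing A] [IsDomain A] [IsNoetherianRing A]
variable {F : Type*} [Field F] [Algebra A F] [IsFractionRing A F]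

include F in
/-- **dichotomy**: at a regular point, a prime `P` of `A` with `ϖ ∈ P ⊆ 𝔫` is the contraction
`Q = ϖ A_𝔫 ∩ A` or `𝔫`. -/
theorem prime_dichotomy (𝔫 : Ideal A) [h𝔫 : 𝔫.IsPrime] (ϖ : A) (hϖ0 : ϖ ≠ 0) (hϖ𝔫 : ϖ ∈ 𝔫)
    (hgen : ∃ x ∈ 𝔫, ∀ y ∈ 𝔫, ∃ s a b : A, s ∉ 𝔫 ∧ s * y = a * ϖ + b * x)
    (hprime : ∀ a b : A, (∃ c s : A, s ∉ 𝔫 ∧ s * (a * b) = c * ϖ) →
      (∃ c s : A, s ∉ 𝔫 ∧ s * a = c * ϖ) ∨ (∃ c s : A, s ∉ 𝔫 ∧ s * b = c * ϖ))
    (P : Ideal A) (hP : P.IsPrime) (hϖP : ϖ ∈ P) (hP𝔫 : P ≤ 𝔫) :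
    P = ctr 𝔫 ϖ ∨ P = 𝔫 := by
  let B := Localization.subalgebra.ofField F 𝔫.primeCompl (H21LR.primeCompl_le 𝔫)
  haveI hBloc : IsLocalization.AtPrime B 𝔫 :=
    Localization.subalgebra.isLocalization_ofField F 𝔫.primeCompl (H21LR.primeCompl_le 𝔫)
  haveI : IsFractionRing B F := inferInstance
  haveI : IsScalarTower A B F := inferInstance
  haveI : IsLocalRing B := IsLocalization.AtPrime.isLocalRing B 𝔫
  haveI : IsNoetherianRing B := IsLocalization.isNoetherianRing 𝔫.primeCompl B inferInstance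
  haveI : IsDomain B := inferInstance
  obtain ⟨x, hx𝔫, hgen'⟩ := hgen
  have hπp : Prime (algebraMap A B ϖ) := H21LR.prime_map (F := F) B 𝔫 ϖ hϖ0 hϖ𝔫 hprime
  have hm : maximalIdeal B = Ideal.span {algebraMap A B ϖ, algebraMap A B x} :=
    H21LR.maximalIdeal_eq (F := F) B 𝔫 ϖ x hϖ𝔫 hx𝔫 hgen'
  have hdisj : Disjoint (𝔫.primeCompl : Set A) (P : Set A) := by
    rw [Set.disjoint_left]
    intro a ha haP
    exact ha (hP𝔫 haP)
  have hPB : (P.map (algebraMap A B)).IsPrime :=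
    IsLocalization.isPrime_of_isPrime_disjoint 𝔫.primeCompl B P hP hdisj
  have hcm : (P.map (algebraMap A B)).comap (algebraMap A B) = P :=
    IsLocalization.comap_map_of_isPrime_disjoint 𝔫.primeCompl B hP hdisj
  rcases (quot_structure _ _ hπp hm).2 _ hPB (Ideal.mem_map_of_mem _ hϖP) with h | h
  · left
    rw [← hcm, h]
    ext a
    rw [Ideal.mem_comap, Ideal.mem_span_singleton, H21LR.dvd_map_iff (F := F) B 𝔫 ϖ a hϖ0]
    rfl
  · right
    rw [← hcm, h]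
    exact IsLocalization.AtPrime.comap_maximalIdeal B 𝔫

end quot

end H25FL

end
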