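import Mathlib
import Fermat.Agent.S35.FWLocRegA_helper25
import Fermat.Agent.S35.FWReg_helper10

/-!
# Item 84 (S35), slice FW-LOC-REG, part B (helper25): the abstract theorem

`A₀ ⊆ A` integral, `A₀` integrally closed, `A` noetherian with fraction field `F`;
`ϖ₀` a prime element of `A₀`, `ϖ` its image in `A`; `V₁ V₂ : ValuationSubring F` the two
components (`A ⊆ V₁ ∩ V₂ ⊆ S⁻¹ A` with `S = A₀ ∖ ϖ₀ A₀`, `𝔪₁ ∩ 𝔪₂ ⊆ ϖ (V₁ ∩ V₂)`, comaximal,
`ϖ` archimedean); `𝔫` a regular point (`ϖ` prime in `A_𝔫`, `𝔫 A_𝔫 = (ϖ, x)`).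

* `le_pi`        : `𝔪(V') = ϖ V'`;
* `component`    : the centre of `V₁` or of `V₂` on `A` is the contraction `Q = ϖ A_𝔫 ∩ A`;
* `locReg_core`  : if the centre of `V` is `Q`: `v ≡ 1` at `V`, `n ∣ div v` `⇒` there is `h ≡ 1` at
                   `V` and at `V'` with `v hⁿ ∈ A_𝔫`;
* `locReg_abs`   : the same without knowing which component passes through `𝔫`.
-/

set_option autoImplicit false
set_option linter.unusedSectionVars false
set_option linter.unusedVariables false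
set_option linter.style.haveILetI false

noncomputable section

namespace H25FL

open IsLocalRing H25KR H10FW AlgebraicCurve

section val

variable {F : Type*} [Field F]

theorem one_pow_lt (V : ValuationSubring F) {x : F} (hx : V.valuation (x - 1) < 1) (m : ℕ) :
    V.valuation (x ^ m - 1) < 1 := by
  induction m with
  | zero => simp
  | succ k ih =>
    rw [pow_succ]
    exact h10fw_mul_lt V ih hx

theorem val_mul_lt_of_le_of_lt (V : ValuationSubring F) {x y : F} (hx : V.valuation x ≤ 1)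
    (hy : V.valuation y < 1) : V.valuation (x * y) < 1 := by
  rw [Valuation.map_mul]
  calc V.valuation x * V.valuation y ≤ 1 * V.valuation y := by gcongr
    _ < 1 := by rw [one_mul]; exact hy

/-- `𝔪(V') = ϖ V'`: from `𝔪 ∩ 𝔪' ⊆ ϖ (V ∩ V')` and comaximality. -/
theorem le_pi (V V' : ValuationSubring F) (ϖ : F)
    (hm : ∀ x : F, V.valuation x < 1 → V'.valuation x < 1 → ∃ z : F, z ∈ V ∧ z ∈ V' ∧ x = ϖ * z)
    (e : F) (he : V.valuation e < 1) (he' : V'.valuation (e - 1) < 1)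
    (x : F) (hx : V'.valuation x < 1) : V'.valuation x ≤ V'.valuation ϖ := by
  have he1 : V'.valuation e = 1 := h10fw_val_one_of_lt V' he'
  have key : ∀ y : F, y ∈ V → V'.valuation y < 1 → V'.valuation y ≤ V'.valuation ϖ := by
    intro y hy hy'
    have h1 : V.valuation (y * e) < 1 :=
      val_mul_lt_of_le_of_lt V ((V.valuation_le_one_iff y).2 hy) he
    have h2 : V'.valuation (y * e) < 1 := by
      rw [Valuation.map_mul, he1, mul_one]; exact hy'
    obtain ⟨z, -, hz', hyz⟩ := hm _ h1 h2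
    have h3 : V'.valuation y = V'.valuation ϖ * V'.valuation z := by
      rw [← Valuation.map_mul, ← hyz, Valuation.map_mul, he1, mul_one]
    rw [h3]
    calc V'.valuation ϖ * V'.valuation z ≤ V'.valuation ϖ * 1 := by
          gcongr
          exact (V'.valuation_le_one_iff z).2 hz'
      _ = V'.valuation ϖ := mul_one _
  by_cases hxV : x ∈ V
  · exact key x hxV hx
  · have hxgt : 1 < V.valuation x := by
      rw [← not_le, V.valuation_le_one_iff]; exact hxV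
    have h1x' : V'.valuation (1 + x) = 1 := by
      have := Valuation.map_add_eq_of_lt_left V'.valuation (x := (1 : F)) (y := x)
        (by rw [Valuation.map_one]; exact hx)
      rw [this, Valuation.map_one]
    have h1x : V.valuation (1 + x) = V.valuation x := by
      apply Valuation.map_add_eq_of_lt_right
      rw [Valuation.map_one]; exact hxgt
    have hx0 : V.valuation x ≠ 0 := fun h => by rw [h] at hxgt; exact not_lt_zero hxgt
    have hval' : V'.valuation (x * (1 + x)⁻¹) = V'.valuation x := by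
      rw [Valuation.map_mul, map_inv₀, h1x', inv_one, mul_one]
    have hval : V.valuation (x * (1 + x)⁻¹) = 1 := by
      rw [Valuation.map_mul, map_inv₀, h1x, mul_inv_cancel₀ hx0]
    have := key (x * (1 + x)⁻¹) ((V.valuation_le_one_iff _).1 hval.le) (by rw [hval']; exact hx)
    rwa [hval'] at this

end val

section core

variable {A₀ : Type*} [CommRing A₀] [IsDomain A₀] [IsIntegrallyClosed A₀]
variable {A : Type*} [CommRing A] [IsDomain A] [IsNoetherianRing A]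
variable [Algebra A₀ A] [FaithfulSMul A₀ A] [Algebra.IsIntegral A₀ A]
variable {F : Type*} [Field F] [Algebra A F] [IsFractionRing A F]
variable {K : Type*} [Field K] [Algebra K F]

/-- the abstract two-component data, for the ordered pair `(V, V')` -/
structure Comp (π₀ : A₀) (V V' : ValuationSubring F) : Prop where
  memV : ∀ a : A, algebraMap A F a ∈ V
  memV' : ∀ a : A, algebraMap A F a ∈ V'
  den : ∀ x : F, x ∈ V → x ∈ V' → ∃ σ : A₀, ¬ π₀ ∣ σ ∧
    ∃ a : A, algebraMap A F (algebraMap A₀ A σ) * x = algebraMap A F a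
  unitV : ∀ σ : A₀, ¬ π₀ ∣ σ → V.valuation (algebraMap A F (algebraMap A₀ A σ)) = 1
  unitV' : ∀ σ : A₀, ¬ π₀ ∣ σ → V'.valuation (algebraMap A F (algebraMap A₀ A σ)) = 1
  cap : ∀ x : F, V.valuation x < 1 → V'.valuation x < 1 →
    ∃ z : F, z ∈ V ∧ z ∈ V' ∧ x = algebraMap A F (algebraMap A₀ A π₀) * z
  cop : ∃ e : F, V.valuation e < 1 ∧ V'.valuation (e - 1) < 1
  arch : ∀ y : F, ∃ m : ℕ, V.valuation (algebraMap A F (algebraMap A₀ A π₀) ^ m * y) < 1
  arch' : ∀ y : F, ∃ m : ℕ, V'.valuation (algebraMap A F (algebraMap A₀ A π₀) ^ m * y) < 1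

theorem Comp.symm {π₀ : A₀} {V V' : ValuationSubring F} (h : Comp (A := A) π₀ V V') :
    Comp (A := A) π₀ V' V where
  memV := h.memV'
  memV' := h.memV
  den := fun x hx hx' => h.den x hx' hx
  unitV := h.unitV'
  unitV' := h.unitV
  cap := fun x hx hx' => by
    obtain ⟨z, hz, hz', e⟩ := h.cap x hx' hx
    exact ⟨z, hz', hz, e⟩
  cop := by
    obtain ⟨e, he, he'⟩ := h.cop
    refine ⟨1 - e, ?_, ?_⟩
    · rw [← Valuation.map_neg, neg_sub]; exact he'
    · rw [← Valuation.map_neg, show -(1 - e - 1) = e by ring]; exact he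
  arch := h.arch'
  arch' := h.arch

/-- the centre of `V` on `A` -/
def cen (V : ValuationSubring F) (hM : ∀ a : A, algebraMap A F a ∈ V) : Ideal A :=
  (maximalIdeal V).comap ((algebraMap A F).codRestrict V hM)

theorem mem_cen {V : ValuationSubring F} {hM : ∀ a : A, algebraMap A F a ∈ V} {a : A} :
    a ∈ cen V hM ↔ V.valuation (algebraMap A F a) < 1 := by
  rw [cen, Ideal.mem_comap, ValuationSubring.valuation_lt_one_iff]
  rfl

theorem cen_isPrime (V : ValuationSubring F) (hM : ∀ a : A, algebraMap A F a ∈ V) :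
    (cen V hM).IsPrime :=
  Ideal.comap_isPrime _ _

theorem Comp.val_pi {π₀ : A₀} {V V' : ValuationSubring F} (h : Comp (A := A) π₀ V V') :
    V.valuation (algebraMap A F (algebraMap A₀ A π₀)) < 1 := by
  obtain ⟨m, hm⟩ := h.arch 1
  rw [mul_one, map_pow] at hm
  by_contra hcon
  have h1 : V.valuation (algebraMap A F (algebraMap A₀ A π₀)) = 1 :=
    le_antisymm ((V.valuation_le_one_iff _).2 (h.memV _)) (not_lt.1 hcon)
  rw [h1, one_pow] at hm
  exact lt_irrefl _ hm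

/-- **the component through a regular point**: the centre of `V₁` or of `V₂` is the contraction
`Q = ϖ A_𝔫 ∩ A`. -/
theorem component {π₀ : A₀} {V₁ V₂ : ValuationSubring F} (h : Comp (A := A) π₀ V₁ V₂)
    (hprime₀ : (Ideal.span {π₀}).IsPrime) (hπ0 : π₀ ≠ 0)
    {𝔫 : Ideal A} [h𝔫 : 𝔫.IsPrime] (hϖ𝔫 : algebraMap A₀ A π₀ ∈ 𝔫)
    (hpr : ∀ a b : A, (∃ c s : A, s ∉ 𝔫 ∧ s * (a * b) = c * algebraMap A₀ A π₀) →
      (∃ c s : A, s ∉ 𝔫 ∧ s * a = c * algebraMap A₀ A π₀) ∨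
        (∃ c s : A, s ∉ 𝔫 ∧ s * b = c * algebraMap A₀ A π₀)) :
    cen V₁ h.memV = ctr 𝔫 (algebraMap A₀ A π₀) ∨ cen V₂ h.memV' = ctr 𝔫 (algebraMap A₀ A π₀) := by
  have hϖ0 : algebraMap A₀ A π₀ ≠ 0 := fun h0 =>
    hπ0 (FaithfulSMul.algebraMap_injective A₀ A (by rw [h0, map_zero]))
  haveI hQ := ctr_isPrime hϖ𝔫 hpr
  obtain ⟨u, -, hau⟩ := ctr_isLocPrincipal (ϖ := algebraMap A₀ A π₀) hϖ𝔫
  have hne : ∀ (V : ValuationSubring F) (hM : ∀ a : A, algebraMap A F a ∈ V),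
      V.valuation (algebraMap A F (algebraMap A₀ A π₀)) < 1 → cen V hM ≠ ⊥ := by
    intro V hM hlt h0
    have : algebraMap A₀ A π₀ ∈ cen V hM := mem_cen.2 hlt
    rw [h0, Ideal.mem_bot] at this
    exact hϖ0 this
  have claim : cen V₁ h.memV ≤ ctr 𝔫 (algebraMap A₀ A π₀) ∨
      cen V₂ h.memV' ≤ ctr 𝔫 (algebraMap A₀ A π₀) := by
    by_contra hcon
    push Not at hcon
    obtain ⟨h1, h2⟩ := hcon
    obtain ⟨a₁, ha₁, ha₁Q⟩ := SetLike.not_le_iff_exists.1 h1
    obtain ⟨a₂, ha₂, ha₂Q⟩ := SetLike.not_le_iff_exists.1 h2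
    have hx1 : V₁.valuation (algebraMap A F a₂ * algebraMap A F a₁) < 1 :=
      val_mul_lt_of_le_of_lt V₁ ((V₁.valuation_le_one_iff _).2 (h.memV a₂)) (mem_cen.1 ha₁)
    have hx2 : V₂.valuation (algebraMap A F a₁ * algebraMap A F a₂) < 1 :=
      val_mul_lt_of_le_of_lt V₂ ((V₂.valuation_le_one_iff _).2 (h.memV' a₁)) (mem_cen.1 ha₂)
    rw [mul_comm] at hx1
    obtain ⟨z, hz1, hz2, hxz⟩ := h.cap _ hx1 hx2
    obtain ⟨σ, hσ, a, hσa⟩ := h.den z hz1 hz2
    have e : algebraMap A₀ A σ * (a₁ * a₂) = algebraMap A₀ A π₀ * a := by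
      apply IsFractionRing.injective A F
      rw [map_mul, map_mul, map_mul, hxz, ← hσa]
      ring
    have hmem : algebraMap A₀ A σ * (a₁ * a₂) ∈ ctr 𝔫 (algebraMap A₀ A π₀) := by
      rw [e]
      exact Ideal.mul_mem_right _ _ (pi_mem_ctr 𝔫 _)
    rcases hQ.mem_or_mem hmem with h3 | h3
    · exact hσ (ctr_under hprime₀ hπ0 hϖ𝔫 hpr σ h3)
    · rcases hQ.mem_or_mem h3 with h4 | h4
      · exact ha₁Q h4
      · exact ha₂Q h4
  rcases claim with h1 | h2
  · exact Or.inl (height_one hau (cen_isPrime V₁ h.memV) h1 (hne V₁ h.memV h.val_pi))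
  · exact Or.inr (height_one hau (cen_isPrime V₂ h.memV') h2 (hne V₂ h.memV' h.symm.val_pi))

end core

section main

variable {A₀ : Type*} [CommRing A₀] [IsDomain A₀] [IsIntegrallyClosed A₀]
variable {A : Type*} [CommRing A] [IsDomain A] [IsNoetherianRing A]
variable [Algebra A₀ A] [FaithfulSMul A₀ A] [Algebra.IsIntegral A₀ A]
variable {F : Type*} [Field F] [Algebra A F] [IsFractionRing A F]
variable {K : Type*} [Field K] [Algebra K F]

/-- **(FW-LOC-REG), core**: the component `V` passes through the regular point `𝔫`. -/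
theorem locReg_core {π₀ : A₀} {V V' : ValuationSubring F} (h : Comp (A := A) π₀ V V')
    (hprime₀ : (Ideal.span {π₀}).IsPrime) (hπ0 : π₀ ≠ 0)
    (𝔫 : Ideal A) [h𝔫 : 𝔫.IsPrime] (hϖ𝔫 : algebraMap A₀ A π₀ ∈ 𝔫)
    (hgen : ∃ x ∈ 𝔫, ∀ y ∈ 𝔫, ∃ s a b : A, s ∉ 𝔫 ∧ s * y = a * algebraMap A₀ A π₀ + b * x)
    (hpr : ∀ a b : A, (∃ c s : A, s ∉ 𝔫 ∧ s * (a * b) = c * algebraMap A₀ A π₀) →
      (∃ c s : A, s ∉ 𝔫 ∧ s * a = c * algebraMap A₀ A π₀) ∨
        (∃ c s : A, s ∉ 𝔫 ∧ s * b = c * algebraMap A₀ A π₀))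
    (hc : cen V h.memV = ctr 𝔫 (algebraMap A₀ A π₀))
    (hK : ∀ c : K, ∃ (k : ℕ) (b : A),
      algebraMap K F c * algebraMap A F (algebraMap A₀ A π₀) ^ k = algebraMap A F b)
    (n : ℕ) (hn : 0 < n) (v : F) (hv : V.valuation (v - 1) < 1) (hv' : V'.valuation (v - 1) < 1)
    (hdiv : ∀ P : Place K F, (n : ℤ) ∣ P.ord v) :
    ∃ h₀ : F, V.valuation (h₀ - 1) < 1 ∧ V'.valuation (h₀ - 1) < 1 ∧
      ∃ a s : A, s ∉ 𝔫 ∧ algebraMap A F s * (v * h₀ ^ n) = algebraMap A F a := by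
  classical
  have hϖ0' : algebraMap A₀ A π₀ ≠ 0 := fun h0 =>
    hπ0 (FaithfulSMul.algebraMap_injective A₀ A (by rw [h0, map_zero]))
  set ϖ : A := algebraMap A₀ A π₀ with hϖdef
  have hϖ0 : ϖ ≠ 0 := hϖ0'
  let B := Localization.subalgebra.ofField F 𝔫.primeCompl (H21LR.primeCompl_le 𝔫)
  haveI hBloc : IsLocalization.AtPrime B 𝔫 :=
    Localization.subalgebra.isLocalization_ofField F 𝔫.primeCompl (H21LR.primeCompl_le 𝔫)
  haveI : IsFractionRing B F := inferInstance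
  haveI : IsScalarTower A B F := inferInstance
  haveI : IsLocalRing B := IsLocalization.AtPrime.isLocalRing B 𝔫
  haveI : IsNoetherianRing B := IsLocalization.isNoetherianRing 𝔫.primeCompl B inferInstance
  haveI : IsDomain B := inferInstance
  obtain ⟨x, hx𝔫, hgen'⟩ := hgen
  have hπp : Prime (algebraMap A B ϖ) := H21LR.prime_map (F := F) B 𝔫 ϖ hϖ0 hϖ𝔫 hpr
  have hπ : (Ideal.span {algebraMap A B ϖ}).IsPrime :=
    (Ideal.span_singleton_prime hπp.ne_zero).2 hπp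
  have hmax : maximalIdeal B = Ideal.span {algebraMap A B ϖ, algebraMap A B x} :=
    H21LR.maximalIdeal_eq (F := F) B 𝔫 ϖ x hϖ𝔫 hx𝔫 hgen'
  set φ : B →+* F := algebraMap B F with hφdef
  have hφ : Function.Injective φ := H21LR.algMap_injective (F := F) B 𝔫
  have hφA : ∀ a : A, φ (algebraMap A B a) = algebraMap A F a :=
    fun a => H21LR.algMap_algMap (F := F) B a
  -- values on `A`
  have hQmem : ∀ a : A, V.valuation (algebraMap A F a) < 1 ↔ a ∈ ctr 𝔫 ϖ := fun a => by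
    rw [← hc]; exact mem_cen.symm
  have hval_s : ∀ s : A, s ∉ 𝔫 → V.valuation (algebraMap A F s) = 1 := fun s hs =>
    le_antisymm ((V.valuation_le_one_iff _).2 (h.memV s))
      (not_lt.1 fun hlt => hs (ctr_le hϖ𝔫 ((hQmem s).1 hlt)))
  have hBV : ∀ b : B, φ b ∈ V := by
    intro b
    obtain ⟨a, s, rfl⟩ := IsLocalization.exists_mk'_eq 𝔫.primeCompl b
    rw [hφdef, H21LR.algMap_mk', ← V.valuation_le_one_iff, map_div₀, hval_s s s.2, div_one]
    exact (V.valuation_le_one_iff _).2 (h.memV a)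
  have hσQ : ∀ σ : A₀, ¬ π₀ ∣ σ → algebraMap A₀ A σ ∉ ctr 𝔫 ϖ := fun σ hσ hmem =>
    hσ (ctr_under hprime₀ hπ0 hϖ𝔫 hpr σ hmem)
  have hdvd : ∀ a : A, algebraMap A B ϖ ∣ algebraMap A B a ↔ a ∈ ctr 𝔫 ϖ := fun a => by
    rw [H21LR.dvd_map_iff (F := F) B 𝔫 ϖ a hϖ0]; rfl
  have hϖV : V.valuation (algebraMap A F ϖ) < 1 := (hQmem ϖ).2 (pi_mem_ctr 𝔫 ϖ)
  -- `P = ϖ B = B ∩ 𝔪_V`
  have hP : ∀ b : B, b ∈ Ideal.span {algebraMap A B ϖ} ↔ V.valuation (φ b) < 1 := by
    intro b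
    constructor
    · intro hb
      obtain ⟨β, rfl⟩ := Ideal.mem_span_singleton.1 hb
      rw [map_mul, hφA, mul_comm]
      exact val_mul_lt_of_le_of_lt V ((V.valuation_le_one_iff _).2 (hBV β)) hϖV
    · intro hb
      obtain ⟨a, s, rfl⟩ := IsLocalization.exists_mk'_eq 𝔫.primeCompl b
      rw [hφdef, H21LR.algMap_mk', map_div₀, hval_s s s.2, div_one] at hb
      have ha : algebraMap A B ϖ ∣ algebraMap A B a := (hdvd a).2 ((hQmem a).1 hb)
      rw [Ideal.mem_span_singleton, IsLocalization.mk'_eq_mul_mk'_one]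
      exact Dvd.dvd.mul_right ha _
  haveI hic : IsIntegrallyClosed (B ⧸ Ideal.span {algebraMap A B ϖ}) :=
    (quot_structure _ _ hπp hmax).1
  -- comaximality
  obtain ⟨e, he, he'⟩ := h.cop
  have hle' : ∀ y : F, V'.valuation y < 1 → V'.valuation y ≤ V'.valuation (algebraMap A F ϖ) :=
    le_pi V V' (algebraMap A F ϖ) h.cap e he he'
  have he1 : V'.valuation e = 1 := h10fw_val_one_of_lt V' he'
  have h1e : V.valuation ((1 - e) - 1) < 1 := by
    rw [show (1 - e) - 1 = -e by ring, Valuation.map_neg]; exact he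
  have h1e' : V'.valuation (1 - e) < 1 := by
    rw [← Valuation.map_neg, neg_sub]; exact he'
  -- approximation of elements of `V` by elements of `V ∩ V'`
  have approx : ∀ r : F, r ∈ V → ∃ r' : F, r' ∈ V ∧ r' ∈ V' ∧ V.valuation (r' - r) < 1 := by
    intro r hr
    by_cases hr' : r ∈ V'
    · exact ⟨r, hr, hr', by rw [sub_self, Valuation.map_zero]; exact zero_lt_one⟩
    obtain ⟨m, hm⟩ := h.arch' r
    refine ⟨(1 - e) ^ m * r, ?_, ?_, ?_⟩
    · rw [← V.valuation_le_one_iff, Valuation.map_mul,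
        h10fw_val_one_of_lt V (one_pow_lt V h1e m), one_mul]
      exact (V.valuation_le_one_iff _).2 hr
    · rw [← V'.valuation_le_one_iff]
      refine le_trans ?_ hm.le
      rw [Valuation.map_mul, Valuation.map_mul, map_pow, map_pow]
      gcongr
      exact hle' _ h1e'
    · rw [show (1 - e) ^ m * r - r = r * ((1 - e) ^ m - 1) by ring]
      exact val_mul_lt_of_le_of_lt V ((V.valuation_le_one_iff _).2 hr) (one_pow_lt V h1e m)
  have hfrac_rc : ∀ r : F, r ∈ V → ∃ a s : B, s ∉ Ideal.span {algebraMap A B ϖ} ∧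
      V.valuation (φ s * r - φ a) < 1 := by
    intro r hr
    obtain ⟨r', hr'V, hr'V', hrr'⟩ := approx r hr
    obtain ⟨σ, hσ, a, hσa⟩ := h.den r' hr'V hr'V'
    refine ⟨algebraMap A B a, algebraMap A B (algebraMap A₀ A σ), ?_, ?_⟩
    · rw [Ideal.mem_span_singleton, hdvd]
      exact hσQ σ hσ
    · rw [hφA, hφA, ← hσa, ← mul_sub, Valuation.map_mul, h.unitV σ hσ, one_mul,
        Valuation.map_sub_swap]
      exact hrr'
  -- the other component does not pass through `𝔫`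
  have hs₀ : ∃ s₀ : A, V'.valuation (algebraMap A F s₀) < 1 ∧ s₀ ∉ 𝔫 := by
    by_contra hcon
    push Not at hcon
    have hle : cen V' h.memV' ≤ 𝔫 := fun a ha => hcon a (mem_cen.1 ha)
    have hϖ' : ϖ ∈ cen V' h.memV' := mem_cen.2 h.symm.val_pi
    have hQle : ctr 𝔫 ϖ ≤ cen V' h.memV' := by
      rcases prime_dichotomy (F := F) 𝔫 ϖ hϖ0 hϖ𝔫 ⟨x, hx𝔫, hgen'⟩ hpr (cen V' h.memV')
        (cen_isPrime V' h.memV') hϖ' hle with h1 | h1
      · rw [h1]
      · rw [h1]; exact ctr_le hϖ𝔫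
    have heV : e ∈ V := (V.valuation_le_one_iff e).1 he.le
    have heV' : e ∈ V' := (V'.valuation_le_one_iff e).1 he1.le
    obtain ⟨σ, hσ, a, hσa⟩ := h.den e heV heV'
    have ha : V.valuation (algebraMap A F a) < 1 := by
      rw [← hσa, Valuation.map_mul, h.unitV σ hσ, one_mul]; exact he
    have ha' : V'.valuation (algebraMap A F a) < 1 := mem_cen.1 (hQle ((hQmem a).1 ha))
    rw [← hσa, Valuation.map_mul, h.unitV' σ hσ, one_mul, he1] at ha'
    exact lt_irrefl _ ha'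
  obtain ⟨s₀, hs₀V', hs₀𝔫⟩ := hs₀
  have hs₀0 : algebraMap A F s₀ ≠ 0 := H21LR.map_den_ne_zero (F := F) 𝔫 ⟨s₀, hs₀𝔫⟩
  -- (RC) and (AP)
  have hRC : ∀ x b : F, b ∈ φ.range → b⁻¹ ∈ φ.range → V.valuation (b * x ^ n - 1) < 1 →
      ∃ ρ : F, ρ ∈ φ.range ∧ ρ⁻¹ ∈ φ.range ∧ V.valuation (ρ * x - 1) < 1 :=
    fun x b hb hb' hbx => h10fw_rc φ hφ V hBV _ hP hfrac_rc n hn x b hb hb' hbx
  have hArch : ∀ y : F, ∃ m : ℕ, V'.valuation (algebraMap A F s₀ ^ m * y) < 1 := by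
    intro y
    obtain ⟨m, hm⟩ := h.arch' y
    refine ⟨m, lt_of_le_of_lt ?_ hm⟩
    rw [Valuation.map_mul, Valuation.map_mul, map_pow, map_pow]
    gcongr
    exact hle' _ hs₀V'
  have hAP : ∀ x : F, x ≠ 0 → ∃ b : F, b ∈ φ.range ∧ b⁻¹ ∈ φ.range ∧
      V.valuation (b - 1) < 1 ∧ V'.valuation (b * x - 1) < 1 := by
    refine h10fw_ap V V' φ.range ?_ ?_ ?_ (algebraMap A F ϖ) (algebraMap A F s₀) ?_ ?_ hϖV ?_ ?_
      hs₀0 hs₀V' hArch
    · rintro _ ⟨b, rfl⟩
      exact hBV b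
    · exact fun y b hy hy1 hb hb' hb0 => h10fw_loc φ hφ V hBV y b hy hy1 hb hb' hb0
    · intro y
      obtain ⟨a, s, hs, rfl⟩ := IsFractionRing.div_surjective (A := A) y
      refine ⟨algebraMap A F a, algebraMap A F s, ⟨algebraMap A B a, hφA a⟩,
        ⟨algebraMap A B s, hφA s⟩, ?_, ?_⟩
      · exact fun h0 => (nonZeroDivisors.ne_zero hs)
          (IsFractionRing.injective A F (by rw [h0, map_zero]))
      · have : algebraMap A F s ≠ 0 := fun h0 => (nonZeroDivisors.ne_zero hs)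
          (IsFractionRing.injective A F (by rw [h0, map_zero]))
        field_simp
    · exact ⟨algebraMap A B ϖ, hφA ϖ⟩
    · exact fun h0 => hϖ0 (IsFractionRing.injective A F (by rw [h0, map_zero]))
    · exact ⟨algebraMap A B s₀, hφA s₀⟩
    · refine ⟨IsLocalization.mk' B 1 (⟨s₀, hs₀𝔫⟩ : 𝔫.primeCompl), ?_⟩
      rw [hφdef, H21LR.algMap_mk', map_one, one_div]
  -- the unit form of (LOC)
  have hv0 : v ≠ 0 := h10fw_ne_zero_of_lt V hv
  have hv1 : V.valuation v = 1 := h10fw_val_one_of_lt V hv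
  have hv1' : V'.valuation v = 1 := h10fw_val_one_of_lt V' hv'
  have hK' : ∀ c : K, ∃ (k : ℕ) (b : B),
      algebraMap K F c * algebraMap B F (algebraMap A B ϖ) ^ k = algebraMap B F b := by
    intro c
    obtain ⟨k, b, hb⟩ := hK c
    exact ⟨k, algebraMap A B b, by
      rw [H21LR.algMap_algMap (F := F) B, H21LR.algMap_algMap (F := F) B]; exact hb⟩
  have hunit : ∃ s c : B, ¬ algebraMap A B ϖ ∣ s ∧ ¬ algebraMap A B ϖ ∣ c ∧
      v * algebraMap B F s = algebraMap B F c := by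
    obtain ⟨σ, hσ, a, hσa⟩ := h.den v ((V.valuation_le_one_iff v).1 hv1.le)
      ((V'.valuation_le_one_iff v).1 hv1'.le)
    refine ⟨algebraMap A B (algebraMap A₀ A σ), algebraMap A B a, ?_, ?_, ?_⟩
    · rw [hdvd]; exact hσQ σ hσ
    · rw [hdvd, ← hQmem, ← hσa, Valuation.map_mul, h.unitV σ hσ, one_mul, hv1]
      exact lt_irrefl _
    · rw [H21LR.algMap_algMap (F := F) B, H21LR.algMap_algMap (F := F) B, mul_comm]
      exact hσa
  obtain ⟨z, u, hz, euz⟩ := H21LR.locReg_unit0 (algebraMap A B ϖ) (algebraMap A B x)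
    hπp.ne_zero hπ hmax hK' n hn v hv0 hdiv hunit
  have hu' : (φ (u : B))⁻¹ ∈ φ.range := by
    refine ⟨((u⁻¹ : Bˣ) : B), ?_⟩
    have h1 : φ (u : B) * φ ((u⁻¹ : Bˣ) : B) = 1 := by
      rw [← map_mul, Units.mul_inv, map_one]
    exact eq_inv_of_mul_eq_one_right h1
  obtain ⟨h₀, h1, h2, h3, -⟩ := h10fw_reg V V' φ.range n hRC hAP v (φ (u : B)) z hv
    ⟨(u : B), rfl⟩ hu' (by rw [euz, mul_comm])
  refine ⟨h₀, h1, h2, ?_⟩
  exact (H21LR.mem_range_iff (F := F) B 𝔫 _).1 h3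

end main

section final

variable {A₀ : Type*} [CommRing A₀] [IsDomain A₀] [IsIntegrallyClosed A₀]
variable {A : Type*} [CommRing A] [IsDomain A] [IsNoetherianRing A]
variable [Algebra A₀ A] [FaithfulSMul A₀ A] [Algebra.IsIntegral A₀ A]
variable {F : Type*} [Field F] [Algebra A F] [IsFractionRing A F]
variable {K : Type*} [Field K] [Algebra K F]

/-- **(FW-LOC-REG), abstract form**. -/
theorem locReg_abs {π₀ : A₀} {V₁ V₂ : ValuationSubring F} (h : Comp (A := A) π₀ V₁ V₂)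
    (hprime₀ : (Ideal.span {π₀}).IsPrime) (hπ0 : π₀ ≠ 0)
    (𝔫 : Ideal A) [h𝔫 : 𝔫.IsPrime] (hϖ𝔫 : algebraMap A₀ A π₀ ∈ 𝔫)
    (hgen : ∃ x ∈ 𝔫, ∀ y ∈ 𝔫, ∃ s a b : A, s ∉ 𝔫 ∧ s * y = a * algebraMap A₀ A π₀ + b * x)
    (hpr : ∀ a b : A, (∃ c s : A, s ∉ 𝔫 ∧ s * (a * b) = c * algebraMap A₀ A π₀) →
      (∃ c s : A, s ∉ 𝔫 ∧ s * a = c * algebraMap A₀ A π₀) ∨
        (∃ c s : A, s ∉ 𝔫 ∧ s * b = c * algebraMap A₀ A π₀))
    (hK : ∀ c : K, ∃ (k : ℕ) (b : A),
      algebraMap K F c * algebraMap A F (algebraMap A₀ A π₀) ^ k = algebraMap A F b)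
    (n : ℕ) (hn : 0 < n) (v : F) (hv : V₁.valuation (v - 1) < 1)
    (hv' : V₂.valuation (v - 1) < 1) (hdiv : ∀ P : Place K F, (n : ℤ) ∣ P.ord v) :
    ∃ h₀ : F, V₁.valuation (h₀ - 1) < 1 ∧ V₂.valuation (h₀ - 1) < 1 ∧
      ∃ a s : A, s ∉ 𝔫 ∧ algebraMap A F s * (v * h₀ ^ n) = algebraMap A F a := by
  rcases component h hprime₀ hπ0 hϖ𝔫 hpr with hc | hc
  · exact locReg_core h hprime₀ hπ0 𝔫 hϖ𝔫 hgen hpr hc hK n hn v hv hv' hdiv
  · obtain ⟨h₀, h1, h2, h3⟩ :=
      locReg_core h.symm hprime₀ hπ0 𝔫 hϖ𝔫 hgen hpr hc hK n hn v hv' hv hdiv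
    exact ⟨h₀, h2, h1, h3⟩

end final

end H25FL

end
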