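import Mathlib
import Fermat.Agent.S35.FWGenDefs_helper1
import Fermat.Agent.S35.FWLocRegB_helper25
import Fermat.Agent.S34.LocReg_helper21
import Fermat.Agent.S18.TBase_helper19
import Fermat.Agent.S18.Connected_helper21

/-!
# Item 84 (S35), slice FW-LOC-REG (helper25): `H1FW.FWLocRegStatement`

The local hypothesis of FW-GEN at a regular point of the chart `c = t` or `c = t⁻¹`:
instantiation of the abstract theorem `H25FL.locReg_abs` (`A₀ = R[c]`, `A = Chart R c`).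
-/

set_option autoImplicit false
set_option linter.unusedSectionVars false
set_option linter.unusedVariables false
set_option linter.style.haveILetI false
set_option synthInstance.maxHeartbeats 400000

noncomputable section

namespace H25FL

open Polynomial IntermediateField AlgebraicCurve H7S18 H4S34 IsLocalRing

section chart

variable (R : Type) [CommRing R] [IsDomain R] [IsDiscreteValuationRing R]
  (K : Type) [Field K] [CharZero K] [Algebra R K] [IsFractionRing R K]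
  {F : Type} [Field F] [Algebra K F] [Algebra R F] [IsScalarTower R K F]

/-- the abstract two-component data from `H1FW.TwoComp` (chart `c`) -/
theorem comp_of_twoComp {ϖ : R} (hϖ : Irreducible ϖ) {c : F} (hc : Transcendental K c)
    {V₁ V₂ : ValuationSubring F} (h : H1FW.TwoComp R ϖ c V₁ V₂) :
    Comp (A₀ := Algebra.adjoin R {c}) (A := Chart R c)
      (algebraMap R (Algebra.adjoin R {c}) ϖ) V₁ V₂ := by
  obtain ⟨hO, hm, hcop, hA1, hA2⟩ := h
  have hcR : Transcendental R c := H19S18.h19_transc R K hc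
  have hmem : ∀ a : Chart R c, GInt R ϖ c (a : F) := fun a =>
    H19S18.h19_gint_of_isInt R hcR hϖ a.2
  have hunit : ∀ σ : Algebra.adjoin R {c}, ¬ algebraMap R (Algebra.adjoin R {c}) ϖ ∣ σ →
      GInt R ϖ c ((σ : F))⁻¹ := by
    intro σ hσ
    have hσ0 : (σ : F) ≠ 0 := by
      intro h0
      apply hσ
      have : σ = 0 := Subtype.ext h0
      rw [this]; exact dvd_zero _
    refine ⟨(σ : F), ⟨σ.2, fun s' hs' e => hσ ⟨⟨s', hs'⟩, Subtype.ext e⟩⟩, ?_⟩
    rw [mul_inv_cancel₀ hσ0]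
    exact isIntegral_one
  have hval : ∀ (V : ValuationSubring F) (x : F), x ≠ 0 → x ∈ V → x⁻¹ ∈ V →
      V.valuation x = 1 := by
    intro V x hx0 hx hx'
    refine le_antisymm ((V.valuation_le_one_iff x).2 hx) (not_lt.1 fun hlt => ?_)
    have h1 := val_mul_lt_of_le_of_lt V ((V.valuation_le_one_iff _).2 hx') hlt
    rw [inv_mul_cancel₀ hx0, Valuation.map_one] at h1
    exact lt_irrefl _ h1
  have hσmem : ∀ σ : Algebra.adjoin R {c}, GInt R ϖ c (σ : F) := fun σ =>
    H19S18.h19_gint_of_isInt R hcR hϖ (H19S18.h19_mem_T_isInt R c σ.2)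
  have hσ0 : ∀ σ : Algebra.adjoin R {c}, ¬ algebraMap R (Algebra.adjoin R {c}) ϖ ∣ σ →
      (σ : F) ≠ 0 := by
    intro σ hσ h0
    apply hσ
    have : σ = 0 := Subtype.ext h0
    rw [this]; exact dvd_zero _
  refine
    { memV := fun a => ((hO _).1 (hmem a)).1
      memV' := fun a => ((hO _).1 (hmem a)).2
      den := ?_
      unitV := fun σ hσ => hval V₁ _ (hσ0 σ hσ) ((hO _).1 (hσmem σ)).1
        ((hO _).1 (hunit σ hσ)).1
      unitV' := fun σ hσ => hval V₂ _ (hσ0 σ hσ) ((hO _).1 (hσmem σ)).2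
        ((hO _).1 (hunit σ hσ)).2
      cap := ?_
      cop := hcop
      arch := fun y => hA1 y
      arch' := fun y => hA2 y }
  · intro x hx hx'
    obtain ⟨s, hs, hsx⟩ := (hO x).2 ⟨hx, hx'⟩
    refine ⟨⟨s, hs.1⟩, ?_, ⟨s * x, hsx⟩, rfl⟩
    rintro ⟨d, hd⟩
    apply hs.2 d d.2
    have := congrArg (fun z : Algebra.adjoin R {c} => (z : F)) hd
    simpa using this
  · intro x hx hx'
    obtain ⟨z, hz, e⟩ := hm x hx hx'
    rw [sub_zero] at e
    exact ⟨z, ((hO z).1 hz).1, ((hO z).1 hz).2, e⟩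

/-- **(FW-LOC-REG)** for the chart `c` of the two-component data. -/
theorem locReg_chart {ϖ : R} (hϖ : Irreducible ϖ) {c : F} (hc : Transcendental K c)
    [FiniteDimensional K⟮c⟯ F] (n : ℕ) (hn : 0 < n)
    {V₁ V₂ : ValuationSubring F} (h2 : H1FW.TwoComp R ϖ c V₁ V₂)
    (v : F) (hv1 : H1FW.One V₁ v) (hv2 : H1FW.One V₂ v)
    (hdiv : ∀ V : Place K F, (n : ℤ) ∣ V.ord v)
    (𝔫 : Ideal (Chart R c)) (h𝔫 : IsClosedPt R ϖ c 𝔫) (hreg : RegAt R ϖ c 𝔫) :
    H1FW.FWLocAt R V₁ V₂ c 𝔫 n v := by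
  haveI : IsNoetherianRing (Chart R c) := H21LR.chart_noeth R K hc
  haveI : IsFractionRing (Chart R c) F := H21LR.chart_isFractionRing R K hc
  haveI : 𝔫.IsPrime := h𝔫.1.isPrime
  have hcR : Transcendental R c := H19S18.h19_transc R K hc
  haveI : IsIntegrallyClosed (Algebra.adjoin R {c}) := H19S18.h19_T_intClosed R hcR
  haveI : FaithfulSMul (Algebra.adjoin R {c}) (Chart R c) :=
    (faithfulSMul_iff_algebraMap_injective _ _).2 (fun x y hxy =>
      Subtype.ext (congrArg (fun z : Chart R c => (z : F)) hxy))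
  have hcomp := comp_of_twoComp R K hϖ hc h2
  have hπp := H19S18.h19_T_prime R hcR hϖ
  have hprime₀ : (Ideal.span {algebraMap R (Algebra.adjoin R {c}) ϖ}).IsPrime :=
    (Ideal.span_singleton_prime hπp.ne_zero).2 hπp
  have hinjR : Function.Injective (algebraMap R F) := H19S18.h19_algebraMap_injective R K
  have hϖF : algebraMap R F ϖ ≠ 0 := fun h0 => hϖ.ne_zero (hinjR (by rw [h0, map_zero]))
  -- `ϖ` as an element of the chart ring
  let ϖM : Chart R c :=
    algebraMap (Algebra.adjoin R {c}) (Chart R c) (algebraMap R (Algebra.adjoin R {c}) ϖ)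
  have hϖMcoe : (ϖM : F) = algebraMap R F ϖ := rfl
  have hcoe : ∀ a : Chart R c, algebraMap (Chart R c) F a = (a : F) := fun _ => rfl
  have hϖM𝔫 : ϖM ∈ 𝔫 := h𝔫.2 ϖM hϖMcoe
  have hgen : ∃ x ∈ 𝔫, ∀ y ∈ 𝔫, ∃ s a b : Chart R c, s ∉ 𝔫 ∧ s * y = a * ϖM + b * x := by
    obtain ⟨x, hx, hx'⟩ := hreg.1
    refine ⟨x, hx, fun y hy => ?_⟩
    obtain ⟨s, a, b, hs, e⟩ := hx' y hy
    refine ⟨s, a, b, hs, Subtype.ext ?_⟩
    push_cast
    rw [e, hϖMcoe]
  have hprime : ∀ a b : Chart R c, (∃ c' s : Chart R c, s ∉ 𝔫 ∧ s * (a * b) = c' * ϖM) →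
      (∃ c' s : Chart R c, s ∉ 𝔫 ∧ s * a = c' * ϖM) ∨
        (∃ c' s : Chart R c, s ∉ 𝔫 ∧ s * b = c' * ϖM) := by
    rintro a b ⟨c', s, hs, e⟩
    have e' : (s : F) * ((a : F) * b) = c' * algebraMap R F ϖ := by
      have := congrArg (fun z : Chart R c => (z : F)) e
      simpa [hϖMcoe] using this
    have h1 : InLoc R c 𝔫 ((a : F) * b * (algebraMap R F ϖ)⁻¹) := by
      refine ⟨c', s, hs, ?_⟩
      field_simp
      linear_combination e'
    have conv : ∀ d : Chart R c, InLoc R c 𝔫 ((d : F) * (algebraMap R F ϖ)⁻¹) →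
        ∃ c' s : Chart R c, s ∉ 𝔫 ∧ s * d = c' * ϖM := by
      rintro d ⟨c'', s', hs', e''⟩
      refine ⟨c'', s', hs', Subtype.ext ?_⟩
      push_cast
      rw [hϖMcoe, ← e'']
      field_simp
    rcases hreg.2 a b h1 with h3 | h3
    · exact Or.inl (conv a h3)
    · exact Or.inr (conv b h3)
  have hK : ∀ k₀ : K, ∃ (k : ℕ) (b : Chart R c),
      algebraMap K F k₀ * algebraMap (Chart R c) F ϖM ^ k = algebraMap (Chart R c) F b := by
    intro k₀
    obtain ⟨r₁, r₂, hr₂, rfl⟩ := IsFractionRing.div_surjective (A := R) k₀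
    have hr₂0 : r₂ ≠ 0 := nonZeroDivisors.ne_zero hr₂
    obtain ⟨k, u, hu⟩ := IsDiscreteValuationRing.associated_pow_irreducible hr₂0 hϖ
    refine ⟨k, algebraMap (Algebra.adjoin R {c}) (Chart R c)
      (algebraMap R (Algebra.adjoin R {c}) (r₁ * u)), ?_⟩
    have hb : algebraMap (Chart R c) F (algebraMap (Algebra.adjoin R {c}) (Chart R c)
      (algebraMap R (Algebra.adjoin R {c}) (r₁ * u))) = algebraMap R F (r₁ * u) := rfl
    rw [hb, hcoe, hϖMcoe, map_div₀, ← IsScalarTower.algebraMap_apply R K F,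
      ← IsScalarTower.algebraMap_apply R K F, ← map_pow, ← hu, map_mul, map_mul]
    have hr₂F : algebraMap R F r₂ ≠ 0 := fun h0 => hr₂0 (hinjR (by rw [h0, map_zero]))
    field_simp
  obtain ⟨h₀, h1, h2', a, s, hs, e⟩ :=
    locReg_abs (A₀ := Algebra.adjoin R {c}) (A := Chart R c) (F := F) (K := K) hcomp hprime₀
      hπp.ne_zero 𝔫 hϖM𝔫 hgen hprime hK n hn v hv1 hv2 hdiv
  exact ⟨h₀, h1, h2', a, s, hs, e⟩

end chart

/-- **(FW-LOC-REG)**: `H1FW.FWLocRegStatement`. -/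
theorem fwLocRegStatement : H1FW.FWLocRegStatement := by
  intro R _ _ _ K _ _ _ _ F _ _ _ _ ϖ hϖ t ht hfin n hn hnR V₁ V₂ h2 v hv1 hv2 hdiv c hc 𝔫 h𝔫 hreg
  rcases hc with rfl | rfl
  · haveI := hfin
    exact locReg_chart R K hϖ ht n hn h2 v hv1 hv2 hdiv 𝔫 h𝔫 hreg
  · have ht' : Transcendental K t⁻¹ := H19S18.h19_transc_inv K ht
    have htR : Transcendental R t := H19S18.h19_transc R K ht
    have htR' : Transcendental R t⁻¹ := H19S18.h19_transc R K ht'
    haveI : FiniteDimensional K⟮t⁻¹⟯ F :=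
      H21S18.finiteDimensional_transport (H21S18.adjoin_inv_eq (K := K) t).symm hfin
    have h2' : H1FW.TwoComp R ϖ t⁻¹ V₁ V₂ := by
      obtain ⟨hO, hm, hcop, hA1, hA2⟩ := h2
      refine ⟨fun x => ?_, fun x hx hx' => ?_, hcop, hA1, hA2⟩
      · rw [H19S18.h19_gint_inv_iff R htR htR' hϖ]; exact hO x
      · rw [H19S18.h19_modPi_inv_iff R htR htR' hϖ]; exact hm x hx hx'
    exact locReg_chart R K hϖ ht' n hn h2' v hv1 hv2 hdiv 𝔫 h𝔫 hreg

end H25FL

end
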