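import Mathlib
import Fermat.Prelude.Def_AlgebraicCurve_BaseChangeGalois

/-!
# Item 84 (S35), block FW, assembly lemma ORD-GAMMA (helper11)

Generic (Mathlib + Prelude only).  `R ⊆ K = Frac R ⊆ F`, `γ : F ≃+* F` a ring automorphism
preserving `R` in both directions (as in `H1FW.FrobLike`).  Then `γ` is semilinear over an
automorphism of `K`, it permutes the places of `F / K`, and

* `h11og_dvd_ord`    : `n ∣ div u  ⇒  n ∣ div (γ u)`;
* `h11og_dvd_vprime` : `n ∣ div u  ⇒  n ∣ div (γ u / (u ^ Q · H ^ n))`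
  (the hypothesis `n ∣ div v'` of `H1FW.FWLocRegStatement` in the assembly of
  `H17FW.ToricTameStatement`).
-/

set_option autoImplicit false

noncomputable section

open AlgebraicCurve

namespace H11OG

variable {K F : Type} [Field K] [Field F] [Algebra K F]

/-- a ring automorphism of `F` preserving `K` (both ways) is semilinear over an automorphism
of `K` -/
theorem h11og_exists_baseAut (γ : F ≃+* F)
    (h : ∀ a : K, ∃ b : K, γ (algebraMap K F a) = algebraMap K F b)
    (h' : ∀ a : K, ∃ b : K, γ.symm (algebraMap K F a) = algebraMap K F b) :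
    ∃ γK : K ≃+* K, ∀ a : K, γ (algebraMap K F a) = algebraMap K F (γK a) := by
  classical
  choose f hf using h
  choose f' hf' using h'
  have hinj : Function.Injective (algebraMap K F) := (algebraMap K F).injective
  refine ⟨{ toFun := f, invFun := f', left_inv := ?_, right_inv := ?_, map_mul' := ?_,
            map_add' := ?_ }, hf⟩
  · intro a
    apply hinj
    rw [← hf', ← hf, RingEquiv.symm_apply_apply]
  · intro a
    apply hinj
    rw [← hf, ← hf', RingEquiv.apply_symm_apply]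
  · intro a b
    apply hinj
    rw [← hf, map_mul, map_mul, map_mul, hf, hf]
  · intro a b
    apply hinj
    rw [← hf, map_add, map_add, map_add, hf, hf]

/-- the semilinear automorphism attached to `γ` -/
theorem h11og_exists_semilinear (γ : F ≃+* F)
    (h : ∀ a : K, ∃ b : K, γ (algebraMap K F a) = algebraMap K F b)
    (h' : ∀ a : K, ∃ b : K, γ.symm (algebraMap K F a) = algebraMap K F b) :
    ∃ g : SemilinearAut K F, ∀ x : F, g • x = γ x := by
  obtain ⟨γK, hγK⟩ := h11og_exists_baseAut γ h h'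
  exact ⟨⟨(γ, γK), hγK⟩, fun _ => rfl⟩

/-- `ord_V (γ u) = ord_{γ⁻¹ V} u`: divisibility of the divisor is preserved by `γ`
(`K`-form). -/
theorem h11og_dvd_ord_K (γ : F ≃+* F)
    (h : ∀ a : K, ∃ b : K, γ (algebraMap K F a) = algebraMap K F b)
    (h' : ∀ a : K, ∃ b : K, γ.symm (algebraMap K F a) = algebraMap K F b)
    (n : ℤ) (u : F) (hdiv : ∀ V : Place K F, n ∣ V.ord u) (V : Place K F) :
    n ∣ V.ord (γ u) := by
  obtain ⟨g, hg⟩ := h11og_exists_semilinear γ h h'
  have h1 := SemilinearAut.ord_smul g (g⁻¹ • V) u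
  rw [smul_inv_smul, hg] at h1
  rw [h1]
  exact hdiv _

variable {R : Type} [CommRing R] [Algebra R K] [IsFractionRing R K] [Algebra R F]
  [IsScalarTower R K F]

/-- from `R` to `K = Frac R` -/
theorem h11og_preserves_K (γ : F ≃+* F)
    (hγR : ∀ r : R, ∃ r' : R, γ (algebraMap R F r) = algebraMap R F r') (a : K) :
    ∃ b : K, γ (algebraMap K F a) = algebraMap K F b := by
  obtain ⟨r, s, -, rfl⟩ := IsFractionRing.div_surjective (A := R) a
  obtain ⟨r', hr'⟩ := hγR r
  obtain ⟨s', hs'⟩ := hγR s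
  refine ⟨algebraMap R K r' / algebraMap R K s', ?_⟩
  rw [map_div₀, map_div₀, map_div₀, ← IsScalarTower.algebraMap_apply R K F,
    ← IsScalarTower.algebraMap_apply R K F, ← IsScalarTower.algebraMap_apply R K F,
    ← IsScalarTower.algebraMap_apply R K F, hr', hs']

/-- **ORD-GAMMA**: `n ∣ div u ⇒ n ∣ div (γ u)` for `γ` preserving `R` (both ways). -/
theorem h11og_dvd_ord (γ : F ≃+* F)
    (hγR : ∀ r : R, ∃ r' : R, γ (algebraMap R F r) = algebraMap R F r')
    (hγR' : ∀ r : R, ∃ r' : R, γ.symm (algebraMap R F r) = algebraMap R F r')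
    (n : ℤ) (u : F) (hdiv : ∀ V : Place K F, n ∣ V.ord u) (V : Place K F) :
    n ∣ V.ord (γ u) :=
  h11og_dvd_ord_K γ (h11og_preserves_K γ hγR) (h11og_preserves_K γ.symm hγR') n u hdiv V

/-- powers -/
theorem h11og_ord_pow (V : Place K F) (x : F) (k : ℕ) : V.ord (x ^ k) = k * V.ord x := by
  have h := V.ord_zpow x (k : ℤ)
  rwa [zpow_natCast] at h

/-- **ORD-GAMMA for `v' = γ u / (u ^ Q · H ^ n)`**. -/
theorem h11og_dvd_vprime (γ : F ≃+* F)
    (hγR : ∀ r : R, ∃ r' : R, γ (algebraMap R F r) = algebraMap R F r')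
    (hγR' : ∀ r : R, ∃ r' : R, γ.symm (algebraMap R F r) = algebraMap R F r')
    (n : ℕ) (Q : ℕ) (u H : F) (hu : u ≠ 0) (hH : H ≠ 0)
    (hdiv : ∀ V : Place K F, (n : ℤ) ∣ V.ord u) (V : Place K F) :
    (n : ℤ) ∣ V.ord (γ u * (u ^ Q * H ^ n)⁻¹) := by
  have hγu : γ u ≠ 0 := fun h0 => hu (by
    have := congrArg γ.symm h0
    rwa [RingEquiv.symm_apply_apply, map_zero] at this)
  have h1 : u ^ Q * H ^ n ≠ 0 := mul_ne_zero (pow_ne_zero _ hu) (pow_ne_zero _ hH)
  rw [V.ord_mul hγu (inv_ne_zero h1), V.ord_inv, V.ord_mul (pow_ne_zero _ hu) (pow_ne_zero _ hH),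
    h11og_ord_pow, h11og_ord_pow]
  have h2 := h11og_dvd_ord (R := R) γ hγR hγR' (n : ℤ) u hdiv V
  have h3 := hdiv V
  exact dvd_add h2 ((dvd_neg).mpr (dvd_add (Dvd.dvd.mul_left h3 _) (dvd_mul_right _ _)))

end H11OG

end
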