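import Mathlib
import Fermat.Agent.S35.FWGen_helper1
import Fermat.Agent.S35.FWGenAux_helper1
import Fermat.Agent.S35.FWLocReg_helper25
import Fermat.Agent.S34.ChartChange_helper20
import Fermat.Agent.S35.FWOrdGamma_helper11

/-!
# Item 84 (S35), block FW: the generic `K₁`-level core of the assembly (helper29)

`H29AK.fwCore`: in the generic setting of `H1FW.FWGenStatement`, for a toric `u` with unit roots,
`n ∣ div u`, rational support, if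
* every closed point of the chart `t` is regular or a node (DICH),
* the closed points of the chart `t⁻¹` over `t = ∞` are regular (DICH),
* (FW-RAT) holds at every node (chart form `FixAt`),
then `γ u = c · gⁿ · u ^ Q` with `c ∈ Kˣ`.

Inputs: `H1FW.fwGenStatement` (helper1), `H25FL.fwLocRegStatement` (helper25),
`H20CC.h20cc_chartChange` (helper20), and the open slice `H1FW.FWLocNodeStatement` as a
hypothesis.
-/

set_option autoImplicit false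
set_option synthInstance.maxHeartbeats 400000
set_option maxHeartbeats 1000000
set_option linter.unusedSectionVars false
set_option linter.unusedVariables false
set_option linter.style.haveILetI false

noncomputable section

open Polynomial IntermediateField AlgebraicCurve H7S18 H4S34 H1FW

namespace H29AK

/-- **the generic `K₁`-level core** of the FW assembly. -/
theorem fwCore (hLN : FWLocNodeStatement)
    (R : Type) [CommRing R] [IsDomain R] [IsDiscreteValuationRing R]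
    (K : Type) [Field K] [CharZero K] [Algebra R K] [IsFractionRing R K]
    (F : Type) [Field F] [Algebra K F] [Algebra R F] [IsScalarTower R K F]
    (ϖ : R) (hϖ : Irreducible ϖ) (t : F) (ht : Transcendental K t)
    (hfin : FiniteDimensional K⟮t⟯ F)
    (hconst : ∀ x : F, IsAlgebraic K x → x ∈ (algebraMap K F).range)
    (n : ℕ) (hn : 0 < n) (hnu : IsUnit (n : R)) (hζ : ∃ ζ : R, IsPrimitiveRoot ζ n)
    (V₁ V₂ : ValuationSubring F) (hTC : TwoComp R ϖ t V₁ V₂)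
    (γ : F ≃+* F) (hγ : FrobLike R t V₁ V₂ γ) (Q : ℕ)
    (u ψ₁ ψ₂ : F) (hψ₁ : V₁.valuation ψ₁ = 1) (hψ₂ : V₂.valuation ψ₂ = 1)
    (h1 : One V₁ (u * (ψ₁ ^ n)⁻¹)) (h2 : One V₂ (u * (ψ₂ ^ n)⁻¹))
    (hdiv : ∀ V : Place K F, (n : ℤ) ∣ V.ord u)
    (hrat : ∀ V : Place K F, V.ord u ≠ 0 → ∀ x : F, 0 ≤ V.ord x →
      ∃ c : K, x = algebraMap K F c ∨ 0 < V.ord (x - algebraMap K F c))
    (hD0 : ∀ 𝔫 : Ideal (Chart R t), IsClosedPt R ϖ t 𝔫 → RegAt R ϖ t 𝔫 ∨ NodeAt R ϖ t 𝔫)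
    (hDinf : ∀ 𝔫 : Ideal (Chart R t⁻¹), IsClosedPt R ϖ t⁻¹ 𝔫 →
      (∀ y : Chart R t⁻¹, (y : F) = t⁻¹ → y ∈ 𝔫) → RegAt R ϖ t⁻¹ 𝔫)
    (hFix : ∀ 𝔫 : Ideal (Chart R t), IsClosedPt R ϖ t 𝔫 → NodeAt R ϖ t 𝔫 →
      ∀ y : Chart R t, ∃ y' : Chart R t, (y' : F) = γ (y : F) ∧ y' - y ^ Q ∈ 𝔫) :
    ∃ (c : K) (g : F), c ≠ 0 ∧ γ u = algebraMap K F c * g ^ n * u ^ Q := by
  classical
  refine fwGenStatement R K F ϖ hϖ t ht hfin hconst n hn hnu hζ V₁ V₂ hTC γ hγ Q u ψ₁ ψ₂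
    hψ₁ hψ₂ h1 h2 ?_
  intro H hH1 hH2
  obtain ⟨hγt, hγR, hγR', hγ₁, hγ₂⟩ := hγ
  have hv1 : One V₁ (γ u * (u ^ Q * H ^ n)⁻¹) := one_vprime V₁ γ hγ₁ n Q hψ₁ h1 hH1
  have hv2 : One V₂ (γ u * (u ^ Q * H ^ n)⁻¹) := one_vprime V₂ γ hγ₂ n Q hψ₂ h2 hH2
  have hu0 : u ≠ 0 := left_ne_zero_of_mul (one_ne_zero V₁ h1)
  have hH0 : H ≠ 0 := left_ne_zero_of_mul (left_ne_zero_of_mul (one_ne_zero V₁ hH1))
  have hγu0 : γ u ≠ 0 := fun h0 => hu0 ((map_eq_zero_iff γ γ.injective).mp h0)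
  have hdivγ : ∀ V : Place K F, (n : ℤ) ∣ V.ord (γ u) :=
    fun V => H11OG.h11og_dvd_ord (R := R) γ hγR hγR' (n : ℤ) u hdiv V
  have hvdiv : ∀ V : Place K F, (n : ℤ) ∣ V.ord (γ u * (u ^ Q * H ^ n)⁻¹) := by
    intro V
    have hden : u ^ Q * H ^ n ≠ 0 := mul_ne_zero (pow_ne_zero _ hu0) (pow_ne_zero _ hH0)
    rw [V.ord_mul hγu0 (inv_ne_zero hden), V.ord_inv, V.ord_mul (pow_ne_zero _ hu0)
      (pow_ne_zero _ hH0)]
    have e1 : V.ord (u ^ Q) = (Q : ℤ) * V.ord u := by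
      have := V.ord_zpow u (Q : ℤ)
      rwa [zpow_natCast] at this
    have e2 : V.ord (H ^ n) = (n : ℤ) * V.ord H := by
      have := V.ord_zpow H (n : ℤ)
      rwa [zpow_natCast] at this
    rw [e1, e2]
    exact dvd_add (hdivγ V) (Dvd.dvd.neg_right
      (dvd_add (Dvd.dvd.mul_left (hdiv V) _) (dvd_mul_right _ _)))
  -- the chart `t`
  have hL0 : FWLoc R ϖ V₁ V₂ t n (γ u * (u ^ Q * H ^ n)⁻¹) := by
    intro 𝔫 h𝔫
    rcases hD0 𝔫 h𝔫 with hr | hnode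
    · exact H25FL.fwLocRegStatement R K F ϖ hϖ t ht hfin n hn hnu V₁ V₂ hTC _ hv1 hv2 hvdiv
        t (Or.inl rfl) 𝔫 h𝔫 hr
    · exact hLN R K F ϖ hϖ t ht hfin n hn hnu V₁ V₂ hTC γ ⟨hγt, hγR, hγR', hγ₁, hγ₂⟩ Q
        u ψ₁ ψ₂ H hψ₁ hψ₂ h1 h2 hH1 hH2 hdiv hrat 𝔫 h𝔫 hnode
        (frobAt_of_fixAt R t 𝔫 h𝔫.1.isPrime γ Q (hFix 𝔫 h𝔫 hnode))
  refine ⟨hL0, ?_⟩
  -- the chart `t⁻¹`
  intro 𝔫 h𝔫
  by_cases hc : ∀ y : Chart R t⁻¹, (y : F) = t⁻¹ → y ∈ 𝔫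
  · exact H25FL.fwLocRegStatement R K F ϖ hϖ t ht hfin n hn hnu V₁ V₂ hTC _ hv1 hv2 hvdiv
      t⁻¹ (Or.inr rfl) 𝔫 h𝔫 (hDinf 𝔫 h𝔫 hc)
  · push_neg at hc
    obtain ⟨y, hy, hy𝔫⟩ := hc
    obtain ⟨𝔫₀, h𝔫₀, hiff⟩ := H20CC.h20cc_chartChange R K F ϖ hϖ t ht hfin 𝔫 h𝔫 ⟨y, hy, hy𝔫⟩
    exact fwLocAt_congr R (fun x hx => (hiff x).1 hx) (hL0 𝔫₀ h𝔫₀)

end H29AK

end
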