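import Mathlib
import Fermat.Agent.S35.FWAsmK_helper29
import Fermat.Agent.S35.FWB2_helper29
import Fermat.Agent.S35.FWGaussDesc_helper29
import Fermat.Agent.S35.FWGenArch_helper1
import Fermat.Agent.S35.FWDefsK_helper17
import Fermat.Agent.S34.DichComp_helper22
import Fermat.Agent.S18.C12bAux_helper7
import Fermat.Agent.S18.C6b_helper4
import Fermat.Agent.S18.C6e_helper9
import Fermat.Agent.S18.C9Final_helper4

/-!
# Item 84 (S35), block FW: the concrete `K₁`-level statement (helper29)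

`H29AK.toricK1_of`: from the slices `H1FW.FWLocNodeStatement`, `H17FW.BranchStatement`,
`H17FW.SigStatement`, `H17FW.RatStatement`, `H4S34.DichStatement`:
there is a number field `K₀` such that for every `K₁ ⊇ K₀` (normal, finite, `ζ_n ∈ K₁`) and every
toric datum `u₁, ψ₁, ψ₂ ∈ F_{K₁}(N'q)` **with unit roots**, `n ∣ div u₁`, `K₁`-rational support,
the base change `u ∈ F̄_{N'q}` of `u₁` satisfies the conclusion of `H17FW.ToricTameStatement`: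
`σ² u = ψⁿ · u ^ (q²)`.

Hypotheses on `u₁, ψ₁, ψ₂` in the Gauss language (`R = descVal A K₁`, `w = H12AL.wqKHom`):
`InG R ψ₁`, `InG R ψ₁⁻¹`, `InG R (w ψ₂)`, `InG R (w ψ₂⁻¹)`, `InGm R (u₁ / ψ₁ⁿ - 1)`,
`InGm R (w (u₁ / ψ₂ⁿ - 1))`  (as produced by `H29B2.fwB2` + `H29GD.unit_desc`).
-/

set_option autoImplicit false
set_option synthInstance.maxHeartbeats 400000
set_option maxHeartbeats 4000000
set_option linter.unusedSectionVars false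
set_option linter.unusedVariables false
set_option linter.style.haveILetI false

noncomputable section

open Polynomial IntermediateField AlgebraicCurve ModularCurve H7S18 H4S34 H1FW H11W3G

namespace H29AK

local notation "Qb" => AlgebraicClosure ℚ

/-- **the concrete `K₁`-level statement** of the FW assembly. -/
theorem toricK1_of (hLN : FWLocNodeStatement) (hBr : H17FW.BranchStatement)
    (hSig : H17FW.SigStatement) (hRat : H17FW.RatStatement) (hDich : DichStatement)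
    (N' q : ℕ) [NeZero N'] [NeZero q] [NeZero (N' * q)] (hq : q.Prime) (hqN : ¬ q ∣ N')
    (htame : TameLevel q N') (n : ℕ) (hn : 0 < n) (hqn : ¬ q ∣ n)
    (A : ValuationSubring Qb) (hA : A.LiesOverPrime q) (σ : GQ) (hσ : A.IsFrobeniusAt σ q) :
    ∃ K₀ : IntermediateField ℚ Qb, FiniteDimensional ℚ K₀ ∧
    ∀ (K₁ : IntermediateField ℚ Qb), K₀ ≤ K₁ → FiniteDimensional ℚ K₁ → Normal ℚ K₁ →
      (∃ ζ : K₁, IsPrimitiveRoot ζ n) →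
      ∀ (u₁ ψ₁ ψ₂ : FK K₁ (N' * q)), ψ₁ ≠ 0 → ψ₂ ≠ 0 →
        H8PB.InG (descVal A K₁) (ψ₁ : LaurentSeries K₁) →
        H8PB.InG (descVal A K₁) ((ψ₁⁻¹ : FK K₁ (N' * q)) : LaurentSeries K₁) →
        H8PB.InG (descVal A K₁)
          ((H12AL.wqKHom K₁ N' q hq hqN ψ₂ : FK K₁ (N' * q)) : LaurentSeries K₁) →
        H8PB.InG (descVal A K₁)
          ((H12AL.wqKHom K₁ N' q hq hqN ψ₂⁻¹ : FK K₁ (N' * q)) : LaurentSeries K₁) →
        H8PB.InGm (descVal A K₁)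
          (((u₁ * (ψ₁ ^ n)⁻¹ - 1 : FK K₁ (N' * q))) : LaurentSeries K₁) →
        H8PB.InGm (descVal A K₁)
          (((H12AL.wqKHom K₁ N' q hq hqN (u₁ * (ψ₂ ^ n)⁻¹ - 1) : FK K₁ (N' * q))) :
            LaurentSeries K₁) →
        (∀ V : Place K₁ (FK K₁ (N' * q)), (n : ℤ) ∣ V.ord u₁) →
        (∀ V : Place K₁ (FK K₁ (N' * q)), V.ord u₁ ≠ 0 → ∀ x : FK K₁ (N' * q), 0 ≤ V.ord x →
          ∃ c : K₁, x = algebraMap K₁ (FK K₁ (N' * q)) c ∨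
            0 < V.ord (x - algebraMap K₁ (FK K₁ (N' * q)) c)) →
        ∀ u : modularFunctionFieldBar (N' * q),
          (u : LaurentSeries Qb) = coeffMap (algebraMap K₁ Qb) (u₁ : LaurentSeries K₁) →
          ∃ ψ : modularFunctionFieldBar (N' * q),
            H17FW.act (N' * q) σ (H17FW.act (N' * q) σ u) = ψ ^ n * u ^ (q ^ 2) := by
  classical
  haveI : Fact q.Prime := ⟨hq⟩
  have hqdvd : q ∣ N' * q := dvd_mul_left q N'
  have hq2 : ¬ q ^ 2 ∣ N' * q := by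
    intro h
    rw [pow_two] at h
    exact hqN ((Nat.mul_dvd_mul_iff_right hq.pos).1 h)
  have hdivq : N' * q / q = N' := Nat.mul_div_cancel _ hq.pos
  have htame' : TameLevel q (N' * q / q) := by rw [hdivq]; exact htame
  obtain ⟨K₀b, hK₀b, hB⟩ := hBr N' q hq hqN htame A hA
  obtain ⟨K₀s, hK₀s, hS⟩ := hSig N' q hq hqN htame A hA
  obtain ⟨K₀r, hK₀r, hR⟩ := hRat N' q hq hqN htame A hA
  obtain ⟨K₀d, hK₀d, hD⟩ := hDich (N' * q) q hqdvd hq2 htame' A hA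
  haveI := hK₀b
  haveI := hK₀s
  haveI := hK₀r
  haveI := hK₀d
  haveI h12 : FiniteDimensional ℚ ↥(K₀b ⊔ K₀s) := IntermediateField.finiteDimensional_sup K₀b K₀s
  haveI h34 : FiniteDimensional ℚ ↥(K₀r ⊔ K₀d) := IntermediateField.finiteDimensional_sup K₀r K₀d
  refine ⟨(K₀b ⊔ K₀s) ⊔ (K₀r ⊔ K₀d), IntermediateField.finiteDimensional_sup _ _, ?_⟩
  intro K₁ hle hK₁fin hnorm hζ' u₁ ψ₁ ψ₂ hψ₁0 hψ₂0 hψ₁ hψ₁' hψ₂ hψ₂' h1 h2 hord hrat u hu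
  obtain ⟨ζ, hζ⟩ := hζ'
  have hleb : K₀b ≤ K₁ := (le_sup_left.trans le_sup_left).trans hle
  have hles : K₀s ≤ K₁ := (le_sup_right.trans le_sup_left).trans hle
  have hler : K₀r ≤ K₁ := (le_sup_left.trans le_sup_right).trans hle
  have hled : K₀d ≤ K₁ := (le_sup_right.trans le_sup_right).trans hle
  -- the base function
  have hi : baseKind q = 1 ∨ (baseKind q = 2 ∧ 2 ∣ N' * q) ∨ (baseKind q = 3 ∧ 3 ∣ N' * q) := by
    rcases h7_baseKind_ok htame with h | h | h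
    · exact Or.inl h
    · exact Or.inr (Or.inl ⟨h.1, Dvd.dvd.mul_right h.2 q⟩)
    · exact Or.inr (Or.inr ⟨h.1, Dvd.dvd.mul_right h.2 q⟩)
  obtain ⟨t₀, ht₀⟩ : ∃ t₀ : LaurentSeries ℚ, IsBase (baseKind q) t₀ := by
    rcases hi with h | h | h
    · exact ⟨jq, Or.inl ⟨h, rfl⟩⟩
    · exact ⟨modularUnitSeries 2, Or.inr (Or.inl ⟨h.1, rfl⟩)⟩
    · obtain ⟨-, t₃, ht₃, -⟩ := H4HM.hauptmodulStatement
      rw [← h.1] at ht₃
      exact ⟨t₃, ht₃⟩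
  -- the DVR
  obtain ⟨hdvr, -, hunit⟩ := H4DVR.dvrStatement q A hA K₁ hK₁fin
  haveI := hdvr
  obtain ⟨ϖ, hϖ⟩ := IsDiscreteValuationRing.exists_irreducible ↥(descVal A K₁)
  obtain ⟨t₁, ht₁coe, ht₁tr, ht₁fin, ht₁const⟩ :=
    H9C6e.fieldBasics (N' * q) (baseKind q) hi t₀ ht₀ K₁
  letI algRF : Algebra ↥(descVal A K₁) (FK K₁ (N' * q)) :=
    ((algebraMap K₁ (FK K₁ (N' * q))).comp (algebraMap ↥(descVal A K₁) K₁)).toAlgebra
  haveI towRF : IsScalarTower ↥(descVal A K₁) K₁ (FK K₁ (N' * q)) :=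
    IsScalarTower.of_algebraMap_eq (fun _ => rfl)
  have hnu : IsUnit ((n : ℕ) : ↥(descVal A K₁)) := hunit n hqn hn
  have hζR : ∃ ζ' : ↥(descVal A K₁), IsPrimitiveRoot ζ' n := by
    have hmem : ζ ∈ descVal A K₁ := h7_mem_of_pow_eq_one _ _ _ hn hζ.pow_eq_one
    refine ⟨⟨ζ, hmem⟩, ?_⟩
    exact IsPrimitiveRoot.of_map_of_injective (f := (descVal A K₁).subtype)
      (by exact hζ) Subtype.val_injective
  -- the slices at `K₁`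
  obtain ⟨V₁, V₂, hV₁, hV₂, hV₁m, hV₂m, hO, hm, ⟨e, -, -, he3, he4⟩, -, -⟩ :=
    hB K₁ hleb hK₁fin hnorm ϖ hϖ t₀ ht₀ t₁ ht₁coe
  obtain ⟨σ₁, hcoeff, hcompat, hσt, hσR, hσR', hσG, hσGm, hσw⟩ :=
    hS K₁ hles hK₁fin hnorm ϖ hϖ t₀ ht₀ t₁ ht₁coe σ hσ
  have hFix := hR K₁ hler hK₁fin hnorm ϖ hϖ t₀ ht₀ t₁ ht₁coe σ hσ σ₁ hcoeff
  obtain ⟨hD0, hDinf⟩ := hD K₁ hled hK₁fin hnorm ϖ hϖ t₀ ht₀ t₁ ht₁coe
  -- `TwoComp`
  have hϖ₁ : V₁.valuation (algebraMap ↥(descVal A K₁) (FK K₁ (N' * q)) ϖ) < 1 :=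
    (hV₁m _).2 (H22DC.inGm_algebraMap (descVal A K₁) hϖ.not_isUnit)
  have hϖ₂ : V₂.valuation (algebraMap ↥(descVal A K₁) (FK K₁ (N' * q)) ϖ) < 1 := by
    refine (hV₂m _).2 ?_
    have e1 : H12AL.wqKHom K₁ N' q hq hqN (algebraMap ↥(descVal A K₁) (FK K₁ (N' * q)) ϖ) =
        algebraMap ↥(descVal A K₁) (FK K₁ (N' * q)) ϖ := by
      rw [IsScalarTower.algebraMap_apply ↥(descVal A K₁) K₁ (FK K₁ (N' * q))]
      exact H12AL.wqKHom_const K₁ N' q hq hqN _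
    rw [e1]
    exact H22DC.inGm_algebraMap (descVal A K₁) hϖ.not_isUnit
  have hTC : TwoComp ↥(descVal A K₁) ϖ t₁ V₁ V₂ :=
    twoComp_of_branch ↥(descVal A K₁) K₁ hϖ ht₁tr V₁ V₂ hO hm ⟨e, he3, he4⟩ hϖ₁ hϖ₂
  -- `FrobLike`
  have hσ₁m : ∀ x : FK K₁ (N' * q), V₁.valuation x < 1 ↔ V₁.valuation (σ₁ x) < 1 :=
    fun x => (hV₁m x).trans ((hσGm x).trans (hV₁m (σ₁ x)).symm)
  have hσ₂m : ∀ x : FK K₁ (N' * q), V₂.valuation x < 1 ↔ V₂.valuation (σ₁ x) < 1 := by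
    intro x
    refine (hV₂m x).trans (((hσGm _).trans ?_).trans (hV₂m (σ₁ x)).symm)
    rw [hσw]
  have hγ : FrobLike ↥(descVal A K₁) t₁ V₁ V₂ (σ₁.trans σ₁) := by
    refine ⟨?_, ?_, ?_, ?_, ?_⟩
    · rw [RingEquiv.trans_apply, hσt, hσt]
    · intro r
      obtain ⟨r₁, hr₁⟩ := hσR r
      obtain ⟨r₂, hr₂⟩ := hσR r₁
      exact ⟨r₂, by rw [RingEquiv.trans_apply, hr₁, hr₂]⟩
    · intro r
      obtain ⟨r₁, hr₁⟩ := hσR' r
      obtain ⟨r₂, hr₂⟩ := hσR' r₁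
      refine ⟨r₂, ?_⟩
      show σ₁.symm (σ₁.symm _) = _
      rw [hr₁, hr₂]
    · intro x
      rw [RingEquiv.trans_apply]
      exact (hσ₁m x).trans (hσ₁m (σ₁ x))
    · intro x
      rw [RingEquiv.trans_apply]
      exact (hσ₂m x).trans (hσ₂m (σ₁ x))
  -- unit roots, toric
  have hψ₁v : V₁.valuation ψ₁ = 1 :=
    H29GD.valuation_eq_one_of_mem V₁ ψ₁ hψ₁0 ((hV₁ ψ₁).2 hψ₁) ((hV₁ ψ₁⁻¹).2 hψ₁')
  have hψ₂v : V₂.valuation ψ₂ = 1 :=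
    H29GD.valuation_eq_one_of_mem V₂ ψ₂ hψ₂0 ((hV₂ ψ₂).2 hψ₂) ((hV₂ ψ₂⁻¹).2 hψ₂')
  obtain ⟨hone1, hone2⟩ := H29B2.one_of_branch N' q hq hqN A K₁ V₁ V₂ hV₁m hV₂m n u₁ ψ₁ ψ₂ h1 h2
  -- the generic core
  obtain ⟨c, g, hc0, hcg⟩ := fwCore hLN ↥(descVal A K₁) K₁ (FK K₁ (N' * q)) ϖ hϖ t₁ ht₁tr
    ht₁fin ht₁const n hn hnu hζR V₁ V₂ hTC (σ₁.trans σ₁) hγ (q ^ 2) u₁ ψ₁ ψ₂ hψ₁v hψ₂v
    hone1 hone2 hord hrat hD0 hDinf (fun 𝔫 h𝔫 hnode => hFix 𝔫 h𝔫 hnode)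
  exact H29B2.toric_ascent (N' * q) K₁ σ σ₁ hcompat n hn (q ^ 2) u u₁ hu c g hcg

end H29AK

end
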