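import Mathlib
import Fermat.Agent.S35.FWAsmK1_helper29
import Fermat.Agent.S35.FWB2UDefs_helper5

/-!
# Item 84 (S35), block FW: the top level of the assembly (helper11)

`H11TT.toricTame_of`: `H17FW.ToricTameStatement` from

* the `K₁`-level core `H29AK.toricK1_of` (helper29; on FW-GEN helper1, FW-LOC-REG helper25,
  ChartChange helper20, ORD-GAMMA helper11), which consumes the leaves
  `H1FW.FWLocNodeStatement`, `H17FW.BranchStatement`, `H17FW.SigStatement`,
  `H17FW.RatStatement`, `H4S34.DichStatement`;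
* the two-stage descent with unit roots `H5UR.FwB2UStatement` (helper5) and `H5UR.toricBack`.
-/

set_option autoImplicit false

noncomputable section

open H11W3G ModularCurve AlgebraicCurve H7S18

namespace H11TT

/-- **(TORIC-TAME)** from the leaves. -/
theorem toricTame_of (hLN : H1FW.FWLocNodeStatement) (hBr : H17FW.BranchStatement)
    (hSig : H17FW.SigStatement) (hRat : H17FW.RatStatement) (hDich : H4S34.DichStatement)
    (hB2U : H5UR.FwB2UStatement) : H17FW.ToricTameStatement := by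
  intro N' q _ _ _ hq hqN hT n hn hqn A hA σ hσ u hu0 hdiv htor
  obtain ⟨K₀, hK₀, h⟩ :=
    H29AK.toricK1_of hLN hBr hSig hRat hDich N' q hq hqN hT n hn hqn A hA σ hσ
  obtain ⟨z, K₁, hK₁, u₁, ψ₁, ψ₂, hz, hle, hnorm, hζ, hcoe, -, hψ₁, hψ₂, hord, hrat, hm1, hm2,
    -, -, -, -, hp1, hp1', hp2, hp2'⟩ := hB2U N' q hq hqN hT n hn A hA u hu0 hdiv htor K₀ hK₀
  exact H5UR.toricBack (N' * q) σ n (q ^ 2) u z hz
    (h K₁ hle hK₁ hnorm hζ u₁ ψ₁ ψ₂ hψ₁ hψ₂ hp1 hp1' hp2 hp2' hm1 hm2 hord hrat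
      (u * (z ^ n)⁻¹) hcoe)

end H11TT

end
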