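import Mathlib
import Fermat.Agent.S35.Final_helper11
import Fermat.Agent.S35.ToricTame_helper11
import Fermat.Agent.S35.FWB2U_helper5
import Fermat.Agent.S35.FWCompFinal_helper10
import Fermat.Agent.S35.FWSigFinal_helper3
import Fermat.Agent.S35.FWKron_helper16
import Fermat.Agent.S34.Chain4_helper4

/-!
# Item 84 (S35): final wiring, second part (helper11)

`h11s35_final2 : H1FW.FWLocNodeStatement → H26DI.CompUnif1Statement →` (the statement of `S35`).
All other leaves are landed: Branch (helper10), Sig (helper3), Rat (helper16 + helper5, on ResComp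
and Cusp0), B2U (helper5), the `K₁`-core (helper29), FW-GEN (helper1), FW-LOC-REG (helper25),
the S34 leaves CompUnif2, CompTransv, CompVert, CompCusp, CompCusp0, ResComp.
-/

set_option autoImplicit false
set_option linter.style.longLine false

open Polynomial

noncomputable section

namespace H11S35

/-- (DICH) from the last S34 leaf `CompUnif1`. -/
theorem h11_dich_of_compUnif1 (cu1 : H26DI.CompUnif1Statement) : H4S34.DichStatement :=
  H4S34.dich_of_comp cu1 (H26WT.compUnif2_of_unif1 H8PB.h8pg_pairGauss cu1)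
    (H12TC.compTransv' H8PB.h8pg_pairGauss cu1 H4S34.resCompStatement H7C0.compCusp0Statement)
    (H15V.compVert H7C0.compCusp0Statement) H7C0.compCuspStatement

/-- (FW-RAT), unconditional. -/
theorem h11_ratStatement : H17FW.RatStatement :=
  H16FR.h16fr_rat' H8PB.h8pg_pairGauss H4S34.resCompStatement H7C0.compCusp0Statement

/-- (TORIC-TAME) from the two open leaves. -/
theorem h11_toricTame_of (hLN : H1FW.FWLocNodeStatement) (cu1 : H26DI.CompUnif1Statement) :
    H17FW.ToricTameStatement :=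
  H11TT.toricTame_of hLN H10FC.branchStatement H3SIG.sigStatement h11_ratStatement
    (h11_dich_of_compUnif1 cu1) (H5UR.fwB2U H10FC.branchStatement)

/-- **S35** from the two open leaves. -/
theorem h11s35_final2 (hLN : H1FW.FWLocNodeStatement) (cu1 : H26DI.CompUnif1Statement)

    {M : ℕ} [NeZero M] {g : CuspForm (CongruenceSubgroup.Gamma0 M) 2} (hg : g.IsNewform)
    (lam : ℕ) [Fact lam.Prime]
    (S : Finset ℕ)
    (O' : Type) [CommRing O'] [IsDomain O'] [IsDiscreteValuationRing O']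
    [IsAdicComplete (IsLocalRing.maximalIdeal O') O'] [Finite (IsLocalRing.ResidueField O')]
    [CharZero O'] (hlamO' : (lam : O') ∈ IsLocalRing.maximalIdeal O')
    (chig : CuspForm.heckeAlgebra M 2 (↑S : Set ℕ) →+* ℂ)
    (hchig : ∀ (ℓ : ℕ) (hℓ : ℓ.Prime) (hℓM : ¬ ℓ ∣ M) (hℓS : ℓ ∉ (↑S : Set ℕ)),
      chig (CuspForm.heckeAlgebra.T hℓ hℓM hℓS) = ModularFormClass.qCoeff g ℓ)
    (iota : chig.range →+* O')
    (hlamS : lam ∈ S) (hMS : ∀ q : ℕ, q.Prime → q ∣ M → q ∈ S)
    :
    ∃ (O'' : Type) (_ : CommRing O'') (_ : IsDomain O'') (_ : IsDiscreteValuationRing O'')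
      (_ : IsAdicComplete (IsLocalRing.maximalIdeal O'') O'') (_ : Finite (IsLocalRing.ResidueField O''))
      (_ : CharZero O'') (_ : Algebra O' O'') (_ : Module.Finite O' O'') (_ : IsLocalHom (algebraMap O' O'')),
      Function.Injective (algebraMap O' O'') ∧
      ∃ ρ : GaloisRepAdic O'',
        (∀ (ℓ : ℕ) (hℓ : ℓ.Prime) (hℓM : ¬ ℓ ∣ M) (hℓS : ℓ ∉ (↑S : Set ℕ)),
          ∀ A : ValuationSubring (AlgebraicClosure ℚ), A.LiesOverPrime ℓ →
            ∀ σ : AlgebraicClosure ℚ ≃ₐ[ℚ] AlgebraicClosure ℚ, A.IsFrobeniusAt σ ℓ →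
              LinearMap.charpoly (ρ.ρ σ) =
                X ^ 2 - C (algebraMap O' O'' ((iota.comp chig.rangeRestrict) (CuspForm.heckeAlgebra.T hℓ hℓM hℓS))) * X
                  + C ((ℓ : O''))) ∧
        (∀ q : ℕ, q.Prime → q ≠ lam → q ∣ M → ¬ q ^ 2 ∣ M →
          ∀ A : ValuationSubring (AlgebraicClosure ℚ), A.LiesOverPrime q →
            ∀ σ : AlgebraicClosure ℚ ≃ₐ[ℚ] AlgebraicClosure ℚ, A.IsFrobeniusAt σ q →
              LinearMap.charpoly (ρ.ρ σ) = X ^ 2 - C ((q : O'') + 1) * X + C ((q : O'')) ∨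
              LinearMap.charpoly (ρ.ρ σ) = X ^ 2 + C ((q : O'') + 1) * X + C ((q : O''))) :=
  h11s35_final (h11_toricTame_of hLN cu1) hg lam S O' hlamO' chig hchig iota hlamS hMS

end H11S35

end
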