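import Mathlib
import Fermat.Agent.S35.Final2_helper11
import Fermat.Agent.S35.FWLocNodeWire_helper20
import Fermat.Agent.S35.NodeBridge_helper1
import Fermat.Agent.S35.FWLocNodeLNC_helper13

/-!
# Item 84 (S35): final wiring, third part (helper11)

`h11s35_final3 : H26DI.CompUnif1Statement →` (the statement of `S35`): the only open leaf is the
last leaf of S34.  FW-LOC-NODE = bridge (helper1) + LNC (c) (helper13) + wiring (helper20).
-/

set_option autoImplicit false
set_option linter.style.longLine false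

open Polynomial

noncomputable section

namespace H11S35

/-- (FW-LOC-NODE), unconditional. -/
theorem h11_fwLocNode : H1FW.FWLocNodeStatement :=
  H20FW.fwLocNode_of H1FW.nodeBridgeStatement H13LN.lnccStatement

/-- (TORIC-TAME) from the last leaf. -/
theorem h11_toricTame_of_compUnif1 (cu1 : H26DI.CompUnif1Statement) :
    H17FW.ToricTameStatement :=
  h11_toricTame_of h11_fwLocNode cu1

/-- **S35** from the last leaf `CompUnif1`. -/
theorem h11s35_final3 (cu1 : H26DI.CompUnif1Statement)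

    {M : ℕ} [NeZero M] {g : CuspForm (CongruenceSubgroup.Gamma0 M) 2} (hg : g.IsNewform)
    (lam : ℕ) [Fact lam.Prime]
    (S : Finset ℕ)
    (O' : Type) [CommRing O'] [IsDomain O'] [IsDiscreteValuationRing O']
    [IsAdicComplete (IsLocalRing.maximalIdeal O') O'] [Finite (IsLocalRing.ResidueField O')]
    [CharZero O'] (hlamO' : (lam : O') ∈ IsLocalRing.maximalIdeal O')
    (chig : CuspForm.heckeAlgebra M 2 (↑S : Set ℕ) →+* ℂ)
    (hchig : ∀ (ℓ : ℕ) (hℓ : ℓ.Prime) (hℓM : ¬ ℓ ∣ M) (hℓS : ℓ ∉ (↑S : Set ℕ)),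
      chig (CuspForm.heckeAlgebra.T hℓ hℓM hℓS) = ModularFormClass.qCoeff g ℓ)
    (iota : chig.range →+* O')
    (hlamS : lam ∈ S) (hMS : ∀ q : ℕ, q.Prime → q ∣ M → q ∈ S)
    :
    ∃ (O'' : Type) (_ : CommRing O'') (_ : IsDomain O'') (_ : IsDiscreteValuationRing O'')
      (_ : IsAdicComplete (IsLocalRing.maximalIdeal O'') O'') (_ : Finite (IsLocalRing.ResidueField O''))
      (_ : CharZero O'') (_ : Algebra O' O'') (_ : Module.Finite O' O'') (_ : IsLocalHom (algebraMap O' O'')),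
      Function.Injective (algebraMap O' O'') ∧
      ∃ ρ : GaloisRepAdic O'',
        (∀ (ℓ : ℕ) (hℓ : ℓ.Prime) (hℓM : ¬ ℓ ∣ M) (hℓS : ℓ ∉ (↑S : Set ℕ)),
          ∀ A : ValuationSubring (AlgebraicClosure ℚ), A.LiesOverPrime ℓ →
            ∀ σ : AlgebraicClosure ℚ ≃ₐ[ℚ] AlgebraicClosure ℚ, A.IsFrobeniusAt σ ℓ →
              LinearMap.charpoly (ρ.ρ σ) =
                X ^ 2 - C (algebraMap O' O'' ((iota.comp chig.rangeRestrict) (CuspForm.heckeAlgebra.T hℓ hℓM hℓS))) * X
                  + C ((ℓ : O''))) ∧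
        (∀ q : ℕ, q.Prime → q ≠ lam → q ∣ M → ¬ q ^ 2 ∣ M →
          ∀ A : ValuationSubring (AlgebraicClosure ℚ), A.LiesOverPrime q →
            ∀ σ : AlgebraicClosure ℚ ≃ₐ[ℚ] AlgebraicClosure ℚ, A.IsFrobeniusAt σ q →
              LinearMap.charpoly (ρ.ρ σ) = X ^ 2 - C ((q : O'') + 1) * X + C ((q : O'')) ∨
              LinearMap.charpoly (ρ.ρ σ) = X ^ 2 + C ((q : O'') + 1) * X + C ((q : O''))) :=
  h11s35_final2 h11_fwLocNode cu1 hg lam S O' hlamO' chig hchig iota hlamS hMS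

end H11S35

end
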