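/-
Item 82 / S35, slice (c) = (A2') "norm compatibility of the reductions" (helper13), Mathlib-only core.

Setting: `R` a local ring (the valuation ring of the Gauss valuation `v` of `F_M`), `S` a finite free
`R`-algebra (the integral closure of `R` in `F_N`), residue maps `r : R → κ`, `r₁ : S → κ₁`, `r₂ : S → κ₂`
onto fields with `𝔪_R S = ker r₁ ⊓ ker r₂` (`w₁, w₂` are the only extensions of `v`, `e = 1`). Then

* `H13A2.norm_residue` : `r (N_{S/R} x) = N_{κ₁/κ}(r₁ x) · N_{κ₂/κ}(r₂ x)`;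
* `H13A2.norm_eq_pow_of_insep` : `N_{κ₂/κ}(y) = y^q` if `[κ₂ : κ] = q = char κ` and `κ₂^q ⊆ κ`;
* `H13A2.norm_residue_insep` : for `κ₁ = κ`:  `r (N x) = r₁ x · c`, `c = (r₂ x)^q` in `κ₂`
  (local norms: identity at `w₁`, `x ↦ x^q` at `w₂`).
Namespace `H13A2`.
-/
import Mathlib

set_option autoImplicit false

namespace H13A2

open IsLocalRing

section quotient

variable {R S : Type*} [CommRing R] [CommRing S] [Algebra R S]

local notation "p" => maximalIdeal R
local notation "pS" => Ideal.map (algebraMap R S) p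

/-- the norm commutes with the reduction modulo the maximal ideal -/
theorem norm_quotient_mk [IsLocalRing R] [Module.Free R S] [Module.Finite R S] (x : S) :
    Algebra.norm (R ⧸ p) (Ideal.Quotient.mk pS x) = Ideal.Quotient.mk p (Algebra.norm R x) := by
  classical
  let ι := Module.Free.ChooseBasisIndex R S
  let b : Module.Basis ι R S := Module.Free.chooseBasis R S
  rw [Algebra.norm_eq_matrix_det b, Algebra.norm_eq_matrix_det (basisQuotient b), RingHom.map_det]
  congr 1
  ext i j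
  simp only [Algebra.leftMulMatrix_apply, Algebra.coe_lmul_eq_mul, LinearMap.toMatrix_apply,
    basisQuotient_apply, LinearMap.mul_apply', RingHom.mapMatrix_apply, Matrix.map_apply, ← map_mul,
    basisQuotient_repr]

end quotient

/-- the norm of a product algebra -/
theorem norm_prod {R S T : Type*} [CommRing R] [CommRing S] [CommRing T] [Algebra R S] [Algebra R T]
    [Module.Free R S] [Module.Free R T] [Module.Finite R S] [Module.Finite R T] (s : S) (t : T) :
    Algebra.norm R ((s, t) : S × T) = Algebra.norm R s * Algebra.norm R t := by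
  rw [Algebra.norm_apply, Algebra.norm_apply, Algebra.norm_apply, ← LinearMap.det_prodMap]
  congr 1

/-- the norm of a purely inseparable extension of degree `q = char` is `y ↦ y ^ q` -/
theorem norm_eq_pow_of_insep {k K : Type*} [Field k] [Field K] [Algebra k K] (q : ℕ)
    [hq : Fact q.Prime] [CharP k q] (hdeg : Module.finrank k K = q)
    (hpi : ∀ y : K, y ^ q ∈ (algebraMap k K).range) (y : K) :
    algebraMap k K (Algebra.norm k y) = y ^ q := by
  obtain ⟨a, ha⟩ := hpi y
  have h1 : Algebra.norm k y ^ q = a ^ q := by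
    rw [← map_pow, ← ha, Algebra.norm_algebraMap, hdeg]
  have h2 : (Algebra.norm k y - a) ^ q = 0 := by
    rw [sub_pow_char, h1, sub_self]
  have h3 : Algebra.norm k y = a := sub_eq_zero.mp (pow_eq_zero_iff (hq.out.ne_zero) |>.mp h2)
  rw [h3, ha]

section main

variable {R S κ κ₁ κ₂ : Type*} [CommRing R] [IsLocalRing R] [CommRing S] [Algebra R S]
  [Module.Free R S] [Module.Finite R S] [Field κ] [Field κ₁] [Field κ₂] [Algebra κ κ₁] [Algebra κ κ₂]
  [Module.Finite κ κ₁] [Module.Finite κ κ₂]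

/-- **norm compatibility of the reductions**: `r (N_{S/R} x) = N_{κ₁/κ}(r₁ x) · N_{κ₂/κ}(r₂ x)` if
`𝔪_R S = ker r₁ ⊓ ker r₂`, `ker r₁ ≠ ker r₂`. -/
theorem norm_residue (r : R →+* κ) (hr : Function.Surjective r)
    (r₁ : S →+* κ₁) (hr₁ : Function.Surjective r₁) (r₂ : S →+* κ₂) (hr₂ : Function.Surjective r₂)
    (h₁ : ∀ a, r₁ (algebraMap R S a) = algebraMap κ κ₁ (r a))
    (h₂ : ∀ a, r₂ (algebraMap R S a) = algebraMap κ κ₂ (r a))
    (hker : Ideal.map (algebraMap R S) (maximalIdeal R) = RingHom.ker r₁ ⊓ RingHom.ker r₂)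
    (hne : RingHom.ker r₁ ≠ RingHom.ker r₂) (x : S) :
    r (Algebra.norm R x) = Algebra.norm κ (r₁ x) * Algebra.norm κ (r₂ x) := by
  -- `ker r = 𝔪`
  have hkr : RingHom.ker r = maximalIdeal R := by
    have : (RingHom.ker r).IsMaximal := RingHom.ker_isMaximal_of_surjective r hr
    exact IsLocalRing.eq_maximalIdeal inferInstance
  -- `R ⧸ 𝔪 ≃ κ`
  let e₁ : (R ⧸ maximalIdeal R) ≃+* κ :=
    (Ideal.quotEquivOfEq hkr.symm).trans (RingHom.quotientKerEquivOfSurjective hr)
  have he₁ : ∀ a : R, e₁ (Ideal.Quotient.mk _ a) = r a := fun a => rfl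
  -- `S ⧸ 𝔪 S ≃ κ₁ × κ₂`
  let g : S →+* κ₁ × κ₂ := r₁.prod r₂
  have m₁ : (RingHom.ker r₁).IsMaximal := RingHom.ker_isMaximal_of_surjective r₁ hr₁
  have m₂ : (RingHom.ker r₂).IsMaximal := RingHom.ker_isMaximal_of_surjective r₂ hr₂
  have hcop : IsCoprime (RingHom.ker r₁) (RingHom.ker r₂) :=
    Ideal.isCoprime_of_isMaximal hne
  have hg : Function.Surjective g := by
    rintro ⟨a, b⟩
    obtain ⟨s, rfl⟩ := hr₁ a
    obtain ⟨t, rfl⟩ := hr₂ b
    obtain ⟨u, hu, v, hv, huv⟩ := Ideal.isCoprime_iff_exists.mp hcop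
    have hu' : r₁ u = 0 := hu
    have hv' : r₂ v = 0 := hv
    have hv1 : r₁ v = 1 := by
      have := congrArg r₁ huv
      rwa [map_add, hu', zero_add, map_one] at this
    have hu1 : r₂ u = 1 := by
      have := congrArg r₂ huv
      rwa [map_add, hv', add_zero, map_one] at this
    refine ⟨s * v + t * u, ?_⟩
    show (r₁ (s * v + t * u), r₂ (s * v + t * u)) = (r₁ s, r₂ t)
    rw [map_add, map_add, map_mul, map_mul, map_mul, map_mul, hu', hv', hv1, hu1]
    simp
  have hgk : RingHom.ker g = Ideal.map (algebraMap R S) (maximalIdeal R) := by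
    rw [hker]
    ext s
    simp only [RingHom.mem_ker, Ideal.mem_inf]
    show (r₁ s, r₂ s) = 0 ↔ _
    rw [Prod.mk_eq_zero]
  let e₂ : (S ⧸ Ideal.map (algebraMap R S) (maximalIdeal R)) ≃+* κ₁ × κ₂ :=
    (Ideal.quotEquivOfEq hgk.symm).trans (RingHom.quotientKerEquivOfSurjective hg)
  have he₂ : ∀ s : S, e₂ (Ideal.Quotient.mk _ s) = (r₁ s, r₂ s) := fun s => rfl
  have hcomp : RingHom.comp (algebraMap κ (κ₁ × κ₂)) (e₁ : (R ⧸ maximalIdeal R) →+* κ) =
      RingHom.comp (e₂ : _ →+* κ₁ × κ₂)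
        (algebraMap (R ⧸ maximalIdeal R) (S ⧸ Ideal.map (algebraMap R S) (maximalIdeal R))) := by
    ext a
    · show (algebraMap κ (κ₁ × κ₂) (r a)).1 = (r₁ (algebraMap R S a), r₂ (algebraMap R S a)).1
      rw [h₁]
      rfl
    · show (algebraMap κ (κ₁ × κ₂) (r a)).2 = (r₁ (algebraMap R S a), r₂ (algebraMap R S a)).2
      rw [h₂]
      rfl
  have key := Algebra.norm_eq_of_equiv_equiv e₁ e₂ hcomp (Ideal.Quotient.mk _ x)
  rw [norm_quotient_mk, he₂, norm_prod] at key
  have := congrArg e₁ key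
  rw [he₁, RingEquiv.apply_symm_apply] at this
  exact this

/-- **(A2') core**: `κ₁ = κ` (local norm = identity) and `κ₂ / κ` purely inseparable of degree
`q = char κ` (local norm = `q`-th power):  `r (N x) = r₁ x · c` with `c = (r₂ x) ^ q` in `κ₂`. -/
theorem norm_residue_insep (q : ℕ) [Fact q.Prime] [CharP κ q]
    (r : R →+* κ) (hr : Function.Surjective r)
    (r₁ : S →+* κ) (hr₁ : Function.Surjective r₁) (r₂ : S →+* κ₂) (hr₂ : Function.Surjective r₂)
    (h₁ : ∀ a, r₁ (algebraMap R S a) = r a)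
    (h₂ : ∀ a, r₂ (algebraMap R S a) = algebraMap κ κ₂ (r a))
    (hker : Ideal.map (algebraMap R S) (maximalIdeal R) = RingHom.ker r₁ ⊓ RingHom.ker r₂)
    (hne : RingHom.ker r₁ ≠ RingHom.ker r₂)
    (hdeg : Module.finrank κ κ₂ = q) (hpi : ∀ y : κ₂, y ^ q ∈ (algebraMap κ κ₂).range) (x : S) :
    ∃ c : κ, algebraMap κ κ₂ c = r₂ x ^ q ∧ r (Algebra.norm R x) = r₁ x * c := by
  refine ⟨Algebra.norm κ (r₂ x), norm_eq_pow_of_insep q hdeg hpi (r₂ x), ?_⟩
  have h := norm_residue (κ₁ := κ) r hr r₁ hr₁ r₂ hr₂ (fun a => by rw [h₁]; rfl) h₂ hker hne x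
  rw [h, Algebra.norm_self]
  rfl

end main

end H13A2
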