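import Mathlib
import Fermat.Agent.S35.FWDefsK_helper17
import Fermat.Agent.S34.Descent_helper29
import Fermat.Agent.S34.Tau_helper3
import Fermat.Agent.S34.ALqK_helper12
import Fermat.Agent.S18.C6f_helper1

/-!
# Item 82b (S35), block FW: assembly, part I (helper17)

`H17FW.ToricK1Statement`: the `K₁`-level form of (TORIC): over a large number field `K₁`,
normal over `ℚ` and containing the `n`-th roots of unity, for `u₁ ∈ F₁ = FK K₁ (N' q)` with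
`n ∣ div u₁`, `K₁`-rational support and toric data `ψ₁, ψ₂` (in the Gauss language
`H8PB.InGm`), `σ₁² u₁ = c gⁿ u₁^{q²}` with a constant `c ∈ K₁`.

`H17FW.toricTame_of_K1 : ToricK1Statement → ToricDescStatement → ToricTameStatement`:
descent of `u, ψ₁, ψ₂` (`H29DS.descent_finset`), the coefficientwise Frobenius
`H3TAU.tau1`, toric descent, and transfer back to `ℚ̄` (constants are `n`-th powers).
-/

set_option autoImplicit false
set_option linter.style.haveILetI false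
set_option linter.unusedVariables false
set_option synthInstance.maxHeartbeats 400000
set_option maxHeartbeats 4000000

noncomputable section

open Polynomial IntermediateField AlgebraicCurve ModularCurve H7S18 H11W3G

namespace H17FW

/-- **(TORIC) at the `K₁`-level.** -/
def ToricK1Statement : Prop :=
  ∀ (N' : ℕ) [NeZero N'] (q : ℕ) [NeZero q] (hq : q.Prime) (hqN : ¬ q ∣ N')
    (_ : TameLevel q N')
    (A : ValuationSubring (AlgebraicClosure ℚ)) (_ : A.LiesOverPrime q),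
    ∃ K₀ : IntermediateField ℚ (AlgebraicClosure ℚ), FiniteDimensional ℚ K₀ ∧
    ∀ (K₁ : IntermediateField ℚ (AlgebraicClosure ℚ)) (_ : K₀ ≤ K₁) (_ : FiniteDimensional ℚ K₁)
      (_ : Normal ℚ K₁)
      (n : ℕ) (_ : 0 < n) (_ : ¬ q ∣ n) (_ : ∃ ζ : K₁, IsPrimitiveRoot ζ n)
      (σ : GQ) (_ : A.IsFrobeniusAt σ q)
      (σ₁ : FK K₁ (N' * q) ≃+* FK K₁ (N' * q)) (_ : IsCoeffAct K₁ (N' * q) σ σ₁)
      (u ψ₁ ψ₂ : FK K₁ (N' * q)) (_ : u ≠ 0) (_ : ψ₁ ≠ 0) (_ : ψ₂ ≠ 0)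
      (_ : ∀ V : Place K₁ (FK K₁ (N' * q)), (n : ℤ) ∣ V.ord u)
      (_ : ∀ V : Place K₁ (FK K₁ (N' * q)), V.ord u ≠ 0 → ∀ x : FK K₁ (N' * q), 0 ≤ V.ord x →
        ∃ c : K₁, x = algebraMap K₁ (FK K₁ (N' * q)) c ∨
          0 < V.ord (x - algebraMap K₁ (FK K₁ (N' * q)) c))
      (_ : H8PB.InGm (descVal A K₁)
        (((u * (ψ₁ ^ n)⁻¹ - 1 : FK K₁ (N' * q))) : LaurentSeries K₁))
      (_ : H8PB.InGm (descVal A K₁)
        (((H12AL.wqKHom K₁ N' q hq hqN (u * (ψ₂ ^ n)⁻¹) - 1 : FK K₁ (N' * q))) :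
          LaurentSeries K₁)),
      ∃ (c : K₁) (g : FK K₁ (N' * q)),
        σ₁ (σ₁ u) = algebraMap K₁ (FK K₁ (N' * q)) c * g ^ n * u ^ (q ^ 2)

/-- **Assembly, part I**: the `K₁`-level statement gives (TORIC) at tame levels over `ℚ̄`. -/
theorem toricTame_of_K1 (hK : ToricK1Statement) (hTD : ToricDescStatement) :
    ToricTameStatement := by
  classical
  intro N' q _ _ _ hq hqN hT n hn hqn A hA σ hσ u hu hdiv htor
  obtain ⟨ψ₁, ψ₂, hψ₁, hψ₂, h1, h2⟩ := htor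
  haveI : Fact q.Prime := ⟨hq⟩
  obtain ⟨K₀, hK₀, hK1⟩ := hK N' q hq hqN hT A hA
  obtain ⟨K₁, hK₁fin, u₁, hle, hnorm, hζ, hu₁, hord, hrat, hTT⟩ :=
    H29DS.descent_finset (N' * q) n hn u hu hdiv K₀ hK₀ {ψ₁, ψ₂}
  haveI := hnorm
  haveI := hK₁fin
  -- base change
  obtain ⟨φ, hφcoe, -⟩ : ∃ φ : FK K₁ (N' * q) →+* ↥(modularFunctionFieldBar (N' * q)),
      (∀ x : FK K₁ (N' * q),
        ((φ x : modularFunctionFieldBar (N' * q)) : LaurentSeries (AlgebraicClosure ℚ)) =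
        coeffMap (algebraMap K₁ (AlgebraicClosure ℚ)) (x : LaurentSeries K₁)) ∧
      ∀ y : modularFunctionFieldBar (N' * q), φ.IsIntegralElem y :=
    H1S18.baseChange (N' * q) K₁
  have hφinj : Function.Injective φ := φ.injective
  have hφu : φ u₁ = u := Subtype.ext (by rw [hφcoe, hu₁])
  obtain ⟨ψ₁₁, hψ₁₁⟩ : ∃ y : FK K₁ (N' * q), φ y = ψ₁ := by
    obtain ⟨y, hy⟩ := hTT ψ₁ (by simp)
    refine ⟨y, Subtype.ext ?_⟩
    rw [hφcoe, ← hy, H29R2M.phi_coe]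
  obtain ⟨ψ₂₁, hψ₂₁⟩ : ∃ y : FK K₁ (N' * q), φ y = ψ₂ := by
    obtain ⟨y, hy⟩ := hTT ψ₂ (by simp)
    refine ⟨y, Subtype.ext ?_⟩
    rw [hφcoe, ← hy, H29R2M.phi_coe]
  have hu₁0 : u₁ ≠ 0 := by
    rintro rfl
    exact hu (by rw [← hφu, map_zero])
  have hψ₁₁0 : ψ₁₁ ≠ 0 := by
    rintro rfl
    exact hψ₁ (by rw [← hψ₁₁, map_zero])
  have hψ₂₁0 : ψ₂₁ ≠ 0 := by
    rintro rfl
    exact hψ₂ (by rw [← hψ₂₁, map_zero])
  -- the coefficientwise Frobenius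
  set σ₁ : FK K₁ (N' * q) ≃+* FK K₁ (N' * q) := H3TAU.tau1 K₁ (N' * q) σ with hσ₁
  have hact : IsCoeffAct K₁ (N' * q) σ σ₁ :=
    ⟨((H3TAU.resK K₁ σ : K₁ ≃ₐ[ℚ] K₁) : K₁ →+* K₁), fun c => H3TAU.resK_commutes K₁ σ c,
      fun x => H3TAU.coe_tau1 K₁ (N' * q) σ x⟩
  have hcompat : ∀ x : FK K₁ (N' * q), φ (σ₁ x) = act (N' * q) σ (φ x) := fun x =>
    H3TAU.h3tau_compat K₁ (N' * q) σ φ hφcoe x
  -- toric descent
  have ht1 : H8PB.InGm (descVal A K₁)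
      (((u₁ * (ψ₁₁ ^ n)⁻¹ - 1 : FK K₁ (N' * q))) : LaurentSeries K₁) := by
    refine hTD (N' * q) q A hA K₁ hK₁fin (u₁ * (ψ₁₁ ^ n)⁻¹) (u * (ψ₁ ^ n)⁻¹) ?_ h1
    rw [← hφcoe, map_mul, map_inv₀, map_pow, hφu, hψ₁₁]
  have ht2 : H8PB.InGm (descVal A K₁)
      (((H12AL.wqKHom K₁ N' q hq hqN (u₁ * (ψ₂₁ ^ n)⁻¹) - 1 : FK K₁ (N' * q))) :
        LaurentSeries K₁) := by
    refine hTD (N' * q) q A hA K₁ hK₁fin (H12AL.wqKHom K₁ N' q hq hqN (u₁ * (ψ₂₁ ^ n)⁻¹))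
      (H12AL.wqBar N' q hq hqN (u * (ψ₂ ^ n)⁻¹)) ?_ h2
    have e1 : H12AL.phiK K₁ (N' * q) (u₁ * (ψ₂₁ ^ n)⁻¹) = u * (ψ₂ ^ n)⁻¹ := by
      apply Subtype.ext
      rw [H12AL.coe_phiK, ← hφcoe, map_mul, map_inv₀, map_pow, hφu, hψ₂₁]
    rw [H12AL.wqBar_apply, ← e1, ← H12AL.phiK_wqKHom, H12AL.coe_phiK]
  -- the `K₁`-level statement
  obtain ⟨c, g, hcg⟩ := hK1 K₁ hle hK₁fin hnorm n hn hqn hζ σ hσ σ₁ hact u₁ ψ₁₁ ψ₂₁ hu₁0 hψ₁₁0
    hψ₂₁0 hord hrat ht1 ht2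
  -- transfer to `ℚ̄`
  have hσσ : φ (σ₁ (σ₁ u₁)) = act (N' * q) σ (act (N' * q) σ u) := by
    rw [hcompat, hcompat, hφu]
  have hφc : φ (algebraMap K₁ (FK K₁ (N' * q)) c) =
      algebraMap (AlgebraicClosure ℚ) (modularFunctionFieldBar (N' * q))
        (algebraMap K₁ (AlgebraicClosure ℚ) c) := by
    apply Subtype.ext
    rw [hφcoe]
    show coeffMap (algebraMap K₁ (AlgebraicClosure ℚ)) (algebraMap K₁ (LaurentSeries K₁) c) =
      algebraMap (AlgebraicClosure ℚ) (LaurentSeries (AlgebraicClosure ℚ))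
        (algebraMap K₁ (AlgebraicClosure ℚ) c)
    rw [algebraMap_laurentSeries_eq_single, algebraMap_laurentSeries_eq_single, coeffMap_single]
  obtain ⟨d, hd⟩ := IsAlgClosed.exists_pow_nat_eq (algebraMap K₁ (AlgebraicClosure ℚ) c) hn
  refine ⟨algebraMap (AlgebraicClosure ℚ) (modularFunctionFieldBar (N' * q)) d * φ g, ?_⟩
  rw [← hσσ, hcg, map_mul, map_mul, map_pow, map_pow, hφc, ← hd, map_pow, hφu, mul_pow]

end H17FW

end
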