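import Mathlib
import Fermat.Agent.S35.FWB2_helper29

/-!
# Item 84 (S35), block FW: (FW-B2) with explicit roots (helper29)

`H29B2.fwB2_roots`: as `H29B2.fwB2`, but the roots `ψ₁b, ψ₂b` of the toric function are given
explicitly, the `K₁`-level roots are their descents (`phi ψ_i = ψ_ib`), and finitely many extra
functions `T` descend to `K₁` as well.  (For the 2-stage descent with unit roots.)
-/

set_option autoImplicit false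
set_option synthInstance.maxHeartbeats 400000
set_option maxHeartbeats 1000000
set_option linter.unusedSectionVars false
set_option linter.unusedVariables false
set_option linter.style.haveILetI false

noncomputable section

open H11W3G ModularCurve AlgebraicCurve H7S18 H28GV H29R2M

namespace H29B2

local notation "Qb" => AlgebraicClosure ℚ

/-- **(FW-B2) with explicit roots** and finitely many extra functions `T`: the `K₁`-level roots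
are descents of the given roots `ψ₁b`, `ψ₂b`, and every `y ∈ T` descends to `K₁`. -/
theorem fwB2_roots (N' q : ℕ) [NeZero N'] [NeZero q] [NeZero (N' * q)] (hq : q.Prime)
    (hqN : ¬ q ∣ N') (n : ℕ) (hn : 0 < n)
    (A : ValuationSubring Qb) (hA : A.LiesOverPrime q)
    (u : modularFunctionFieldBar (N' * q)) (hu : u ≠ 0)
    (hdiv : ∀ P : Place Qb (modularFunctionFieldBar (N' * q)), (n : ℤ) ∣ P.ord u)
    (ψ₁b ψ₂b : modularFunctionFieldBar (N' * q)) (hψ₁ : ψ₁b ≠ 0) (hψ₂ : ψ₂b ≠ 0)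
    (h1 : H17FW.One1 A (u * (ψ₁b ^ n)⁻¹))
    (h2 : H17FW.One1 A (H12AL.wqBar N' q hq hqN (u * (ψ₂b ^ n)⁻¹)))
    (K₀ : IntermediateField ℚ Qb) (hK₀ : FiniteDimensional ℚ K₀)
    (T : Finset (modularFunctionFieldBar (N' * q))) :
    ∃ (K₁ : IntermediateField ℚ Qb) (_ : FiniteDimensional ℚ K₁)
      (u₁ ψ₁ ψ₂ : FK K₁ (N' * q)),
      K₀ ≤ K₁ ∧ Normal ℚ K₁ ∧ (∃ ζ : K₁, IsPrimitiveRoot ζ n) ∧
      (u : LaurentSeries Qb) = coeffMap (algebraMap K₁ Qb) (u₁ : LaurentSeries K₁) ∧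
      phi (N' * q) K₁ ψ₁ = ψ₁b ∧ phi (N' * q) K₁ ψ₂ = ψ₂b ∧
      u₁ ≠ 0 ∧ ψ₁ ≠ 0 ∧ ψ₂ ≠ 0 ∧
      (∀ V : Place K₁ (FK K₁ (N' * q)), (n : ℤ) ∣ V.ord u₁) ∧
      (∀ V : Place K₁ (FK K₁ (N' * q)), V.ord u₁ ≠ 0 → ∀ x : FK K₁ (N' * q), 0 ≤ V.ord x →
        ∃ c : K₁, x = algebraMap K₁ (FK K₁ (N' * q)) c ∨
          0 < V.ord (x - algebraMap K₁ (FK K₁ (N' * q)) c)) ∧
      H8PB.InGm (descVal A K₁)
        (((u₁ * (ψ₁ ^ n)⁻¹ - 1 : FK K₁ (N' * q))) : LaurentSeries K₁) ∧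
      H8PB.InGm (descVal A K₁)
        (((H12AL.wqKHom K₁ N' q hq hqN (u₁ * (ψ₂ ^ n)⁻¹ - 1) : FK K₁ (N' * q))) :
          LaurentSeries K₁) ∧
      ∀ y ∈ T, ∃ y₁ : FK K₁ (N' * q), phi (N' * q) K₁ y₁ = y := by
  classical
  haveI : Fact q.Prime := ⟨hq⟩
  obtain ⟨K₁, hK₁, u₁, hK₀K₁, hnor, hζ, hu₁, hdiv₁, hrat, hT⟩ :=
    H29DS.descent_finset (N' * q) n hn u hu hdiv K₀ hK₀ (insert ψ₁b (insert ψ₂b T))
  obtain ⟨ψ₁, hφψ₁⟩ := hT ψ₁b (by simp)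
  obtain ⟨ψ₂, hφψ₂⟩ := hT ψ₂b (by simp)
  have hφu : phi (N' * q) K₁ u₁ = u := phi_eq_of_coe (N' * q) K₁ u₁ u hu₁
  have hu₁0 : u₁ ≠ 0 := by
    rintro rfl
    exact hu (by rw [← hφu, map_zero])
  have hψ₁0 : ψ₁ ≠ 0 := by
    rintro rfl
    exact hψ₁ (by rw [← hφψ₁, map_zero])
  have hψ₂0 : ψ₂ ≠ 0 := by
    rintro rfl
    exact hψ₂ (by rw [← hφψ₂, map_zero])
  refine ⟨K₁, hK₁, u₁, ψ₁, ψ₂, hK₀K₁, hnor, hζ, hu₁, hφψ₁, hφψ₂, hu₁0, hψ₁0, hψ₂0, hdiv₁,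
    hrat, ?_, ?_, fun y hy => hT y (by simp [hy])⟩
  · refine H29TD.toricDescStatement (N' * q) q A hA K₁ hK₁ (u₁ * (ψ₁ ^ n)⁻¹)
      (u * (ψ₁b ^ n)⁻¹) ?_ h1
    rw [← phi_coe, map_mul, map_inv₀, map_pow, hφu, hφψ₁]
  · rw [map_sub, map_one]
    refine H29TD.toricDescStatement (N' * q) q A hA K₁ hK₁
      (H12AL.wqKHom K₁ N' q hq hqN (u₁ * (ψ₂ ^ n)⁻¹))
      (H12AL.wqBar N' q hq hqN (u * (ψ₂b ^ n)⁻¹)) ?_ h2
    rw [H12AL.wqBar_apply, H12AL.coeffMap_wqKHom]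
    congr 2
    apply Subtype.ext
    rw [H12AL.coe_phiK, ← phi_coe, map_mul, map_inv₀, map_pow, hφu, hφψ₂]

end H29B2

end
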