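import Fermat.Agent.S35.FWLocNodeWire_helper20
import Fermat.Agent.S35.NodeBridge_helper1
import Fermat.Agent.S35.FWLocNodeLNC_helper13

/-!
# Item 84 (S35), block FW, slice FW-LOC-NODE: final assembly (helper20)

`H20FW.fwLocNodeStatement : H1FW.FWLocNodeStatement`
= wiring (helper20) ∘ bridge (helper1) ∘ LNC (c) (helper13).
-/

set_option autoImplicit false

namespace H20FW

/-- **(FW-LOC-NODE)**. -/
theorem fwLocNodeStatement : H1FW.FWLocNodeStatement :=
  fwLocNode_of H1FW.nodeBridgeStatement H13LN.lnccStatement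

end H20FW
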