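import Fermat.Agent.S35.FWKron_helper16
import Fermat.Agent.S34.PairGaussFinal_helper8
import Fermat.Agent.S34.ResCompFinal_helper12
import Fermat.Agent.S34.Cusp0_helper7

/-!
# Item 84 (S35), block FW, slice FW-RAT: the unconditional statement (helper16)

`H16FR.h16fr_ratStatement : H17FW.RatStatement`, from `H16FR.h16fr_rat'` and the three landed
inputs `H8PB.h8pg_pairGauss` (I1), `H12TC.resCompStatement` (C) and `H7C0.compCusp0Statement`
(CUSP0).
-/

set_option autoImplicit false

namespace H16FR

/-- **FW-RAT, unconditional**: `σ₁²` is `x ↦ x ^ (q²)` modulo every node of the chart `t`. -/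
theorem h16fr_ratStatement : H17FW.RatStatement :=
  h16fr_rat' H8PB.h8pg_pairGauss H12TC.resCompStatement H7C0.compCusp0Statement

end H16FR
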