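import Mathlib
import Fermat.Agent.S35.FWReg_helper10

/-!
# Item 82b (S35), slice FW-NODE, part (REG) in `O`-language (helper10)

Mathlib only.  `F` a field, `O : Subring F` (the semilocal ring `{x | GInt x}`), `𝔭₁ 𝔭₂` its two
primes over `ϖ`: `𝔭₁ ⊓ 𝔭₂ = (ϖ)`, `𝔭₁ ⊔ 𝔭₂ = ⊤`, `F = O[1/ϖ]`.

* `IntAt O 𝔭 x`  : `x ∈ O_𝔭`;   `ZeroAt O 𝔭 x` : `x ∈ 𝔭 O_𝔭`;
* `h10fw_locVal` : `O_𝔭` as a `ValuationSubring F`, `valuation x < 1 ↔ ZeroAt O 𝔭 x`;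
* `h10fw_regO`   : **(REG)** at a closed point on the component `1` only, `O`-language.
-/

set_option autoImplicit false

namespace H10FW

section OLang

variable {F : Type*} [Field F] (O : Subring F)

/-- `x ∈ O_𝔭` -/
def IntAt (𝔭 : Ideal O) (x : F) : Prop :=
  ∃ s : O, s ∉ 𝔭 ∧ ∃ y : O, (s : F) * x = (y : F)

/-- `x ∈ 𝔭 O_𝔭` -/
def ZeroAt (𝔭 : Ideal O) (x : F) : Prop :=
  ∃ s : O, s ∉ 𝔭 ∧ ∃ y : O, y ∈ 𝔭 ∧ (s : F) * x = (y : F)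

variable {O}

theorem ZeroAt.intAt {𝔭 : Ideal O} {x : F} (h : ZeroAt O 𝔭 x) : IntAt O 𝔭 x := by
  obtain ⟨s, hs, y, -, hy⟩ := h
  exact ⟨s, hs, y, hy⟩

theorem intAt_coe (𝔭 : Ideal O) [h𝔭 : 𝔭.IsPrime] (x : O) : IntAt O 𝔭 (x : F) :=
  ⟨1, fun h => h𝔭.ne_top ((Ideal.eq_top_iff_one _).mpr h), x, by simp⟩

theorem zeroAt_coe {𝔭 : Ideal O} [h𝔭 : 𝔭.IsPrime] {x : O} (hx : x ∈ 𝔭) : ZeroAt O 𝔭 (x : F) :=
  ⟨1, fun h => h𝔭.ne_top ((Ideal.eq_top_iff_one _).mpr h), x, hx, by simp⟩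

theorem zeroAt_coe_iff {𝔭 : Ideal O} [h𝔭 : 𝔭.IsPrime] {x : O} : ZeroAt O 𝔭 (x : F) ↔ x ∈ 𝔭 := by
  refine ⟨?_, zeroAt_coe⟩
  rintro ⟨s, hs, y, hy, h⟩
  have : s * x = y := Subtype.ext (by simpa using h)
  have h2 : s * x ∈ 𝔭 := this ▸ hy
  exact (h𝔭.mem_or_mem h2).resolve_left hs

theorem IntAt.add {𝔭 : Ideal O} [h𝔭 : 𝔭.IsPrime] {x y : F} (hx : IntAt O 𝔭 x)
    (hy : IntAt O 𝔭 y) : IntAt O 𝔭 (x + y) := by
  obtain ⟨s, hs, a, ha⟩ := hx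
  obtain ⟨t, ht, b, hb⟩ := hy
  refine ⟨s * t, fun h => (h𝔭.mem_or_mem h).elim hs ht, t * a + s * b, ?_⟩
  push_cast
  rw [← ha, ← hb]; ring

theorem IntAt.mul {𝔭 : Ideal O} [h𝔭 : 𝔭.IsPrime] {x y : F} (hx : IntAt O 𝔭 x)
    (hy : IntAt O 𝔭 y) : IntAt O 𝔭 (x * y) := by
  obtain ⟨s, hs, a, ha⟩ := hx
  obtain ⟨t, ht, b, hb⟩ := hy
  refine ⟨s * t, fun h => (h𝔭.mem_or_mem h).elim hs ht, a * b, ?_⟩
  push_cast
  rw [← ha, ← hb]; ring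

theorem IntAt.neg {𝔭 : Ideal O} {x : F} (hx : IntAt O 𝔭 x) : IntAt O 𝔭 (-x) := by
  obtain ⟨s, hs, a, ha⟩ := hx
  refine ⟨s, hs, -a, ?_⟩
  push_cast
  rw [← ha]; ring

/-- `O_𝔭` is a valuation ring if `𝔭 O_𝔭 = ϖ O_𝔭` and `F = O[1/ϖ]`. -/
theorem h10fw_intAt_or_inv (𝔭 : Ideal O) [h𝔭 : 𝔭.IsPrime] (ϖ : O) (hϖ0 : ϖ ≠ 0)
    (hunif : ∀ y ∈ 𝔭, ∃ s : O, s ∉ 𝔭 ∧ ∃ y' : O, s * y = ϖ * y')
    (hden : ∀ x : F, ∃ (k : ℕ) (y : O), (ϖ : F) ^ k * x = y)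
    (x : F) : IntAt O 𝔭 x ∨ IntAt O 𝔭 x⁻¹ := by
  classical
  have h1 : (1 : O) ∉ 𝔭 := fun h => h𝔭.ne_top ((Ideal.eq_top_iff_one _).mpr h)
  by_cases hx : x = 0
  · left; rw [hx]; exact ⟨1, h1, 0, by simp⟩
  -- Claim A
  have claim : ∀ N : ℕ, ∀ a a' s : O, s ∉ 𝔭 → a * a' = s * ϖ ^ N →
      ∃ i : ℕ, i ≤ N ∧ ∃ u t : O, u ∉ 𝔭 ∧ t ∉ 𝔭 ∧ t * a = ϖ ^ i * u := by
    intro N
    induction N with
    | zero =>
      intro a a' s hs h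
      refine ⟨0, le_refl _, a, 1, ?_, h1, by simp⟩
      intro ha
      apply hs
      have : a * a' ∈ 𝔭 := 𝔭.mul_mem_right _ ha
      rw [h, pow_zero, mul_one] at this
      exact this
    | succ N ih =>
      intro a a' s hs h
      by_cases ha : a ∈ 𝔭
      · obtain ⟨s₁, hs₁, a₁, ha₁⟩ := hunif a ha
        have h2 : a₁ * a' = (s₁ * s) * ϖ ^ N := by
          have : ϖ * (a₁ * a') = ϖ * ((s₁ * s) * ϖ ^ N) := by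
            calc ϖ * (a₁ * a') = (ϖ * a₁) * a' := by ring
              _ = (s₁ * a) * a' := by rw [ha₁]
              _ = s₁ * (a * a') := by ring
              _ = s₁ * (s * ϖ ^ (N + 1)) := by rw [h]
              _ = _ := by ring
          exact mul_left_cancel₀ hϖ0 this
        obtain ⟨i, hi, u, t, hu, ht, htu⟩ := ih a₁ a' (s₁ * s)
          (fun h => (h𝔭.mem_or_mem h).elim hs₁ hs) h2
        refine ⟨i + 1, Nat.succ_le_succ hi, u, t * s₁, hu,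
          fun h => (h𝔭.mem_or_mem h).elim ht hs₁, ?_⟩
        calc t * s₁ * a = t * (s₁ * a) := by ring
          _ = t * (ϖ * a₁) := by rw [ha₁]
          _ = ϖ * (t * a₁) := by ring
          _ = ϖ * (ϖ ^ i * u) := by rw [htu]
          _ = _ := by ring
      · exact ⟨0, Nat.zero_le _, a, 1, ha, h1, by simp⟩
  obtain ⟨k, y, hy⟩ := hden x
  obtain ⟨j, y', hy'⟩ := hden x⁻¹
  have hϖF : (ϖ : F) ≠ 0 := fun h => hϖ0 (Subtype.ext h)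
  have hyy' : y * y' = 1 * ϖ ^ (k + j) := by
    apply Subtype.ext
    push_cast
    rw [← hy, ← hy', one_mul, pow_add]
    field_simp
  obtain ⟨i, -, u, t, hu, ht, htu⟩ := claim (k + j) y y' 1 h1 hyy'
  have htu' : (t : F) * ((ϖ : F) ^ k * x) = (ϖ : F) ^ i * u := by
    rw [hy]
    have := congrArg Subtype.val htu
    simpa using this
  rcases le_total k i with hki | hik
  · left
    refine ⟨t, ht, ϖ ^ (i - k) * u, ?_⟩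
    push_cast
    have : (ϖ : F) ^ k * ((t : F) * x) = (ϖ : F) ^ k * ((ϖ : F) ^ (i - k) * u) := by
      calc (ϖ : F) ^ k * ((t : F) * x) = (t : F) * ((ϖ : F) ^ k * x) := by ring
        _ = (ϖ : F) ^ i * u := htu'
        _ = (ϖ : F) ^ (k + (i - k)) * u := by rw [Nat.add_sub_cancel' hki]
        _ = _ := by rw [pow_add]; ring
    exact mul_left_cancel₀ (pow_ne_zero k hϖF) this
  · right
    refine ⟨u, hu, t * ϖ ^ (k - i), ?_⟩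
    push_cast
    have h3 : (ϖ : F) ^ i * ((t : F) * (ϖ : F) ^ (k - i) * x) = (ϖ : F) ^ i * u := by
      calc (ϖ : F) ^ i * ((t : F) * (ϖ : F) ^ (k - i) * x)
          = (t : F) * ((ϖ : F) ^ (i + (k - i)) * x) := by rw [pow_add]; ring
        _ = (t : F) * ((ϖ : F) ^ k * x) := by rw [Nat.add_sub_cancel' hik]
        _ = _ := htu'
    have h4 := mul_left_cancel₀ (pow_ne_zero i hϖF) h3
    rw [← h4]
    field_simp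

/-- `O_𝔭` as a valuation subring of `F`. -/
def h10fw_locVal (𝔭 : Ideal O) [h𝔭 : 𝔭.IsPrime]
    (hval : ∀ x : F, IntAt O 𝔭 x ∨ IntAt O 𝔭 x⁻¹) : ValuationSubring F where
  carrier := {x | IntAt O 𝔭 x}
  mul_mem' := fun hx hy => IntAt.mul hx hy
  one_mem' := by
    have := intAt_coe 𝔭 (1 : O)
    simpa using this
  add_mem' := fun hx hy => IntAt.add hx hy
  zero_mem' := by
    have := intAt_coe 𝔭 (0 : O)
    simpa using this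
  neg_mem' := fun hx => IntAt.neg hx
  mem_or_inv_mem' := hval

theorem h10fw_mem_locVal (𝔭 : Ideal O) [h𝔭 : 𝔭.IsPrime]
    (hval : ∀ x : F, IntAt O 𝔭 x ∨ IntAt O 𝔭 x⁻¹) (x : F) :
    x ∈ h10fw_locVal 𝔭 hval ↔ IntAt O 𝔭 x := Iff.rfl

theorem h10fw_locVal_lt_one (𝔭 : Ideal O) [h𝔭 : 𝔭.IsPrime]
    (hval : ∀ x : F, IntAt O 𝔭 x ∨ IntAt O 𝔭 x⁻¹) (x : F) :
    (h10fw_locVal 𝔭 hval).valuation x < 1 ↔ ZeroAt O 𝔭 x := by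
  set V := h10fw_locVal 𝔭 hval with hV
  constructor
  · intro h
    have hxV : x ∈ V := (V.valuation_le_one_iff x).mp h.le
    obtain ⟨s, hs, y, hy⟩ := (h10fw_mem_locVal 𝔭 hval x).mp hxV
    refine ⟨s, hs, y, ?_, hy⟩
    by_contra hyn
    -- then `x⁻¹ ∈ V`, so `valuation x = 1`
    have hx0 : x ≠ 0 := by
      rintro rfl
      rw [mul_zero] at hy
      have : y = 0 := Subtype.ext (by simpa using hy.symm)
      exact hyn (this ▸ 𝔭.zero_mem)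
    have hs0 : (s : F) ≠ 0 := by
      intro h0
      have : s = 0 := Subtype.ext (by simpa using h0)
      exact hs (this ▸ 𝔭.zero_mem)
    have hxi : x⁻¹ ∈ V := by
      refine (h10fw_mem_locVal 𝔭 hval x⁻¹).mpr ⟨y, hyn, s, ?_⟩
      rw [← hy]; field_simp
    have h1 : V.valuation x⁻¹ ≤ 1 := (V.valuation_le_one_iff _).mpr hxi
    rw [map_inv₀] at h1
    have h2 : V.valuation x ≠ 0 := by rwa [Ne, Valuation.zero_iff]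
    have h3 : 1 ≤ V.valuation x := (inv_le_one₀ (zero_lt_iff.mpr h2)).mp h1
    exact absurd h (not_lt.mpr h3)
  · rintro ⟨s, hs, y, hy, h⟩
    have hxV : x ∈ V := (h10fw_mem_locVal 𝔭 hval x).mpr ⟨s, hs, y, h⟩
    have h1 : V.valuation x ≤ 1 := (V.valuation_le_one_iff x).mpr hxV
    rcases lt_or_eq_of_le h1 with h2 | h2
    · exact h2
    · exfalso
      have hx0 : x ≠ 0 := by
        rintro rfl
        rw [Valuation.map_zero] at h2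
        exact zero_ne_one h2
      have hxi : x⁻¹ ∈ V := by
        rw [← V.valuation_le_one_iff, map_inv₀, h2, inv_one]
      obtain ⟨t, ht, z, hz⟩ := (h10fw_mem_locVal 𝔭 hval x⁻¹).mp hxi
      have : s * t = y * z := by
        apply Subtype.ext
        push_cast
        rw [← h, ← hz]; field_simp
      have h3 : s * t ∈ 𝔭 := this ▸ 𝔭.mul_mem_right _ hy
      exact (h𝔭.mem_or_mem h3).elim hs ht

/-- `𝔭₁ O_{𝔭₁} = ϖ O_{𝔭₁}` from `𝔭₁ ⊓ 𝔭₂ = (ϖ)` and comaximality. -/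
theorem h10fw_unif (𝔭₁ 𝔭₂ : Ideal O) (hcop : 𝔭₁ ⊔ 𝔭₂ = ⊤) (ϖ : O)
    (hϖ : 𝔭₁ ⊓ 𝔭₂ = Ideal.span {ϖ}) (h1 : (1 : O) ∉ 𝔭₁) :
    ∀ y ∈ 𝔭₁, ∃ s : O, s ∉ 𝔭₁ ∧ ∃ y' : O, s * y = ϖ * y' := by
  intro y hy
  have hone : (1 : O) ∈ 𝔭₁ ⊔ 𝔭₂ := by rw [hcop]; exact Submodule.mem_top
  obtain ⟨e₁, he₁, e₂, he₂, he⟩ := Submodule.mem_sup.mp hone
  refine ⟨e₂, ?_, ?_⟩
  · intro h
    apply h1
    rw [← he]
    exact 𝔭₁.add_mem he₁ h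
  · have : e₂ * y ∈ 𝔭₁ ⊓ 𝔭₂ := ⟨𝔭₁.mul_mem_left _ hy, 𝔭₂.mul_mem_right _ he₂⟩
    rw [hϖ, Ideal.mem_span_singleton'] at this
    obtain ⟨a, ha⟩ := this
    exact ⟨a, by rw [← ha]; ring⟩

/-- elements which vanish at `𝔭₁` and at `𝔭₂` lie in `𝔭₁ ⊓ 𝔭₂ ⊆ O`. -/
theorem h10fw_inter (𝔭₁ 𝔭₂ : Ideal O) [h𝔭₁ : 𝔭₁.IsPrime] [h𝔭₂ : 𝔭₂.IsPrime]
    (hcop : 𝔭₁ ⊔ 𝔭₂ = ⊤) (hO2 : ∀ s : O, s ∉ 𝔭₁ → s ∉ 𝔭₂ → IsUnit s)
    (x : F) (h₁ : ZeroAt O 𝔭₁ x) (h₂ : ZeroAt O 𝔭₂ x) :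
    ∃ y : O, y ∈ 𝔭₁ ⊓ 𝔭₂ ∧ (y : F) = x := by
  obtain ⟨s₁, hs₁, y₁, hy₁, e1⟩ := h₁
  obtain ⟨s₂, hs₂, y₂, hy₂, e2⟩ := h₂
  have hone : (1 : O) ∈ 𝔭₁ ⊔ 𝔭₂ := by rw [hcop]; exact Submodule.mem_top
  obtain ⟨e₁, he₁, e₂, he₂, he⟩ := Submodule.mem_sup.mp hone
  have h1 : (1 : O) ∉ 𝔭₁ := fun h => h𝔭₁.ne_top ((Ideal.eq_top_iff_one _).mpr h)
  have h2 : (1 : O) ∉ 𝔭₂ := fun h => h𝔭₂.ne_top ((Ideal.eq_top_iff_one _).mpr h)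
  have he₂1 : e₂ ∉ 𝔭₁ := by
    intro h; apply h1; rw [← he]; exact 𝔭₁.add_mem he₁ h
  have he₁2 : e₁ ∉ 𝔭₂ := by
    intro h; apply h2; rw [← he]; exact 𝔭₂.add_mem h he₂
  set s : O := s₁ * e₂ + s₂ * e₁ with hs
  have hs1 : s ∉ 𝔭₁ := by
    intro h
    have : s₁ * e₂ ∈ 𝔭₁ := by
      have h3 := 𝔭₁.sub_mem h (𝔭₁.mul_mem_left s₂ he₁)
      rwa [hs, add_sub_cancel_right] at h3
    exact (h𝔭₁.mem_or_mem this).elim hs₁ he₂1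
  have hs2 : s ∉ 𝔭₂ := by
    intro h
    have : s₂ * e₁ ∈ 𝔭₂ := by
      have h3 := 𝔭₂.sub_mem h (𝔭₂.mul_mem_left s₁ he₂)
      rwa [hs, add_sub_cancel_left] at h3
    exact (h𝔭₂.mem_or_mem this).elim hs₂ he₁2
  obtain ⟨u, hu⟩ := hO2 s hs1 hs2
  set y : O := e₂ * y₁ + e₁ * y₂ with hy
  have hy12 : y ∈ 𝔭₁ ⊓ 𝔭₂ := by
    refine ⟨𝔭₁.add_mem (𝔭₁.mul_mem_left _ hy₁) (𝔭₁.mul_mem_right _ he₁),
      𝔭₂.add_mem (𝔭₂.mul_mem_right _ he₂) (𝔭₂.mul_mem_left _ hy₂)⟩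
  have hsx : (s : F) * x = (y : F) := by
    rw [hs, hy]
    push_cast
    rw [← e1, ← e2]; ring
  refine ⟨((u⁻¹ : Oˣ) : O) * y, ⟨𝔭₁.mul_mem_left _ hy12.1, 𝔭₂.mul_mem_left _ hy12.2⟩, ?_⟩
  push_cast
  rw [← hsx, ← mul_assoc]
  have : (((u⁻¹ : Oˣ) : O) : F) * (s : F) = 1 := by
    rw [← hu]
    have h3 : ((u⁻¹ : Oˣ) : O) * (u : O) = 1 := Units.inv_mul u
    have h4 := congrArg (Subtype.val : O → F) h3
    rw [Subring.coe_mul, Subring.coe_one] at h4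
    exact h4
  rw [this, one_mul]

/-- the archimedean property at `𝔭`, `O`-language. -/
theorem h10fw_archO (𝔭 : Ideal O) [h𝔭 : 𝔭.IsPrime] (ϖ : O) (hϖ𝔭 : ϖ ∈ 𝔭)
    (hunif : ∀ y ∈ 𝔭, ∃ s : O, s ∉ 𝔭 ∧ ∃ y' : O, s * y = ϖ * y')
    (hden : ∀ x : F, ∃ (k : ℕ) (y : O), (ϖ : F) ^ k * x = y)
    (s₀ : F) (hs₀ : ZeroAt O 𝔭 s₀) (y : F) : ∃ m : ℕ, ZeroAt O 𝔭 (s₀ ^ m * y) := by
  obtain ⟨t, ht, s', hs', e1⟩ := hs₀
  obtain ⟨t', ht', s'', e2⟩ := hunif s' hs'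
  obtain ⟨k, y₀, e3⟩ := hden y
  have e4 : ((t' * t : O) : F) * s₀ = (ϖ : F) * (s'' : F) := by
    push_cast
    rw [mul_assoc, e1]
    have := congrArg Subtype.val e2
    simpa using this
  refine ⟨k + 1, (t' * t) ^ (k + 1), ?_, ϖ * s'' ^ (k + 1) * y₀, ?_, ?_⟩
  · intro h
    have := h𝔭.mem_of_pow_mem _ h
    exact (h𝔭.mem_or_mem this).elim ht' ht
  · exact 𝔭.mul_mem_right _ (𝔭.mul_mem_right _ hϖ𝔭)
  · push_cast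
    rw [← e3]
    calc ((t' : F) * (t : F)) ^ (k + 1) * (s₀ ^ (k + 1) * y)
        = (((t' : F) * (t : F)) * s₀) ^ (k + 1) * y := by ring
      _ = ((ϖ : F) * (s'' : F)) ^ (k + 1) * y := by
          have : ((t' : F) * (t : F)) * s₀ = (ϖ : F) * (s'' : F) := by
            have := e4
            push_cast at this
            exact this
          rw [this]
      _ = _ := by ring

/-- **(REG), `O`-language**: at a closed point lying on the component `1` only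
(`B ⊆ O_{𝔭₁}` local, `P = B ∩ 𝔭₁ O_{𝔭₁}`, `B ⧸ P` integrally closed with fraction field
`O ⧸ 𝔭₁`, `F = Frac B`, `c ∈ P` nonzero, `s₀ ∈ Bˣ` vanishing at `𝔭₂`):
if `v ≡ 1 mod 𝔭₁` and `v = φ ε · zⁿ` with `ε ∈ Bˣ`, then there is `h ∈ O`, `h ≡ 1 mod 𝔭₁ ⊓ 𝔭₂`,
with `v hⁿ ∈ φ (Bˣ)`. -/
theorem h10fw_regO (𝔭₁ 𝔭₂ : Ideal O) [h𝔭₁ : 𝔭₁.IsPrime] [h𝔭₂ : 𝔭₂.IsPrime]
    (hcop : 𝔭₁ ⊔ 𝔭₂ = ⊤) (hO2 : ∀ s : O, s ∉ 𝔭₁ → s ∉ 𝔭₂ → IsUnit s)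
    (ϖ : O) (hϖ0 : ϖ ≠ 0) (hϖ : 𝔭₁ ⊓ 𝔭₂ = Ideal.span {ϖ})
    (hden : ∀ x : F, ∃ (k : ℕ) (y : O), (ϖ : F) ^ k * x = y)
    {B : Type*} [CommRing B] [IsLocalRing B] (φ : B →+* F) (hφ : Function.Injective φ)
    (hBint : ∀ b : B, IntAt O 𝔭₁ (φ b))
    (P : Ideal B) (hP : ∀ b : B, b ∈ P ↔ ZeroAt O 𝔭₁ (φ b)) [IsIntegrallyClosed (B ⧸ P)]
    (hfracV : ∀ r : O, ∃ a s : B, s ∉ P ∧ ZeroAt O 𝔭₁ (φ s * r - φ a))
    (hfrac : ∀ x : F, ∃ a s : B, s ≠ 0 ∧ x * φ s = φ a)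
    (c : B) (hc0 : c ≠ 0) (hcP : c ∈ P)
    (s₀ : B) (hs₀ : IsUnit s₀) (hs₀2 : ZeroAt O 𝔭₂ (φ s₀))
    (n : ℕ) (hn : 0 < n)
    (v : O) (hv : v - 1 ∈ 𝔭₁) (ε : B) (hε : IsUnit ε) (z : F)
    (hvz : (v : F) = φ ε * z ^ n) :
    ∃ (h : O) (w : B), IsUnit w ∧ h - 1 ∈ 𝔭₁ ⊓ 𝔭₂ ∧ (v : F) * (h : F) ^ n = φ w := by
  classical
  have h11 : (1 : O) ∉ 𝔭₁ := fun h => h𝔭₁.ne_top ((Ideal.eq_top_iff_one _).mpr h)
  have h12 : (1 : O) ∉ 𝔭₂ := fun h => h𝔭₂.ne_top ((Ideal.eq_top_iff_one _).mpr h)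
  have hunif₁ := h10fw_unif 𝔭₁ 𝔭₂ hcop ϖ hϖ h11
  have hunif₂ := h10fw_unif 𝔭₂ 𝔭₁ (by rw [sup_comm]; exact hcop) ϖ
    (by rw [inf_comm]; exact hϖ) h12
  have hϖmem : ϖ ∈ 𝔭₁ ⊓ 𝔭₂ := by rw [hϖ]; exact Ideal.mem_span_singleton_self ϖ
  have hval₁ := h10fw_intAt_or_inv 𝔭₁ ϖ hϖ0 hunif₁ hden
  have hval₂ := h10fw_intAt_or_inv 𝔭₂ ϖ hϖ0 hunif₂ hden
  set V₁ := h10fw_locVal 𝔭₁ hval₁ with hV₁
  set V₂ := h10fw_locVal 𝔭₂ hval₂ with hV₂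
  have hlt₁ : ∀ x : F, V₁.valuation x < 1 ↔ ZeroAt O 𝔭₁ x := h10fw_locVal_lt_one 𝔭₁ hval₁
  have hlt₂ : ∀ x : F, V₂.valuation x < 1 ↔ ZeroAt O 𝔭₂ x := h10fw_locVal_lt_one 𝔭₂ hval₂
  have hBV : ∀ b : B, φ b ∈ V₁ := fun b => (h10fw_mem_locVal 𝔭₁ hval₁ _).mpr (hBint b)
  have hP' : ∀ b : B, b ∈ P ↔ V₁.valuation (φ b) < 1 := fun b => (hP b).trans (hlt₁ _).symm
  have hle : ∀ b : B, V₁.valuation (φ b) ≤ 1 := fun b => (V₁.valuation_le_one_iff _).mpr (hBV b)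
  have hone_of : ∀ b : B, b ∉ P → V₁.valuation (φ b) = 1 := by
    intro b hb
    rcases lt_or_eq_of_le (hle b) with h | h
    · exact absurd ((hP' b).mpr h) hb
    · exact h
  -- fractions for `V₁`
  have hfracV' : ∀ r : F, r ∈ V₁ → ∃ a s : B, s ∉ P ∧ V₁.valuation (φ s * r - φ a) < 1 := by
    intro r hr
    obtain ⟨t, ht, y, hy⟩ := (h10fw_mem_locVal 𝔭₁ hval₁ r).mp hr
    obtain ⟨a_y, s_y, hs_y, h_y⟩ := hfracV y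
    obtain ⟨a_t, s_t, hs_t, h_t⟩ := hfracV t
    have h_y' := (hlt₁ _).mpr h_y
    have h_t' := (hlt₁ _).mpr h_t
    have hvt : V₁.valuation (t : F) = 1 := by
      have h1 : V₁.valuation (t : F) ≤ 1 :=
        (V₁.valuation_le_one_iff _).mpr ((h10fw_mem_locVal 𝔭₁ hval₁ _).mpr (intAt_coe 𝔭₁ t))
      rcases lt_or_eq_of_le h1 with h | h
      · exact absurd (zeroAt_coe_iff.mp ((hlt₁ _).mp h)) ht
      · exact h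
    have hvst : V₁.valuation (φ s_t) = 1 := hone_of s_t hs_t
    have hvat : V₁.valuation (φ a_t) = 1 := by
      have e : φ a_t = φ s_t * t + -(φ s_t * t - φ a_t) := by ring
      rw [e]
      have h2 : V₁.valuation (-(φ s_t * t - φ a_t)) < V₁.valuation (φ s_t * t) := by
        rw [Valuation.map_neg, Valuation.map_mul, hvst, hvt, one_mul]; exact h_t'
      rw [Valuation.map_add_eq_of_lt_left _ h2, Valuation.map_mul, hvst, hvt, one_mul]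
    refine ⟨a_y * s_t, s_y * a_t, ?_, ?_⟩
    · intro h
      have := (hP' _).mp h
      rw [map_mul, Valuation.map_mul, hone_of s_y hs_y, hvat, one_mul] at this
      exact lt_irrefl _ this
    · have hvr : V₁.valuation r ≤ 1 := (V₁.valuation_le_one_iff _).mpr hr
      have e : φ (s_y * a_t) * r - φ (a_y * s_t) =
          -(φ s_y * (φ s_t * t - φ a_t) * r) + (φ s_y * y - φ a_y) * φ s_t := by
        rw [map_mul, map_mul, ← hy]; ring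
      rw [e]
      refine lt_of_le_of_lt (Valuation.map_add _ _ _) (max_lt ?_ ?_)
      · rw [Valuation.map_neg, Valuation.map_mul, Valuation.map_mul]
        calc V₁.valuation (φ s_y) * V₁.valuation (φ s_t * t - φ a_t) * V₁.valuation r
            ≤ 1 * V₁.valuation (φ s_t * t - φ a_t) * 1 := by
              gcongr
              exact hle s_y
          _ < 1 := by rw [one_mul, mul_one]; exact h_t'
      · rw [Valuation.map_mul]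
        calc V₁.valuation (φ s_y * y - φ a_y) * V₁.valuation (φ s_t)
            ≤ V₁.valuation (φ s_y * y - φ a_y) * 1 := by
              gcongr
              exact hle s_t
          _ < 1 := by rw [mul_one]; exact h_y'
  have hRC : ∀ x b : F, b ∈ φ.range → b⁻¹ ∈ φ.range → V₁.valuation (b * x ^ n - 1) < 1 →
      ∃ ρ : F, ρ ∈ φ.range ∧ ρ⁻¹ ∈ φ.range ∧ V₁.valuation (ρ * x - 1) < 1 :=
    fun x b hb hb' hbx => h10fw_rc φ hφ V₁ hBV P hP' hfracV' n hn x b hb hb' hbx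
  have hArch : ∀ y : F, ∃ m : ℕ, V₂.valuation ((φ s₀) ^ m * y) < 1 := by
    intro y
    obtain ⟨m, hm⟩ := h10fw_archO 𝔭₂ ϖ hϖmem.2 hunif₂ hden (φ s₀) hs₀2 y
    exact ⟨m, (hlt₂ _).mpr hm⟩
  have hunit_range : ∀ b : B, IsUnit b → (φ b)⁻¹ ∈ φ.range := by
    rintro _ ⟨u, rfl⟩
    refine ⟨((u⁻¹ : Bˣ) : B), ?_⟩
    have h1 : φ (u : B) * φ ((u⁻¹ : Bˣ) : B) = 1 := by
      rw [← map_mul, Units.mul_inv, map_one]
    exact eq_inv_of_mul_eq_one_right h1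
  have hAP : ∀ x : F, x ≠ 0 → ∃ b : F, b ∈ φ.range ∧ b⁻¹ ∈ φ.range ∧
      V₁.valuation (b - 1) < 1 ∧ V₂.valuation (b * x - 1) < 1 := by
    intro x hx
    refine h10fw_ap V₁ V₂ φ.range (fun b hb => by obtain ⟨b', rfl⟩ := hb; exact hBV b')
      (fun y b hy hy1 hb hb' hb0 => h10fw_loc φ hφ V₁ hBV y b hy hy1 hb hb' hb0)
      ?_ (φ c) (φ s₀) ⟨c, rfl⟩ ?_ ((hP' c).mp hcP) ⟨s₀, rfl⟩ (hunit_range s₀ hs₀) ?_
      ((hlt₂ _).mpr hs₀2) hArch x hx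
    · intro x'
      obtain ⟨a, s, hs, h⟩ := hfrac x'
      refine ⟨φ a, φ s, ⟨a, rfl⟩, ⟨s, rfl⟩, ?_, h⟩
      rwa [Ne, map_eq_zero_iff φ hφ]
    · rwa [Ne, map_eq_zero_iff φ hφ]
    · rw [Ne, map_eq_zero_iff φ hφ]
      exact IsUnit.ne_zero hs₀
  have hv1 : V₁.valuation ((v : F) - 1) < 1 := by
    rw [hlt₁]
    have := zeroAt_coe (F := F) hv
    simpa using this
  obtain ⟨h, hh1, hh2, hB, hB'⟩ := h10fw_reg V₁ V₂ φ.range n hRC hAP (v : F) (φ ε) z hv1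
    ⟨ε, rfl⟩ (hunit_range ε hε) hvz
  obtain ⟨y, hy, hyh⟩ := h10fw_inter 𝔭₁ 𝔭₂ hcop hO2 (h - 1) ((hlt₁ _).mp hh1) ((hlt₂ _).mp hh2)
  obtain ⟨w, hw⟩ := hB
  obtain ⟨w', hw'⟩ := hB'
  have hv0 : (v : F) ≠ 0 := h10fw_ne_zero_of_lt V₁ hv1
  have hh0 : h ≠ 0 := h10fw_ne_zero_of_lt V₁ hh1
  have hvh0 : (v : F) * h ^ n ≠ 0 := mul_ne_zero hv0 (pow_ne_zero n hh0)
  have hyh' : ((y + 1 : O) : F) = h := by
    push_cast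
    rw [hyh]; ring
  refine ⟨y + 1, w, ?_, ?_, ?_⟩
  · refine IsUnit.of_mul_eq_one w' (hφ ?_)
    rw [map_mul, hw, hw', map_one, mul_inv_cancel₀ hvh0]
  · rw [add_sub_cancel_right]; exact hy
  · rw [hyh', hw]

end OLang

end H10FW
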