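import Mathlib
import Fermat.Agent.S35.FWUnitA_helper28

/-!
# Item 82b (S35), block FW (helper28): GAUSS at the `K₁`-level

For a discrete valuation subring `R` of a field `K ⊇ ℚ` with uniformizer `ϖ`, every nonzero
element `x` of `F_K(N) ⊆ K((q))` satisfies `x · ε g = ϖ^m · ε f` with `m : ℤ` and `f, g ∈ R((q))`
primitive (each with a unit coefficient): `H28FU.gauss_K1`.
-/

set_option autoImplicit false
set_option linter.unusedSectionVars false
set_option linter.style.haveILetI false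

noncomputable section

open ModularCurve H28GV

namespace H28FU

section GaussK

variable {K : Type} [Field K] [Algebra ℚ K] (R : ValuationSubring K)
  [IsDiscreteValuationRing ↥R]

/-- a unit times a primitive series is primitive -/
theorem unit_coeff_C_mul (u : Rˣ) (f : LaurentSeries R) (hf : ∃ n, IsUnit (f.coeff n)) :
    ∃ n, IsUnit ((HahnSeries.C (u : R) * f).coeff n) := by
  obtain ⟨n, hn⟩ := hf
  refine ⟨n, ?_⟩
  rw [HahnSeries.C_mul_eq_smul, HahnSeries.coeff_smul, smul_eq_mul]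
  exact u.isUnit.mul hn

/-- **GAUSS at the `K₁`-level** -/
theorem gauss_K1 (ϖ : R) (hϖ : Irreducible ϖ) (N : ℕ) [NeZero N] (x : LaurentSeries K)
    (hx : x ∈ laurentBaseChange K (modularFunctionFieldFull N)) (hx0 : x ≠ 0) :
    ∃ (m : ℤ) (f g : LaurentSeries R), (∃ n, IsUnit (f.coeff n)) ∧ (∃ n, IsUnit (g.coeff n)) ∧
      x * gvEps R g = HahnSeries.C ((ϖ : K) ^ m) * gvEps R f := by
  obtain ⟨f, g, hg, hfg⟩ := exists_frac R N x hx
  have hf : f ≠ 0 := by
    rintro rfl
    rw [map_zero] at hfg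
    rcases mul_eq_zero.mp hfg with h | h
    · exact hx0 h
    · exact hg ((gvEps_eq_zero_iff _ g).mp h)
  obtain ⟨a, f', ha, rfl, hf'⟩ := exists_content R f hf
  obtain ⟨b, g', hb, rfl, hg'⟩ := exists_content R g hg
  obtain ⟨i, u, hu⟩ := IsDiscreteValuationRing.eq_unit_mul_pow_irreducible ha hϖ
  obtain ⟨j, v, hv⟩ := IsDiscreteValuationRing.eq_unit_mul_pow_irreducible hb hϖ
  have hϖ0 : (ϖ : K) ≠ 0 := fun h => hϖ.ne_zero (Subtype.ext h)
  refine ⟨(i : ℤ) - (j : ℤ), HahnSeries.C (u : R) * f', HahnSeries.C (v : R) * g',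
    unit_coeff_C_mul R u f' hf', unit_coeff_C_mul R v g' hg', ?_⟩
  have hCj : (HahnSeries.C ((ϖ : K) ^ j) : LaurentSeries K) ≠ 0 := fun h =>
    pow_ne_zero j hϖ0 ((map_eq_zero_iff _ HahnSeries.C_injective).mp h)
  have hfg' : x * (HahnSeries.C ((v : R) : K) * HahnSeries.C ((ϖ : K) ^ j) * gvEps R g') =
      HahnSeries.C ((u : R) : K) * HahnSeries.C ((ϖ : K) ^ i) * gvEps R f' := by
    have h1 : (HahnSeries.C (((v : R) : K) * (ϖ : K) ^ j) : LaurentSeries K) =
        gvEps R (HahnSeries.C b) := by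
      rw [gvEps_C, hv]
      rfl
    have h2 : (HahnSeries.C (((u : R) : K) * (ϖ : K) ^ i) : LaurentSeries K) =
        gvEps R (HahnSeries.C a) := by
      rw [gvEps_C, hu]
      rfl
    rw [← map_mul HahnSeries.C, ← map_mul HahnSeries.C, h1, h2, ← map_mul, ← map_mul]
    exact hfg
  rw [zpow_sub₀ hϖ0, zpow_natCast, zpow_natCast, map_div₀, map_mul, map_mul, gvEps_C, gvEps_C,
    div_mul_eq_mul_div, eq_div_iff hCj]
  calc x * (HahnSeries.C ((v : R) : K) * gvEps R g') * HahnSeries.C ((ϖ : K) ^ j)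
      = x * (HahnSeries.C ((v : R) : K) * HahnSeries.C ((ϖ : K) ^ j) * gvEps R g') := by ring
    _ = HahnSeries.C ((u : R) : K) * HahnSeries.C ((ϖ : K) ^ i) * gvEps R f' := hfg'
    _ = HahnSeries.C ((ϖ : K) ^ i) * (HahnSeries.C ((u : R) : K) * gvEps R f') := by ring

end GaussK

end H28FU

end
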