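import Mathlib
import Fermat.Agent.S35.Defs_helper11
import Fermat.Agent.S35.BFGlue_helper11
import Fermat.Agent.W3G.KUMGalFinal_helper8
import Fermat.Agent.W3G.Lift_helper28
import Fermat.Agent.W3G.EIGH0_helper13
import Fermat.Agent.W3G.LamBridge_helper11

/-!
# Item 82b (S35), slice (BF-K) (helper19): `HardFaithStatement → KillStatement`

A word `P` in the good Hecke operators that kills `S₂(Γ₀(N'))` kills the Tate-divisible `p`-power
torsion of `J₀(N')`.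

Proof: `y` Tate-divisible in `J[p^k]`; `LIFT` gives `j ≥ k`; `y = p^(j-k) y_j`, `y_j = kum (p^j) χ`
(`KumGal`, surjectivity), `χ ≡ φ mod p^k` with `φ ∈ Lpar N'` (`LIFT`), so
`y = kum (p^k) (φ mod p^k)` (`KumGal`, compatibility).  The map `φ ↦ kum (p^k) (φ mod p^k)` is
Hecke-equivariant, and `P(T) φ = 0` in `Lpar N'` by (BF-H).
-/

set_option autoImplicit false
set_option linter.style.haveILetI false
set_option linter.unusedSectionVars false

noncomputable section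

namespace H19BK

open H11W3G H11S35 ModularCurve CongruenceSubgroup AlgebraicCurve

/-- transport of the compatibility of `kum` along `N₀ = n * m`. -/
theorem h19bk_compat (N : ℕ) [NeZero N] (kum : ∀ n : ℕ, Hpe N (ZMod n) →+ JZero N)
    (hcompat : ∀ n m : ℕ, 0 < n → 0 < m → ∀ (χ : Hpe N (ZMod (n * m))) (χ' : Hpe N (ZMod n)),
      (∀ γ : Gamma0 N, (χ' : Additive (Gamma0 N) →+ ZMod n) (Additive.ofMul γ) =
        ZMod.castHom (dvd_mul_right n m) (ZMod n)
          ((χ : Additive (Gamma0 N) →+ ZMod (n * m)) (Additive.ofMul γ))) →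
      m • kum (n * m) χ = kum n χ')
    (n m N₀ : ℕ) (hn : 0 < n) (hm : 0 < m) (hN : N₀ = n * m) (hdvd : n ∣ N₀)
    (χ : Hpe N (ZMod N₀)) (χ' : Hpe N (ZMod n))
    (hχ : ∀ γ : Gamma0 N, (χ' : Additive (Gamma0 N) →+ ZMod n) (Additive.ofMul γ) =
      ZMod.castHom hdvd (ZMod n)
        ((χ : Additive (Gamma0 N) →+ ZMod N₀) (Additive.ofMul γ))) :
    m • kum N₀ χ = kum n χ' := by
  subst hN
  exact hcompat n m hn hm χ χ' hχ

/-- **(BF-K)** from (BF-H). -/
theorem h19bk_kill (hH : HardFaithStatement) : KillStatement := by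
  intro M S N' _ h P hP p k hp y hy
  obtain ⟨kum, ⟨hinj, hhecke⟩, hcompat, hsurj⟩ := H8KUM.h8k_kumGal N'
  obtain ⟨j, hkj, hL⟩ := H28LIFT.liftStatement N' p hp k
  obtain ⟨yj, hyj1, hyj2⟩ := hy j hkj
  obtain ⟨χ, hχ⟩ := hsurj (p ^ j) (pow_pos hp.pos j) yj hyj1
  obtain ⟨φ, hφ⟩ := hL χ
  -- `y = kum (p^k) (φ mod p^k)`
  have hy' : y = kum (p ^ k) (h11lb_red N' (p ^ k) φ) := by
    rw [← hyj2, ← hχ]
    exact h19bk_compat N' kum hcompat (p ^ k) (p ^ (j - k)) (p ^ j) (pow_pos hp.pos k)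
      (pow_pos hp.pos _) (by rw [← pow_add, Nat.add_sub_cancel' hkj]) (pow_dvd_pow p hkj)
      χ (h11lb_red N' (p ^ k) φ) (fun γ => hφ γ)
  -- the Hecke operators on `Lpar N'`
  let T : Idx M S → (Lpar N' →ₗ[ℤ] Lpar N') := fun t =>
    haveI : Fact t.1.Prime := ⟨t.2.1⟩
    H13E0.heckeL (N := N') (ℓ := t.1) (fun hd => t.2.2.1 (hd.trans h))
  have hT : ∀ t : Idx M S, haveI : Fact t.1.Prime := ⟨t.2.1⟩;
      IsHeckeL (N := N') (ℓ := t.1) (fun hd => t.2.2.1 (hd.trans h)) (T t) := by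
    intro t
    haveI : Fact t.1.Prime := ⟨t.2.1⟩
    exact H13E0.isHeckeL_heckeL (N := N') (ℓ := t.1) (fun hd => t.2.2.1 (hd.trans h))
  have hPL : evalL M S N' T P = 0 := hH M S N' h T hT P hP
  -- Hecke-equivariance of `φ ↦ kum (p^k) (φ mod p^k)`
  have hpk : 0 < p ^ k := pow_pos hp.pos k
  have hequiv : ∀ (t : Idx M S) (ψ : Lpar N'),
      ((kum (p ^ k)).comp (h11lb_red N' (p ^ k))) (T t ψ) =
        heckeOperatorBar N' ⟨t.1, t.2.1⟩ (((kum (p ^ k)).comp (h11lb_red N' (p ^ k))) ψ) := by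
    intro t ψ
    haveI : Fact t.1.Prime := ⟨t.2.1⟩
    have hℓN : ¬ t.1 ∣ N' := fun hd => t.2.2.1 (hd.trans h)
    obtain ⟨χ', hχ', hk⟩ := hhecke (p ^ k) hpk t.1 t.2.1 hℓN (h11lb_red N' (p ^ k) ψ)
    show kum (p ^ k) (h11lb_red N' (p ^ k) (T t ψ)) =
      heckeOperatorBar N' ⟨t.1, t.2.1⟩ (kum (p ^ k) (h11lb_red N' (p ^ k) ψ))
    rw [← hk]
    congr 1
    apply Subtype.ext
    apply AddMonoidHom.ext
    intro γ
    have h1 := hχ' (Additive.toMul γ)
    have h2 := hT t ψ (Additive.toMul γ)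
    show (((T t ψ : Additive (Gamma0 N') →+ ℤ) γ : ℤ) : ZMod (p ^ k)) = _
    rw [show γ = Additive.ofMul (Additive.toMul γ) from rfl, h1, h2]
    unfold H21S16.heckeTFun
    rw [Int.cast_sum]
    rfl
  have hint := h11bf_intertwine (fun t : Idx M S => (T t : Module.End ℤ (Lpar N')))
    (fun t : Idx M S => heckeOperatorBar N' ⟨t.1, t.2.1⟩)
    ((kum (p ^ k)).comp (h11lb_red N' (p ^ k))) hequiv P φ
  have hPL' : FreeAlgebra.lift ℤ (fun t : Idx M S => (T t : Module.End ℤ (Lpar N'))) P = 0 :=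
    hPL
  rw [hPL', LinearMap.zero_apply, map_zero] at hint
  rw [hy']
  exact hint.symm

end H19BK

end
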