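/-
Item S35, slice NEWOP (helper16), algebraic part: Galois conjugation of characters.

* `H16NO.h16no_ker_le`: for ring homomorphisms `ψ, χ : 𝕋 → ℂ` with `ker ψ ≤ ker χ` and integral
  values of `ψ`: `ker χ ≤ ker ψ`.
* `H16NO.h16no_aut_of_ringHom`: a ring homomorphism from the algebraic closure of `ℚ` in `ℂ` to
  `ℂ` is the restriction of a ring automorphism of `ℂ`.
* `H16NO.h16no_exists_aut`: `χ = σ ∘ ψ` for a ring automorphism `σ` of `ℂ`.
-/
import Mathlib
import Fermat.Agent.H23.AutC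

set_option autoImplicit false
set_option linter.style.longLine false
set_option linter.unusedSectionVars false
set_option linter.unusedVariables false
set_option linter.style.haveILetI false

noncomputable section

namespace H16NO

open Polynomial

/-- kernel comparison: if `ker ψ ≤ ker χ` and `ψ` has integral values then `ker χ ≤ ker ψ` -/
theorem h16no_ker_le {𝕋 : Type*} [CommRing 𝕋] (ψ χ : 𝕋 →+* ℂ)
    (hker : RingHom.ker ψ ≤ RingHom.ker χ) (hint : ∀ x, IsIntegral ℤ (ψ x)) :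
    RingHom.ker χ ≤ RingHom.ker ψ := by
  intro x hx
  rw [RingHom.mem_ker] at hx ⊢
  by_contra h
  have h0 : (minpoly ℤ (ψ x)).coeff 0 ≠ 0 := by
    intro hc
    have hQ : IsIntegral ℚ (ψ x) := (hint x).tower_top
    have h00 := minpoly.coeff_zero_ne_zero hQ h
    rw [minpoly.isIntegrallyClosed_eq_field_fractions' ℚ (hint x), coeff_map, hc, map_zero] at h00
    exact h00 rfl
  have h1 : eval₂ (Int.castRingHom ℂ) (ψ x) (minpoly ℤ (ψ x)) = 0 := by
    have := minpoly.aeval ℤ (ψ x)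
    rwa [aeval_def, algebraMap_int_eq] at this
  have e1 : ψ.comp (Int.castRingHom 𝕋) = Int.castRingHom ℂ := RingHom.ext_int _ _
  have e2 : χ.comp (Int.castRingHom 𝕋) = Int.castRingHom ℂ := RingHom.ext_int _ _
  have h2 : ψ (eval₂ (Int.castRingHom 𝕋) x (minpoly ℤ (ψ x))) = 0 := by
    rw [hom_eval₂, e1, h1]
  have h3 : χ (eval₂ (Int.castRingHom 𝕋) x (minpoly ℤ (ψ x))) = 0 := hker h2
  rw [hom_eval₂, e2, hx, eval₂_at_zero, eq_intCast] at h3
  exact h0 (by exact_mod_cast h3)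

/-- a ring homomorphism from the algebraic closure of `ℚ` in `ℂ` to `ℂ` extends to a ring
automorphism of `ℂ` -/
theorem h16no_aut_of_ringHom (f : algebraicClosure ℚ ℂ →+* ℂ) :
    ∃ σ : ℂ ≃+* ℂ, ∀ y : algebraicClosure ℚ ℂ, σ (y : ℂ) = f y := by
  classical
  have hQalg : Algebra.IsAlgebraic ℚ (algebraicClosure ℚ ℂ) := algebraicClosure.isAlgebraic ℚ ℂ
  have hcomp : RingHom.comp (algebraMap ℚ ℂ) (RingHom.id ℚ) =
      RingHom.comp f (algebraMap ℚ (algebraicClosure ℚ ℂ)) := Subsingleton.elim _ _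
  have hmem : ∀ y : algebraicClosure ℚ ℂ, f y ∈ algebraicClosure ℚ ℂ := fun y =>
    mem_algebraicClosure_iff.2
      ((hQalg.isAlgebraic y).ringHom_of_comp_eq (RingHom.id ℚ) f Function.injective_id hcomp)
  let f' : algebraicClosure ℚ ℂ →ₐ[ℚ] algebraicClosure ℚ ℂ :=
    { toFun := fun y => ⟨f y, hmem y⟩
      map_one' := Subtype.ext (map_one f)
      map_mul' := fun a b => Subtype.ext (map_mul f a b)
      map_zero' := Subtype.ext (map_zero f)
      map_add' := fun a b => Subtype.ext (map_add f a b)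
      commutes' := fun q => Subtype.ext (by
        have := congrArg (fun g : ℚ →+* ℂ => g q) hcomp
        exact this.symm) }
  have hbij : Function.Bijective f' := Algebra.IsAlgebraic.algHom_bijective f'
  let τ₀ : algebraicClosure ℚ ℂ ≃ₐ[ℚ] algebraicClosure ℚ ℂ := AlgEquiv.ofBijective f' hbij
  obtain ⟨ι, v, hv⟩ := exists_isTranscendenceBasis' (algebraicClosure ℚ ℂ) ℂ
  obtain ⟨σ, hσ⟩ := H23.exists_ringEquiv_extending v hv (MvPolynomial.mapEquiv ι τ₀.toRingEquiv)
  refine ⟨σ, fun y => ?_⟩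
  have h2 := hσ (MvPolynomial.C y)
  simp only [MvPolynomial.aeval_C, MvPolynomial.mapEquiv_apply, MvPolynomial.map_C] at h2
  exact h2

/-- **Galois conjugation of characters**: ring homomorphisms `ψ, χ : 𝕋 → ℂ` with
`ker ψ ≤ ker χ`, `ψ` with integral values, are conjugate under `Aut(ℂ)`. -/
theorem h16no_exists_aut {𝕋 : Type*} [CommRing 𝕋] (ψ χ : 𝕋 →+* ℂ)
    (hker : RingHom.ker ψ ≤ RingHom.ker χ) (hint : ∀ x, IsIntegral ℤ (ψ x)) :
    ∃ σ : ℂ ≃+* ℂ, ∀ x, σ (ψ x) = χ x := by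
  classical
  have hker' := h16no_ker_le ψ χ hker hint
  haveI hprime : (RingHom.ker ψ).IsPrime := RingHom.ker_isPrime ψ
  have hQalg : Algebra.IsAlgebraic ℚ (algebraicClosure ℚ ℂ) := algebraicClosure.isAlgebraic ℚ ℂ
  have hmem : ∀ x, ψ x ∈ algebraicClosure ℚ ℂ := fun x =>
    mem_algebraicClosure_iff.2 ((hint x).tower_top (A := ℚ)).isAlgebraic
  -- the two embeddings of the quotient
  let ψQ : (𝕋 ⧸ RingHom.ker ψ) →+* algebraicClosure ℚ ℂ :=
    (RingHom.kerLift ψ).codRestrict (algebraicClosure ℚ ℂ) (by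
      intro y
      obtain ⟨x, rfl⟩ := Ideal.Quotient.mk_surjective y
      exact hmem x)
  let χQ : (𝕋 ⧸ RingHom.ker ψ) →+* ℂ := Ideal.Quotient.lift (RingHom.ker ψ) χ (fun a ha => hker ha)
  have hψQ : Function.Injective ψQ := by
    intro a b hab
    apply RingHom.kerLift_injective ψ
    exact congrArg Subtype.val hab
  have hχQ : Function.Injective χQ := by
    rw [injective_iff_map_eq_zero]
    intro y hy
    obtain ⟨x, rfl⟩ := Ideal.Quotient.mk_surjective y
    rw [Ideal.Quotient.eq_zero_iff_mem]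
    apply hker'
    rw [RingHom.mem_ker]
    have e : χQ (Ideal.Quotient.mk _ x) = χ x := Ideal.Quotient.lift_mk _ _ _
    rw [← e]
    exact hy
  have hZinj : Function.Injective (algebraMap ℤ (𝕋 ⧸ RingHom.ker ψ)) := by
    intro a b hab
    have h1 := congrArg χQ hab
    rw [eq_intCast, eq_intCast, map_intCast, map_intCast] at h1
    exact_mod_cast h1
  letI algRS : Algebra (𝕋 ⧸ RingHom.ker ψ) (algebraicClosure ℚ ℂ) := ψQ.toAlgebra
  letI algRM : Algebra (𝕋 ⧸ RingHom.ker ψ) ℂ := χQ.toAlgebra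
  haveI tfS : Module.IsTorsionFree (𝕋 ⧸ RingHom.ker ψ) (algebraicClosure ℚ ℂ) :=
    Module.isTorsionFree_iff_algebraMap_injective.mpr hψQ
  haveI tfM : Module.IsTorsionFree (𝕋 ⧸ RingHom.ker ψ) ℂ :=
    Module.isTorsionFree_iff_algebraMap_injective.mpr hχQ
  haveI halg : Algebra.IsAlgebraic (𝕋 ⧸ RingHom.ker ψ) (algebraicClosure ℚ ℂ) := by
    refine ⟨fun y => ?_⟩
    have hyZ : IsAlgebraic ℤ y := (IsFractionRing.isAlgebraic_iff ℤ ℚ _).2 (hQalg.isAlgebraic y)
    exact hyZ.extendScalars hZinj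
  let τ : algebraicClosure ℚ ℂ →ₐ[𝕋 ⧸ RingHom.ker ψ] ℂ := IsAlgClosed.lift
  have hτ : ∀ x, τ ⟨ψ x, hmem x⟩ = χ x := by
    intro x
    have := τ.commutes (Ideal.Quotient.mk _ x)
    exact this
  obtain ⟨σ, hσ⟩ := h16no_aut_of_ringHom τ.toRingHom
  refine ⟨σ, fun x => ?_⟩
  have h2 := hσ ⟨ψ x, hmem x⟩
  rw [← hτ x]
  exact h2

end H16NO

end
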