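/-
Item S35 (stretch), slice (d1) (helper16), Mathlib only: `p`-adic points of number fields.

* `H16S35.h16_exists_prime_dvd_eval` (Schur): a nonconstant `f ∈ ℤ[X]` has a root modulo some
  prime not dividing a given `P ≠ 0`;
* `H16S35.h16_exists_bezout_int`: integral Bezout identity `A f + B f' = D ≠ 0` for `f` separable
  over `ℚ`;
* `H16S35.h16_exists_padic_root` (Hensel): such an `f` has a root in `ℤ_p` for some `p ∉ T`;
* `H16S35.h16_exists_padic_embedding`: a number field embeds into `ℚ_p` for some `p ∉ T`;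
* `H16S35.h16_exists_padicInt_hom`: a subring of `ℂ`, integral over `ℤ` and inside a number field,
  maps injectively into `ℤ_p` for some `p ∉ T`  (so `O' := ℤ_p` serves as coefficient ring).
-/
import Mathlib

set_option autoImplicit false
set_option linter.unusedVariables false
set_option linter.style.haveILetI false

open Polynomial IntermediateField

namespace H16S35

/-- **Schur**: a nonconstant integer polynomial has a root modulo some prime not dividing a
given nonzero integer `P`. -/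
theorem h16_exists_prime_dvd_eval (f : ℤ[X]) (hf : 0 < f.natDegree) (P : ℤ) (hP : P ≠ 0) :
    ∃ p : ℕ, p.Prime ∧ ¬ (p : ℤ) ∣ P ∧ ∃ n : ℤ, (p : ℤ) ∣ f.eval n := by
  classical
  -- a prime not dividing `P`
  have hprime : ∃ p : ℕ, p.Prime ∧ ¬ (p : ℤ) ∣ P := by
    obtain ⟨p, hp1, hp2⟩ := Nat.exists_infinite_primes (P.natAbs + 1)
    refine ⟨p, hp2, fun h => ?_⟩
    have h1 : p ∣ P.natAbs := Int.natCast_dvd.mp h
    have h2 := Nat.le_of_dvd (Int.natAbs_pos.mpr hP) h1
    omega
  set c := f.eval 0 with hc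
  by_cases hc0 : c = 0
  · obtain ⟨p, hp, hpP⟩ := hprime
    exact ⟨p, hp, hpP, 0, by rw [← hc, hc0]; exact dvd_zero _⟩
  -- `f ≠ ± c`
  have hne1 : f - C c ≠ 0 := by
    intro h
    have h1 : f = C c := sub_eq_zero.mp h
    rw [h1, natDegree_C] at hf
    exact lt_irrefl _ hf
  have hne2 : f + C c ≠ 0 := by
    intro h
    have h1 : f = C (-c) := by rw [map_neg]; exact eq_neg_of_add_eq_zero_left h
    rw [h1, natDegree_C] at hf
    exact lt_irrefl _ hf
  have hne : (f - C c) * (f + C c) ≠ 0 := mul_ne_zero hne1 hne2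
  -- some `t` with `f (c P t) ≠ ± c`
  have hinj : Function.Injective (fun t : ℤ => c * P * t) := by
    intro a b hab
    exact mul_left_cancel₀ (mul_ne_zero hc0 hP) hab
  obtain ⟨t, ht⟩ : ∃ t : ℤ, c * P * t ∉ ((f - C c) * (f + C c)).roots.toFinset := by
    by_contra hcon
    push Not at hcon
    have : Set.InjOn (fun t : ℤ => c * P * t) Set.univ := hinj.injOn
    have hfin : (Set.univ : Set ℤ).Finite := by
      apply Set.Finite.of_finite_image (f := fun t : ℤ => c * P * t) _ this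
      apply Set.Finite.subset (Finset.finite_toSet ((f - C c) * (f + C c)).roots.toFinset)
      rintro _ ⟨t, -, rfl⟩
      exact hcon t
    exact Set.infinite_univ hfin
  have ht' : f.eval (c * P * t) ≠ c ∧ f.eval (c * P * t) ≠ -c := by
    rw [Multiset.mem_toFinset, mem_roots hne, IsRoot.def, eval_mul, eval_sub, eval_add, eval_C,
      mul_eq_zero, not_or, sub_eq_zero, add_eq_zero_iff_eq_neg] at ht
    exact ht
  -- `f (c P t) = c (1 + P k)`
  obtain ⟨k, hk⟩ : ∃ k : ℤ, f.eval (c * P * t) = c * (1 + P * k) := by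
    have h1 := Polynomial.sub_dvd_eval_sub (c * P * t) 0 f
    rw [sub_zero, ← hc] at h1
    obtain ⟨k, hk⟩ := h1
    exact ⟨t * k, by linear_combination hk⟩
  set u := 1 + P * k with hu
  have hu1 : u ≠ 1 := by
    intro h
    apply ht'.1
    rw [hk, h, mul_one]
  have hu2 : u ≠ -1 := by
    intro h
    apply ht'.2
    rw [hk, h, mul_neg, mul_one]
  by_cases hu0 : u = 0
  · obtain ⟨p, hp, hpP⟩ := hprime
    exact ⟨p, hp, hpP, c * P * t, by rw [hk, hu0, mul_zero]; exact dvd_zero _⟩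
  · have hnat : u.natAbs ≠ 1 := by
      intro h
      rcases Int.natAbs_eq u with h1 | h1
      · rw [h] at h1; exact hu1 (by simpa using h1)
      · rw [h] at h1; exact hu2 (by simpa using h1)
    obtain ⟨p, hp, hpu⟩ := Nat.exists_prime_and_dvd hnat
    have hpu' : (p : ℤ) ∣ u := Int.natCast_dvd.mpr hpu
    refine ⟨p, hp, fun hpP => ?_, c * P * t, ?_⟩
    · have h1 : (p : ℤ) ∣ u - P * k := dvd_sub hpu' (hpP.mul_right k)
      have h2 : u - P * k = 1 := by rw [hu]; ring
      rw [h2] at h1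
      have h3 : (p : ℤ) = 1 ∨ (p : ℤ) = -1 := Int.isUnit_iff.mp (isUnit_of_dvd_one h1)
      have := hp.two_le
      omega
    · rw [hk]
      exact hpu'.mul_left c

/-- integral Bezout identity for a polynomial that is separable over `ℚ` -/
theorem h16_exists_bezout_int (f : ℤ[X]) (hsep : (f.map (Int.castRingHom ℚ)).Separable) :
    ∃ (A B : ℤ[X]) (D : ℤ), D ≠ 0 ∧ A * f + B * derivative f = C D := by
  obtain ⟨a, b, hab⟩ := hsep
  obtain ⟨da, hda, ha⟩ := IsLocalization.integerNormalization_spec (nonZeroDivisors ℤ) a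
  obtain ⟨db, hdb, hb⟩ := IsLocalization.integerNormalization_spec (nonZeroDivisors ℤ) b
  set A₀ := IsLocalization.integerNormalization (nonZeroDivisors ℤ) a with hA₀
  set B₀ := IsLocalization.integerNormalization (nonZeroDivisors ℤ) b with hB₀
  have hda0 : da ≠ 0 := nonZeroDivisors.ne_zero hda
  have hdb0 : db ≠ 0 := nonZeroDivisors.ne_zero hdb
  refine ⟨C db * A₀, C da * B₀, da * db, mul_ne_zero hda0 hdb0, ?_⟩
  apply Polynomial.map_injective (Int.castRingHom ℚ) Int.cast_injective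
  have e : (algebraMap ℤ ℚ) = Int.castRingHom ℚ := rfl
  rw [e] at ha hb
  rw [Polynomial.derivative_map] at hab
  simp only [Polynomial.map_add, Polynomial.map_mul, Polynomial.map_C, ha, hb]
  have h1 : (da • a) = C (da : ℚ) * a := by
    rw [← Polynomial.smul_eq_C_mul]
    ext n
    simp [zsmul_eq_mul]
  have h2 : (db • b) = C (db : ℚ) * b := by
    rw [← Polynomial.smul_eq_C_mul]
    ext n
    simp [zsmul_eq_mul]
  rw [h1, h2]
  have h3 : C ((Int.castRingHom ℚ) db) * (C (da : ℚ) * a) * map (Int.castRingHom ℚ) f +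
      C ((Int.castRingHom ℚ) da) * (C (db : ℚ) * b) * map (Int.castRingHom ℚ) (derivative f) =
      C ((da : ℚ) * (db : ℚ)) * (a * map (Int.castRingHom ℚ) f +
        b * map (Int.castRingHom ℚ) (derivative f)) := by
    simp only [eq_intCast, map_mul]
    ring
  rw [h3, hab, mul_one]
  simp

/-- Hensel: an integer polynomial, separable over `ℚ`, of positive degree, has a root in `ℤ_p`
for some prime `p` outside any given finite set -/
theorem h16_exists_padic_root (f : ℤ[X]) (hf : 0 < f.natDegree)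
    (hsep : (f.map (Int.castRingHom ℚ)).Separable) (T : Finset ℕ) :
    ∃ (p : ℕ) (hp : Fact p.Prime), p ∉ T ∧
      ∃ z : ℤ_[p], (f.map (Int.castRingHom ℤ_[p])).eval z = 0 := by
  classical
  obtain ⟨A, B, D, hD, hAB⟩ := h16_exists_bezout_int f hsep
  set P : ℤ := D * ∏ t ∈ T, (if (t : ℤ) = 0 then 1 else (t : ℤ)) with hPdef
  have hP : P ≠ 0 := by
    apply mul_ne_zero hD
    rw [Finset.prod_ne_zero_iff]
    intro t _
    split_ifs with h
    · exact one_ne_zero
    · exact h
  obtain ⟨p, hp, hpP, n, hn⟩ := h16_exists_prime_dvd_eval f hf P hP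
  have hpf : Fact p.Prime := ⟨hp⟩
  have hpT : p ∉ T := by
    intro hT
    apply hpP
    apply Dvd.dvd.mul_left
    have h1 := Finset.dvd_prod_of_mem (fun t : ℕ => if (t : ℤ) = 0 then 1 else (t : ℤ)) hT
    have h2 : (if (p : ℤ) = 0 then (1 : ℤ) else (p : ℤ)) = (p : ℤ) :=
      if_neg (by exact_mod_cast hp.ne_zero)
    simp only [h2] at h1
    exact h1
  have hpD : ¬ (p : ℤ) ∣ D := fun h => hpP (h.mul_right _)
  -- `p ∤ f'(n)`
  have hder : ¬ (p : ℤ) ∣ (derivative f).eval n := by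
    intro h
    apply hpD
    have h1 := congrArg (Polynomial.eval n) hAB
    rw [eval_add, eval_mul, eval_mul, eval_C] at h1
    rw [← h1]
    exact dvd_add (hn.mul_left _) (h.mul_left _)
  refine ⟨p, hpf, hpT, ?_⟩
  set F : ℤ_[p][X] := f.map (Int.castRingHom ℤ_[p]) with hF
  have e1 : F.aeval (n : ℤ_[p]) = ((f.eval n : ℤ) : ℤ_[p]) := by
    rw [Polynomial.coe_aeval_eq_eval, hF, Polynomial.eval_intCast_map, eq_intCast, Int.cast_id]
  have e2 : F.derivative.aeval (n : ℤ_[p]) = (((derivative f).eval n : ℤ) : ℤ_[p]) := by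
    rw [Polynomial.coe_aeval_eq_eval, hF, Polynomial.derivative_map,
      Polynomial.eval_intCast_map, eq_intCast, Int.cast_id]
  have hnorm : ‖F.aeval (n : ℤ_[p])‖ < ‖F.derivative.aeval (n : ℤ_[p])‖ ^ 2 := by
    rw [e1, e2]
    have h1 : ‖(((derivative f).eval n : ℤ) : ℤ_[p])‖ = 1 := by
      rcases lt_or_eq_of_le (PadicInt.norm_le_one (((derivative f).eval n : ℤ) : ℤ_[p])) with h | h
      · exact absurd ((PadicInt.norm_int_lt_one_iff_dvd _).mp h) hder
      · exact h
    rw [h1, one_pow]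
    exact (PadicInt.norm_int_lt_one_iff_dvd _).mpr hn
  obtain ⟨z, hz, -⟩ := hensels_lemma hnorm
  refine ⟨z, ?_⟩
  rw [← hz, Polynomial.coe_aeval_eq_eval]

/-- a number field embeds into `ℚ_p` for some prime `p` outside any given finite set -/
theorem h16_exists_padic_embedding (K : Type) [Field K] [Algebra ℚ K] [FiniteDimensional ℚ K]
    (T : Finset ℕ) :
    ∃ (p : ℕ) (hp : Fact p.Prime), p ∉ T ∧ Nonempty (K →+* ℚ_[p]) := by
  classical
  obtain ⟨α, hα⟩ := Field.exists_primitive_element ℚ K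
  have halg : IsAlgebraic ℤ α := by
    have h1 : IsAlgebraic ℚ α := Algebra.IsAlgebraic.isAlgebraic α
    exact (IsFractionRing.isAlgebraic_iff ℤ ℚ K).mpr h1
  obtain ⟨d, hd, hint⟩ := halg.exists_integral_multiple
  set θ : K := d • α with hθ
  -- `θ` is still primitive
  have hθtop : ℚ⟮θ⟯ = ⊤ := by
    rw [eq_top_iff, ← hα, IntermediateField.adjoin_simple_le_iff]
    have h1 : θ ∈ ℚ⟮θ⟯ := IntermediateField.mem_adjoin_simple_self ℚ θ
    have h2 : α = ((d : ℚ)⁻¹) • θ := by
      rw [hθ, ← Int.cast_smul_eq_zsmul ℚ d α, smul_smul, inv_mul_cancel₀, one_smul]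
      exact_mod_cast hd
    rw [h2]
    exact IntermediateField.smul_mem _ h1
  have hintQ : IsIntegral ℚ θ := hint.tower_top
  set f : ℤ[X] := minpoly ℤ θ with hf
  have hfdeg : 0 < f.natDegree := minpoly.natDegree_pos hint
  have hfmap : minpoly ℚ θ = f.map (Int.castRingHom ℚ) :=
    minpoly.isIntegrallyClosed_eq_field_fractions' ℚ hint
  have hsep : (f.map (Int.castRingHom ℚ)).Separable := by
    rw [← hfmap]
    exact Algebra.IsSeparable.isSeparable ℚ θ
  obtain ⟨p, hp, hpT, z, hz⟩ := h16_exists_padic_root f hfdeg hsep T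
  refine ⟨p, hp, hpT, ?_⟩
  -- the root in `ℚ_p`
  have hroot : (z : ℚ_[p]) ∈ (minpoly ℚ θ).aroots ℚ_[p] := by
    rw [Polynomial.mem_aroots]
    refine ⟨minpoly.ne_zero hintQ, ?_⟩
    rw [hfmap, Polynomial.aeval_def, Polynomial.eval₂_map]
    have e : (algebraMap ℚ ℚ_[p]).comp (Int.castRingHom ℚ) =
        (PadicInt.Coe.ringHom (p := p)).comp (Int.castRingHom ℤ_[p]) := by
      ext x
      simp
    rw [e]
    have h1 := Polynomial.hom_eval₂ f (Int.castRingHom ℤ_[p]) (PadicInt.Coe.ringHom (p := p)) z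
    rw [← Polynomial.eval_map, hz, map_zero] at h1
    exact h1.symm
  let ι : K →+* ℚ⟮θ⟯ :=
    { toFun := fun x => ⟨x, by rw [hθtop]; exact IntermediateField.mem_top⟩
      map_one' := rfl
      map_mul' := fun _ _ => rfl
      map_zero' := rfl
      map_add' := fun _ _ => rfl }
  have φ := (IntermediateField.algHomAdjoinIntegralEquiv ℚ hintQ).symm ⟨(z : ℚ_[p]), hroot⟩
  exact ⟨(RingHomClass.toRingHom φ).comp ι⟩

/-- integral elements of `ℚ_p` lie in `ℤ_p` -/
theorem h16_norm_le_one_of_isIntegral {p : ℕ} [Fact p.Prime] {x : ℚ_[p]} (hx : IsIntegral ℤ x) :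
    ‖x‖ ≤ 1 := by
  have h1 : IsIntegral ℤ_[p] x := hx.tower_top
  obtain ⟨y, hy⟩ := (IsIntegrallyClosed.isIntegral_iff (R := ℤ_[p]) (K := ℚ_[p])).mp h1
  rw [← hy]
  exact y.2

/-- **(d1)** a subring of `ℂ` contained in a number field and integral over `ℤ` maps injectively
to `ℤ_p` for some prime `p` outside any given finite set -/
theorem h16_exists_padicInt_hom (A : Subring ℂ) (hint : ∀ x ∈ A, IsIntegral ℤ x)
    (s : Finset ℂ) (hs : ∀ x ∈ s, IsIntegral ℤ x)
    (hA : ∀ x ∈ A, x ∈ IntermediateField.adjoin ℚ (s : Set ℂ)) (T : Finset ℕ) :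
    ∃ (p : ℕ) (hp : Fact p.Prime), p ∉ T ∧ ∃ φ : A →+* ℤ_[p], Function.Injective φ := by
  classical
  have hfd : FiniteDimensional ℚ (IntermediateField.adjoin ℚ (s : Set ℂ)) :=
    IntermediateField.finiteDimensional_adjoin (fun x hx => (hs x hx).tower_top)
  obtain ⟨p, hp, hpT, ⟨ψ⟩⟩ :=
    h16_exists_padic_embedding (IntermediateField.adjoin ℚ (s : Set ℂ)) T
  refine ⟨p, hp, hpT, ?_⟩
  have hψint : ∀ (x : ℂ) (hx : x ∈ A), ‖ψ ⟨x, hA x hx⟩‖ ≤ 1 := by
    intro x hx
    apply h16_norm_le_one_of_isIntegral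
    have h1 : IsIntegral ℤ (⟨x, hA x hx⟩ : IntermediateField.adjoin ℚ (s : Set ℂ)) := by
      obtain ⟨P, hP, hPx⟩ := hint x hx
      refine ⟨P, hP, ?_⟩
      apply Subtype.ext
      have h2 := Polynomial.hom_eval₂ P (algebraMap ℤ (IntermediateField.adjoin ℚ (s : Set ℂ)))
        ((IntermediateField.adjoin ℚ (s : Set ℂ)).val : _ →+* ℂ) ⟨x, hA x hx⟩
      have h3 : (((IntermediateField.adjoin ℚ (s : Set ℂ)).val : _ →+* ℂ)).comp
          (algebraMap ℤ (IntermediateField.adjoin ℚ (s : Set ℂ))) = algebraMap ℤ ℂ :=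
        RingHom.ext_int _ _
      rw [h3] at h2
      exact h2.trans hPx
    exact h1.map (RingHomClass.toRingHom ψ).toIntAlgHom
  let φ : A →+* ℤ_[p] :=
    { toFun := fun x => ⟨ψ ⟨x.1, hA x.1 x.2⟩, hψint x.1 x.2⟩
      map_one' := by
        apply Subtype.ext
        exact map_one ψ
      map_mul' := fun x y => by
        apply Subtype.ext
        exact map_mul ψ ⟨x.1, hA x.1 x.2⟩ ⟨y.1, hA y.1 y.2⟩
      map_zero' := by
        apply Subtype.ext
        exact map_zero ψ
      map_add' := fun x y => by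
        apply Subtype.ext
        exact map_add ψ ⟨x.1, hA x.1 x.2⟩ ⟨y.1, hA y.1 y.2⟩ }
  refine ⟨φ, fun x y hxy => ?_⟩
  have h1 : ψ ⟨x.1, hA x.1 x.2⟩ = ψ ⟨y.1, hA y.1 y.2⟩ := congrArg Subtype.val hxy
  have h2 := ψ.injective h1
  have h3 : (x : ℂ) = y :=
    congrArg (fun k : IntermediateField.adjoin ℚ (s : Set ℂ) => (k : ℂ)) h2
  exact Subtype.ext h3

end H16S35
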