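import Mathlib
import Fermat.Agent.S35.FWDefs_helper17
import Fermat.Agent.FF.R0Final
import Fermat.Agent.W3G.KUMUnit_helper16

/-!
# Item 82b (S35), block FW, bookkeeping (a) (helper13): `α_* x = 0` ⟹ `N_α f` is an `n`-th power

For `D` a divisor of degree `0` on `X₀(N' q)` over `ℚ̄`, `f ≠ 0` with `ord_P f = n · D P` for all
places `P`, `0 < n`:

* `H13AB.push_norm_alpha` : `pushAlpha N' q (Pic0.mk D) = 0 → ∃ h, normA N' q f = h ^ n`;
* `H13AB.push_norm_beta`  : `pushBeta N' q (Pic0.mk D) = 0 → ∃ h, normB N' q f = h ^ n`.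

(`pushAlpha`, `pushBeta` of `H11S35`, `normA`, `normB` of `H17FW`.)  Generic core:
`H13AB.push_norm_generic`.
-/

set_option autoImplicit false
set_option linter.style.haveILetI false
set_option linter.unusedSectionVars false
set_option linter.unusedVariables false

noncomputable section

open AlgebraicCurve IntermediateField ModularCurve RH24

namespace H13AB

section Generic

variable {K F F' : Type*} [Field K] [Field F] [Field F'] [Algebra K F] [Algebra K F']

/-- the condition in the definition of `H11S35.pic0Push` -/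
def PushCond (φ : F →ₐ[K] F') : Prop :=
  ∃ (_ : φ.toRingHom.IsIntegral) (hfin : FiniteAlong K φ), NormFormulaAlong K φ hfin

theorem pic0Push_mk (φ : F →ₐ[K] F') (h : PushCond φ)
    (D : Divisor.degZero (K := K) (F := F')) :
    H11S35.pic0Push φ (Pic0.mk D) =
      Pic0.mk ⟨Divisor.pushforwardAlong φ h.1 D,
        Divisor.pushforwardAlong_mem_degZero φ h.1 D.2⟩ := by
  have h' : ∃ (_ : φ.toRingHom.IsIntegral) (hfin : FiniteAlong K φ),
      NormFormulaAlong K φ hfin := h
  unfold H11S35.pic0Push
  rw [dif_pos h']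
  rfl

/-- **generic core**: if the class of `D` is killed by the pushforward and `n D = div f`, then
the divisor of the norm of `f` is `n` times a principal divisor. -/
theorem push_norm_generic (φ : F →ₐ[K] F') (h : PushCond φ)
    (D : Divisor.degZero (K := K) (F := F')) (f : F') (hf : f ≠ 0) (n : ℕ)
    (hfD : ∀ P : Place K F', P.ord f = n * (D : Divisor K F') P)
    (hpush : H11S35.pic0Push φ (Pic0.mk D) = 0) :
    ∃ g : F, g ≠ 0 ∧ ∀ v : Place K F,
      v.ord (letI := algebraAlong φ; Algebra.norm F f) = v.ord (g ^ n) := by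
  rw [pic0Push_mk φ h D] at hpush
  have h2 : (Divisor.pushforwardAlong φ h.1 (D : Divisor K F')) ∈
      Divisor.principal (K := K) (F := F) := by
    have := (QuotientAddGroup.eq_zero_iff _).mp hpush
    exact this
  obtain ⟨g, hg0, hg⟩ := h2
  refine ⟨g, hg0, fun v => ?_⟩
  obtain ⟨hint, hfin, hN⟩ := h
  letI := algebraAlong φ
  haveI := isScalarTower_along φ
  haveI := AlgebraicCurve.isIntegral_along φ hint
  haveI : Module.Finite F F' := hfin
  have hN' : Divisor.PushforwardNormFormula K F F' := hN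
  have h3 := hN' f hf (n • (D : Divisor K F')) (fun w => by
    rw [Finsupp.smul_apply, nsmul_eq_mul, hfD w]) v
  have h4 : Divisor.pushforward F (n • (D : Divisor K F')) v =
      n * Divisor.pushforward F (D : Divisor K F') v := by
    rw [map_nsmul, Finsupp.smul_apply, nsmul_eq_mul]
  have h5 : Divisor.pushforward F (D : Divisor K F') v = v.ord g := hg v
  have h6 : v.ord (g ^ n) = n * v.ord g := by
    have := v.ord_zpow g (n : ℤ)
    rwa [zpow_natCast] at this
  rw [← h3, h4, h5, h6]

end Generic

section Modular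

variable (N' q : ℕ) [NeZero N'] [NeZero q] [NeZero (N' * q)]

theorem pushCond_alpha : PushCond (heckeAlphaBar Kbar N' q) := by
  obtain ⟨hα, hβ, hP, hfin, -, hN⟩ := H27FF.h27ff_heckeInputsAlong N' q
  exact ⟨hα, hfin, hN⟩

theorem pushCond_beta : PushCond (heckeBetaBar Kbar N' q) := by
  have hβ := H2R0.heckeBetaBarIntegral N' q
  have hfinβ := H2R0.finiteAlong_beta N' q
  haveI hP : HasPrincipalDivisors Kbar (laurentBaseChange Kbar (modularFunctionFieldFull (N' * q))) :=
    H27FF.h27ff_FF1Statement (modularFunctionFieldBar (N' * q)) (Jbar (N' * q))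
      (B_transcendental (N' * q)) (H2R0.h2r0_finiteDimensional (N' * q))
  refine ⟨hβ, hfinβ, ?_⟩
  exact @H27FF.h27ff_FF3Statement (modularFunctionFieldBar N') (modularFunctionFieldBar (N' * q))
    _ _ _ _ (algebraAlong (heckeBetaBar Kbar N' q)) (isScalarTower_along (heckeBetaBar Kbar N' q))
    (AlgebraicCurve.isIntegral_along (heckeBetaBar Kbar N' q) hβ) hP hfinβ (Jbar N')
    (B_transcendental N') (H2R0.h2r0_finiteDimensional N')

/-- a function of level `N'` with the divisor of an `n`-th power is an `n`-th power -/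
theorem exists_root_of_ord (n : ℕ) (hn : 0 < n) (u g : modularFunctionFieldBar N') (hu : u ≠ 0)
    (hg : g ≠ 0)
    (h : ∀ v : Place Kbar (modularFunctionFieldBar N'), v.ord u = v.ord (g ^ n)) :
    ∃ h' : modularFunctionFieldBar N', u = h' ^ n := by
  have hgn : g ^ n ≠ 0 := pow_ne_zero n hg
  have h1 : ∀ v : Place Kbar (modularFunctionFieldBar N'), 0 ≤ v.ord (u * (g ^ n)⁻¹) := by
    intro v
    rw [v.ord_mul hu (inv_ne_zero hgn), v.ord_inv, h v, add_neg_cancel]
  obtain ⟨c, hc⟩ := H16KU.h16_const_of_ord_nonneg N' (u * (g ^ n)⁻¹) h1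
  obtain ⟨d, hd⟩ := IsAlgClosed.exists_pow_nat_eq c hn
  refine ⟨algebraMap Kbar (modularFunctionFieldBar N') d * g, ?_⟩
  rw [mul_pow, ← map_pow, hd, ← hc, mul_assoc, inv_mul_cancel₀ hgn, mul_one]

/-- **(a), `α`**: `α_* [D] = 0`, `n D = div f` ⟹ `N_α f = hⁿ`. -/
theorem push_norm_alpha (n : ℕ) (hn : 0 < n)
    (D : Divisor.degZero (K := Kbar) (F := modularFunctionFieldBar (N' * q)))
    (f : modularFunctionFieldBar (N' * q)) (hf : f ≠ 0)
    (hfD : ∀ P : Place Kbar (modularFunctionFieldBar (N' * q)),
      P.ord f = n * (D : Divisor Kbar (modularFunctionFieldBar (N' * q))) P)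
    (hpush : H11S35.pushAlpha N' q (Pic0.mk D) = 0) :
    ∃ h : modularFunctionFieldBar N', H17FW.normA N' q f = h ^ n := by
  obtain ⟨g, hg0, hg⟩ := push_norm_generic (heckeAlphaBar Kbar N' q) (pushCond_alpha N' q)
    D f hf n hfD hpush
  have hu : H17FW.normA N' q f ≠ 0 := by
    obtain ⟨hint, hfin, -⟩ := pushCond_alpha N' q
    letI := algebraAlong (heckeAlphaBar Kbar N' q)
    haveI : Module.Finite (modularFunctionFieldBar N') (modularFunctionFieldBar (N' * q)) := hfin
    haveI : Module.Free (modularFunctionFieldBar N') (modularFunctionFieldBar (N' * q)) :=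
      Module.Free.of_divisionRing _ _
    exact Algebra.norm_ne_zero_iff.mpr hf
  exact exists_root_of_ord N' n hn _ g hu hg0 hg

/-- **(a), `β`**: `β_* [D] = 0`, `n D = div f` ⟹ `N_β f = hⁿ`. -/
theorem push_norm_beta (n : ℕ) (hn : 0 < n)
    (D : Divisor.degZero (K := Kbar) (F := modularFunctionFieldBar (N' * q)))
    (f : modularFunctionFieldBar (N' * q)) (hf : f ≠ 0)
    (hfD : ∀ P : Place Kbar (modularFunctionFieldBar (N' * q)),
      P.ord f = n * (D : Divisor Kbar (modularFunctionFieldBar (N' * q))) P)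
    (hpush : H11S35.pushBeta N' q (Pic0.mk D) = 0) :
    ∃ h : modularFunctionFieldBar N', H17FW.normB N' q f = h ^ n := by
  obtain ⟨g, hg0, hg⟩ := push_norm_generic (heckeBetaBar Kbar N' q) (pushCond_beta N' q)
    D f hf n hfD hpush
  have hu : H17FW.normB N' q f ≠ 0 := by
    obtain ⟨hint, hfin, -⟩ := pushCond_beta N' q
    letI := algebraAlong (heckeBetaBar Kbar N' q)
    haveI : Module.Finite (modularFunctionFieldBar N') (modularFunctionFieldBar (N' * q)) := hfin
    haveI : Module.Free (modularFunctionFieldBar N') (modularFunctionFieldBar (N' * q)) :=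
      Module.Free.of_divisionRing _ _
    exact Algebra.norm_ne_zero_iff.mpr hf
  exact exists_root_of_ord N' n hn _ g hu hg0 hg

end Modular

end H13AB

end
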